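import Fermat.Agent.Multiplicative.Torsion
import Fermat.Agent.LocalInertia.Kummer

/-!
# `E[ℓ]` is ramified at a multiplicative prime `q` unless `ℓ ∣ v_q(Δ)`

An element of `ℚ̄` fixed by inertia at `q` has valuation in `|q| ^ ℤ`, whereas a point of order `ℓ`
off the identity component has a coordinate of valuation `|q| ^ (j v_q(Δ) / ℓ)`.
-/

set_option autoImplicit false

noncomputable section

open scoped WeierstrassCurve.Affine
open Fermat.Agent.GaloisBasics (Qbar eq_of_pow_eq_one_of_sub_mem_nonunits)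

namespace Fermat.Agent.Lifting

open WeierstrassCurve WeierstrassCurve.Affine Fermat.Agent.Multiplicative

variable {A : ValuationSubring Qbar} {q : ℕ}

/-- Inertia at `q` moves every element with valuation a fractional power of `|q|`. -/
theorem exists_inertia_moves_of_valuation (hA : A.LiesOverPrime q) (hq : q.Prime) {n : ℕ}
    (hn : n.Prime) (hqn : ¬ q ∣ n) {z : Qbar} {m : ℕ} (hm : ¬ n ∣ m)
    (hz : A.valuation z ^ n = A.valuation (q : Qbar) ^ m) :
    ∃ σ ∈ A.inertiaSubgroupIn ℚ, σ z ≠ z := by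
  by_contra! hfix
  obtain ⟨a, -, ha⟩ := Nat.exists_mul_mod_eq_one_of_coprime
    ((Nat.coprime_comm.mp ((Nat.Prime.coprime_iff_not_dvd hn).mpr hm))) hn.one_lt
  have hc := Nat.div_add_mod (m * a) n
  rw [ha] at hc
  have hq0 : (q : Qbar) ≠ 0 := Nat.cast_ne_zero.mpr hq.ne_zero
  have hvq : A.valuation (q : Qbar) ≠ 0 := (Valuation.ne_zero_iff _).mpr hq0
  set c := m * a / n
  have hw : A.valuation (z ^ a / (q : Qbar) ^ c) ^ n = A.valuation (q : Qbar) := by
    rw [map_div₀, map_pow, map_pow, div_pow, ← pow_mul, mul_comm a n, pow_mul, hz, ← pow_mul,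
      ← pow_mul, ← hc, mul_comm c n, pow_add, pow_one, mul_div_cancel_left₀ _ (pow_ne_zero _ hvq)]
  set w := z ^ a / (q : Qbar) ^ c
  obtain ⟨x, hx⟩ := IsAlgClosed.exists_pow_nat_eq (q : Qbar) hn.pos
  have hx0 : x ≠ 0 := by
    rintro rfl
    exact hq0 (by rw [← hx, zero_pow hn.ne_zero])
  have : NeZero n := ⟨hn.ne_zero⟩
  obtain ⟨ζ, hζ⟩ := HasEnoughRootsOfUnity.exists_primitiveRoot Qbar n
  obtain ⟨σ, hσ, hσx⟩ := LocalInertia.exists_inertia_apply_root hA hq hqn hx hζ.pow_eq_one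
  have hu : A.valuation (w / x) = 1 := by
    refine (pow_eq_one_iff.mp ?_).resolve_right hn.ne_zero
    rw [map_div₀, div_pow, hw, ← map_pow, hx, div_self hvq]
  have hσw : σ w = w := by simp only [w, map_div₀, map_pow, hfix σ hσ, map_natCast]
  have hlt := (LocalInertia.mem_inertiaSubgroupIn_iff.mp hσ).2 (w / x)
    ((A.valuation_le_one_iff _).mp hu.le)
  rw [map_div₀ σ, hσw, hσx, show w / (ζ * x) - w / x = w / x * (ζ⁻¹ - 1) by
    field_simp, map_mul, hu, one_mul] at hlt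
  have h1 : ζ⁻¹ = 1 := eq_of_pow_eq_one_of_sub_mem_nonunits hA hq hqn (one_pow n)
    (by rw [inv_pow, hζ.pow_eq_one, inv_one]) (A.mem_nonunits_iff.mpr hlt)
  exact hζ.ne_one hn.one_lt (inv_eq_one.mp h1)

variable {W : WeierstrassCurve ℤ}

/-- **`E[ℓ]` is ramified at a multiplicative `q ≠ ℓ` with `ℓ ∤ v_q(Δ)`** (`ℓ` odd). -/
theorem exists_inertia_moves_torsion (h : MultAt W A q) {ℓ : ℕ} (hℓ : ℓ.Prime) (hℓ2 : ℓ ≠ 2)
    (hqℓ : q ≠ ℓ) (hv : ¬ ℓ ∣ padicValInt q W.Δ) :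
    ∃ σ ∈ A.inertiaSubgroupIn ℚ, ∃ P : (curveQbar W).Point, ℓ • P = 0 ∧ σ • P ≠ P := by
  classical
  have hqn : ¬ q ∣ ℓ := fun hd => hqℓ ((Nat.prime_dvd_prime_iff_eq h.prime hℓ).mp hd)
  obtain ⟨-, Q, -, hQ, -, -, hQo, -, -⟩ := exists_generators h hℓ 1
  rw [pow_one] at hQ hQo
  set F := h.frame
  have key : ∀ P : (curveQbar W).Point, ℓ • P = 0 → InPlus A (F.Φ P) →
      ∃ σ ∈ A.inertiaSubgroupIn ℚ, ∃ P : (curveQbar W).Point, ℓ • P = 0 ∧ σ • P ≠ P := by
    intro P hP hplus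
    obtain ⟨hlt, hb, -⟩ := hplus.xc_lt
    have hx0 : xc (F.Φ P) ≠ 0 := fun h0 => by
      rw [h0, map_zero, zero_pow two_ne_zero] at hb
      exact not_lt.mpr zero_le hb
    obtain ⟨j, hj0, hjℓ, hj⟩ := F.nodal.torsion_level hplus hℓ.pos
      (by rw [← map_nsmul, hP, map_zero]; exact inG0_zero)
      (F.val_commensurable h _ hx0 hlt)
    rw [F.val_b, val_intCast_eq_pow h.liesOver h.prime h.Δ_ne_zero, ← pow_mul] at hj
    have hndvd : ¬ ℓ ∣ padicValInt q W.Δ * j := fun hd =>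
      ((Nat.Prime.dvd_mul hℓ).mp hd).elim hv fun hd' => by
        have := Nat.le_of_dvd hj0 hd'
        omega
    obtain ⟨σ, hσ, hmv⟩ :=
      exists_inertia_moves_of_valuation h.liesOver h.prime hℓ hqn hndvd hj
    obtain ⟨hr, ht, -, hs, -⟩ := F.inertia_fixes hσ
    refine ⟨σ, hσ, P, hP, fun he => hmv ?_⟩
    have hc := F.conj_smul hr ht hs P
    rw [he] at hc
    revert hc hplus
    generalize F.Φ P = R
    intro hplus hc
    match R, hplus, hc with
    | .some x y hxy, _, ⟨h', e⟩ =>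
      exact (congrArg xc e).symm
  have hQ0 : ¬ InG0 A (F.Φ Q) := fun h0 => by
    have := hQo 1 (by rw [one_nsmul]; exact (F.inG0_Φ_iff Q).mp h0)
    exact hℓ.one_lt.not_ge (Nat.le_of_dvd one_pos this)
  rcases F.nodal.trichotomy hQ0 with h1 | h1 | h1
  · have h2 := F.nodal.mid_torsion_even h1 (n := ℓ)
      (by rw [← map_nsmul, hQ, map_zero]; exact inG0_zero)
    exact absurd ((Nat.prime_dvd_prime_iff_eq Nat.prime_two hℓ).mp h2).symm hℓ2
  · exact key Q hQ h1
  · exact key (-Q) (by rw [neg_nsmul, hQ, neg_zero]) (by rwa [map_neg])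

end Fermat.Agent.Lifting
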