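import Fermat.Agent.TWHyp.Curve
import Mathlib.RingTheory.WittVector.DiscreteValuationRing
import Mathlib.RingTheory.WittVector.Complete
import Mathlib.FieldTheory.Finite.GaloisField
import Mathlib.RingTheory.LocalRing.ResidueField.Basic
import Mathlib.RingTheory.DiscreteValuationRing.Basic
import Mathlib.Algebra.Algebra.ZMod
import Fermat.Agent.DefCond.Main
import Fermat.Agent.Lifting.RamifiedMult
import Fermat.Prelude.Def_GaloisRep_StrictOrdinary

/-!
# The residual representation of a semistable curve over any coefficient field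

`residualOver W hΔ p k` is `E[p] ⊗ k`. It satisfies the residual Taylor–Wiles hypotheses, its ramified
primes away from `p` are `ramifiedPrimes W p`, and it satisfies the local conditions that make the
universal deformation rings exist.
-/

set_option autoImplicit false

noncomputable section

open Polynomial IsLocalRing GaloisRep
open scoped TensorProduct WeierstrassCurve.Affine
open Fermat.Agent.TWHyp (residualRep)
open Fermat.Agent.GaloisBasics (Qbar GalQ)

namespace Fermat.Agent.Lifting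

open WeierstrassCurve WeierstrassCurve.Affine Fermat.Agent.Multiplicative

section BaseChange

variable {F k : Type} [Field F] [Field k] [inst : Algebra F k]

/-- The adic representation of a scalar extension is the base change. -/
theorem ofResidual_baseChange_isEquiv (ρ : ResidualGaloisRep F)
    (hf : IsLocalHom (algebraMap F k)) :
    ((GaloisRepAdic.ofResidualGaloisRep ρ).baseChangeAlong (algebraMap F k) hf).IsEquiv
      (GaloisRepAdic.ofResidualGaloisRep (ρ.baseChange k)) := by
  have key : ∀ i : Algebra F k, i = inst →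
      (GaloisRepAdic.ofResidualGaloisRep (@ResidualGaloisRep.baseChange F _ k _ i ρ)).IsEquiv
        (GaloisRepAdic.ofResidualGaloisRep (@ResidualGaloisRep.baseChange F _ k _ inst ρ)) := by
    rintro _ rfl
    exact ⟨.refl _⟩
  exact key (algebraMap F k).toAlgebra (Algebra.algebra_ext _ _ fun _ => rfl)

end BaseChange

variable (W : WeierstrassCurve ℤ) (hΔ : W.Δ ≠ 0) (p : ℕ) [Fact p.Prime]
  (k : Type) [Field k] [Algebra (ZMod p) k]

/-- `E[p] ⊗ k`. -/
abbrev residualOver : ResidualGaloisRep k := (residualRep W hΔ p).baseChange k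

/-- Characteristic polynomials split over a field containing `𝔽_{p²}`. -/
theorem charpoly_split_of_ringHom (hp : p ≠ 2) (f : GaloisField p 2 →+* k)
    (ρ : ResidualGaloisRep (ZMod p)) (σ : GalQ) :
    ∃ α β : k, LinearMap.charpoly ((ρ.baseChange k).ρ σ) = (X - C α) * (X - C β) := by
  obtain ⟨α, β, h⟩ := TWHyp.charpoly_split (GaloisField p 2) hp (GaloisField.card p 2 two_ne_zero) ρ σ
  refine ⟨f α, f β, ?_⟩
  change LinearMap.charpoly ((ρ.ρ σ).baseChange (GaloisField p 2)) = _ at h
  change LinearMap.charpoly ((ρ.ρ σ).baseChange k) = _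
  rw [LinearMap.charpoly_baseChange] at h ⊢
  rw [Subsingleton.elim (algebraMap (ZMod p) k) (f.comp (algebraMap (ZMod p) (GaloisField p 2))),
    ← Polynomial.map_map, h]
  simp

/-- The residual Taylor–Wiles hypotheses over any field of characteristic `p` containing `𝔽_{p²}`. -/
theorem residualOver_spec (hW : W.IsSemistableModel) (hp : p = 3 ∨ p = 5)
    (hirr : W.ModRepIsIrreducible p) (f : GaloisField p 2 →+* k) :
    (residualOver W hΔ p k).IsAbsolutelyIrreducible ∧
    (GaloisRepAdic.ofResidualGaloisRep (residualOver W hΔ p k)).DetIsCyclotomic p ∧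
    (∀ σ : AlgebraicClosure ℚ ≃ₐ[ℚ] AlgebraicClosure ℚ, ∃ α β : k,
      LinearMap.charpoly ((residualOver W hΔ p k).ρ σ) = (X - C α) * (X - C β)) ∧
    (∀ (K : Type) [Field K] [Algebra k K]
      (G : Subgroup (AlgebraicClosure ℚ ≃ₐ[ℚ] AlgebraicClosure ℚ)), G.index = 2 →
      ∀ V : Submodule K ((residualOver W hΔ p k).baseChange K).V,
        (∀ σ ∈ G, ∀ x ∈ V, ((residualOver W hΔ p k).baseChange K).ρ σ x ∈ V) → V = ⊥ ∨ V = ⊤) ∧
    (∀ q : ℕ, q.Prime → q ≠ p →
      (GaloisRepAdic.ofResidualGaloisRep (residualOver W hΔ p k)).IsUnipotentOnInertiaAt q) :=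
  have hp2 : p ≠ 2 := by omega
  have h := TWHyp.isTWResidual_residualRep W hΔ hW hirr
  ⟨TWHyp.isAbsolutelyIrreducible_baseChange _ hp2 h, TWHyp.detIsCyclotomic_baseChange _ h,
    charpoly_split_of_ringHom p k hp2 f _,
    fun K _ _ G hG V hV => TWHyp.eq_bot_or_top_of_index_two _ hp h K G hG V hV,
    fun q hq hqp => TWHyp.isUnipotentOnInertiaAt_baseChange _ (h.unipotent q hq hqp)⟩

/-- The primes `q ≠ p` at which `E[p]` is ramified. -/
def ramifiedPrimes : Finset ℕ :=
  W.Δ.natAbs.primeFactors.filter fun q => q ≠ p ∧ ¬ p ∣ padicValInt q W.Δ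

/-- The minimal level away from `p`. -/
def minimalLevel : ℕ := ∏ q ∈ ramifiedPrimes W p, q

omit [Fact p.Prime] in
/-- A ramified prime is prime. -/
theorem prime_of_mem_ramifiedPrimes {q : ℕ} (h : q ∈ ramifiedPrimes W p) : q.Prime :=
  Nat.prime_of_mem_primeFactors (Finset.mem_filter.mp h).1

omit [Fact p.Prime] in
/-- The ramified primes of `W[p]`. -/
theorem mem_ramifiedPrimes {hΔ : W.Δ ≠ 0} {q : ℕ} :
    q ∈ ramifiedPrimes W p ↔
      q.Prime ∧ q ≠ p ∧ (q : ℤ) ∣ W.Δ ∧ ¬ p ∣ padicValInt q W.Δ := by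
  simp [ramifiedPrimes, Nat.mem_primeFactors, Int.natCast_dvd, hΔ]
  tauto

omit [Fact p.Prime] in
/-- `p` is not among the ramified primes. -/
theorem notMem_ramifiedPrimes_self : p ∉ ramifiedPrimes W p := fun h =>
  (Finset.mem_filter.mp h).2.1 rfl

omit [Fact p.Prime] in
/-- The primes of the minimal level are the ramified primes. -/
theorem prime_dvd_minimalLevel_iff {q : ℕ} (hq : q.Prime) :
    q ∣ minimalLevel W p ↔ q ∈ ramifiedPrimes W p := by
  refine ⟨fun h => ?_, Finset.dvd_prod_of_mem _⟩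
  obtain ⟨r, hr, hqr⟩ := hq.prime.exists_mem_finset_dvd h
  rwa [(Nat.prime_dvd_prime_iff_eq hq (prime_of_mem_ramifiedPrimes W p hr)).mp hqr]

omit [Fact p.Prime] in
/-- The minimal level is squarefree. -/
theorem squarefree_minimalLevel : Squarefree (minimalLevel W p) :=
  Finset.squarefree_prod_of_pairwise_isCoprime
    (fun _ hq _ hr hne => Nat.coprime_iff_isRelPrime.mp
      ((Nat.coprime_primes (prime_of_mem_ramifiedPrimes W p hq)
        (prime_of_mem_ramifiedPrimes W p hr)).mpr hne))
    fun _ hq => (prime_of_mem_ramifiedPrimes W p hq).prime.squarefree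

variable (hW : W.IsSemistableModel)

include hW in
/-- `E[p]` is ramified at `q ≠ p` exactly when `q ∣ Δ` and `p ∤ v_q(Δ)`. -/
theorem residualRep_isUnramifiedAt_iff (hp2 : p ≠ 2) {q : ℕ} (hq : q.Prime) (hqp : q ≠ p) :
    (residualRep W hΔ p).IsUnramifiedAt q ↔ q ∉ ramifiedPrimes W p := by
  have hn : ¬ q ∣ p := fun h => hqp ((Nat.prime_dvd_prime_iff_eq hq Fact.out).mp h)
  rw [mem_ramifiedPrimes W p (hΔ := hΔ)]
  constructor
  · rintro h ⟨-, -, hd, hv⟩
    obtain ⟨A, hA⟩ := GaloisBasics.exists_liesOverPrime hq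
    obtain ⟨σ, hσ, P, hP, hmv⟩ := exists_inertia_moves_torsion
      ⟨hq, hA, hd, hW q hq hd, hΔ⟩ (Fact.out : p.Prime) hp2 hqp hv
    refine hmv ?_
    have h1 := LinearMap.congr_fun (h A hA σ hσ)
      ⟨P, (Submodule.mem_torsionBy_iff _ _).mpr (by rw [natCast_zsmul]; exact hP)⟩
    exact congrArg Subtype.val h1
  · intro h A hA σ hσ
    refine LinearMap.ext fun x => ?_
    by_cases hd : (q : ℤ) ∣ W.Δ
    · exact galoisRepUnramifiedAt_of_dvd hq hΔ hd (hW q hq hd) hn
        (by_contra fun hv => h ⟨hq, hqp, hd, hv⟩) A hA σ hσ x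
    · exact ECReduction.galoisRepUnramifiedAt_of_good W hq hn hd rfl A hA σ hσ x

include hW in
/-- Away from `p`, `W[p] ⊗ k` is ramified exactly at the primes of `ramifiedPrimes W p`. -/
theorem residualOver_isUnramifiedAt_iff (hp2 : p ≠ 2) {q : ℕ} (hq : q.Prime) (hqp : q ≠ p) :
    (residualOver W hΔ p k).IsUnramifiedAt q ↔ q ∉ ramifiedPrimes W p := by
  rw [TWHyp.isUnramifiedAt_baseChange_iff, residualRep_isUnramifiedAt_iff W hΔ p hW hp2 hq hqp]

include hW in
/-- The primes of `{p} ∪ ramifiedPrimes` other than `p` are exactly the ramified ones. -/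
theorem mem_insert_iff_ramified (hp2 : p ≠ 2) {q : ℕ} (hq : q.Prime) (hqp : q ≠ p) :
    q ∈ insert p (ramifiedPrimes W p) ↔ ¬ (residualOver W hΔ p k).IsUnramifiedAt q := by
  rw [residualOver_isUnramifiedAt_iff W hΔ p k hW hp2 hq hqp, not_not, Finset.mem_insert]
  exact ⟨fun h => h.resolve_left hqp, Or.inr⟩

include hW in
/-- `W[p]` is unramified outside `p` and the ramified primes. -/
theorem residualOver_isUnramifiedOutside (hp2 : p ≠ 2) {S : Finset ℕ}
    (hS : insert p (ramifiedPrimes W p) ⊆ S) (q : ℕ) (hq : q.Prime) (hqS : q ∉ S) :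
    (GaloisRepAdic.ofResidualGaloisRep (residualOver W hΔ p k)).IsUnramifiedAt q :=
  (residualOver_isUnramifiedAt_iff W hΔ p k hW hp2 hq
    fun h => hqS (hS (h ▸ Finset.mem_insert_self _ _))).mpr
    fun h => hqS (hS (Finset.mem_insert_of_mem h))

/-- A basis of `E[p]` whose first vector spans the points with nonsingular reduction. -/
theorem exists_ordinary_basis {A : ValuationSubring Qbar} (h : MultAt W A p) :
    ∃ b : Module.Basis (Fin 2) (ZMod p) (residualRep W hΔ p).V,
      ∀ v : (residualRep W hΔ p).V, v ∈ ZMod p ∙ b 0 ↔ W.InZeroComponentAt A v.1 := by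
  have hpr : p.Prime := Fact.out
  obtain ⟨G, Q, hG, hQ, hG0, hGo, hQo, -, hline⟩ := exists_generators h hpr 1
  rw [pow_one] at hG hQ hGo hQo
  simp only [pow_one] at hline
  let V := (residualRep W hΔ p).V
  let g : V := ⟨G, (Submodule.mem_torsionBy_iff _ _).mpr (by rw [natCast_zsmul]; exact hG)⟩
  let r : V := ⟨Q, (Submodule.mem_torsionBy_iff _ _).mpr (by rw [natCast_zsmul]; exact hQ)⟩
  have hsmul : ∀ (a : ZMod p) (v : V), (a • v).1 = a.val • v.1 := by
    intro a v
    conv_lhs => rw [← ZMod.natCast_zmod_val a, Nat.cast_smul_eq_nsmul]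
    rfl
  have hzero : ∀ a : ZMod p, p ∣ a.val → a = 0 := fun a ha =>
    (ZMod.val_eq_zero a).mp (Nat.eq_zero_of_dvd_of_lt ha (ZMod.val_lt a))
  have hli : LinearIndependent (ZMod p) ![g, r] := by
    refine LinearIndependent.pair_iff.mpr fun a c hac => ?_
    have hac' : a.val • G + c.val • Q = 0 := by
      have e : (a • g).1 + (c • r).1 = 0 := congrArg Subtype.val hac
      rw [hsmul, hsmul] at e
      exact e
    have hc : c = 0 := hzero c (hQo _ (by
      rw [eq_neg_of_add_eq_zero_right hac']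
      exact (zeroComponent h).neg_mem ((zeroComponent h).nsmul_mem hG0 _)))
    subst hc
    rw [ZMod.val_zero, zero_nsmul, add_zero] at hac'
    exact ⟨hzero a (hGo _ hac'), rfl⟩
  let b := basisOfLinearIndependentOfCardEqFinrank hli
    (by rw [Fintype.card_fin]; exact (residualRep W hΔ p).finrank_eq.symm)
  refine ⟨b, fun v => ?_⟩
  rw [show b 0 = g by simp [b], Submodule.mem_span_singleton]
  constructor
  · rintro ⟨a, rfl⟩
    rw [hsmul]
    exact (zeroComponent h).nsmul_mem hG0 _
  · intro hv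
    obtain ⟨i, hi⟩ := hline v.1
      (by rw [← natCast_zsmul]; exact (Submodule.mem_torsionBy_iff _ _).mp v.2) hv
    exact ⟨(i : ZMod p), Subtype.ext (by rw [Nat.cast_smul_eq_nsmul]; exact hi.symm)⟩

include hW in
/-- At a multiplicative `p` the residual representation is strictly ordinary. -/
theorem residualRep_isStrictOrdinaryAt (hpΔ : (p : ℤ) ∣ W.Δ) :
    (GaloisRepAdic.ofResidualGaloisRep (residualRep W hΔ p)).IsStrictOrdinaryAt p := by
  have hpr : p.Prime := Fact.out
  refine ⟨by rw [ZMod.natCast_self]; exact zero_mem _, fun A hA => ?_⟩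
  have h : MultAt W A p := ⟨hpr, hA, hpΔ, hW p hpr hpΔ, hΔ⟩
  obtain ⟨b, hb⟩ := exists_ordinary_basis W hΔ p h
  refine ⟨ZMod p ∙ b 0, ⟨b, rfl⟩, fun σ hσ v hv => ?_, fun σ hσ v => ?_, fun σ hσ => ?_⟩
  · exact (hb _).mpr (smul_inZeroComponentAt h hσ ((hb v).mp hv))
  · exact (hb _).mpr (smul_sub_inZeroComponentAt h hσ v.1)
  · obtain ⟨ε, hε, hεs, -⟩ := exists_sign h hσ
    set T := (residualRep W hΔ p).ρ σ
    have hstab : T (b 0) ∈ ZMod p ∙ b 0 :=
      (hb _).mpr (smul_inZeroComponentAt h hσ ((hb _).mp (Submodule.mem_span_singleton_self _)))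
    obtain ⟨x, hx⟩ := Submodule.mem_span_singleton.mp hstab
    have hquot : ∀ v, T v - (ε : ZMod p) • v ∈ ZMod p ∙ b 0 := fun v =>
      (hb _).mpr (by
        rw [Int.cast_smul_eq_zsmul]
        exact hεs v.1)
    refine ⟨x, (ε : ZMod p), fun w hw => ?_, hquot, fun n a ha => ?_⟩
    · obtain ⟨c, rfl⟩ := Submodule.mem_span_singleton.mp hw
      show T (c • b 0) = x • c • b 0
      rw [map_smul, ← hx, smul_comm]
    · have hdet : LinearMap.det T = x * (ε : ZMod p) := by
        obtain ⟨y, hy⟩ := Submodule.mem_span_singleton.mp (hquot (b 1))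
        have h1 : T (b 1) = y • b 0 + (ε : ZMod p) • b 1 := by rw [hy, sub_add_cancel]
        rw [← LinearMap.det_toMatrix b, Matrix.det_fin_two]
        simp [LinearMap.toMatrix_apply, ← hx, h1]
      have h2 := (TWHyp.residualRep_detIsCyclotomic W hΔ (p := p)).2 n σ a ha
      change LinearMap.det T - (a : ZMod p) ∈ _ at h2
      rw [hdet] at h2
      have h3 := Ideal.mul_mem_left _ ((ε : ZMod p)) h2
      have he : (ε : ZMod p) * (ε : ZMod p) = 1 := by rcases hε with rfl | rfl <;> simp
      rwa [mul_sub, mul_left_comm, he, mul_one, mul_comm ((ε : ℤ) : ZMod p)] at h3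

section Local

variable [Finite k]

omit [Finite k] in
theorem isLocalHom_algebraMap : IsLocalHom (algebraMap (ZMod p) k) :=
  ⟨fun a ha => isUnit_iff_ne_zero.mpr fun h0 => ha.ne_zero (by rw [h0, map_zero])⟩

include hW in
omit [Finite k] in
/-- The determinant of `W[p]` is strictly cyclotomic at `p`. -/
theorem residualOver_detStrict (hp2 : p ≠ 2) (hpΔ : (p : ℤ) ∣ W.Δ) :
    DefCond.DetStrict p (GaloisRepAdic.ofResidualGaloisRep (residualOver W hΔ p k)) :=
  DefCond.detStrict_iso hp2 (ofResidual_baseChange_isEquiv _ (isLocalHom_algebraMap p k))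
    (DefCond.detStrict_map hp2 _ _
      ⟨TWHyp.residualRep_detIsCyclotomic W hΔ, residualRep_isStrictOrdinaryAt W hΔ p hW hpΔ⟩)

include hW in
omit [Finite k] in
/-- `W[p] ⊗ k` is ordinary at a multiplicative `p`. -/
theorem residualOver_isOrdinaryAt (hp2 : p ≠ 2) (hpΔ : (p : ℤ) ∣ W.Δ) :
    (GaloisRepAdic.ofResidualGaloisRep (residualOver W hΔ p k)).IsOrdinaryAt p :=
  (residualOver_detStrict W hΔ p k hW hp2 hpΔ).2.isOrdinaryAt

/-- Flatness of `E[p]` gives flatness of `E[p] ⊗ k`. -/
theorem residualOver_isFlatAt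
    (h : (GaloisRepAdic.ofResidualGaloisRep (residualRep W hΔ p)).IsFlatAt p) :
    (GaloisRepAdic.ofResidualGaloisRep (residualOver W hΔ p k)).IsFlatAt p :=
  DefCond.flat_iso (ofResidual_baseChange_isEquiv _ (isLocalHom_algebraMap p k))
    (DefCond.flat_map _ _ h)

end Local

section Ring

variable {𝒪 : Type} [CommRing 𝒪] [IsDomain 𝒪] [IsDiscreteValuationRing 𝒪]
  [Finite (ResidueField 𝒪)] [Algebra (ZMod p) (ResidueField 𝒪)]
  (hp : p = 3 ∨ p = 5) (hirr : W.ModRepIsIrreducible p) {S : Finset ℕ}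
  (hS : insert p (ramifiedPrimes W p) ⊆ S) (T : Finset ℕ)

include hW hirr in
omit [Finite (ResidueField 𝒪)] in
theorem residualOver_unipotentOn :
    ∀ q ∈ T, q.Prime → q ≠ p → (GaloisRepAdic.ofResidualGaloisRep
      (residualOver W hΔ p (ResidueField 𝒪))).IsUnipotentOnInertiaAt q := fun q _ hq hqp =>
  TWHyp.isUnipotentOnInertiaAt_baseChange _
    ((TWHyp.isTWResidual_residualRep W hΔ hW hirr).unipotent q hq hqp)

include hW hp hirr hS in
/-- The residual representation satisfies the flat condition, given flatness of `E[p]`. -/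
theorem residualOver_flat
    (hflat : (GaloisRepAdic.ofResidualGaloisRep (residualRep W hΔ p)).IsFlatAt p) :
    flatCondition 𝒪 p S (GaloisRepAdic.ofResidualGaloisRep
        (residualOver W hΔ p (ResidueField 𝒪))) ∧
      ∀ q ∈ T, q.Prime → q ≠ p → (GaloisRepAdic.ofResidualGaloisRep
        (residualOver W hΔ p (ResidueField 𝒪))).IsUnipotentOnInertiaAt q :=
  ⟨⟨TWHyp.detIsCyclotomic_baseChange _ (TWHyp.isTWResidual_residualRep W hΔ hW hirr),
    residualOver_isFlatAt W hΔ p _ hflat,
    residualOver_isUnramifiedOutside W hΔ p _ hW (by omega) hS⟩,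
    residualOver_unipotentOn W hΔ p hW hirr T⟩

include hW hp hirr hS in
/-- The residual representation satisfies the flat and ordinary condition at multiplicative `p`,
given flatness of `E[p]`. -/
theorem residualOver_flatOrdinary (hpΔ : (p : ℤ) ∣ W.Δ)
    (hflat : (GaloisRepAdic.ofResidualGaloisRep (residualRep W hΔ p)).IsFlatAt p) :
    (flatCondition 𝒪 p S (GaloisRepAdic.ofResidualGaloisRep
        (residualOver W hΔ p (ResidueField 𝒪))) ∧
      (GaloisRepAdic.ofResidualGaloisRep (residualOver W hΔ p (ResidueField 𝒪))).IsOrdinaryAt p) ∧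
      ∀ q ∈ T, q.Prime → q ≠ p → (GaloisRepAdic.ofResidualGaloisRep
        (residualOver W hΔ p (ResidueField 𝒪))).IsUnipotentOnInertiaAt q :=
  ⟨⟨(residualOver_flat W hΔ p hW hp hirr hS T hflat).1,
    residualOver_isOrdinaryAt W hΔ p _ hW (by omega) hpΔ⟩,
    residualOver_unipotentOn W hΔ p hW hirr T⟩

include hW hp hirr hS in
omit [Finite (ResidueField 𝒪)] in
/-- The residual representation satisfies the strict condition at multiplicative `p`. -/
theorem residualOver_strict (hpΔ : (p : ℤ) ∣ W.Δ) :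
    strictOrdinaryCondition 𝒪 p S (GaloisRepAdic.ofResidualGaloisRep
        (residualOver W hΔ p (ResidueField 𝒪))) ∧
      ∀ q ∈ T, q.Prime → q ≠ p → (GaloisRepAdic.ofResidualGaloisRep
        (residualOver W hΔ p (ResidueField 𝒪))).IsUnipotentOnInertiaAt q :=
  have h := residualOver_detStrict W hΔ p (ResidueField 𝒪) hW (by omega) hpΔ
  ⟨⟨h.1, h.2, residualOver_isUnramifiedOutside W hΔ p _ hW (by omega) hS⟩,
    residualOver_unipotentOn W hΔ p hW hirr T⟩

end Ring

end Fermat.Agent.Lifting
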