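import Fermat.Agent.Lifting.Externals
import Fermat.Agent.Lifting.ResidualData
import Fermat.Agent.LevelLowering.Core
import Fermat.Agent.HeckeAlg.S29FromS30
import Fermat.Agent.EichlerPeriods.HeckeFinite
import Fermat.Agent.ConductorLevel.Discharged
import Fermat.Agent.ConductorLevel.Compare
import Fermat.Agent.TWHyp.Curve
import Fermat.Agent.S30

/-!
# The minimal level of modularity lifting

From residual modularity at a level `M₀` with `p² ∤ M₀`, cube-free away from `p`, the level
lowering inputs give residual modularity at `minimalLevel W p` when `p ∣ v_p(Δ)` (this includes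
good reduction at `p`), and at `p * minimalLevel W p` in every case.
-/

set_option autoImplicit false

noncomputable section

open Polynomial WeierstrassCurve WeierstrassCurve.Affine WeierstrassCurve.Affine.Point
open Fermat.Agent.TWHyp (residualRep)

namespace Fermat.Agent.Lifting

open LevelLowering (CofiniteResModular)

/-- Galois representations are attached to residual eigen systems. -/
theorem residualAttachment : LevelLowering.ResidualAttachment := fun hg _ hp _ _ _ φ =>
  HeckeAlg.exists_residualGaloisRep_isAttachedTo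
    (fun p _ N _ S h1 h2 O _ _ _ _ _ _ h3 χ => S30.result p N S h1 h2 O h3 χ)
    (fun _ _ S => EichlerPeriods.moduleFinite_heckeAlgebra 2 S) hg hp φ

/-- Frobenius elements outside a finite set are dense in every finite level. -/
theorem frobeniusDensity : LevelLowering.FrobeniusDensity := fun L hL σ S => by
  obtain ⟨ℓ, hℓ, hS, A, hA, φ, hφ, a, ha⟩ := ConductorLevel.frobeniusPowDense L hL σ S
  exact ⟨ℓ, hℓ, hS, A, hA, φ, hφ, a, fun x hx => (ha x hx).symm⟩

variable (W : WeierstrassCurve ℤ) (p : ℕ) [Fact p.Prime]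

/-- The trace of Frobenius on `W[p]` is `a_ℓ(W)`. -/
theorem ellipticFrobenius : LevelLowering.EllipticFrobenius W p := by
  intro hcard hker ℓ hℓ hgood hℓp A hA σ hσ
  have h := TWHyp.frobenius_trace_det W hℓ
    (fun hd => hℓp ((Nat.prime_dvd_prime_iff_eq hℓ (Fact.out : p.Prime)).mp hd)) hgood hA hσ
  let ρ := (W.map (Int.castRingHom ℚ)).residualGaloisRepOf p hcard hker
  refine (ConductorLevel.charpoly_eq_of_finrank_two ρ.finrank_eq _).trans ?_
  congr 2
  · exact congrArg (fun t => C t * X) h.1
  · exact h.2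

variable {W p}

/-- A congruence at almost all primes is a congruence at all good primes. -/
theorem isResiduallyModularOfLevel_of_cofinite (hΔ : W.Δ ≠ 0) {M : ℕ} (hM : M ≠ 0)
    (h : CofiniteResModular W p M) : W.IsResiduallyModularOfLevel p M :=
  LevelLowering.isResiduallyModularOfLevel_of_cofinite residualAttachment frobeniusDensity hΔ
    (ECTorsion.card_torsionBy_int W hΔ (Fact.out : p.Prime).ne_zero)
    (ECTorsion.galoisFactorsThroughFiniteLevel _ (ECTorsion.Δ_map_intCast_ne_zero W hΔ)
      (Fact.out : p.Prime).ne_zero)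
    (ellipticFrobenius W p) hM h

/-- Residual modularity passes to squarefree multiples of the level. -/
theorem isResiduallyModularOfLevel_of_dvd (hΔ : W.Δ ≠ 0) {d M : ℕ} (hM : Squarefree M)
    (hd : d ∣ M) (h : W.IsResiduallyModularOfLevel p d) : W.IsResiduallyModularOfLevel p M :=
  isResiduallyModularOfLevel_of_cofinite hΔ hM.ne_zero
    (LevelLowering.cofiniteResModular_of_dvd hM hd
      (LevelLowering.cofiniteResModular_of_isResiduallyModularOfLevel hΔ
        (ne_zero_of_dvd_ne_zero hM.ne_zero hd) h))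

variable (hΔ : W.Δ ≠ 0) (hW : W.IsSemistableModel) (hp : p = 3 ∨ p = 5)
  (hirr : W.ModRepIsIrreducible p)

include hΔ hW hp hirr in
omit [Fact p.Prime] in
/-- Carayol's lowering makes the level squarefree. -/
theorem exists_squarefree_level (hC : ResidualCarayol) :
    ∀ {M : ℕ}, 0 < M → ¬ p ^ 2 ∣ M → (∀ q : ℕ, q.Prime → q ≠ p → ¬ q ^ 3 ∣ M) →
      W.IsResiduallyModularOfLevel p M →
      ∃ M' : ℕ, Squarefree M' ∧ W.IsResiduallyModularOfLevel p M' := by
  intro M
  induction M using Nat.strong_induction_on with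
  | _ M ih =>
    intro hM h2 h3 hres
    by_cases hsq : Squarefree M
    · exact ⟨M, hsq, hres⟩
    rw [Nat.squarefree_iff_prime_squarefree] at hsq
    push Not at hsq
    obtain ⟨q, hq, hqq⟩ := hsq
    have hq2 : q ^ 2 ∣ M := by rwa [pow_two]
    have hqp : q ≠ p := fun h => h2 (h ▸ hq2)
    have hdvd : M / q ∣ M := Nat.div_dvd_of_dvd ((dvd_pow_self q two_ne_zero).trans hq2)
    exact ih (M / q) (Nat.div_lt_self hM hq.one_lt)
      (Nat.div_pos (Nat.le_of_dvd hM ((dvd_pow_self q two_ne_zero).trans hq2)) hq.pos)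
      (fun h => h2 (h.trans hdvd)) (fun r hr hrp h => h3 r hr hrp (h.trans hdvd))
      (hC W hW hΔ p hp hirr q hq hqp M hM hq2 (h3 q hq hqp) hres)

include hΔ hW hp hirr in
/-- Ribet's lowering removes the primes `q ≠ p` at which `E[p]` is unramified. -/
theorem exists_level_dvd (h38 : LevelLoweringSqf) :
    ∀ {M : ℕ}, Squarefree M → W.IsResiduallyModularOfLevel p M →
      ∃ M' : ℕ, M' ∣ M ∧ M' ∣ p * minimalLevel W p ∧ W.IsResiduallyModularOfLevel p M' := by
  intro M
  induction M using Nat.strong_induction_on with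
  | _ M ih =>
    intro hsq hres
    by_cases hex : ∃ q : ℕ, q.Prime ∧ q ∣ M ∧ q ≠ p ∧ q ∉ ramifiedPrimes W p
    · obtain ⟨q, hq, hqM, hqp, hqr⟩ := hex
      have hp2 : p ≠ 2 := by omega
      have hdvd : M / q ∣ M := Nat.div_dvd_of_dvd hqM
      obtain ⟨M', h1, h2, h3⟩ := ih (M / q)
        (Nat.div_lt_self (Nat.pos_of_ne_zero hsq.ne_zero) hq.one_lt)
        (hsq.squarefree_of_dvd hdvd)
        (h38 p hp W hΔ hW _ _ hirr M q hq hqp hqM
          (fun h => hq.ne_one (Nat.isUnit_iff.mp (hsq q (by rwa [← pow_two])))) hsq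
          ((residualRep_isUnramifiedAt_iff W hΔ p hW hp2 hq hqp).mpr hqr) hres)
      exact ⟨M', h1.trans hdvd, h2, h3⟩
    · push Not at hex
      refine ⟨M, dvd_rfl, ?_, hres⟩
      have hne : p * minimalLevel W p ≠ 0 :=
        mul_ne_zero (Fact.out : p.Prime).ne_zero (squarefree_minimalLevel W p).ne_zero
      rw [← Nat.factorization_le_iff_dvd hsq.ne_zero hne]
      intro q
      by_cases hqM : q.Prime ∧ q ∣ M
      · obtain ⟨hq, hqd⟩ := hqM
        refine le_trans (hsq.natFactorization_le_one q) ?_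
        refine (hq.dvd_iff_one_le_factorization hne).mp ?_
        by_cases hqp : q = p
        · rw [hqp]; exact dvd_mul_right p _
        · exact dvd_mul_of_dvd_right
            ((prime_dvd_minimalLevel_iff W p hq).mpr (hex q hq hqd hqp)) p
      · rcases not_and_or.mp hqM with h | h
        · simp [Nat.factorization_eq_zero_of_not_prime M h]
        · simp [Nat.factorization_eq_zero_of_not_dvd h]

/-- The minimal level times `p` is squarefree. -/
theorem squarefree_mul_minimalLevel : Squarefree (p * minimalLevel W p) := by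
  have hpr : p.Prime := Fact.out
  rw [Nat.squarefree_mul ((Nat.Prime.coprime_iff_not_dvd hpr).mpr fun h =>
    notMem_ramifiedPrimes_self W p ((prime_dvd_minimalLevel_iff W p hpr).mp h))]
  exact ⟨hpr.squarefree, squarefree_minimalLevel W p⟩

include hΔ hW hp hirr in
/-- Residual modularity at level `p * minimalLevel W p`. -/
theorem isResiduallyModularOfLevel_mul_minimalLevel (h38 : LevelLoweringSqf)
    (hC : ResidualCarayol) {M₀ : ℕ} (hM₀ : 0 < M₀) (h2 : ¬ p ^ 2 ∣ M₀)
    (h3 : ∀ q : ℕ, q.Prime → q ≠ p → ¬ q ^ 3 ∣ M₀) (hres : W.IsResiduallyModularOfLevel p M₀) :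
    W.IsResiduallyModularOfLevel p (p * minimalLevel W p) := by
  obtain ⟨M, hM, hMres⟩ := exists_squarefree_level hΔ hW hp hirr hC hM₀ h2 h3 hres
  obtain ⟨M', -, hd, hres'⟩ := exists_level_dvd hΔ hW hp hirr h38 hM hMres
  exact isResiduallyModularOfLevel_of_dvd hΔ squarefree_mul_minimalLevel hd hres'

/-- Lowering at `p` from `p * minimalLevel W p` to the minimal level when `p ∣ v_p(Δ)`. -/
def LevelLoweringAtP : Prop :=
  ∀ (W : WeierstrassCurve ℤ), W.Δ ≠ 0 → W.IsSemistableModel → ∀ (p : ℕ) [Fact p.Prime],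
    p = 3 ∨ p = 5 → W.ModRepIsIrreducible p → p ∣ padicValInt p W.Δ →
    W.IsResiduallyModularOfLevel p (p * minimalLevel W p) →
    W.IsResiduallyModularOfLevel p (minimalLevel W p)

include hΔ hW hp hirr in
/-- Residual modularity at the minimal level when `E[p]` is peu ramifiée at `p`. -/
theorem isResiduallyModularOfLevel_minimalLevel (h38 : LevelLoweringSqf)
    (h39 : LevelLoweringAtP) (hC : ResidualCarayol) {M₀ : ℕ} (hM₀ : 0 < M₀)
    (h2 : ¬ p ^ 2 ∣ M₀) (h3 : ∀ q : ℕ, q.Prime → q ≠ p → ¬ q ^ 3 ∣ M₀)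
    (hres : W.IsResiduallyModularOfLevel p M₀) (hv : p ∣ padicValInt p W.Δ) :
    W.IsResiduallyModularOfLevel p (minimalLevel W p) := by
  exact h39 W hΔ hW p hp hirr hv
    (isResiduallyModularOfLevel_mul_minimalLevel hΔ hW hp hirr h38 hC hM₀ h2 h3 hres)

variable (W p) in
/-- The level of the minimal lifting problem: `minimalLevel W p` if `p ∣ v_p(Δ)`, and
`p * minimalLevel W p` otherwise. -/
def minimalLevelAt : ℕ :=
  if p ∣ padicValInt p W.Δ then minimalLevel W p else p * minimalLevel W p

theorem squarefree_minimalLevelAt : Squarefree (minimalLevelAt W p) := by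
  unfold minimalLevelAt
  split_ifs
  exacts [squarefree_minimalLevel W p, squarefree_mul_minimalLevel]

include hΔ hW hp hirr in
/-- Residual modularity at the level of the minimal lifting problem. -/
theorem isResiduallyModularOfLevel_minimalLevelAt (h38 : LevelLoweringSqf)
    (h39 : LevelLoweringAtP) (hC : ResidualCarayol) {M₀ : ℕ} (hM₀ : 0 < M₀)
    (h2 : ¬ p ^ 2 ∣ M₀) (h3 : ∀ q : ℕ, q.Prime → q ≠ p → ¬ q ^ 3 ∣ M₀)
    (hres : W.IsResiduallyModularOfLevel p M₀) :
    W.IsResiduallyModularOfLevel p (minimalLevelAt W p) := by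
  unfold minimalLevelAt
  split_ifs with hv
  exacts [isResiduallyModularOfLevel_minimalLevel hΔ hW hp hirr h38 h39 hC hM₀ h2 h3 hres hv,
    isResiduallyModularOfLevel_mul_minimalLevel hΔ hW hp hirr h38 hC hM₀ h2 h3 hres]

end Fermat.Agent.Lifting
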