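import Fermat.Agent.Lifting.Constructors
import Fermat.Agent.KummerES.AssemblyEigen

/-!
# The point of a level attached to an eigenform

A character of the full Hecke algebra of level `N` with values in `𝒪` gives an eigen homomorphism
`Γ₀(N) → 𝒪` through the period lattice.  Hence the localisation at its residual system is nonzero,
and the Hecke ring of the level has the corresponding `𝒪`-point.
-/

set_option autoImplicit false

noncomputable section

open IsLocalRing CuspForm CongruenceSubgroup ModularCurve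
open scoped MatrixGroups

namespace Fermat.Agent.Lifting

open Fermat.Agent.GroupH1 (HMod HeckePoly toH eigIdeal toLocM)
open Fermat.Agent.HeckeCohom (heckeOp OpIdx wordAct wordEval wordEval_surjective comp_wordAct)
open Fermat.Agent.HeckeLattice (ParGroup parHom parHom_surjective periodDual periodLattice factor
  factor_comp_parHom periodMap_isParabolicHom periodDual_parHom periodLin periodLin_apply)
open Fermat.Agent.HeckeEigen (eigenChar)

variable {N : ℕ} [NeZero N]

/-- `T_ℓ` or `U_ℓ` in the full Hecke algebra. -/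
def opT (N : ℕ) [NeZero N] (l : Nat.Primes) : heckeAlgebra N 2 (∅ : Set ℕ) :=
  wordEval N ∅ (FreeAlgebra.ι ℤ ⟨l, Set.notMem_empty _⟩)

/-- `opT` at a prime not dividing the level is `T_l`. -/
theorem opT_of_not_dvd {l : ℕ} (hl : l.Prime) (h : ¬ l ∣ N) :
    opT N ⟨l, hl⟩ = heckeAlgebra.T hl h (Set.notMem_empty l) := by
  simp [opT, wordEval, h]

/-- `opT` at a prime of the level is `U_l`. -/
theorem opT_of_dvd {l : ℕ} (hl : l.Prime) (h : l ∣ N) :
    opT N ⟨l, hl⟩ = heckeAlgebra.U hl h (Set.notMem_empty l) := by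
  simp [opT, wordEval, h]

section lattice

variable {S : Set ℕ}

theorem wordAct_periodMap (P : FreeAlgebra ℤ (OpIdx S)) : ∀ f : CuspForm (Gamma0 N) 2,
    wordAct N S ℂ P (periodMap N f) =
      periodMap N ((wordEval N S P : Module.End ℂ (CuspForm (Gamma0 N) 2)) f) := by
  induction P using FreeAlgebra.induction with
  | grade0 r =>
    intro f
    simp only [AlgHom.commutes, Module.algebraMap_end_apply, Subalgebra.coe_algebraMap,
      ← periodLin_apply]
    exact (map_zsmul (periodLin N) r f).symm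
  | grade1 i =>
    intro f
    have := Fact.mk i.1.2
    have : NeZero (i.1 : ℕ) := ⟨i.1.2.ne_zero⟩
    by_cases h : (i.1 : ℕ) ∣ N
    · simpa [wordAct, wordEval, heckeOp, h] using (HeckeCohom.periodMap_heckeULin h f).symm
    · simpa [wordAct, wordEval, heckeOp, h] using (HeckeLattice.periodMap_heckeTLin i.1.2 h f).symm
  | add a b ha hb =>
    intro f
    simp only [map_add, LinearMap.add_apply, ha, hb]
    simp only [← periodLin_apply, ← LinearMap.map_add]
    rfl
  | mul a b ha hb =>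
    intro f
    simp only [map_mul, Module.End.mul_apply, ha, hb]
    rfl

theorem dualMap_periodDual_word (P : FreeAlgebra ℤ (OpIdx S)) (γ : Additive (Gamma0 N)) :
    LinearMap.dualMap (wordEval N S P : Module.End ℂ (CuspForm (Gamma0 N) 2))
        (periodDual N (parHom N γ))
      = periodDual N (wordAct N S (ParGroup N) P (parHom N) γ) := by
  refine LinearMap.ext fun f => ?_
  rw [LinearMap.dualMap_apply, periodDual_parHom, ← wordAct_periodMap]
  show _ = ((factor (periodMap N f) (periodMap_isParabolicHom f)).comp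
    (wordAct N S (ParGroup N) P (parHom N))) γ
  rw [comp_wordAct, factor_comp_parHom]

theorem dualMap_mem_periodLattice_word (t : heckeAlgebra N 2 S) :
    ∀ v ∈ periodLattice N, LinearMap.dualMap (t : Module.End ℂ (CuspForm (Gamma0 N) 2)) v
      ∈ periodLattice N := by
  obtain ⟨P, rfl⟩ := wordEval_surjective t
  rintro _ ⟨a, rfl⟩
  obtain ⟨γ, rfl⟩ := parHom_surjective N a
  exact ⟨_, (dualMap_periodDual_word P γ).symm⟩

/-- The full Hecke algebra on the period lattice. -/
def periodHom : heckeAlgebra N 2 S →+* Module.End ℤ (periodLattice N) where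
  toFun t := (LinearMap.dualMap (t : Module.End ℂ (CuspForm (Gamma0 N) 2))).restrictScalars ℤ
    |>.restrict (dualMap_mem_periodLattice_word t)
  map_zero' := LinearMap.ext fun _ => Subtype.ext (LinearMap.ext fun _ => by simp)
  map_add' t u := LinearMap.ext fun v => Subtype.ext (LinearMap.ext fun f => by
    show (v : Module.Dual ℂ (CuspForm (Gamma0 N) 2))
        (((t + u : heckeAlgebra N 2 S) : Module.End ℂ (CuspForm (Gamma0 N) 2)) f) = _
    rw [Subalgebra.coe_add, LinearMap.add_apply, map_add]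
    rfl)
  map_one' := LinearMap.ext fun _ => Subtype.ext rfl
  map_mul' t u := by
    conv_lhs => rw [mul_comm]
    exact LinearMap.ext fun _ => Subtype.ext rfl

/-- The period map on the Hecke algebra is injective. -/
theorem periodHom_injective : Function.Injective (periodHom (N := N) (S := S)) := by
  rw [injective_iff_map_eq_zero]
  intro t ht
  refine Subtype.ext (LinearMap.ext fun f => ?_)
  refine HeckeLattice.eq_zero_of_periodMap_eq_zero _ (AddMonoidHom.ext fun γ => ?_)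
  exact LinearMap.congr_fun (congrArg Subtype.val (LinearMap.congr_fun ht ⟨_, ⟨parHom N γ, rfl⟩⟩)) f

/-- **An eigen homomorphism with prescribed eigenvalues of all `T_ℓ`, `U_q` outside `S`.** -/
theorem exists_eigenHom_of_char {𝒪 : Type} [CommRing 𝒪] [IsDomain 𝒪]
    (χ : heckeAlgebra N 2 S →+* 𝒪) :
    ∃ g : Additive (Gamma0 N) →+ 𝒪, g ≠ 0 ∧
      ∀ i : OpIdx S, heckeOp N i.1 i.1.2 𝒪 g = χ (wordEval N S (FreeAlgebra.ι ℤ i)) • g := by
  let _ : Module (heckeAlgebra N 2 S) (periodLattice N) := Module.compHom _ periodHom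
  have hsmul : ∀ (t : heckeAlgebra N 2 S) (v : periodLattice N), t • v = periodHom t v :=
    fun _ _ => rfl
  have : IsScalarTower ℤ (heckeAlgebra N 2 S) (periodLattice N) :=
    ⟨fun n t v => by rw [hsmul, hsmul, map_zsmul, LinearMap.smul_apply]⟩
  have : Module.Finite (heckeAlgebra N 2 S) (periodLattice N) :=
    Module.Finite.of_restrictScalars_finite ℤ _ _
  obtain ⟨x, hx0, hx⟩ := KummerES.Tate.exists_eigenfunctional
    (L := periodLattice N) (fun t ht => periodHom_injective (by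
      rw [map_zero]; exact LinearMap.ext fun v => ht v)) χ
  let g : ParGroup N →+ 𝒪 := x.comp (periodDual N).toIntLinearMap.rangeRestrict.toAddMonoidHom
  refine ⟨g.comp (parHom N), fun h0 => hx0 (AddMonoidHom.ext ?_), fun i => ?_⟩
  · rintro ⟨_, a, rfl⟩
    obtain ⟨γ, rfl⟩ := parHom_surjective N a
    exact DFunLike.congr_fun h0 γ
  · have hact : wordAct N S (ParGroup N) (FreeAlgebra.ι ℤ i) (parHom N) =
        heckeOp N i.1 i.1.2 (ParGroup N) (parHom N) := by simp [wordAct]
    refine AddMonoidHom.ext fun δ => ?_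
    rw [← HeckeCohom.comp_heckeOp, AddMonoidHom.comp_apply, ← hact, AddMonoidHom.smul_apply,
      AddMonoidHom.comp_apply, smul_eq_mul]
    show x _ = χ _ * x _
    rw [← hx, hsmul]
    exact congrArg x (Subtype.ext (dualMap_periodDual_word (FreeAlgebra.ι ℤ i) δ).symm)

end lattice

/-! ### Nontriviality and the point -/

variable {𝒪 : Type} [CommRing 𝒪]

theorem residue_eval [IsLocalRing 𝒪] (b : Nat.Primes → 𝒪) (u : HeckePoly 𝒪) :
    residue 𝒪 (MvPolynomial.eval b u) =
      MvPolynomial.eval₂Hom (residue 𝒪) (fun l => residue 𝒪 (b l)) u := by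
  induction u using MvPolynomial.induction_on with
  | C r => simp
  | add p q hp hq => simp only [map_add, hp, hq]
  | mul_X p l hp => simp only [map_mul, hp, MvPolynomial.eval_X, MvPolynomial.eval₂Hom_X']

omit [NeZero N] in
/-- An eigenvector for the evaluation at `b`. -/
theorem poly_smul_eq_eval_smul {x : HMod N (⊤ : Subgroup (ZMod N)ˣ) 𝒪} {b : Nat.Primes → 𝒪}
    (hx : ∀ l, (MvPolynomial.X l : HeckePoly 𝒪) • x = b l • x) (p : HeckePoly 𝒪) :
    p • x = MvPolynomial.eval b p • x := by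
  induction p using MvPolynomial.induction_on with
  | C r => rw [GroupH1.C_smul, MvPolynomial.eval_C]
  | add p q hp hq => rw [add_smul, hp, hq, map_add, add_smul]
  | mul_X p l hp =>
    rw [mul_smul, hx, smul_comm, hp, smul_smul, map_mul, MvPolynomial.eval_X, mul_comm]

variable [IsDomain 𝒪] [IsDiscreteValuationRing 𝒪] [IsAdicComplete (maximalIdeal 𝒪) 𝒪]
  {a : Nat.Primes → ResidueField 𝒪} (χ : heckeAlgebra N 2 (∅ : Set ℕ) →+* 𝒪)

omit [IsAdicComplete (maximalIdeal 𝒪) 𝒪] in
/-- The eigenvector in the localised module. -/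
theorem exists_eigen_levelLoc (ha : ∀ l, residue 𝒪 (χ (opT N l)) = a l) :
    ∃ x : levelLoc 𝒪 N a, x ≠ 0 ∧
      ∀ p : HeckePoly 𝒪, p • x = MvPolynomial.eval (fun l => χ (opT N l)) p • x := by
  obtain ⟨g, hg0, hg⟩ := exists_eigenHom_of_char χ
  let v : HMod N (⊤ : Subgroup (ZMod N)ˣ) 𝒪 := toH (IharaH1.ofGamma0 g)
  have hv : gamma0Hom v = g := IharaH1.toGamma0_ofGamma0 g
  have hv0 : v ≠ 0 := fun h => hg0 (by rw [← hv, h, map_zero])
  have hX : ∀ l, (MvPolynomial.X l : HeckePoly 𝒪) • v = χ (opT N l) • v := fun l =>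
    gamma0Hom_injective <| by
      rw [gamma0Hom_X_smul, hv, hg ⟨l, Set.notMem_empty _⟩]
      show χ (opT N l) • g = _
      rw [← hv]
      rfl
  refine ⟨toLocM (eigIdeal a) v, fun h0 => ?_, fun p => ?_⟩
  · obtain ⟨u, hu, hu0⟩ := (GroupH1.toLocM_eq_zero_iff _).mp h0
    rw [poly_smul_eq_eval_smul hX] at hu0
    refine hu ?_
    have he : MvPolynomial.eval (fun l => χ (opT N l)) u = 0 := by
      by_contra hne
      exact hv0 (GroupH1.smul_eq_zero_hMod hne v hu0)
    rw [GroupH1.mem_eigIdeal, show a = fun l => residue 𝒪 (χ (opT N l)) from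
      funext fun l => (ha l).symm, ← residue_eval, he, map_zero]
  · rw [← map_smul, poly_smul_eq_eval_smul hX]
    exact LinearMap.map_smul_of_tower (toLocM (eigIdeal a)) _ _

omit [IsAdicComplete (maximalIdeal 𝒪) 𝒪] in
/-- The localisation at the residual system of a character is nonzero. -/
theorem nontrivial_levelLoc (ha : ∀ l, residue 𝒪 (χ (opT N l)) = a l) :
    Nontrivial (levelLoc 𝒪 N a) :=
  let ⟨x, hx, _⟩ := exists_eigen_levelLoc χ ha
  ⟨⟨x, 0, hx⟩⟩

section Eigvec

variable {R M : Type} [CommRing R] [Algebra 𝒪 R] [AddCommGroup M] [Module 𝒪 M]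
  [Module.IsTorsionFree 𝒪 M]

omit [IsDiscreteValuationRing 𝒪] [IsAdicComplete (maximalIdeal 𝒪) 𝒪] in
/-- A common eigenvector of a commutative algebra of endomorphisms gives a point of its image. -/
theorem exists_point_of_eigenvector (act : R →ₐ[𝒪] Module.End 𝒪 M) {x : M} (hx : x ≠ 0)
    (h : ∀ s, ∃ r : 𝒪, act s x = r • x) :
    ∃ π : act.range →ₐ[𝒪] 𝒪, ∀ (s : R) (r : 𝒪), act s x = r • x → π (act.rangeRestrict s) = r := by
  have hinj : ∀ r r' : 𝒪, r • x = r' • x → r = r' := fun r r' e => by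
    rw [← sub_eq_zero, ← sub_smul] at e
    exact sub_eq_zero.mp ((smul_eq_zero.mp e).resolve_right hx)
  have h' : ∀ t : act.range, ∃ r : 𝒪, (t : Module.End 𝒪 M) x = r • x := by
    rintro ⟨_, s, rfl⟩
    exact h s
  choose f hf using h'
  refine ⟨{ toFun := f, map_one' := hinj _ _ ?_, map_mul' := fun t u => hinj _ _ ?_,
            map_zero' := hinj _ _ ?_, map_add' := fun t u => hinj _ _ ?_,
            commutes' := fun r => hinj _ _ ?_ }, fun s r e => hinj _ _ ?_⟩
  · rw [← hf]; simp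
  · rw [← hf, MulMemClass.coe_mul, Module.End.mul_apply, hf u, map_smul, hf t, smul_smul, mul_comm]
  · rw [← hf]; simp
  · rw [← hf, AddMemClass.coe_add, LinearMap.add_apply, hf, hf, add_smul]
  · rw [← hf]; simp [Module.algebraMap_end_apply]
  · show f (act.rangeRestrict s) • x = r • x
    rw [← hf, ← e]
    rfl

end Eigvec

variable [CharZero 𝒪] {N' : ℕ} [NeZero N'] {S : Finset ℕ}
  {θ : heckeAlgebra N' 2 (↑S : Set ℕ) →+* ResidueField 𝒪}

/-- **The point of the level.** -/
theorem exists_point (h : LevelHyp N N' S a θ) (ha : ∀ l, residue 𝒪 (χ (opT N l)) = a l)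
    [Nontrivial (levelLoc 𝒪 N a)] :
    ∃ πL : (levelModule h).T →ₐ[𝒪] 𝒪,
      ∀ (l : ℕ) (hl : l.Prime) (hlN : ¬ l ∣ N') (hlS : l ∉ (↑S : Set ℕ)),
        πL ((levelModule h).toT (heckeLocal.π N' (↑S : Set ℕ) 𝒪 θ (heckeAlgebra.T hl hlN hlS))) =
          χ (opT N ⟨l, hl⟩) := by
  obtain ⟨x, hx0, hx⟩ := exists_eigen_levelLoc χ ha
  obtain ⟨π, hπ⟩ := exists_point_of_eigenvector (levelAct h) hx0 fun s => by
    obtain ⟨p, hp⟩ := exists_localAct_eq_smul h.wordHyp s
    exact ⟨_, (hp x).trans (hx p)⟩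
  refine ⟨π, fun l hl hlN hlS => hπ _ _ ?_⟩
  rw [levelAct_π_T h hl hlN hlS, hx]
  exact congrArg (· • x) (MvPolynomial.eval_X _)

/-! ### Restriction to a divisor of the level, characters of eigenforms -/

/-- Words for a larger excluded set inside those of the full algebra. -/
def wordIncl (S : Set ℕ) : FreeAlgebra ℤ (OpIdx S) →ₐ[ℤ] FreeAlgebra ℤ (OpIdx (∅ : Set ℕ)) :=
  FreeAlgebra.lift ℤ fun i => FreeAlgebra.ι ℤ ⟨i.1, Set.notMem_empty _⟩

omit [IsDomain 𝒪] [IsDiscreteValuationRing 𝒪] [IsAdicComplete (maximalIdeal 𝒪) 𝒪] [CharZero 𝒪] in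
theorem wordEval_wordIncl {S : Set ℕ} (P : FreeAlgebra ℤ (OpIdx S)) :
    (wordEval N ∅ (wordIncl S P) : Module.End ℂ (CuspForm (Gamma0 N) 2)) =
      (wordEval N S P : Module.End ℂ (CuspForm (Gamma0 N) 2)) := by
  induction P using FreeAlgebra.induction with
  | grade0 r => simp
  | grade1 i =>
    by_cases h : (i.1 : ℕ) ∣ N <;>
      simp [wordIncl, wordEval, h, heckeAlgebra.T, heckeAlgebra.U]
  | add a b ha hb => simp only [map_add, Subalgebra.coe_add, ha, hb]
  | mul a b ha hb => simp only [map_mul, Subalgebra.coe_mul, ha, hb]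

omit [IsDomain 𝒪] [IsDiscreteValuationRing 𝒪] [IsAdicComplete (maximalIdeal 𝒪) 𝒪] [CharZero 𝒪] in
theorem wordEval_wordIncl_eq_zero {N' : ℕ} [NeZero N'] {S : Set ℕ} (hdvd : N ∣ N')
    (hS : ∀ q, q.Prime → q ∣ N' → q ∈ S) (P : FreeAlgebra ℤ (OpIdx S))
    (hP : wordEval N' S P = 0) : wordEval N ∅ (wordIncl S P) = 0 := by
  refine Subtype.ext ((wordEval_wordIncl P).trans ?_)
  rw [wordEval_eq_zero_of_dvd hdvd hS hP, ZeroMemClass.coe_zero, ZeroMemClass.coe_zero]

/-- Restriction of Hecke operators from level `N'` to the full algebra of a divisor `N`. -/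
def restrictLevel {N' : ℕ} [NeZero N'] {S : Set ℕ} (hdvd : N ∣ N')
    (hS : ∀ q, q.Prime → q ∣ N' → q ∈ S) :
    heckeAlgebra N' 2 S →+* heckeAlgebra N 2 (∅ : Set ℕ) :=
  RingHom.liftOfSurjective (wordEval N' S).toRingHom wordEval_surjective
    ⟨((wordEval N ∅).comp (wordIncl S)).toRingHom,
      fun P hP => wordEval_wordIncl_eq_zero hdvd hS P hP⟩

omit [IsDomain 𝒪] [IsDiscreteValuationRing 𝒪] [IsAdicComplete (maximalIdeal 𝒪) 𝒪] [CharZero 𝒪] in
theorem restrictLevel_wordEval {N' : ℕ} [NeZero N'] {S : Set ℕ} (hdvd : N ∣ N')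
    (hS : ∀ q, q.Prime → q ∣ N' → q ∈ S) (P : FreeAlgebra ℤ (OpIdx S)) :
    restrictLevel hdvd hS (wordEval N' S P) = wordEval N ∅ (wordIncl S P) :=
  RingHom.liftOfRightInverse_comp_apply _ _ _ _ P

omit [IsDomain 𝒪] [IsDiscreteValuationRing 𝒪] [IsAdicComplete (maximalIdeal 𝒪) 𝒪] [CharZero 𝒪] in
theorem restrictLevel_T {N' : ℕ} [NeZero N'] {S : Set ℕ} (hdvd : N ∣ N')
    (hS : ∀ q, q.Prime → q ∣ N' → q ∈ S) {l : ℕ} (hl : l.Prime) (hlN : ¬ l ∣ N') (hlS : l ∉ S) :
    restrictLevel hdvd hS (heckeAlgebra.T hl hlN hlS) = opT N ⟨l, hl⟩ := by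
  have h := restrictLevel_wordEval (N := N) hdvd hS (FreeAlgebra.ι ℤ ⟨⟨l, hl⟩, hlS⟩)
  rw [show wordEval N' S (FreeAlgebra.ι ℤ ⟨⟨l, hl⟩, hlS⟩) = heckeAlgebra.T hl hlN hlS by
    simp [wordEval, hlN]] at h
  rw [h, wordIncl, FreeAlgebra.lift_ι_apply]
  rfl

/-- The residual Hecke character of a character of the full algebra of a divisor of the level. -/
def thetaOf {N' : ℕ} [NeZero N'] {S : Finset ℕ} (hdvd : N ∣ N')
    (hS : ∀ q, q.Prime → q ∣ N' → q ∈ S) :
    heckeAlgebra N' 2 (↑S : Set ℕ) →+* ResidueField 𝒪 :=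
  (residue 𝒪).comp (χ.comp (restrictLevel hdvd fun q hq hqN => Finset.mem_coe.mpr (hS q hq hqN)))

omit [IsAdicComplete (maximalIdeal 𝒪) 𝒪] [CharZero 𝒪] in
/-- The values of `thetaOf` at `T_l`. -/
theorem thetaOf_T (hdvd : N ∣ N') (hS : ∀ q, q.Prime → q ∣ N' → q ∈ S) {l : ℕ} (hl : l.Prime)
    (hlN : ¬ l ∣ N') (hlS : l ∉ (↑S : Set ℕ)) :
    thetaOf χ hdvd hS (heckeAlgebra.T hl hlN hlS) = residue 𝒪 (χ (opT N ⟨l, hl⟩)) := by
  rw [thetaOf, RingHom.comp_apply, RingHom.comp_apply, restrictLevel_T]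

omit [IsAdicComplete (maximalIdeal 𝒪) 𝒪] [CharZero 𝒪] in
/-- The hypotheses of a level from a non-Eisenstein character. -/
theorem levelHyp_thetaOf (hdvd : N ∣ N') (hS : ∀ q, q.Prime → q ∣ N' → q ∈ S)
    (ha : ∀ l, residue 𝒪 (χ (opT N l)) = a l)
    (hl : ∃ l : Nat.Primes, ((l : ℕ) : ZMod N) = 1 ∧ a l ≠ ((l : ℕ) : ResidueField 𝒪) + 1) :
    LevelHyp N N' S a (thetaOf χ hdvd hS) where
  dvd := hdvd
  prime_mem := hS
  theta_T _ hl' hlN hlS := (thetaOf_T χ hdvd hS hl' hlN hlS).trans (ha _)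
  nonEis := hl

/-- The character of an eigenform with coefficients embedded in `𝒪`. -/
def eigenCharTo {f : CuspForm (Gamma0 N) 2} (hf : f.IsNormalizedEigenform)
    (ι : (eigenChar hf (∅ : Set ℕ)).range →+* 𝒪) : heckeAlgebra N 2 (∅ : Set ℕ) →+* 𝒪 :=
  ι.comp (eigenChar hf ∅).rangeRestrict

omit [IsDomain 𝒪] [IsDiscreteValuationRing 𝒪] [IsAdicComplete (maximalIdeal 𝒪) 𝒪] [CharZero 𝒪] in
/-- The values of `eigenCharTo` are the coefficients of the form. -/
theorem eigenCharTo_opT {f : CuspForm (Gamma0 N) 2} (hf : f.IsNormalizedEigenform)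
    (ι : (eigenChar hf (∅ : Set ℕ)).range →+* 𝒪) (l : Nat.Primes) :
    eigenCharTo hf ι (opT N l) =
      ι ⟨ModularFormClass.qCoeff f l, HeckeEigen.qCoeff_mem_range_eigenChar hf l⟩ := by
  obtain ⟨l, hl⟩ := l
  refine congrArg ι (Subtype.ext ?_)
  show eigenChar hf ∅ (opT N ⟨l, hl⟩) = ModularFormClass.qCoeff f l
  by_cases h : l ∣ N
  · rw [opT_of_dvd hl h, HeckeEigen.eigenChar_U]
  · rw [opT_of_not_dvd hl h, HeckeEigen.eigenChar_T]

end Fermat.Agent.Lifting
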