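import Fermat.Agent.Lifting.MinimalForm
import Fermat.Agent.Lifting.ConstructorsPoint
import Fermat.Agent.HeckeAlg.DVRLift
import Fermat.Agent.HeckeEigen.Lift
import Fermat.Agent.RepTheory.GaloisBridge

/-!
# The minimal form of modularity lifting and its coefficient ring

`exists_minimalData`: the residual system of `W` is that of a newform of level `M`, with
`minimalLevel W p ∣ M ∣ minimalLevelAt W p`; its coefficients, together with a root of
`X² - a_p X + p` which is a unit as soon as `a_p` is, map to a complete discrete valuation ring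
whose residue field contains `𝔽_{p²}`.
-/

set_option autoImplicit false

noncomputable section

open Polynomial IsLocalRing CuspForm CongruenceSubgroup ModularFormClass WeierstrassCurve
open Fermat.Agent.TWHyp (residualRep)
open Fermat.Agent.GaloisBasics (GalQ)

namespace Fermat.Agent.Lifting

local notation "Z̄" => integralClosure ℤ ℂ

/-! ### Ramified primes divide every level of residual modularity -/

section Level

variable {W : WeierstrassCurve ℤ} {p : ℕ} [Fact p.Prime]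

/-- A prime `q ≠ p` at which `E[p]` is ramified divides every level at which it is modular. -/
theorem dvd_of_mem_ramifiedPrimes (hΔ : W.Δ ≠ 0) (hW : W.IsSemistableModel) (hp2 : p ≠ 2)
    (hirr : W.ModRepIsIrreducible p) {M : ℕ} (hM : M ≠ 0)
    (hres : W.IsResiduallyModularOfLevel p M) {q : ℕ} (hq : q ∈ ramifiedPrimes W p) : q ∣ M := by
  have hpr : p.Prime := Fact.out
  have hqp : q ≠ p := (Finset.mem_filter.mp hq).2.1
  have hqpr := prime_of_mem_ramifiedPrimes W p hq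
  by_contra hqM
  obtain ⟨f, 𝔪, hf, hmax, hp𝔪, hc⟩ := hres
  have := hmax
  let _ : Field (Z̄ ⧸ 𝔪) := Ideal.Quotient.field 𝔪
  have : CharP (Z̄ ⧸ 𝔪) p := (CharP.charP_iff_prime_eq_zero hpr).mpr
    (by rw [← map_natCast (Ideal.Quotient.mk 𝔪)]; exact Ideal.Quotient.eq_zero_iff_mem.mpr hp𝔪)
  let _ : Algebra (ZMod p) (Z̄ ⧸ 𝔪) := ZMod.algebra _ p
  let φ : Z̄ →+* Z̄ ⧸ 𝔪 := Ideal.Quotient.mk 𝔪
  obtain ⟨ρ, hρ, hunr⟩ := residualAttachment hf hpr φ
  let T : Finset ℕ := M.primeFactors ∪ {p} ∪ W.Δ.natAbs.primeFactors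
  have habs := TWHyp.isAbsolutelyIrreducible_baseChange (Z̄ ⧸ 𝔪) hp2
    (TWHyp.isTWResidual_residualRep W hΔ hW hirr)
  obtain ⟨e⟩ := RepTheory.residual_isEquiv_of_frobenius (TWHyp.frobGenerates T)
    (residualOver W hΔ p (Z̄ ⧸ 𝔪)) ρ habs fun τ hτ => by
      obtain ⟨r, hr, hrT, A, hA, hτA⟩ := hτ
      simp only [T, Finset.mem_coe, Finset.mem_union, Finset.mem_singleton, Nat.mem_primeFactors,
        not_or] at hrT
      obtain ⟨⟨hrM, hrp⟩, hrΔ⟩ := hrT
      have hg : W.IsGoodPrimeFor r := fun hd =>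
        hrΔ ⟨hr, Int.natCast_dvd.mp hd, Int.natAbs_ne_zero.mpr hΔ⟩
      have hrM' : ¬ r ∣ M := fun hd => hrM ⟨hr, hd, hM⟩
      have hr0 : (r : Z̄ ⧸ 𝔪) ≠ 0 := fun h0 => hrp
        ((Nat.prime_dvd_prime_iff_eq hpr hr).mp ((CharP.cast_eq_zero_iff _ p r).mp h0)).symm
      obtain ⟨a, ha, hcp⟩ := hρ r hr hrM' hr0 A hA τ hτA
      obtain ⟨b, hb, hbm⟩ := hc r hr hg hrM' hrp
      have hφ : φ a = φ (W.apOfModel r : ℤ) := by
        rw [Subtype.ext (ha.trans hb.symm)]
        exact Ideal.Quotient.eq.mpr hbm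
      rw [hcp, hφ]
      show (((residualRep W hΔ p).ρ τ).baseChange (Z̄ ⧸ 𝔪)).charpoly = _
      rw [LinearMap.charpoly_baseChange]
      unfold TWHyp.residualRep
      rw [ellipticFrobenius W p _ _ r hr hg hrp A hA τ hτA]
      simp
  refine (residualOver_isUnramifiedAt_iff W hΔ p (Z̄ ⧸ 𝔪) hW hp2 hqpr hqp).mp
    (fun A hA σ hσ => LinearMap.ext fun v => ?_) hq
  have hnd : ¬ q ∣ M * p := fun h => (hqpr.dvd_mul.mp h).elim hqM
    fun h => hqp ((Nat.prime_dvd_prime_iff_eq hqpr hpr).mp h)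
  refine e.toLinearEquiv.injective ?_
  rw [e.map_apply, hunr q hqpr hnd A hA σ hσ]
  rfl

/-- Residual modularity at `N` gives a newform of level `M` with `minimalLevel W p ∣ M ∣ N`,
congruent to `W`. -/
theorem exists_newform_congr (hΔ : W.Δ ≠ 0) (hW : W.IsSemistableModel) (hp2 : p ≠ 2)
    (hirr : W.ModRepIsIrreducible p) {N : ℕ} (hN : N ≠ 0)
    (hres : W.IsResiduallyModularOfLevel p N) :
    ∃ M : ℕ, M ≠ 0 ∧ M ∣ N ∧ minimalLevel W p ∣ M ∧
      ∃ (f : CuspForm (Gamma0 M) 2) (𝔪 : Ideal Z̄), f.IsNewform ∧ 𝔪.IsMaximal ∧ (p : Z̄) ∈ 𝔪 ∧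
        ∀ ℓ : ℕ, ℓ.Prime → W.IsGoodPrimeFor ℓ → ¬ ℓ ∣ M → ℓ ≠ p →
          ∃ a : Z̄, (a : ℂ) = qCoeff f ℓ ∧ a - ((W.apOfModel ℓ : ℤ) : Z̄) ∈ 𝔪 := by
  classical
  have hex : ∃ M, M ∣ N ∧ W.IsResiduallyModularOfLevel p M := ⟨N, dvd_rfl, hres⟩
  obtain ⟨hMN, hMres⟩ := Nat.find_spec hex
  set M := Nat.find hex with hMdef
  have hM : M ≠ 0 := ne_zero_of_dvd_ne_zero hN hMN
  obtain ⟨f, 𝔪, hf, hmax, hp𝔪, hc⟩ := hMres
  have hmin : minimalLevel W p ∣ M :=
    Finset.prod_primes_dvd _ (fun q hq => (prime_of_mem_ramifiedPrimes W p hq).prime) fun q hq =>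
      dvd_of_mem_ramifiedPrimes hΔ hW hp2 hirr hM ⟨f, 𝔪, hf, hmax, hp𝔪, hc⟩ hq
  refine ⟨M, hM, hMN, hmin, f, 𝔪, ⟨hf, fun M' hM' hne hocc => ?_⟩, hmax, hp𝔪, hc⟩
  have hM'0 : M' ≠ 0 := ne_zero_of_dvd_ne_zero hM hM'
  obtain ⟨g, hg, hgf⟩ := hocc
  refine Nat.find_min hex (lt_of_le_of_ne (Nat.le_of_dvd (Nat.pos_of_ne_zero hM) hM') hne)
    ⟨hM'.trans hMN, isResiduallyModularOfLevel_of_cofinite hΔ hM'0 ?_⟩
  refine ⟨g, 𝔪, hg, hmax, hp𝔪, M.primeFactors ∪ {p} ∪ W.Δ.natAbs.primeFactors,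
    fun ℓ hℓ hS => ?_⟩
  simp only [Finset.mem_union, Finset.mem_singleton, Nat.mem_primeFactors, not_or] at hS
  have hℓM : ¬ ℓ ∣ M := fun hd => hS.1.1 ⟨hℓ, hd, hM⟩
  rw [hgf ℓ hℓ hℓM]
  exact hc ℓ hℓ (fun hd => hS.2 ⟨hℓ, Int.natCast_dvd.mp hd, Int.natAbs_ne_zero.mpr hΔ⟩) hℓM hS.1.2

end Level

/-! ### Eigencharacters with values in a subring -/

/-- The eigencharacter at `opT` is the coefficient of the form. -/
theorem eigenChar_opT {N : ℕ} [NeZero N] {f : CuspForm (Gamma0 N) 2}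
    (hf : f.IsNormalizedEigenform) (l : Nat.Primes) :
    HeckeEigen.eigenChar hf ∅ (opT N l) = qCoeff f l := by
  obtain ⟨l, hl⟩ := l
  by_cases h : l ∣ N
  · rw [opT_of_dvd hl h, HeckeEigen.eigenChar_U]
  · rw [opT_of_not_dvd hl h, HeckeEigen.eigenChar_T]

/-- The character of an eigenform whose prime coefficients lie in `R` takes values in `R`. -/
theorem exists_eig {N : ℕ} [NeZero N] {f : CuspForm (Gamma0 N) 2} (hf : f.IsNormalizedEigenform)
    (R : Subring Z̄) (hR : ∀ l : Nat.Primes, ∃ a ∈ R, (a : ℂ) = qCoeff f l) :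
    ∃ eig : heckeAlgebra N 2 (∅ : Set ℕ) →+* R,
      ∀ l : Nat.Primes, (((eig (opT N l)) : Z̄) : ℂ) = qCoeff f l := by
  let χ : heckeAlgebra N 2 (∅ : Set ℕ) →+* Z̄ :=
    HeckeEigen.eigenCharInt (CuspIntStr.hasIntegralStructure N 2) hf ∅
  have hop : ∀ l, ((χ (opT N l)) : ℂ) = qCoeff f l := fun l => eigenChar_opT hf l
  have hgen : ∀ l, χ (opT N l) ∈ R := fun l => by
    obtain ⟨a, ha, hal⟩ := hR l
    rwa [show χ (opT N l) = a from Subtype.ext ((hop l).trans hal.symm)]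
  have hmem : ∀ t, χ t ∈ R := fun t => by
    obtain ⟨P, rfl⟩ := HeckeCohom.wordEval_surjective t
    induction P using FreeAlgebra.induction with
    | grade0 r =>
      rw [AlgHom.commutes, eq_intCast, map_intCast]
      exact intCast_mem R r
    | grade1 i =>
      obtain ⟨l, hl⟩ := i
      exact hgen l
    | add a b ha hb =>
      rw [map_add, map_add]
      exact add_mem ha hb
    | mul a b ha hb =>
      rw [map_mul, map_mul]
      exact mul_mem ha hb
  exact ⟨χ.codRestrict R hmem, fun l => hop l⟩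

/-! ### The data -/

/-- A newform of level `N` residually congruent to `W`, with its coefficient ring. -/
structure MinimalData (W : WeierstrassCurve ℤ) (p : ℕ) [Fact p.Prime] (N : ℕ) [NeZero N] :
    Type 1 where
  f : CuspForm (Gamma0 N) 2
  newform : f.IsNewform
  𝒪 : Type
  [commRing : CommRing 𝒪]
  [isDomain : IsDomain 𝒪]
  [isDVR : IsDiscreteValuationRing 𝒪]
  [isAdicComplete : IsAdicComplete (maximalIdeal 𝒪) 𝒪]
  [finiteResidue : Finite (ResidueField 𝒪)]
  [charZero : CharZero 𝒪]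
  [algebraResidue : Algebra (ZMod p) (ResidueField 𝒪)]
  p_mem : (p : 𝒪) ∈ maximalIdeal 𝒪
  emb : GaloisField p 2 →+* ResidueField 𝒪
  R : Subring (integralClosure ℤ ℂ)
  ι : R →+* 𝒪
  ι_injective : Function.Injective ι
  eig : heckeAlgebra N 2 (∅ : Set ℕ) →+* R
  eig_opT : ∀ l : Nat.Primes, (((eig (opT N l)) : integralClosure ℤ ℂ) : ℂ) = qCoeff f l
  congr : ∀ l : Nat.Primes, W.IsGoodPrimeFor l → ¬ (l : ℕ) ∣ N → (l : ℕ) ≠ p →
    residue 𝒪 (ι (eig (opT N l))) = ((W.apOfModel l : ℤ) : ResidueField 𝒪)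
  α : R
  α_root : α ^ 2 - eig (opT N ⟨p, Fact.out⟩) * α + (p : R) = 0
  α_unit : IsUnit (ι (eig (opT N ⟨p, Fact.out⟩))) → IsUnit (ι α)

attribute [instance] MinimalData.commRing MinimalData.isDomain MinimalData.isDVR
  MinimalData.isAdicComplete MinimalData.finiteResidue MinimalData.charZero
  MinimalData.algebraResidue

namespace MinimalData

variable {W : WeierstrassCurve ℤ} {p : ℕ} [Fact p.Prime] {N : ℕ} [NeZero N]
  (D : MinimalData W p N)

/-- The `𝒪`-valued character of the form. -/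
def char : heckeAlgebra N 2 (∅ : Set ℕ) →+* D.𝒪 := D.ι.comp D.eig

/-- The residual eigen system of the form. -/
def a (l : Nat.Primes) : ResidueField D.𝒪 := residue D.𝒪 (D.char (opT N l))

/-- The stabilisation at `p` with `U_p = α`. -/
theorem exists_stabilised (hpN : ¬ p ∣ N) :
    ∃ (g : CuspForm (Gamma0 (p * N)) 2)
      (_ : NeZero (p * N)) (eig' : heckeAlgebra (p * N) 2 (∅ : Set ℕ) →+* D.R),
      g.IsNormalizedEigenform ∧
      (∀ l : Nat.Primes, (((eig' (opT (p * N) l)) : integralClosure ℤ ℂ) : ℂ) = qCoeff g l) ∧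
      eig' (opT (p * N) ⟨p, Fact.out⟩) = D.α ∧
      ∀ l : Nat.Primes, (l : ℕ) ≠ p → eig' (opT (p * N) l) = D.eig (opT N l) := by
  have hp : p.Prime := Fact.out
  have : NeZero (p * N) := ⟨mul_ne_zero hp.ne_zero (NeZero.ne N)⟩
  have hroot : ((D.α : Z̄) : ℂ) ^ 2 - qCoeff D.f p * ((D.α : Z̄) : ℂ) + (p : ℂ) = 0 := by
    have h := congrArg (fun x : D.R => ((x : Z̄) : ℂ)) D.α_root
    push_cast at h
    rw [D.eig_opT] at h
    exact h
  obtain ⟨g, hg, hgp, hgl⟩ := Newforms.exists_stabilisation hp hpN D.f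
    D.newform.isNormalizedEigenform _ hroot
  obtain ⟨eig', heig'⟩ := exists_eig hg D.R fun l => by
    by_cases hl : (l : ℕ) = p
    · exact ⟨D.α, D.α.2, by rw [hl, hgp]⟩
    · exact ⟨_, (D.eig (opT N l)).2, by rw [D.eig_opT, hgl l l.2 hl]⟩
  refine ⟨g, ‹_›, eig', hg, heig', Subtype.ext (Subtype.ext ?_),
    fun l hl => Subtype.ext (Subtype.ext ?_)⟩
  · rw [heig']
    exact hgp
  · rw [heig', D.eig_opT, hgl l l.2 hl]

end MinimalData

/-! ### Construction -/

/-- A field of characteristic `p` with an element of order `p² - 1` contains `𝔽_{p²}`. -/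
theorem nonempty_galoisField_hom {p : ℕ} [Fact p.Prime] {k : Type} [Field k] [Algebra (ZMod p) k]
    {z : k} (hz : IsPrimitiveRoot z (p ^ 2 - 1)) : Nonempty (GaloisField p 2 →+* k) := by
  classical
  have hp2 : 1 < p ^ 2 := Nat.one_lt_pow two_ne_zero (Fact.out : p.Prime).one_lt
  have : CharP k p := charP_of_injective_algebraMap (algebraMap (ZMod p) k).injective p
  have hsplit : ((X ^ p ^ 2 - X : (ZMod p)[X]).map (algebraMap (ZMod p) k)).Splits := by
    rw [Polynomial.map_sub, Polynomial.map_pow, map_X, splits_iff_card_roots,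
      FiniteField.X_pow_card_sub_X_natDegree_eq k hp2]
    refine le_antisymm ((card_roots' _).trans_eq
      (FiniteField.X_pow_card_sub_X_natDegree_eq k hp2)) ?_
    have hne := FiniteField.X_pow_card_sub_X_ne_zero k hp2
    let s : Finset k := insert 0 ((Finset.range (p ^ 2 - 1)).image fun i => z ^ i)
    have hcard : s.card = p ^ 2 := by
      rw [Finset.card_insert_of_notMem, Finset.card_image_of_injOn, Finset.card_range]
      · omega
      · exact fun i hi j hj h => hz.pow_inj (by simpa using hi) (by simpa using hj) h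
      · simp only [Finset.mem_image, not_exists, not_and]
        exact fun i _ h => (hz.isUnit (by omega)).ne_zero (pow_eq_zero_iff'.mp h).1
    refine hcard.ge.trans (le_trans (Finset.card_le_card fun x hx => ?_) (Multiset.toFinset_card_le _))
    rw [Multiset.mem_toFinset, mem_roots hne, IsRoot, eval_sub, eval_pow, eval_X, sub_eq_zero]
    rcases Finset.mem_insert.mp hx with rfl | hx
    · exact zero_pow (by omega)
    · obtain ⟨i, -, rfl⟩ := Finset.mem_image.mp hx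
      conv_lhs => rw [show p ^ 2 = p ^ 2 - 1 + 1 by omega, pow_succ, ← pow_mul, mul_comm i, pow_mul,
        hz.pow_eq_one, one_pow, one_mul]
  exact ⟨(SplittingField.lift (X ^ p ^ 2 - X : (ZMod p)[X]) hsplit).toRingHom⟩

/-- The data attached to a congruent newform. -/
theorem nonempty_minimalData {W : WeierstrassCurve ℤ} {p : ℕ} [Fact p.Prime] {M : ℕ} [NeZero M]
    (f : CuspForm (Gamma0 M) 2) (hnew : f.IsNewform) (𝔪 : Ideal Z̄) [𝔪.IsMaximal]
    (hp𝔪 : (p : Z̄) ∈ 𝔪)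
    (hc : ∀ ℓ : ℕ, ℓ.Prime → W.IsGoodPrimeFor ℓ → ¬ ℓ ∣ M → ℓ ≠ p →
      ∃ a : Z̄, (a : ℂ) = qCoeff f ℓ ∧ a - ((W.apOfModel ℓ : ℤ) : Z̄) ∈ 𝔪) :
    Nonempty (MinimalData W p M) := by
  classical
  have hp : p.Prime := Fact.out
  have hf := hnew.isNormalizedEigenform
  have : Module.Finite ℤ (heckeAlgebra M 2 (∅ : Set ℕ)) :=
    EichlerPeriods.moduleFinite_heckeAlgebra 2 ∅
  let χ : heckeAlgebra M 2 (∅ : Set ℕ) →+* Z̄ :=
    HeckeEigen.eigenCharInt (CuspIntStr.hasIntegralStructure M 2) hf ∅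
  -- the root at `p`
  let c : Z̄ := χ (opT M ⟨p, hp⟩)
  obtain ⟨s, hs⟩ := IsAlgClosed.exists_eq_mul_self ((c : ℂ) ^ 2 - 4 * p)
  have hrz : ((c : ℂ) + s) / 2 * (((c : ℂ) + s) / 2) - (c : ℂ) * (((c : ℂ) + s) / 2) + p = 0 := by
    linear_combination (-1 / 4 : ℂ) * hs
  have hint : ∀ x : ℂ, x ^ 2 - (c : ℂ) * x + p = 0 → IsIntegral ℤ x := by
    intro x hx
    refine isIntegral_trans (A := Z̄) x ⟨X ^ 2 - C c * X + (p : Z̄[X]), ?_, ?_⟩
    · monicity!
    · simp only [eval₂_add, eval₂_sub, eval₂_mul, eval₂_pow, eval₂_X, eval₂_C, eval₂_natCast]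
      exact hx
  let r : Z̄ := ⟨((c : ℂ) + s) / 2, hint _ (by linear_combination hrz)⟩
  have hr : r ^ 2 - c * r + (p : Z̄) = 0 :=
    Subtype.ext (by push_cast [r]; linear_combination hrz)
  let α : Z̄ := if r ∈ 𝔪 then c - r else r
  have hα : α ^ 2 - c * α + (p : Z̄) = 0 := by
    simp only [α]
    split_ifs
    · linear_combination hr
    · exact hr
  have hαu : c ∉ 𝔪 → α ∉ 𝔪 := by
    intro hc'
    simp only [α]
    split_ifs with hr'
    · exact fun h => hc' (by simpa using 𝔪.add_mem h hr')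
    · exact hr'
  -- the root of unity
  set n := p ^ 2 - 1 with hn
  have hn0 : n ≠ 0 := by
    have := Nat.one_lt_pow two_ne_zero hp.one_lt
    omega
  have hζC : IsPrimitiveRoot (Complex.exp (2 * Real.pi * Complex.I / n)) n :=
    Complex.isPrimitiveRoot_exp n hn0
  let ζ : Z̄ := ⟨_, hζC.isIntegral (Nat.pos_of_ne_zero hn0)⟩
  have hζ : IsPrimitiveRoot ζ n :=
    IsPrimitiveRoot.of_map_of_injective (f := (integralClosure ℤ ℂ).val) hζC Subtype.val_injective
  -- the ring of coefficients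
  obtain ⟨t, ht⟩ := Module.Finite.fg_top (R := ℤ) (M := heckeAlgebra M 2 (∅ : Set ℕ))
  let G : Set Z̄ := χ '' (t : Set (heckeAlgebra M 2 (∅ : Set ℕ))) ∪ {α, ζ}
  let A : Subalgebra ℤ Z̄ := Algebra.adjoin ℤ G
  have hχA : ∀ x, χ x ∈ A := fun x => by
    have hx : x ∈ Submodule.span ℤ (t : Set (heckeAlgebra M 2 (∅ : Set ℕ))) := by
      rw [ht]; trivial
    induction hx using Submodule.span_induction with
    | mem y hy => exact Algebra.subset_adjoin (Or.inl ⟨y, hy, rfl⟩)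
    | zero => rw [map_zero]; exact zero_mem A
    | add a b _ _ ha hb => rw [map_add]; exact add_mem ha hb
    | smul m a _ ha => rw [map_zsmul]; exact zsmul_mem ha m
  have : Module.Finite ℤ A := by
    have : Algebra.IsIntegral ℤ Z̄ := IsIntegralClosure.isIntegral_algebra ℤ ℂ
    exact Algebra.finite_adjoin_of_finite_of_isIntegral
      ((t.finite_toSet.image χ).union (Set.toFinite _)) fun x _ => Algebra.IsIntegral.isIntegral x
  let R : Subring Z̄ := A.toSubring
  have : Module.Finite ℤ R :=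
    Module.Finite.of_surjective
      (({ toFun := fun x => ⟨x.1, x.2⟩, map_zero' := rfl, map_add' := fun _ _ => rfl } :
        A →+ R).toIntLinearMap) fun x => ⟨⟨x.1, x.2⟩, rfl⟩
  have : CharZero R := charZero_of_injective_ringHom (f := (Int.castRingHom R))
    (fun a b h => by simpa using congrArg (fun x : R => ((x : Z̄) : ℂ)) h)
  let P : Ideal R := 𝔪.comap R.subtype
  have : P.IsPrime := Ideal.comap_isPrime _ _
  have hpP : (p : R) ∈ P := by
    rw [Ideal.mem_comap, map_natCast]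
    exact hp𝔪
  obtain ⟨O, _, _, _, _, _, _, ι, hι, hιP, hpO⟩ :=
    HeckeAlg.exists_completeDVR R P hp.ne_zero hpP
  have hmax : ∀ x : R, ι x ∈ maximalIdeal O ↔ (x : Z̄) ∈ 𝔪 := fun x => by
    rw [← Ideal.mem_comap, hιP]
    rfl
  have : CharP (ResidueField O) p := (CharP.charP_iff_prime_eq_zero hp).mpr
    (by rw [← map_natCast (residue O)]; exact (residue_eq_zero_iff _).mpr hpO)
  let _ : Algebra (ZMod p) (ResidueField O) := ZMod.algebra _ p
  -- `𝔽_{p²}` in the residue field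
  let ζR : R := ⟨ζ, Algebra.subset_adjoin (Or.inr (by simp))⟩
  have hz : IsPrimitiveRoot (residue O (ι ζR)) n := by
    have hζR : IsPrimitiveRoot ζR n :=
      IsPrimitiveRoot.of_map_of_injective (f := R.subtype) hζ Subtype.val_injective
    refine ⟨by rw [← map_pow, ← map_pow, hζR.pow_eq_one, map_one, map_one], fun i hi => ?_⟩
    by_contra hdvd
    have hne : ζR ^ i ≠ 1 := fun h => hdvd (hζR.dvd_of_pow_eq_one i h)
    have hsum : ∑ j ∈ Finset.range n, (ζR ^ i) ^ j = 0 := by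
      have h := geom_sum_mul (ζR ^ i) n
      rw [← pow_mul, mul_comm i n, pow_mul, hζR.pow_eq_one, one_pow, sub_self] at h
      exact (mul_eq_zero.mp h).resolve_right (sub_ne_zero.mpr hne)
    have h := congrArg (fun x => residue O (ι x)) hsum
    simp only [map_sum, map_pow, map_zero, hi, one_pow, Finset.sum_const, Finset.card_range,
      nsmul_eq_mul, mul_one] at h
    rw [CharP.cast_eq_zero_iff _ p] at h
    have hpn : p ∣ n + 1 := by
      rw [hn, Nat.sub_add_cancel (Nat.one_le_pow _ _ hp.pos)]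
      exact dvd_pow_self p two_ne_zero
    exact hp.not_dvd_one ((Nat.dvd_add_right h).mp hpn)
  obtain ⟨emb⟩ := nonempty_galoisField_hom hz
  obtain ⟨eig, heig⟩ := exists_eig hf R fun l => ⟨χ (opT M l), hχA _, eigenChar_opT hf l⟩
  have hc' : ((eig (opT M ⟨p, hp⟩)) : Z̄) = c :=
    Subtype.ext ((heig _).trans (eigenChar_opT hf ⟨p, hp⟩).symm)
  refine ⟨{ f := f, newform := hnew, 𝒪 := O, p_mem := hpO, emb := emb, R := R, ι := ι,
            ι_injective := hι, eig := eig, eig_opT := heig, congr := fun l hg hN hlp => ?_,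
            α := ⟨α, Algebra.subset_adjoin (Or.inr (by simp))⟩, α_root := Subtype.ext ?_,
            α_unit := fun hu => ?_ }⟩
  · obtain ⟨b, hb, hbm⟩ := hc l l.2 hg hN hlp
    have hb' : ((eig (opT M l)) : Z̄) = b := Subtype.ext ((heig l).trans hb.symm)
    rw [← map_intCast ((residue O).comp ι), ← sub_eq_zero, RingHom.comp_apply, ← map_sub, ← map_sub,
      residue_eq_zero_iff, hmax]
    push_cast
    rw [hb']
    exact hbm
  · push_cast
    rw [hc']
    exact hα
  · rw [← notMem_maximalIdeal, hmax] at hu ⊢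
    exact hαu (hc' ▸ hu)

section Main

variable {W : WeierstrassCurve ℤ} {p : ℕ} [Fact p.Prime] (hΔ : W.Δ ≠ 0)
  (hW : W.IsSemistableModel) (hp : p = 3 ∨ p = 5) (hirr : W.ModRepIsIrreducible p)

include hΔ hW hp hirr in
/-- The minimal data exist at a level between `minimalLevel W p` and `minimalLevelAt W p`. -/
theorem exists_minimalData (h38 : LevelLoweringSqf) (h39 : LevelLoweringAtP)
    (hC : ResidualCarayol) {M₀ : ℕ} (hM₀ : 0 < M₀) (h2 : ¬ p ^ 2 ∣ M₀)
    (h3 : ∀ q : ℕ, q.Prime → q ≠ p → ¬ q ^ 3 ∣ M₀) (hres : W.IsResiduallyModularOfLevel p M₀) :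
    ∃ (M : ℕ) (_ : NeZero M), minimalLevel W p ∣ M ∧ M ∣ minimalLevelAt W p ∧
      Nonempty (MinimalData W p M) := by
  obtain ⟨M, hM0, hMN, hmin, f, 𝔪, hnew, hmax, hp𝔪, hc⟩ :=
    exists_newform_congr hΔ hW (by omega) hirr squarefree_minimalLevelAt.ne_zero
      (isResiduallyModularOfLevel_minimalLevelAt hΔ hW hp hirr h38 h39 hC hM₀ h2 h3 hres)
  have : NeZero M := ⟨hM0⟩
  have := hmax
  exact ⟨M, ‹_›, hmin, hMN, nonempty_minimalData f hnew 𝔪 hp𝔪 hc⟩

include hΔ hW hp hirr in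
/-- In the cases good or peu ramifiée at `p` the level is exactly `minimalLevel W p`. -/
theorem exists_minimalData_minimalLevel (h38 : LevelLoweringSqf) (h39 : LevelLoweringAtP)
    (hC : ResidualCarayol) {M₀ : ℕ} (hM₀ : 0 < M₀) (h2 : ¬ p ^ 2 ∣ M₀)
    (h3 : ∀ q : ℕ, q.Prime → q ≠ p → ¬ q ^ 3 ∣ M₀) (hres : W.IsResiduallyModularOfLevel p M₀)
    (hv : p ∣ padicValInt p W.Δ) :
    ∃ _ : NeZero (minimalLevel W p), Nonempty (MinimalData W p (minimalLevel W p)) := by
  obtain ⟨M, hM, h1, h2', h⟩ := exists_minimalData hΔ hW hp hirr h38 h39 hC hM₀ h2 h3 hres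
  rw [minimalLevelAt, if_pos hv] at h2'
  obtain rfl := Nat.dvd_antisymm h1 h2'
  exact ⟨hM, h⟩

end Main

end Fermat.Agent.Lifting
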