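import Fermat.Agent.Lifting.TWPoint
import Fermat.Agent.HeckeRep.Points
import Fermat.Agent.HeckeRep.Congruence
import Fermat.Agent.GroupH1.TWLevel

/-!
# Tame characters of a deformation at a Taylor–Wiles prime and their values at points

At a Taylor–Wiles prime a deformation gives an element `s`, the value of the diagonal character on
a tame generator: it goes to one under every map to an unramified deformation, and at a geometric
point with the eigenvalues of a form its value is decided by the exponent of the prime in the level.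
-/

set_option autoImplicit false

noncomputable section

open Polynomial IsLocalRing

namespace Fermat.Agent.Lifting

open GaloisRep Fermat.Agent.TangentBound Fermat.Agent.GaloisBasics
open Fermat.Agent.RepTheory (Gal IsFrobOutside)

/-- A field-valued map on a subring, read in a subring of the field. -/
theorem exists_lift_subring {F A : Type*} [CommRing F] [CommRing A] (incl : A →+* F)
    (hincl : Function.Injective incl) {R : Subring ℂ} (ι : R →+* F) :
    ∃ (R' : Subring ℂ) (ι' : R' →+* A), ∀ (x : R) (y : A), incl y = ι x →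
      ∃ h : (x : ℂ) ∈ R', ι' ⟨x, h⟩ = y := by
  let R₀ : Subring R := incl.range.comap ι
  let e : A ≃+* incl.range := RingEquiv.ofBijective incl.rangeRestrict
    ⟨fun a b h => hincl (congrArg Subtype.val h), incl.rangeRestrict_surjective⟩
  let g : R₀ →+* incl.range := (ι.comp R₀.subtype).codRestrict incl.range fun x => x.2
  let m := R₀.equivMapOfInjective R.subtype Subtype.val_injective
  refine ⟨R₀.map R.subtype, (e.symm.toRingHom.comp g).comp m.symm.toRingHom, fun x y hxy => ?_⟩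
  have hx : x ∈ R₀ := ⟨y, hxy⟩
  refine ⟨⟨x, hx, rfl⟩, ?_⟩
  have hm : m.symm ⟨(x : ℂ), ⟨x, hx, rfl⟩⟩ = ⟨x, hx⟩ := m.symm_apply_eq.2 (Subtype.ext rfl)
  simp only [RingHom.comp_apply, RingEquiv.toRingHom_eq_coe, RingHom.coe_coe, hm]
  rw [RingEquiv.symm_apply_eq]
  exact Subtype.ext hxy.symm

variable {O : Type} [CommRing O] [IsDomain O] [IsDiscreteValuationRing O]
  [IsAdicComplete (maximalIdeal O) O] [Finite (ResidueField O)]
  {ρbar : ResidualGaloisRep (ResidueField O)}
  {Cond : ∀ ⦃A : Type⦄ [CommRing A] [IsLocalRing A] [Algebra O A], GaloisRepAdic A → Prop}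
  {p q : ℕ} [Fact p.Prime]

/-- A tame character at `q`: its values, and what its value at a point is decided by. -/
structure IsTameValue (D : DeformationRingData O ρbar Cond) (p q : ℕ) (s : D.R) : Prop where
  pow_eq : s ^ p ^ (q - 1).factorization p = 1
  map_eq_one : ∀ {B : Type} [CommRing B] [IsLocalRing B]
    [Algebra O B] (g : D.R →ₐ[O] B) (hg : IsLocalHom (g : D.R →+* B)),
    (D.ρ.baseChangeAlong (g : D.R →+* B) hg).IsUnramifiedAt q → g s = 1
  exists_char : ∃ (P : ValuationSubring Qbar) (_ : P.LiesOverPrime q)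
    (χ : P.inertiaSubgroupIn ℚ →* D.Rˣ) (τ : P.inertiaSubgroupIn ℚ),
    (∀ σ : P.inertiaSubgroupIn ℚ, LinearMap.charpoly (D.ρ.ρ σ) =
      (X - C (χ σ : D.R)) * (X - C (((χ σ)⁻¹ : D.Rˣ) : D.R))) ∧
    (∀ σ, ∃ j : ℕ, χ σ = χ τ ^ j) ∧ (χ τ : D.R) = s

omit [Finite (ResidueField O)] in
/-- **The tame value at a Taylor–Wiles prime.** -/
theorem exists_isTameValue (D : DeformationRingData O ρbar Cond)
    (hdet : D.ρ.DetIsCyclotomic p)
    (hq : q.Prime) (hqp : q ≠ p) (hq1 : p ∣ q - 1) (hunr : ρbar.IsUnramifiedAt q)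
    {a : Nat.Primes → ResidueField O} {α : ResidueField O}
    (hα : GroupH1.IsTWRoot a ⟨q, hq⟩ α)
    (ha : ∀ P : ValuationSubring (AlgebraicClosure ℚ), P.LiesOverPrime q →
      ∀ σ : Gal, P.IsFrobeniusAt σ q → LinearMap.charpoly (ρbar.ρ σ) =
        X ^ 2 - C (a ⟨q, hq⟩) * X + C (q : ResidueField O)) :
    ∃ s : D.R, IsTameValue D p q s := by
  have := Fact.mk hq
  obtain ⟨P, hP⟩ := GaloisBasics.exists_liesOverPrime hq
  obtain ⟨φ, hφ⟩ := GaloisBasics.exists_isFrobeniusAt hP hq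
  obtain ⟨τ, hτ⟩ := TWTwist.exists_isTameGen (p := p) hq hP
  set k' := ResidueField D.R
  set f : ResidueField O →+* k' := ResidueField.map (algebraMap O D.R)
  obtain ⟨e⟩ := D.residual_isEquiv
  let _ : Algebra (ResidueField O) k' := f.toAlgebra
  have hconj : ∀ σ, (ρbar.baseChangeAlong f).ρ σ = e.toLinearEquiv.conj (D.ρ.residual.ρ σ) :=
    fun σ => LinearMap.ext fun x => by
      rw [LinearEquiv.conj_apply_apply, e.map_apply, LinearEquiv.apply_symm_apply]
  have hres1 : ∀ σ ∈ P.inertiaSubgroupIn ℚ, D.ρ.residual.ρ σ = 1 := by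
    intro σ hσ
    refine e.toLinearEquiv.conj.injective ?_
    rw [← hconj]
    have h1 : (ρbar.baseChangeAlong f).ρ σ = (ρbar.ρ σ).baseChange k' := rfl
    rw [h1, hunr P hP σ hσ, LinearMap.baseChange_one]
    exact (LinearMap.ext fun x => e.toLinearEquiv.apply_symm_apply x).symm
  obtain ⟨hα1, hα0, hαa, hα2⟩ := hα
  replace hα1 : (q : ResidueField O) = 1 := hα1
  have hchar : LinearMap.charpoly (D.ρ.residual.ρ φ) = (X - C (f α)) * (X - C (f α⁻¹)) := by
    rw [← e.toLinearEquiv.charpoly_conj (D.ρ.residual.ρ φ), ← hconj]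
    refine (LinearMap.charpoly_baseChange (ρbar.ρ φ) k').trans ?_
    rw [ha P hP φ hφ, hαa, hα1, RingHom.algebraMap_toAlgebra]
    simp only [Polynomial.map_add, Polynomial.map_sub, Polynomial.map_mul, Polynomial.map_pow,
      map_X, map_C, map_add, map_one, Polynomial.map_one]
    have h1 : f α * f α⁻¹ = 1 := by rw [← map_mul, mul_inv_cancel₀ hα0, map_one]
    have h2 : C (f α) * C (f α⁻¹) = (1 : k'[X]) := by rw [← C_mul, h1, map_one]
    linear_combination -h2
  have hne : f α ≠ f α⁻¹ := fun h => hα2 (by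
    rw [sq]
    nth_rw 2 [f.injective h]
    exact mul_inv_cancel₀ hα0)
  have hpR : (p : D.R) ∈ maximalIdeal D.R := hdet.1
  obtain ⟨b, -, -, χ, -, -, -, -, hχ, hgen⟩ := TWTwist.exists_diagonal D.ρ Fact.out hq hqp hpR hq1
    hP hφ hres1 (fun σ hσ => TWTwist.det_eq_one_of_detIsCyclotomic Fact.out hq hqp hdet hP hσ)
    hne hchar
  refine ⟨χ ⟨τ, hτ.1⟩, ⟨?_, fun {B} _ _ _ g hg hu => ?_,
    P, hP, χ, ⟨τ, hτ.1⟩, fun σ => (hχ σ).2.2.1, hgen τ hτ, rfl⟩⟩
  · rw [← Units.val_pow_eq_pow_val, (hχ ⟨τ, hτ.1⟩).2.2.2.2, Units.val_one]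
  · let _ : Algebra D.R B := (g : D.R →+* B).toAlgebra
    have h1 : (D.ρ.ρ τ).baseChange B ((1 : B) ⊗ₜ b 0) = (1 : B) ⊗ₜ b 0 :=
      LinearMap.congr_fun (hu P hP τ hτ.1) ((1 : B) ⊗ₜ b 0)
    rw [LinearMap.baseChange_tmul, (hχ ⟨τ, hτ.1⟩).1, TensorProduct.tmul_smul,
      ← algebraMap_smul B (χ ⟨τ, hτ.1⟩ : D.R)] at h1
    have h2 := congrArg (fun x => (b.baseChange B).repr x 0) h1
    simpa [Module.Basis.baseChange_repr_tmul, RingHom.algebraMap_toAlgebra] using h2

variable [CharZero O]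
  {T : Type} [CommRing T] [Algebra O T] [Module.Finite O T]

local notation "F" => AlgebraicClosure (FractionRing O)

/-- The values at a point of the Frobenius traces are the coefficients of `f`, through `ι`. -/
def TracesAt {M : ℕ} (f : CuspForm (CongruenceSubgroup.Gamma0 M) 2) (S : Finset ℕ)
    (D : DeformationRingData O ρbar Cond) (j : D.R →ₐ[O] F) : Prop :=
  ∃ (R : Subring ℂ) (hR : ∀ ℓ : ℕ, ℓ.Prime → ℓ ∉ S → ModularFormClass.qCoeff f ℓ ∈ R)
    (ι : R →+* F),
    ∀ (ℓ : ℕ) (hℓ : ℓ.Prime) (hℓS : ℓ ∉ S), ∀ P : ValuationSubring (AlgebraicClosure ℚ),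
      P.LiesOverPrime ℓ → ∀ σ : Gal, P.IsFrobeniusAt σ ℓ →
        ι ⟨_, hR ℓ hℓ hℓS⟩ = j (D.ρ.trace σ)

/-- **The value of a tame character at a point with a form.** -/
theorem tameValue_at_point (hodd : ρbar.IsOdd) (D : DeformationRingData O ρbar Cond)
    (hdet : D.ρ.DetIsCyclotomic p) (ψ : D.R →ₐ[O] T) (j : T →ₐ[O] F) {s : D.R}
    (hs : IsTameValue D p q s) (hq : q.Prime) (hqp : q ≠ p) {S : Finset ℕ} (hpS : p ∈ S)
    (hqS : q ∈ S) {M : ℕ} [NeZero M] {f : CuspForm (CongruenceSubgroup.Gamma0 M) 2}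
    (htr : TracesAt f S D (j.comp ψ)) :
    (UnipotentAtSemistable → f.IsNormalizedEigenform → M.factorization q ≤ 1 → j (ψ s) = 1) ∧
      (ConductorLevel.NewformCarayol → p ≠ 2 → f.IsNewform → M.factorization q = 2 →
        j (ψ s) ≠ 1) := by
  obtain ⟨P, hP, χ, τ, hchar, hgen, hτ⟩ := hs.exists_char
  obtain ⟨L, hLfin, hL⟩ := HeckeRep.exists_field_range O j
  have := RepTheory.charZero_integralClosure O L
  have := RepTheory.isLocalRing_integralClosure O L
  have := RepTheory.isDiscreteValuationRing_integralClosure O L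
  have := RepTheory.isAdicComplete_integralClosure O L
  have := RepTheory.finite_residueField_integralClosure O L
  have := RepTheory.isLocalHom_integralClosure O L
  have := RepTheory.finite_integralClosure O L
  let π : D.R →ₐ[O] integralClosure O L := (HeckeRep.toIC O j L hL).comp ψ
  have hπ : IsLocalHom (π : D.R →+* integralClosure O L) := HeckeRep.isLocalHom_algHom (O := O) π
  let incl : integralClosure O L →+* F :=
    L.val.toRingHom.comp (integralClosure O L).val.toRingHom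
  have hincl : Function.Injective incl := fun x y h =>
    Subtype.ext (Subtype.ext h)
  have hval : ∀ x, incl (π x) = j (ψ x) := fun x => HeckeRep.coe_toIC O j L hL (ψ x)
  have htr' : HasTraces f S D π := by
    obtain ⟨R, hR, ι, h⟩ := htr
    obtain ⟨R', ι', hι'⟩ := exists_lift_subring incl hincl ι
    have key : ∀ (ℓ : ℕ) (hℓ : ℓ.Prime) (hℓS : ℓ ∉ S),
        ∀ A : ValuationSubring (AlgebraicClosure ℚ), A.LiesOverPrime ℓ →
        ∀ σ : Gal, A.IsFrobeniusAt σ ℓ →
          ∃ hm : ModularFormClass.qCoeff f ℓ ∈ R', ι' ⟨_, hm⟩ = π (D.ρ.trace σ) :=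
      fun ℓ hℓ hℓS A hA σ hσ =>
        hι' ⟨_, hR ℓ hℓ hℓS⟩ _ ((hval _).trans (h ℓ hℓ hℓS A hA σ hσ).symm)
    refine ⟨R', fun ℓ hℓ hℓS => ?_, ι', fun ℓ hℓ hℓS A hA σ hσ => (key ℓ hℓ hℓS A hA σ hσ).2.symm⟩
    have := Fact.mk hℓ
    obtain ⟨A, hA⟩ := GaloisBasics.exists_liesOverPrime hℓ
    obtain ⟨σ, hσ⟩ := GaloisBasics.exists_isFrobeniusAt hA hℓ
    exact (key ℓ hℓ hℓS A hA σ hσ).1
  refine ⟨fun h34 hf hM => ?_, fun h36 hp2 hf hM h1 => ?_⟩
  · rw [← hτ, ← hval, map_inertiaChar_eq_one h34 D hdet π hπ hf hpS hqS htr' hq hqp hM hP τ.2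
      (hchar τ), map_one]
  · refine map_inertiaChar_ne_one h36 hodd D hdet hp2 π hπ hf hpS htr' hq hqp hM hP χ hchar τ hgen
      (hincl ?_)
    rw [hval, hτ, h1, map_one]

end Fermat.Agent.Lifting
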