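import Fermat.Agent.Lifting.TWTwisted
import Fermat.Agent.Lifting.TWGalois
import Fermat.Agent.Patching.Glue
import Fermat.Agent.TWTwist.Points

/-!
# A Taylor–Wiles level

The module at level `N ∏ qⱼ` over a deformation ring with extra ramification at the `qⱼ` gives the
data of a level of the patching argument.
-/

set_option autoImplicit false

noncomputable section

open IsLocalRing Polynomial

namespace Fermat.Agent.Lifting

open GaloisRep Fermat.Agent.Patching Fermat.Agent.TangentBound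
open Fermat.Agent.GroupH1 (LocM HMod HeckePoly eigIdeal twSystem IsTWRoot)
open Fermat.Agent.RepTheory (Gal IsFrobOutside)

variable {O : Type} [CommRing O] [IsDomain O] [IsDiscreteValuationRing O]
  [IsAdicComplete (maximalIdeal O) O] [CharZero O] [Finite (ResidueField O)]


/-- On a module free over `O[Δ]` whose coinvariants are free of the same rank, a map killing
at most the augmentation part is invariant under `Δ`. -/
theorem apply_diamond_eq_self {R Δ : Type} [CommRing R] [CommGroup Δ] {V W : Type}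
    [AddCommGroup V] [Module R V] [AddCommGroup W] [Module R W] [Module.Free R W] [Module.Finite R W]
    [StrongRankCondition R]
    (δ : Δ →* Module.End R V) {d : ℕ} (hd : d = Module.finrank R W) (b : Fin d → V)
    (hb : Function.Bijective fun c : Fin d → MonoidAlgebra R Δ =>
      ∑ i, MonoidAlgebra.lift R (Module.End R V) Δ δ (c i) (b i))
    (cor : V →ₗ[R] W) (hcor : Function.Surjective cor)
    (hker : ∀ y, cor y = 0 → y ∈ Submodule.span R (Set.range fun z : Δ × V => δ z.1 z.2 - z.2))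
    (g : Δ) (y : V) : cor (δ g y) = cor y := by
  let φ := MonoidAlgebra.lift R (Module.End R V) Δ δ
  let E : (Fin d → MonoidAlgebra R Δ) →ₗ[R] V :=
    { toFun := fun c => ∑ i, φ (c i) (b i)
      map_add' := fun c c' => by simp [Finset.sum_add_distrib]
      map_smul' := fun t c => by simp [Finset.smul_sum] }
  let e := LinearEquiv.ofBijective E hb
  let ε : MonoidAlgebra R Δ →ₐ[R] R := MonoidAlgebra.lift R R Δ 1
  let f : V →ₗ[R] (Fin d → R) := (ε.toLinearMap.compLeft (Fin d)).comp e.symm.toLinearMap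
  have hfδ : ∀ (g : Δ) (z : V), f (δ g z) = f z := fun g z => by
    obtain ⟨c, rfl⟩ := e.surjective z
    have : δ g (e c) = e (MonoidAlgebra.of R Δ g • c) := by
      simp [e, E, φ, map_sum, Module.End.mul_apply]
    funext i
    simp [this, f, ε]
  have hle : LinearMap.ker cor ≤ LinearMap.ker f := fun z hz => by
    refine Submodule.span_le.2 ?_ (hker z hz)
    rintro _ ⟨⟨h, x⟩, rfl⟩
    simp [hfδ]
  have hf : Function.Surjective f := by
    have hε : Function.Surjective ε := fun t => ⟨algebraMap R _ t, ε.commutes t⟩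
    exact hε.comp_left.comp e.symm.surjective
  let f' : W →ₗ[R] (Fin d → R) :=
    ((LinearMap.ker cor).liftQ f hle).comp (cor.quotKerEquivOfSurjective hcor).symm.toLinearMap
  have hf' : ∀ z, f' (cor z) = f z := fun z => by
    simp [f', LinearMap.quotKerEquivOfSurjective_symm_apply]
  let w := (Module.finBasisOfFinrankEq R W hd.symm).equivFun
  have hsurj : Function.Surjective (w.symm.toLinearMap ∘ₗ f') := by
    refine w.symm.surjective.comp fun c => ?_
    obtain ⟨z, hz⟩ := hf c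
    exact ⟨cor z, (hf' z).trans hz⟩
  refine OrzechProperty.injective_of_surjective_endomorphism _ hsurj ?_
  simp [hf', hfδ]

/-- The augmentation part of `∏ ℤ/p ^ vⱼ` comes from the standard generators. -/
theorem apply_sub_mem_iSup_range {R V : Type} [CommRing R] [AddCommGroup V] [Module R V]
    {p r : ℕ} [Fact p.Prime] {v : Fin r → ℕ} (δ : DeltaV p v →* Module.End R V)
    (g : DeltaV p v) (z : V) : δ g z - z ∈ ⨆ j, LinearMap.range (δ (genV j) - 1) := by
  set S := ⨆ j, LinearMap.range (δ (genV j) - 1)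
  let H : Submonoid (DeltaV p v) :=
    { carrier := {g | ∀ z, δ g z - z ∈ S}
      one_mem' := fun z => by simp
      mul_mem' := fun {a b} ha hb z => by
        rw [map_mul, Module.End.mul_apply, ← sub_add_sub_cancel _ (δ b z) z]
        exact add_mem (ha _) (hb z) }
  suffices h : g ∈ H from h z
  rw [← Finset.univ_prod_mulSingle g]
  refine Submonoid.prod_mem H fun j _ => ?_
  have hj : Pi.mulSingle j (g j) = (genV j : DeltaV p v) ^ (g j).toAdd.val := by
    rw [genV, ← Pi.mulSingle_pow, ← ofAdd_nsmul, nsmul_eq_mul, mul_one, ZMod.natCast_zmod_val,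
      ofAdd_toAdd]
  rw [hj]
  refine pow_mem (fun z => ?_) _
  exact Submodule.mem_iSup_of_mem j ⟨z, rfl⟩

omit [IsAdicComplete (maximalIdeal O) O] [CharZero O] [Finite (ResidueField O)] in
/-- A nonzero element divides a power of `p`. -/
theorem exists_dvd_natCast_pow {p : ℕ} (hpO : (p : O) ∈ maximalIdeal O) (c : O) (hc : c ≠ 0) :
    ∃ n : ℕ, c ∣ (p : O) ^ n := by
  obtain ⟨ϖ, hϖ⟩ := IsDiscreteValuationRing.exists_irreducible O
  obtain ⟨m, u, rfl⟩ := IsDiscreteValuationRing.eq_unit_mul_pow_irreducible hc hϖ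
  refine ⟨m, Units.mul_left_dvd.2 (pow_dvd_pow_of_dvd ?_ m)⟩
  rwa [hϖ.maximalIdeal_eq, Ideal.mem_span_singleton] at hpO

omit [CharZero O] [Finite (ResidueField O)] [IsAdicComplete (maximalIdeal O) O] in
/-- The generators of `twAlg` commute, so it is commutative. -/
theorem twAlg_comm (N : ℕ) [NeZero N] (p : ℕ) {r : ℕ} (qv : Fin r → Nat.Primes)
    (hinj : Function.Injective qv) (a α : Nat.Primes → ResidueField O) :
    IsMulCommutative (twAlg O N p qv hinj a α) := by
  refine Algebra.isMulCommutative_adjoin O ?_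
  have hc : ∀ g ℓ, Commute (twDiamond O N p qv hinj a α g) (twX O N p qv a α ℓ) := fun g ℓ =>
    HeckeCohom.commute_diamond_lsmul (twChi N p qv) (twChi_surjective N p hinj) (mem_twH N p qv)
      (eigIdeal (twSystem (twQ qv) a α)) g (MvPolynomial.X ℓ)
  rintro _ (⟨ℓ, rfl⟩ | ⟨g, rfl⟩) _ (⟨ℓ', rfl⟩ | ⟨g', rfl⟩)
  · simp only [twX, ← map_mul, mul_comm]
  · exact (hc g' ℓ).symm
  · exact hc g ℓ'
  · simp only [← map_mul, mul_comm]

instance instCommRingTwAlg (N : ℕ) [NeZero N] (p : ℕ) {r : ℕ} (qv : Fin r → Nat.Primes)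
    (hinj : Function.Injective qv) (a α : Nat.Primes → ResidueField O) :
    CommRing (twAlg O N p qv hinj a α) :=
  { (inferInstance : Ring (twAlg O N p qv hinj a α)) with
    mul_comm := (twAlg_comm N p qv hinj a α).is_comm.comm }

omit [CharZero O] [Finite (ResidueField O)] in
/-- The residual representation of a Hecke datum is `ρbar` extended, when the Frobenius
polynomials of `ρbar` are those of its system. -/
theorem residual_isEquiv_of_charpoly {M : ℕ} [NeZero M] {S : Finset ℕ}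
    {θ : CuspForm.heckeAlgebra M 2 (↑S : Set ℕ) →+* ResidueField O}
    (H : CuspForm.HeckeGaloisRepDatum M (↑S : Set ℕ) O θ
      (CuspForm.heckeLocal M (↑S : Set ℕ) O θ))
    (hS : ∀ q : ℕ, q.Prime → q ∣ M → q ∈ S) {ρbar : ResidualGaloisRep (ResidueField O)}
    (hθ : ∀ (ℓ : ℕ) (hℓ : ℓ.Prime) (hℓM : ¬ ℓ ∣ M) (hℓS : ℓ ∉ (↑S : Set ℕ)),
      ∀ A : ValuationSubring (AlgebraicClosure ℚ), A.LiesOverPrime ℓ →
        ∀ σ : Gal, A.IsFrobeniusAt σ ℓ → LinearMap.charpoly (ρbar.ρ σ) =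
          X ^ 2 - C (θ (CuspForm.heckeAlgebra.T hℓ hℓM hℓS)) * X + C (ℓ : ResidueField O)) :
    H.ρ.residual.IsEquiv (ρbar.baseChangeAlong (ResidueField.map (algebraMap O
      (CuspForm.heckeLocal M (↑S : Set ℕ) O θ)))) := by
  refine RepTheory.residual_isEquiv_of_frobenius (TWTwist.frobGenerates_chebotarev S) _ _
    H.residual_absIrr ?_
  rintro φ ⟨ℓ, hℓ, hℓS, A, hA, hφ⟩
  have hℓM : ¬ ℓ ∣ M := fun h => hℓS (Finset.mem_coe.2 (hS ℓ hℓ h))
  set f := ResidueField.map (algebraMap O (CuspForm.heckeLocal M (↑S : Set ℕ) O θ))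
  have hbar : LinearMap.charpoly ((ρbar.baseChangeAlong f).ρ φ) =
      (LinearMap.charpoly (ρbar.ρ φ)).map f := by
    let _ := f.toAlgebra
    exact LinearMap.charpoly_baseChange (ρbar.ρ φ) _
  refine (LinearMap.charpoly_baseChange (H.ρ.ρ φ) _).trans ?_
  rw [hbar, hθ ℓ hℓ hℓM hℓS A hA φ hφ, H.charpoly_frob ℓ hℓ hℓM hℓS A hA φ hφ]
  simp [f, ← H.residue_π, ResidueField.algebraMap_eq]

/-- **The action at a Taylor–Wiles level.** A deformation ring whose condition holds for the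
Hecke datum of the level acts on the module of the level, the trace of a Frobenius at `ℓ` as the
twisted operator at `ℓ`. -/
theorem exists_twAlgHom {p : ℕ} [Fact p.Prime] (hp2 : p ≠ 2) (hpO : (p : O) ∈ maximalIdeal O)
    {ρbar : ResidualGaloisRep (ResidueField O)} (N : ℕ) [NeZero N] {S : Finset ℕ} (hpS : p ∈ S)
    (hNS : ∀ q : ℕ, q.Prime → q ∣ N → q ∈ S) (a : Nat.Primes → ResidueField O)
    (ha : ∀ (l : ℕ) (hl : l.Prime), l ∉ S →
      ∀ P : ValuationSubring (AlgebraicClosure ℚ), P.LiesOverPrime l →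
        ∀ σ : Gal, P.IsFrobeniusAt σ l →
          LinearMap.charpoly (ρbar.ρ σ) =
            X ^ 2 - C (a ⟨l, hl⟩) * X + C (l : ResidueField O))
    {r : ℕ} (qv : Fin r → Nat.Primes) (hinj : Function.Injective qv)
    (α : Nat.Primes → ResidueField O) (hqS : ∀ j, (qv j : ℕ) ∈ S)
    (hqN : ∀ j, ¬ (qv j : ℕ) ∣ N)
    (hne : ∃ l : Nat.Primes, l ∉ twQ qv ∧ ((l : ℕ) : ZMod (twM2 N qv)) = 1 ∧
      a l ≠ ((l : ℕ) : ResidueField O) + 1)
    [Nontrivial (levelLoc O N a)] [Nontrivial (twLoc O N p qv a α)]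
    {Cond : ∀ ⦃A : Type⦄ [CommRing A] [IsLocalRing A] [Algebra O A], GaloisRepAdic A → Prop}
    (D : DeformationRingData O ρbar Cond)
    (hcond : ∀ (θ : CuspForm.heckeAlgebra (twM2 N qv) 2 (↑S : Set ℕ) →+* ResidueField O)
      (H : CuspForm.HeckeGaloisRepDatum (twM2 N qv) (↑S : Set ℕ) O θ
        (CuspForm.heckeLocal (twM2 N qv) (↑S : Set ℕ) O θ)),
      (∀ q : ℕ, q.Prime → q ∉ S → H.ρ.IsUnramifiedAt q) →
      H.ρ.residual.IsEquiv (ρbar.baseChangeAlong (ResidueField.map (algebraMap O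
        (CuspForm.heckeLocal (twM2 N qv) (↑S : Set ℕ) O θ)))) →
      Cond H.ρ) :
    ∃ ψ : D.R →ₐ[O] twAlg O N p qv hinj a α,
      ∀ (ℓ : ℕ) (hℓ : ℓ.Prime), ℓ ∉ S →
        ∀ P : ValuationSubring (AlgebraicClosure ℚ), P.LiesOverPrime ℓ →
          ∀ σ : Gal, P.IsFrobeniusAt σ ℓ →
            ψ (D.ρ.trace σ) =
              ⟨twOp O N p qv hinj a α ⟨ℓ, hℓ⟩, twOp_mem O N p qv hinj a α _⟩ := by
  have hN'S : ∀ q : ℕ, q.Prime → q ∣ twM2 N qv → q ∈ S := fun q hq h => by
    rcases (dvd_twM2_iff N qv hq).1 h with h | ⟨j, rfl⟩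
    · exact hNS q hq h
    · exact hqS j
  obtain ⟨θ, hθ, act, hactmem, hact⟩ := twTwistAct O N p qv hinj a α hp2 hpO hNS hqS hqN hne
  have hθa : ∀ (ℓ : ℕ) (hℓ : ℓ.Prime) (hℓN : ¬ ℓ ∣ twM2 N qv) (hℓS : ℓ ∉ (↑S : Set ℕ)),
      ∀ A : ValuationSubring (AlgebraicClosure ℚ), A.LiesOverPrime ℓ →
        ∀ σ : Gal, A.IsFrobeniusAt σ ℓ → LinearMap.charpoly (ρbar.ρ σ) =
          X ^ 2 - C (θ (CuspForm.heckeAlgebra.T hℓ hℓN hℓS)) * X + C (ℓ : ResidueField O) :=
    fun ℓ hℓ hℓN hℓS A hA σ hσ => by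
      rw [hθ ℓ hℓ hℓN hℓS]
      exact ha ℓ hℓ (fun h => hℓS (Finset.mem_coe.2 h)) A hA σ hσ
  obtain ⟨H, hHπ, hHunr⟩ := HeckeRep.nonempty_heckeGaloisRepDatum p (twM2 N qv) S O θ hpS hN'S
    hpO ρbar D.absIrr hθa
  have hres := residual_isEquiv_of_charpoly H hN'S hθa
  have : Module.Finite O (twLoc O N p qv a α) := GroupH1.finite_locM _
  have : Module.Free O (twLoc O N p qv a α) := GroupH1.free_locM _ _
  let L : LevelModule O (twM2 N qv) S θ := { M := twLoc O N p qv a α, act := act }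
  obtain ⟨φ, -, hφ⟩ := L.exists_surjection D H hN'S (hcond θ H hHunr hres) hres
  refine ⟨(L.act.range.val.comp φ).codRestrict _ fun x => ?_, fun ℓ hℓ hℓS P hP σ hσ => ?_⟩
  · obtain ⟨y, hy⟩ := (φ x).2
    rw [AlgHom.comp_apply, Subalgebra.val_apply, ← hy]
    exact hactmem y
  · have hℓN : ¬ ℓ ∣ twM2 N qv := fun h => hℓS (hN'S ℓ hℓ h)
    refine Subtype.ext ?_
    show (φ (D.ρ.trace σ) : Module.End O (twLoc O N p qv a α)) = _
    rw [GaloisRepAdic.trace, hφ ℓ hℓ hℓN (fun h => hℓS (Finset.mem_coe.1 h)) P hP σ hσ, hHπ]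
    exact hact ℓ hℓ hℓN _

/-- **Diamonds and tame values.** The augmentation of the diamond at `qⱼ` lies in the image of
`sⱼ - 1`, since both are decided at every geometric point by the exponent of `qⱼ` in the level
of its form. -/
theorem exists_twDiamond_sub_eq {p : ℕ} [Fact p.Prime] (hp2 : p ≠ 2)
    (hpO : (p : O) ∈ maximalIdeal O) {ρbar : ResidualGaloisRep (ResidueField O)}
    (hodd : ρbar.IsOdd) {N : ℕ} [NeZero N] {S : Finset ℕ} (hpS : p ∈ S)
    {r : ℕ} (qv : Fin r → Nat.Primes) (hinj : Function.Injective qv)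
    (hqS : ∀ j, (qv j : ℕ) ∈ S) (hqp : ∀ j, (qv j : ℕ) ≠ p)
    (a α : Nat.Primes → ResidueField O) {d : ℕ} (b : Fin d → twLoc O N p qv a α)
    (hb : Function.Bijective fun c : Fin d → MonoidAlgebra O (DeltaV p (twExp p qv)) =>
      ∑ i, MonoidAlgebra.lift O (Module.End O (twLoc O N p qv a α)) (DeltaV p (twExp p qv))
        (twDiamond O N p qv hinj a α) (c i) (b i))
    {Cond : ∀ ⦃A : Type⦄ [CommRing A] [IsLocalRing A] [Algebra O A], GaloisRepAdic A → Prop}
    (D : DeformationRingData O ρbar Cond) (hdet : D.ρ.DetIsCyclotomic p)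
    (ψ : D.R →ₐ[O] twAlg O N p qv hinj a α)
    (hψ : ∀ (ℓ : ℕ) (hℓ : ℓ.Prime), ℓ ∉ S →
      ∀ P : ValuationSubring (AlgebraicClosure ℚ), P.LiesOverPrime ℓ →
        ∀ σ : Gal, P.IsFrobeniusAt σ ℓ →
          ψ (D.ρ.trace σ) = ⟨twOp O N p qv hinj a α ⟨ℓ, hℓ⟩, twOp_mem O N p qv hinj a α _⟩)
    {s : Fin r → D.R} (hs : ∀ j, IsTameValue D p (qv j : ℕ) (s j))
    (h34 : UnipotentAtSemistable) (h36 : ConductorLevel.NewformCarayol)
    (hforms : TWPointForms O N p qv hinj a α S) (j : Fin r) (z : twLoc O N p qv a α) :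
    ∃ w, twDiamond O N p qv hinj a α (genV j) z - z = ψ (s j) • w - w := by
  have : CharZero (AlgebraicClosure (FractionRing O)) := by
    have : CharZero (FractionRing O) :=
      charZero_of_injective_algebraMap (IsFractionRing.injective O _)
    exact charZero_of_injective_algebraMap
      (algebraMap (FractionRing O) (AlgebraicClosure (FractionRing O))).injective
  have : Module.IsTorsionFree O (AlgebraicClosure (FractionRing O)) := by
    rw [Module.isTorsionFree_iff_algebraMap_injective,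
      IsScalarTower.algebraMap_eq O (FractionRing O) (AlgebraicClosure (FractionRing O))]
    exact (algebraMap (FractionRing O) _).injective.comp (IsFractionRing.injective O _)
  have : Module.Finite O (twLoc O N p qv a α) := GroupH1.finite_locM _
  have : Module.Finite O (twAlg O N p qv hinj a α) :=
    Module.Finite.of_injective (twAlg O N p qv hinj a α).val.toLinearMap Subtype.val_injective
  have htr : ∀ {M : ℕ} (f : CuspForm (CongruenceSubgroup.Gamma0 M) 2)
      (pt : twAlg O N p qv hinj a α →ₐ[O] AlgebraicClosure (FractionRing O)),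
      PointValues N p qv hinj a α f S pt → TracesAt f S D (pt.comp ψ) := by
    rintro M f pt ⟨R, hR, ι, hι⟩
    refine ⟨R, hR, ι, fun ℓ hℓ hℓS P hP σ hσ => (hι ℓ hℓ hℓS).trans ?_⟩
    rw [AlgHom.comp_apply, hψ ℓ hℓ hℓS P hP σ hσ]
  refine TWTwist.exists_sub_eq_of_points (K := AlgebraicClosure (FractionRing O))
    (T := twAlg O N p qv hinj a α) hp2 hpO (exists_dvd_natCast_pow hpO)
    (twDiamond O N p qv hinj a α) b hb
    (fun g => ⟨_, twDiamond_mem O N p qv hinj a α g⟩) (fun _ _ => rfl) j (ψ (s j))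
    (k := twExp p qv j)
    (fun x => by rw [← map_pow, twExp, (hs j).pow_eq, map_one, one_smul])
    (fun pt _ h1 => ?_) (fun _ pt _ hsum => ?_) z
  · obtain ⟨M, _, f, hf, hM, hv⟩ := (hforms pt j).1 h1
    exact (tameValue_at_point hodd D hdet ψ pt (hs j) (qv j).2 (hqp j) hpS (hqS j)
      (htr f pt hv)).1 h34 hf hM
  · obtain ⟨M, _, g, hg, hM, hv⟩ := (hforms pt j).2 fun h1 => by
      rw [h1] at hsum
      simp only [one_pow, Finset.sum_const, Finset.card_range, nsmul_eq_mul, mul_one] at hsum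
      exact Nat.cast_ne_zero.2 (Fact.out : p.Prime).ne_zero hsum
    exact (tameValue_at_point hodd D hdet ψ pt (hs j) (qv j).2 (hqp j) hpS (hqS j)
      (htr g pt hv)).2 h36 hp2 hg hM

/-- **A Taylor–Wiles level.** -/
theorem exists_twLevel {p : ℕ} [Fact p.Prime] (hp2 : p ≠ 2) (hpO : (p : O) ∈ maximalIdeal O)
    {ρbar : ResidualGaloisRep (ResidueField O)} (hodd : ρbar.IsOdd)
    (N : ℕ) [NeZero N] (S0 : Finset ℕ) (hpS : p ∈ S0)
    (hNS : ∀ q : ℕ, q.Prime → q ∣ N → q ∈ S0)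
    (a : Nat.Primes → ResidueField O)
    (ha : ∀ (l : ℕ) (hl : l.Prime), l ∉ S0 →
      ∀ P : ValuationSubring (AlgebraicClosure ℚ), P.LiesOverPrime l →
        ∀ σ : Gal, P.IsFrobeniusAt σ l →
          LinearMap.charpoly (ρbar.ρ σ) =
            X ^ 2 - C (a ⟨l, hl⟩) * X + C (l : ResidueField O))
    (hρbar : ∀ q : ℕ, q.Prime → q ∉ S0 → ρbar.IsUnramifiedAt q)
    {Cond0 CondQ : ∀ ⦃A : Type⦄ [CommRing A] [IsLocalRing A] [Algebra O A], GaloisRepAdic A → Prop}
    (D0 : DeformationRingData O ρbar Cond0) (h0 : IsDeformationCondition O Cond0)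
    (hD0 : ∀ q : ℕ, q.Prime → q ∉ S0 → D0.ρ.IsUnramifiedAt q)
    [Module D0.R (levelLoc O N a)] [IsScalarTower O D0.R (levelLoc O N a)]
    [Nontrivial (levelLoc O N a)]
    (hM0 : ∀ (l : ℕ) (hl : l.Prime), l ∉ S0 →
      ∀ P : ValuationSubring (AlgebraicClosure ℚ), P.LiesOverPrime l →
        ∀ σ : Gal, P.IsFrobeniusAt σ l → ∀ x : levelLoc O N a,
          D0.ρ.trace σ • x = (MvPolynomial.X (⟨l, hl⟩ : Nat.Primes) : HeckePoly O) • x)
    {r n : ℕ} (qv : Fin r → Nat.Primes) (hinj : Function.Injective qv)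
    (hqS : ∀ j, (qv j : ℕ) ∉ S0) (hq1 : ∀ j, p ^ (n + 1) ∣ (qv j : ℕ) - 1)
    (α : Nat.Primes → ResidueField O) (hα : ∀ j, IsTWRoot a (qv j) (α (qv j)))
    (DQ : DeformationRingData O ρbar CondQ) (hQ : IsDeformationCondition O CondQ)
    (hdetQ : DQ.ρ.DetIsCyclotomic p) (hQ0 : CondQ D0.ρ)
    (γ : MvPowerSeries (Fin r) O →ₐ[O] DQ.R) (hγ : Function.Surjective γ)
    (hcondQ : ∀ (θ : CuspForm.heckeAlgebra (twM2 N qv) 2
        (↑(S0 ∪ Finset.univ.image fun j => (qv j : ℕ)) : Set ℕ) →+* ResidueField O)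
      (H : CuspForm.HeckeGaloisRepDatum (twM2 N qv)
        (↑(S0 ∪ Finset.univ.image fun j => (qv j : ℕ)) : Set ℕ) O θ
        (CuspForm.heckeLocal (twM2 N qv)
          (↑(S0 ∪ Finset.univ.image fun j => (qv j : ℕ)) : Set ℕ) O θ)),
      (∀ q : ℕ, q.Prime → q ∉ S0 ∪ Finset.univ.image (fun j => (qv j : ℕ)) →
        H.ρ.IsUnramifiedAt q) →
      H.ρ.residual.IsEquiv (ρbar.baseChangeAlong (ResidueField.map (algebraMap O
        (CuspForm.heckeLocal (twM2 N qv)
          (↑(S0 ∪ Finset.univ.image fun j => (qv j : ℕ)) : Set ℕ) O θ)))) →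
      CondQ H.ρ)
    (hnonEis : ∀ T : Finset ℕ, ∃ l : Nat.Primes, (l : ℕ) ∉ T ∧
      ((l : ℕ) : ZMod (twM2 N qv)) = 1 ∧ a l ≠ ((l : ℕ) : ResidueField O) + 1)
    (h3 : IsUnit (3 : O) ∨
      ∀ T : Finset ℕ, ∃ l : Nat.Primes, (l : ℕ) ∉ T ∧ (l : ℕ) % 3 = 2 ∧ a l ≠ 0)
    (h34 : UnipotentAtSemistable) (h36 : ConductorLevel.NewformCarayol)
    (hforms : TWPointForms O N p qv hinj a α (S0 ∪ Finset.univ.image fun j => (qv j : ℕ))) :
    Nonempty (Patching.TWLevel O p n r (Module.finrank O (levelLoc O N a)) D0.R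
      (levelLoc O N a)) := by
  classical
  set SQ := S0 ∪ Finset.univ.image fun j => (qv j : ℕ) with hSQdef
  have hpSQ : p ∈ SQ := Finset.mem_union_left _ hpS
  have hqSQ : ∀ j, (qv j : ℕ) ∈ SQ := fun j =>
    Finset.mem_union_right _ (Finset.mem_image.2 ⟨j, Finset.mem_univ j, rfl⟩)
  have hqp : ∀ j, (qv j : ℕ) ≠ p := fun j h => hqS j (h ▸ hpS)
  have hqN : ∀ j, ¬ (qv j : ℕ) ∣ N := fun j h => hqS j (hNS _ (qv j).2 h)
  have hNS' : ∀ q : ℕ, q.Prime → q ∣ N → q ∈ SQ := fun q hq h =>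
    Finset.mem_union_left _ (hNS q hq h)
  have hout : ∀ {l : Nat.Primes}, (l : ℕ) ∉ SQ → l ∉ twQ qv := fun {l} hl h => by
    obtain ⟨j, rfl⟩ := exists_of_mem_twQ qv h
    exact hl (hqSQ j)
  obtain ⟨l₀, hl₀S, hl₀1, hl₀a⟩ := hnonEis SQ
  -- the module of the level
  set V := twLoc O N p qv a α with hV
  have : Module.Finite O V := GroupH1.finite_locM _
  have : Module.Free O V := GroupH1.free_locM _ _
  have : Module.Free O (levelLoc O N a) := GroupH1.free_locM _ _
  have h2 : IsUnit (2 : O) := by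
    exact_mod_cast TWTwist.isUnit_natCast_of_not_dvd (A := O) (Fact.out : p.Prime) hpO (m := 2)
      fun h => hp2 ((Nat.prime_dvd_prime_iff_eq Fact.out Nat.prime_two).1 h)
  have hpk : (p : ResidueField O) = 0 := by
    rw [← map_natCast (residue O), residue_eq_zero_iff]
    exact hpO
  obtain ⟨cor, hcor, hker, hcorX, d, b, hd, hb⟩ := GroupH1.exists_tw_level (O := O) N (twQ qv)
    (M := twM N qv) rfl
    (fun q hq => by obtain ⟨j, rfl⟩ := exists_of_mem_twQ qv hq; exact hqN j) a α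
    (fun q hq => by obtain ⟨j, rfl⟩ := exists_of_mem_twQ qv hq; exact hα j)
    (twH N p qv) (twChi N p qv) (twChi_surjective N p hinj) (mem_twH N p qv) hpk
    (isPGroup_deltaV p qv) h2 (neg_one_mem_twH N p qv Fact.out hp2)
    ⟨l₀, hout hl₀S, fun h => hl₀S (hNS' _ l₀.2 h), hl₀a⟩
    (h3.imp_right fun h => by
      obtain ⟨l, hlS, hl3, hla⟩ := h SQ
      exact ⟨l, hout hlS, hl3, fun h => hlS (hNS' _ l.2 h), hla⟩)
  have hcorD : ∀ g y, cor (twDiamond O N p qv hinj a α g y) = cor y :=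
    apply_diamond_eq_self (twDiamond O N p qv hinj a α) hd b hb cor hcor hker
  have : Nontrivial V := hcor.nontrivial
  have hrank := (finrank_eq_of_bijective (twDiamond O N p qv hinj a α) b hb).2.2
  -- the deformation ring acts through the twisted operators
  obtain ⟨ψ, hψ⟩ := exists_twAlgHom hp2 hpO N hpSQ hNS' a
    (fun l hl h => ha l hl fun h' => h (Finset.mem_union_left _ h')) qv hinj α hqSQ hqN
    ⟨l₀, hout hl₀S, hl₀1, hl₀a⟩ DQ hcondQ
  let _ : Module DQ.R V := Module.compHom V (ψ : DQ.R →+* twAlg O N p qv hinj a α)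
  have : IsScalarTower O DQ.R V := IsScalarTower.of_algebraMap_smul fun c y => by
    show ψ (algebraMap O DQ.R c) • y = c • y
    rw [ψ.commutes, algebraMap_smul]
  -- down to the minimal ring
  obtain ⟨τ, hτ, hτl, hτe⟩ := exists_surjective_algHom h0 DQ D0 hQ0
    (TWTwist.frobGenerates_chebotarev SQ)
  choose s hs using fun j => exists_isTameValue DQ hdetQ (qv j).2 (hqp j)
    ((dvd_pow_self p n.succ_ne_zero).trans (hq1 j)) (hρbar _ (qv j).2 (hqS j)) (hα j)
    (ha _ (qv j).2 (hqS j))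
  let _ : Module DQ.R (levelLoc O N a) := Module.compHom _ (τ : DQ.R →+* D0.R)
  have : IsScalarTower O DQ.R (levelLoc O N a) := IsScalarTower.of_algebraMap_smul fun c y => by
    show τ (algebraMap O DQ.R c) • y = c • y
    rw [τ.commutes, algebraMap_smul]
  have hcs : ∀ (x : DQ.R) (y : V), cor (x • y) = x • cor y := by
    refine map_smul_of_traces hQ DQ Fact.out hdetQ hpSQ cor ?_
    rintro φ' ⟨ℓ, hℓ, hℓS, A, hA, hφ'⟩ y
    have hℓS' : ℓ ∉ SQ := fun h => hℓS (Finset.mem_coe.2 h)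
    show cor (ψ (DQ.ρ.trace φ') • y) = τ (DQ.ρ.trace φ') • cor y
    rw [hψ ℓ hℓ hℓS' A hA φ' hφ']
    show cor (twDiamond O N p qv hinj a α _ ((MvPolynomial.X ⟨ℓ, hℓ⟩ : HeckePoly O) • y)) = _
    rw [hcorD]
    refine (hcorX ⟨ℓ, hℓ⟩ (hout (l := ⟨ℓ, hℓ⟩) hℓS') y).trans ?_
    have htr : τ (DQ.ρ.trace φ') = D0.ρ.trace φ' := by
      rw [← adic_trace_eq_of_isEquiv hτe]
      exact (TWTwist.trace_baseChangeAlong_apply _ hτl DQ.ρ φ').symm
    rw [htr]
    exact (hM0 ℓ hℓ (fun h => hℓS' (Finset.mem_union_left _ h)) A hA φ' hφ' _).symm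
  have hpow : ∀ j (x : V), s j ^ p ^ twExp p qv j • x = x := fun j x => by
    rw [twExp, (hs j).pow_eq, one_smul]
  exact ⟨{
    Rn := DQ.R
    γ := γ
    γ_surjective := hγ
    τ := τ
    τ_surjective := hτ
    v := twExp p qv
    le_v := fun j => (Nat.le_succ n).trans (le_twExp p qv Fact.out hq1 j)
    s := s
    τ_s := fun j => (hs j).map_eq_one τ hτl
      (isUnramifiedAt_of_isEquiv hτe (hD0 _ (qv j).2 (hqS j)))
    Mn := V
    s_pow := hpow
    finrank_eq := by rw [hrank, hd]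
    cor := cor.toAddMonoidHom
    cor_smul := hcs
    cor_surjective := hcor
    ker_cor := ker_cor_of_diamond cor.toAddMonoidHom s
      (fun j => twDiamond O N p qv hinj a α (genV j))
      (exists_twDiamond_sub_eq hp2 hpO hodd hpSQ qv hinj hqSQ hqp a α b hb DQ hdetQ ψ hψ hs h34
        h36 hforms) fun z hz => by
        refine Submodule.span_le.2 ?_ (hker z hz)
        rintro _ ⟨⟨g, x⟩, rfl⟩
        exact apply_sub_mem_iSup_range _ g x }⟩

end Fermat.Agent.Lifting
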