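import Fermat.Agent.Lifting.LocalAct
import Fermat.Agent.GroupH1.HeckeMod
import Fermat.Agent.HeckeCohom.Boundary
import Fermat.Agent.IharaH1.Degen
import Fermat.Agent.Newforms.Forms
import Fermat.Agent.S21

/-!
# The level modules

`Hom(Γ₀(N), 𝒪)` localised at a residual eigen system which is not Eisenstein is a level for
`heckeLocal N' S 𝒪 θ`, for every multiple `N'` of `N` whose primes lie in `S`.
-/

set_option autoImplicit false

noncomputable section

open IsLocalRing CuspForm CongruenceSubgroup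
open scoped MatrixGroups OnePoint

namespace Fermat.Agent.Lifting

open Fermat.Agent.GroupH1 (GammaH HMod HeckePoly toH eigIdeal LocM toLocM heckeSystem HIdx repInt
  repGL)
open Fermat.Agent.HeckeLattice (toGL rep Idx gamma0System)
open Fermat.Agent.HeckeCohom (heckeOp OpIdx wordAct wordEval EichlerShimuraSurjective)

/-- Every parabolic class comes from a pair of cusp forms. -/
theorem eichlerShimuraSurjective (N : ℕ) [NeZero N] : EichlerShimuraSurjective N :=
  (Fermat.Agent.S21.result N).2.ge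

/-! ### The two descriptions of the Hecke operators of `Γ₀(N)` -/

section bridge

variable {N ℓ : ℕ} [hℓ : Fact ℓ.Prime] {B : Type*} [AddCommGroup B]

/-- The element relating the two representatives at infinity. -/
theorem exists_rep_eq_repGL (hℓN : ¬ ℓ ∣ N) (x : HIdx N ℓ) :
    ∃ u : GammaH N (⊤ : Subgroup (ZMod N)ˣ), rep ℓ x.1 = toGL u * repGL N ℓ x := by
  obtain ⟨x, hx⟩ := x
  cases x using OnePoint.rec with
  | infty =>
    let g : GammaH N (⊤ : Subgroup (ZMod N)ˣ) :=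
      GroupH1.ofAdm !![GroupH1.bezA N ℓ, -GroupH1.bezB N ℓ; (N : ℤ), (ℓ : ℤ)]
        (by rw [Matrix.det_fin_two_of]; linear_combination GroupH1.bez_eq hℓ.out hℓN)
        ⟨by simp, Units.mkOfMulEqOne ((GroupH1.bezA N ℓ : ℤ) : ZMod N) (ℓ : ZMod N) (by
          have := congrArg (Int.cast : ℤ → ZMod N) (GroupH1.bez_eq hℓ.out hℓN)
          push_cast at this
          simpa using this), trivial, by simp⟩
    refine ⟨g⁻¹, ?_⟩
    rw [GroupH1.DoubleSystem.toGL_inv, eq_inv_mul_iff_mul_eq]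
    refine Units.ext ?_
    rw [Units.val_mul, GroupH1.coe_repGL,
      show (toGL g : Matrix (Fin 2) (Fin 2) ℝ) = GroupH1.realMat g.1.1 from GroupH1.coe_mapGL _]
    ext i j
    fin_cases i <;> fin_cases j <;>
      simp [g, GroupH1.ofAdm, rep, GroupH1.realMat, GroupH1.repInt_infty, hℓ.out.ne_zero, Matrix.mul_apply,
        Fin.sum_univ_two]
  | coe j =>
    refine ⟨1, ?_⟩
    rw [Fermat.Agent.HeckeLattice.toGL_one, one_mul]
    refine Units.ext ?_
    ext a b
    fin_cases a <;> fin_cases b <;>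
      simp [rep, GroupH1.repGL, GroupH1.realMat, GroupH1.repInt_coe, hℓ.out.ne_zero]

/-- The two descriptions of `T_ℓ` and `U_ℓ` agree. -/
theorem toGamma0_transfer (φ : IharaH1.H1 N B) :
    IharaH1.toGamma0 ((heckeSystem N ⊤ ℓ).transfer φ) =
      heckeOp N ℓ Fact.out B (IharaH1.toGamma0 φ) := by
  have : NeZero ℓ := ⟨hℓ.out.ne_zero⟩
  let j : Gamma0 N →* GammaH N (⊤ : Subgroup (ZMod N)ˣ) :=
    Subgroup.inclusion GroupH1.GammaH_top.ge
  by_cases h : ℓ ∣ N
  · rw [HeckeCohom.heckeOp_of_dvd N h]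
    let e : ZMod ℓ ≃ HIdx N ℓ :=
      Equiv.ofBijective (fun x => ⟨(x : OnePoint (ZMod ℓ)), fun hx => absurd hx (OnePoint.coe_ne_infty x)⟩)
        ⟨fun _ _ hxy => OnePoint.coe_injective (congrArg Subtype.val hxy), by
          rintro ⟨x, hx⟩
          cases x using OnePoint.rec with
          | infty => exact absurd h (hx rfl)
          | coe x => exact ⟨x, rfl⟩⟩
    refine HeckeCohom.transfer_comp (HeckeCohom.gamma0SystemU N ℓ h) (heckeSystem N ⊤ ℓ)
      (MonoidHom.id _) j (fun _ => rfl) e (fun _ => 1) (fun x => ?_) φ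
    show HeckeCohom.repU ℓ x = toGL (1 : GammaH N (⊤ : Subgroup (ZMod N)ˣ)) * repGL N ℓ (e x)
    rw [Fermat.Agent.HeckeLattice.toGL_one, one_mul]
    refine Units.ext ?_
    ext a b
    fin_cases a <;> fin_cases b <;>
      simp [e, Equiv.ofBijective, HeckeCohom.repU, GroupH1.repGL, GroupH1.realMat,
        GroupH1.repInt_coe, hℓ.out.ne_zero]
  · rw [HeckeCohom.heckeOp_of_not_dvd N h]
    choose u hu using fun x : Idx ℓ => exists_rep_eq_repGL (N := N) h ⟨x, fun _ => h⟩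
    exact HeckeCohom.transfer_comp (gamma0System N ℓ h) (heckeSystem N ⊤ ℓ) (MonoidHom.id _) j
      (fun _ => rfl) (Equiv.subtypeUnivEquiv fun (_ : OnePoint (ZMod ℓ)) _ => h).symm u hu φ

end bridge

variable {𝒪 : Type} [CommRing 𝒪] {N : ℕ}

/-- An element of the Hecke module as a homomorphism on `Γ₀(N)`. -/
def gamma0Hom : HMod N (⊤ : Subgroup (ZMod N)ˣ) 𝒪 →+ (Additive (Gamma0 N) →+ 𝒪) :=
  IharaH1.toGamma0.comp toH.symm.toLinearMap.toAddMonoidHom

/-- `gamma0Hom` is injective. -/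
theorem gamma0Hom_injective : Function.Injective (gamma0Hom (𝒪 := 𝒪) (N := N)) := fun _ _ h =>
  toH.symm.injective (AddMonoidHom.ext fun γ => DFunLike.congr_fun h
    (Additive.ofMul (Subgroup.inclusion GroupH1.GammaH_top.le (Additive.toMul γ))))

/-- Under `gamma0Hom` the variable at `ℓ` is the Hecke operator at `ℓ`. -/
theorem gamma0Hom_X_smul (ℓ : Nat.Primes) (x : HMod N (⊤ : Subgroup (ZMod N)ˣ) 𝒪) :
    gamma0Hom ((MvPolynomial.X ℓ : HeckePoly 𝒪) • x) = heckeOp N ℓ ℓ.2 𝒪 (gamma0Hom x) := by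
  obtain ⟨φ, rfl⟩ := toH.surjective x
  obtain ⟨ℓ, hl⟩ := ℓ
  have : Fact ℓ.Prime := ⟨hl⟩
  show IharaH1.toGamma0 (toH.symm ((MvPolynomial.X (GroupH1.primeOf ℓ) : HeckePoly 𝒪) • toH φ)) = _
  rw [GroupH1.X_smul_toH, LinearEquiv.symm_apply_apply, toGamma0_transfer]
  rfl

/-- The operator attached to an index. -/
abbrev opVar (𝒪 : Type) [CommRing 𝒪] {S : Set ℕ} (i : OpIdx S) : HeckePoly 𝒪 := MvPolynomial.X i.1

/-- Under `gamma0Hom` the polynomial of a word acts as the word. -/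
theorem gamma0Hom_wordPoly_smul {S : Set ℕ} (P : FreeAlgebra ℤ (OpIdx S)) :
    ∀ x : HMod N (⊤ : Subgroup (ZMod N)ˣ) 𝒪,
      gamma0Hom (wordPoly (opVar 𝒪) P • x) = wordAct N S 𝒪 P (gamma0Hom x) := by
  induction P using FreeAlgebra.induction with
  | grade0 r =>
    intro x
    simp [Int.cast_smul_eq_zsmul]
  | grade1 i =>
    intro x
    simpa [wordPoly, wordAct] using gamma0Hom_X_smul i.1 x
  | add a b ha hb =>
    intro x
    simp only [map_add, add_smul, LinearMap.add_apply, ha, hb]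
  | mul a b ha hb =>
    intro x
    simp only [map_mul, mul_smul, Module.End.mul_apply, ha, hb]

/-! ### Restriction of words to a divisor of the level -/

/-- A word killing the forms of a level kills those of a divisor of the level. -/
theorem wordEval_eq_zero_of_dvd {M N' : ℕ} [NeZero M] [NeZero N'] (hdvd : M ∣ N') {S : Set ℕ}
    (hS : ∀ q, q.Prime → q ∣ N' → q ∈ S) {P : FreeAlgebra ℤ (OpIdx S)}
    (hP : wordEval N' S P = 0) : wordEval M S P = 0 := by
  have key : ∀ (Q : FreeAlgebra ℤ (OpIdx S)) (f : CuspForm (Gamma0 M) 2),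
      ⇑((wordEval M S Q : Module.End ℂ (CuspForm (Gamma0 M) 2)) f) =
        ⇑((wordEval N' S Q : Module.End ℂ (CuspForm (Gamma0 N') 2))
          (Newforms.raise N' hdvd f)) := by
    intro Q
    induction Q using FreeAlgebra.induction with
    | grade0 r =>
      intro f
      simp only [AlgHom.commutes, Subalgebra.coe_algebraMap, Module.algebraMap_end_apply]
      rfl
    | grade1 i =>
      intro f
      have hN' : ¬ (i.1 : ℕ) ∣ N' := fun h => i.2 (hS _ i.1.2 h)
      have hM : ¬ (i.1 : ℕ) ∣ M := fun h => hN' (h.trans hdvd)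
      simp [wordEval, hN', hM, heckeAlgebra.T]
    | add a b ha hb =>
      intro f
      simp only [map_add, Subalgebra.coe_add, LinearMap.add_apply, FunLike.coe_add, ha, hb]
    | mul a b ha hb =>
      intro f
      simp only [map_mul, Subalgebra.coe_mul, Module.End.mul_apply, ha]
      congr 2
      exact DFunLike.coe_injective (hb f)
  refine Subtype.ext (LinearMap.ext fun f => DFunLike.coe_injective ?_)
  show ⇑((wordEval M S P : Module.End ℂ (CuspForm (Gamma0 M) 2)) f) = ⇑(0 : CuspForm (Gamma0 M) 2)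
  rw [key, hP]
  rfl

/-! ### The level -/

variable [IsDomain 𝒪] [IsDiscreteValuationRing 𝒪] [IsAdicComplete (maximalIdeal 𝒪) 𝒪]
  [CharZero 𝒪] [NeZero N] {N' : ℕ} [NeZero N'] {S : Finset ℕ}

variable (𝒪 N) in
/-- `Hom(Γ₀(N), 𝒪)` localised at the residual system `a`. -/
abbrev levelLoc (a : Nat.Primes → ResidueField 𝒪) : Type :=
  LocM (eigIdeal a) (HMod N (⊤ : Subgroup (ZMod N)ˣ) 𝒪)

instance levelLoc_finite (a : Nat.Primes → ResidueField 𝒪) :
    Module.Finite 𝒪 (levelLoc 𝒪 N a) :=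
  GroupH1.finite_locM (eigIdeal a)

omit [IsAdicComplete (maximalIdeal 𝒪) 𝒪] [CharZero 𝒪] [NeZero N] in
theorem levelLoc_smul_eq_zero (a : Nat.Primes → ResidueField 𝒪) {r : 𝒪}
    (hr : r ≠ 0) {x : levelLoc 𝒪 N a} (h : r • x = 0) : x = 0 :=
  GroupH1.locM_torsion_free (eigIdeal a) (GroupH1.smul_eq_zero_hMod hr) x h

instance levelLoc_isTorsionFree (a : Nat.Primes → ResidueField 𝒪) :
    Module.IsTorsionFree 𝒪 (levelLoc 𝒪 N a) :=
  Module.isTorsionFree_iff_smul_eq_zero.mpr fun _ _ h =>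
    or_iff_not_imp_left.mpr fun hr => levelLoc_smul_eq_zero a hr h

instance levelLoc_free (a : Nat.Primes → ResidueField 𝒪) : Module.Free 𝒪 (levelLoc 𝒪 N a) :=
  Module.free_of_finite_type_torsion_free'

variable (N N') in
/-- The hypotheses on a level: `N ∣ N'`, the primes of `N'` lie in `S`, `θ` is the restriction of
the residual system `a`, and `a` is not Eisenstein. -/
structure LevelHyp (S : Finset ℕ) (a : Nat.Primes → ResidueField 𝒪)
    (θ : heckeAlgebra N' 2 (↑S : Set ℕ) →+* ResidueField 𝒪) : Prop where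
  dvd : N ∣ N'
  prime_mem : ∀ q : ℕ, q.Prime → q ∣ N' → q ∈ S
  theta_T : ∀ (l : ℕ) (hl : l.Prime) (hlN : ¬ l ∣ N') (hlS : l ∉ (↑S : Set ℕ)),
    θ (heckeAlgebra.T hl hlN hlS) = a ⟨l, hl⟩
  nonEis : ∃ l : Nat.Primes, ((l : ℕ) : ZMod N) = 1 ∧ a l ≠ ((l : ℕ) : ResidueField 𝒪) + 1

omit [IsDiscreteValuationRing 𝒪] [IsAdicComplete (maximalIdeal 𝒪) 𝒪] [NeZero N] in
/-- `X_l - (l + 1)`, `l ≡ 1` mod `N`, makes homomorphisms parabolic. -/
theorem isParabolicHom_gamma0Hom_smul {l : Nat.Primes} (hl : ((l : ℕ) : ZMod N) = 1)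
    (x : HMod N (⊤ : Subgroup (ZMod N)ˣ) 𝒪) :
    ModularCurve.Period.IsParabolicHom (Gamma0 N)
      (gamma0Hom ((MvPolynomial.X l - MvPolynomial.C (((l : ℕ) : 𝒪) + 1) : HeckePoly 𝒪) • x)) := by
  obtain ⟨φ, rfl⟩ := toH.surjective x
  obtain ⟨l, hlp⟩ := l
  have : Fact l.Prime := ⟨hlp⟩
  intro γ hγ
  let γ' : GammaH N (⊤ : Subgroup (ZMod N)ˣ) := Subgroup.inclusion GroupH1.GammaH_top.ge γ
  rw [sub_smul, GroupH1.C_smul]
  show IharaH1.toGamma0 (toH.symm ((MvPolynomial.X (GroupH1.primeOf l) : HeckePoly 𝒪) • toH φ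
    - ((l : 𝒪) + 1) • toH φ)) (Additive.ofMul γ) = 0
  rw [GroupH1.X_smul_toH, map_sub toH.symm, map_smul toH.symm, LinearEquiv.symm_apply_apply,
    LinearEquiv.symm_apply_apply]
  show (heckeSystem N ⊤ l).transfer φ (Additive.ofMul γ') -
    ((l : 𝒪) + 1) * φ (Additive.ofMul γ') = 0
  have h2 := HeckeCohom.two_nsmul_transfer_apply_parabolic (M := N) hl φ γ' (by exact hγ)
  rw [zsmul_eq_mul, nsmul_eq_mul, nsmul_eq_mul] at h2
  have h3 := mul_left_cancel₀ (Nat.cast_ne_zero.mpr two_ne_zero) h2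
  rw [h3]
  push_cast
  ring

/-- Words killing all cusp forms of level `N'` kill the level. -/
theorem wordPoly_smul_eq_zero {a : Nat.Primes → ResidueField 𝒪} (hdvd : N ∣ N')
    (hS : ∀ q, q.Prime → q ∣ N' → q ∈ S)
    (hl : ∃ l : Nat.Primes, ((l : ℕ) : ZMod N) = 1 ∧ a l ≠ ((l : ℕ) : ResidueField 𝒪) + 1)
    {P : FreeAlgebra ℤ (OpIdx (↑S : Set ℕ))} (hP : wordEval N' (↑S : Set ℕ) P = 0)
    (x : levelLoc 𝒪 N a) : wordPoly (opVar 𝒪) P • x = 0 := by
  obtain ⟨l, hl, hne⟩ := hl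
  obtain ⟨v, rfl⟩ := GroupH1.toLocM_surjective 𝒪 (eigIdeal a) x
  set e : HeckePoly 𝒪 := MvPolynomial.X l - MvPolynomial.C (((l : ℕ) : 𝒪) + 1) with he
  have he' : e ∉ eigIdeal a := by
    rw [he, GroupH1.X_sub_C_mem_eigIdeal_iff]
    simpa using hne
  refine GroupH1.smul_locM_eq_zero (eigIdeal a) he' ?_
  rw [← map_smul, ← map_smul, smul_comm]
  have hP' := wordEval_eq_zero_of_dvd hdvd
    (fun q hq hqN => Finset.mem_coe.mpr (hS q hq hqN)) hP
  have h0 : wordPoly (opVar 𝒪) P • e • v = 0 := gamma0Hom_injective <| by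
    rw [map_zero, gamma0Hom_wordPoly_smul]
    exact HeckeCohom.wordAct_eq_zero_of_wordEval_eq_zero (eichlerShimuraSurjective N) hP' _
      (isParabolicHom_gamma0Hom_smul hl v)
  rw [h0, map_zero]

variable {a : Nat.Primes → ResidueField 𝒪}
  {θ : heckeAlgebra N' 2 (↑S : Set ℕ) →+* ResidueField 𝒪}

/-- The level satisfies the hypotheses of `localAct`. -/
theorem LevelHyp.wordHyp (h : LevelHyp N N' S a θ) :
    WordHyp (HMod N (⊤ : Subgroup (ZMod N)ˣ) 𝒪) (eigIdeal a) (opVar 𝒪 (S := (↑S : Set ℕ)))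
      (MvPolynomial.aeval a) θ where
  mem s hs := hs
  theta i := by
    obtain ⟨⟨l, hl⟩, hi⟩ := i
    have hN' : ¬ l ∣ N' := fun hd => hi (Finset.mem_coe.mpr (h.prime_mem l hl hd))
    simpa [wordEval, hN'] using h.theta_T l hl hN' hi
  kill P hP x := wordPoly_smul_eq_zero h.dvd h.prime_mem h.nonEis hP x

/-- The action of `heckeLocal N' S 𝒪 θ` on the level. -/
def levelAct (h : LevelHyp N N' S a θ) :
    heckeLocal N' (↑S : Set ℕ) 𝒪 θ →ₐ[𝒪] Module.End 𝒪 (levelLoc 𝒪 N a) :=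
  localAct h.wordHyp

/-- The action of `T_l` on a level module is that of the variable at `l`. -/
theorem levelAct_π_T (h : LevelHyp N N' S a θ) {l : ℕ} (hl : l.Prime) (hlN : ¬ l ∣ N')
    (hlS : l ∉ (↑S : Set ℕ)) (x : levelLoc 𝒪 N a) :
    levelAct h (heckeLocal.π N' (↑S : Set ℕ) 𝒪 θ (heckeAlgebra.T hl hlN hlS)) x =
      (MvPolynomial.X ⟨l, hl⟩ : HeckePoly 𝒪) • x :=
  localAct_π_T h.wordHyp hl hlN hlS x

/-- The level attached to `N ∣ N'` and a non-Eisenstein residual system. -/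
def levelModule (h : LevelHyp N N' S a θ) [Nontrivial (levelLoc 𝒪 N a)] :
    LevelModule 𝒪 N' S θ where
  M := levelLoc 𝒪 N a
  act := levelAct h

/-- The module of the level is the localised Hecke module. -/
def levelModuleEquiv (h : LevelHyp N N' S a θ) [Nontrivial (levelLoc 𝒪 N a)] :
    (levelModule h).M ≃ₗ[𝒪] levelLoc 𝒪 N a :=
  LinearEquiv.refl 𝒪 (levelLoc 𝒪 N a)

/-- `T_l` acts on the level module as the variable at `l`. -/
theorem levelModule_toT_smul (h : LevelHyp N N' S a θ) [Nontrivial (levelLoc 𝒪 N a)] {l : ℕ}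
    (hl : l.Prime) (hlN : ¬ l ∣ N') (hlS : l ∉ (↑S : Set ℕ)) (x : (levelModule h).M) :
    levelModuleEquiv h
        ((levelModule h).toT (heckeLocal.π N' (↑S : Set ℕ) 𝒪 θ (heckeAlgebra.T hl hlN hlS)) • x) =
      (MvPolynomial.X ⟨l, hl⟩ : HeckePoly 𝒪) • levelModuleEquiv h x :=
  levelAct_π_T h hl hlN hlS (levelModuleEquiv h x)

end Fermat.Agent.Lifting
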