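import Fermat.Agent.Lifting.TWInputs
import Fermat.Agent.Lifting.Constructors
import Fermat.Agent.HeckeCohom.TwistQuotient

/-!
# The twisted action at a Taylor–Wiles level

A non-Eisenstein system occurring at level `N` gives a character of the Hecke algebra of every
multiple of `N`, and with it the twisted action of the local Hecke algebra of `Γ₀(N ∏ qⱼ²)` on the
module of a Taylor–Wiles level.
-/

set_option autoImplicit false

noncomputable section

open IsLocalRing

namespace Fermat.Agent.Lifting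

open Fermat.Agent.Patching
open Fermat.Agent.GroupH1 (LocM HMod HeckePoly eigIdeal twSystem toLocM)
open Fermat.Agent.HeckeCohom (OpIdx wordEval wordEval_surjective)

variable {O : Type} [CommRing O] [IsDomain O] [IsDiscreteValuationRing O]
  [IsAdicComplete (maximalIdeal O) O] [CharZero O]

/-- A system occurring at level `N` is a character of the Hecke algebra at every multiple. -/
theorem exists_theta_of_dvd {N N' : ℕ} [NeZero N] [NeZero N'] (hdvd : N ∣ N') {S : Finset ℕ}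
    (hS : ∀ q : ℕ, q.Prime → q ∣ N' → q ∈ S) (a : Nat.Primes → ResidueField O)
    (hne : ∃ l : Nat.Primes, ((l : ℕ) : ZMod N) = 1 ∧ a l ≠ ((l : ℕ) : ResidueField O) + 1)
    [Nontrivial (levelLoc O N a)] :
    ∃ θ : CuspForm.heckeAlgebra N' 2 (↑S : Set ℕ) →+* ResidueField O,
      ∀ (l : ℕ) (hl : l.Prime) (hlN : ¬ l ∣ N') (hlS : l ∉ (↑S : Set ℕ)),
        θ (CuspForm.heckeAlgebra.T hl hlN hlS) = a ⟨l, hl⟩ := by
  let ev : HeckePoly O →+* ResidueField O := MvPolynomial.eval₂Hom (residue O) a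
  let f : FreeAlgebra ℤ (OpIdx (↑S : Set ℕ)) →+* ResidueField O :=
    ev.comp (wordPoly (opVar O)).toRingHom
  have hle : RingHom.ker (wordEval N' (↑S : Set ℕ)).toRingHom ≤ RingHom.ker f := by
    intro P hP
    rw [RingHom.mem_ker] at hP ⊢
    by_contra h
    obtain ⟨x, hx⟩ := exists_ne (0 : levelLoc O N a)
    obtain ⟨v, rfl⟩ := GroupH1.toLocM_surjective O (eigIdeal a) x
    obtain ⟨l, hl, hla⟩ := hne
    have he : (MvPolynomial.X l - MvPolynomial.C (((l : ℕ) : O) + 1) : HeckePoly O) ∉ eigIdeal a := by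
      rw [GroupH1.X_sub_C_mem_eigIdeal_iff]
      simpa using hla
    refine hx (GroupH1.smul_locM_eq_zero (eigIdeal a) he
      (GroupH1.smul_locM_eq_zero (eigIdeal a) (u := wordPoly (opVar O) P) h ?_))
    rw [← map_smul, ← map_smul]
    have hP' := wordEval_eq_zero_of_dvd hdvd
      (fun q hq hqN => Finset.mem_coe.mpr (hS q hq hqN)) hP
    have h0 : wordPoly (opVar O) P •
        ((MvPolynomial.X l - MvPolynomial.C (((l : ℕ) : O) + 1) : HeckePoly O) • v) = 0 :=
      gamma0Hom_injective <| by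
        rw [map_zero, gamma0Hom_wordPoly_smul]
        exact HeckeCohom.wordAct_eq_zero_of_wordEval_eq_zero (eichlerShimuraSurjective N) hP' _
          (isParabolicHom_gamma0Hom_smul hl v)
    rw [h0, map_zero]
  refine ⟨RingHom.liftOfSurjective (wordEval N' (↑S : Set ℕ)).toRingHom wordEval_surjective
    ⟨f, hle⟩, fun l hl hlN hlS => ?_⟩
  have h1 : (wordEval N' (↑S : Set ℕ)).toRingHom (FreeAlgebra.ι ℤ ⟨⟨l, hl⟩, hlS⟩) =
      CuspForm.heckeAlgebra.T hl hlN hlS := by simp [wordEval, hlN]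
  rw [← h1]
  refine (RingHom.liftOfRightInverse_comp_apply _ _ _ _ _).trans ?_
  simp [f, ev, wordPoly]

variable (O) (N : ℕ) [NeZero N] (p : ℕ) [Fact p.Prime] {r : ℕ}
  (qv : Fin r → Nat.Primes) (hinj : Function.Injective qv)
  (a α : Nat.Primes → ResidueField O)

omit [NeZero N] in
/-- `twM2` is `twM` times the Taylor–Wiles primes. -/
theorem twM2_eq_mul : twM2 N qv = twM N qv * ∏ q ∈ (twQ qv).image ((↑) : Nat.Primes → ℕ), q := by
  have h : ∏ q ∈ (twQ qv).image ((↑) : Nat.Primes → ℕ), q = ∏ q ∈ twQ qv, (q : ℕ) :=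
    Finset.prod_image fun x _ y _ h => Subtype.ext h
  rw [h, twM, mul_assoc]
  exact congrArg (N * ·)
    ((Finset.prod_congr rfl fun (q : Nat.Primes) _ => pow_two (q : ℕ)).trans Finset.prod_mul_distrib)

omit [NeZero N] in
/-- The square of a Taylor–Wiles prime does not divide `twM`. -/
theorem not_sq_dvd_twM (hqN : ∀ j, ¬ (qv j : ℕ) ∣ N) (j : Fin r) :
    ¬ (qv j : ℕ) * (qv j : ℕ) ∣ twM N qv := by
  intro h
  rw [twM, ← Finset.mul_prod_erase _ _ (mem_twQ qv j), mul_left_comm] at h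
  have h1 := Nat.dvd_of_mul_dvd_mul_left (qv j).2.pos h
  rcases (qv j).2.dvd_mul.1 h1 with h2 | h2
  · exact hqN j h2
  · obtain ⟨q, hq, hd⟩ := (Prime.dvd_finsetProd_iff (qv j).2.prime _).1 h2
    exact (Finset.mem_erase.1 hq).1
      (Subtype.ext ((Nat.prime_dvd_prime_iff_eq (qv j).2 q.2).1 hd)).symm

omit [IsAdicComplete (maximalIdeal O) O] [CharZero O] [Fact p.Prime] in
/-- The subalgebra of `TwistQuotient` is the algebra of the Taylor–Wiles level. -/
theorem heckeDiamondAlgebra_le :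
    HeckeCohom.heckeDiamondAlgebra (twChi N p qv) (twChi_surjective N p hinj) (mem_twH N p qv)
      (O := O) (eigIdeal (twSystem (twQ qv) a α)) ≤ twAlg O N p qv hinj a α := by
  refine Algebra.adjoin_le ?_
  rintro _ (⟨g, rfl⟩ | ⟨P, rfl⟩)
  · exact twDiamond_mem O N p qv hinj a α g
  · induction P using MvPolynomial.induction_on with
    | C c =>
      rw [← MvPolynomial.algebraMap_eq, AlgHom.commutes]
      exact Subalgebra.algebraMap_mem _ c
    | add x y hx hy => rw [map_add]; exact add_mem hx hy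
    | mul_X x i hx => rw [map_mul]; exact mul_mem hx (twX_mem O N p qv hinj a α i)

/-- **The twisted action at a Taylor–Wiles level.** -/
theorem twTwistAct (hp2 : p ≠ 2) (hpO : (p : O) ∈ maximalIdeal O) {S : Finset ℕ}
    (hNS : ∀ q : ℕ, q.Prime → q ∣ N → q ∈ S) (hqS : ∀ j, (qv j : ℕ) ∈ S)
    (hqN : ∀ j, ¬ (qv j : ℕ) ∣ N)
    (hne : ∃ l : Nat.Primes, l ∉ twQ qv ∧ ((l : ℕ) : ZMod (twM2 N qv)) = 1 ∧
      a l ≠ ((l : ℕ) : ResidueField O) + 1)
    [Nontrivial (levelLoc O N a)] :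
    TWTwistAct O N p qv hinj a α S := by
  have hdvd : N ∣ twM2 N qv := (dvd_twM_self N qv).trans (twM_dvd_twM2 N qv)
  have hN'S : ∀ q : ℕ, q.Prime → q ∣ twM2 N qv → q ∈ S := fun q hq hd => by
    rcases (dvd_twM2_iff N qv hq).1 hd with h | ⟨j, rfl⟩
    · exact hNS q hq h
    · exact hqS j
  obtain ⟨l₀, hl₀Q, hl₀1, hl₀a⟩ := hne
  obtain ⟨θ, hθ⟩ := exists_theta_of_dvd hdvd hN'S a ⟨l₀, by
    rw [← map_natCast (ZMod.castHom hdvd (ZMod N)) (l₀ : ℕ), hl₀1, map_one], hl₀a⟩
  have hnotQ : ∀ l : Nat.Primes, (l : ℕ) ∉ S → l ∉ twQ qv := fun l hlS hl => by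
    obtain ⟨j, rfl⟩ := exists_of_mem_twQ qv hl
    exact hlS (hqS j)
  obtain ⟨act, hmem, hact⟩ := HeckeCohom.exists_twistedLocalAct (twChi N p qv)
    (twChi_surjective N p hinj) (mem_twH N p qv) (eigIdeal (twSystem (twQ qv) a α)) hpO
    (isPGroup_deltaV p qv) (sqrtExp p qv) (pow_two_mul_sqrtExp qv Fact.out hp2)
    (twM2_eq_mul N qv)
    (fun q hq => by
      obtain ⟨q', hq', rfl⟩ := Finset.mem_image.1 hq
      obtain ⟨j, rfl⟩ := exists_of_mem_twQ qv hq'
      exact ⟨(qv j).2, dvd_twM N qv j, not_sq_dvd_twM N qv hqN j⟩)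
    (fun u hu => (mem_twH N p qv ⟨u, Subgroup.mem_top u⟩).2 (funext fun j => by
      have : ZMod.unitsMap (dvd_twM N qv j) u = 1 :=
        Units.ext (hu _ (Finset.mem_image_of_mem _ (mem_twQ qv j)) (dvd_twM N qv j))
      rw [twChi_apply, this, map_one]
      rfl))
    (S := (↑S : Set ℕ))
    (fun l hl hd => Finset.mem_coe.2 (hN'S l hl (hd.trans (twM_dvd_twM2 N qv)))) θ
    (fun l hl hlN hlS => by
      obtain ⟨c, hc⟩ := residue_surjective (a ⟨l, hl⟩)
      refine ⟨c, hc.trans (hθ l hl hlN hlS).symm,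
        (GroupH1.X_sub_C_mem_eigIdeal_iff (ℓ := (⟨l, hl⟩ : Nat.Primes))).2 ?_⟩
      rw [GroupH1.twSystem_of_not_mem (hnotQ ⟨l, hl⟩ fun h => hlS (Finset.mem_coe.2 h)), hc])
    ⟨l₀, hl₀1, by
      rw [GroupH1.X_sub_C_mem_eigIdeal_iff, GroupH1.twSystem_of_not_mem hl₀Q]
      simpa using hl₀a⟩
  have hδ : ∀ l : ℕ, HeckeCohom.classOf (twChi N p qv) (HeckeCohom.unitAt (twM N qv) l) =
      deltaOf N p qv l := fun l => by
    unfold HeckeCohom.classOf HeckeCohom.unitAt deltaOf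
    split_ifs
    · rfl
    · exact map_one _
  exact ⟨θ, hθ, act, fun x => heckeDiamondAlgebra_le O N p qv hinj a α (hmem x),
    fun l hl hlN hlS => LinearMap.ext fun x => (hact l hl hlN hlS x).trans (by rw [hδ]; rfl)⟩

end Fermat.Agent.Lifting
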