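import Fermat.Agent.TWHyp.Primes
import Fermat.Agent.LevelRaisingPrime.Main
import Mathlib.RingTheory.LocalRing.ResidueField.Basic

/-!
# Auxiliary primes for a residual system coming from a curve

If a residual system agrees with the traces of `E[p]` outside a finite set, it is not Eisenstein
at any level, and for `p = 3` it is nonzero at a prime `≡ 2 (mod 3)`.
-/

set_option autoImplicit false

noncomputable section

namespace Fermat.Agent.Lifting

open IsLocalRing WeierstrassCurve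

variable {O : Type} [CommRing O] [IsLocalRing O] {W : WeierstrassCurve ℤ} {p : ℕ} [Fact p.Prime]

/-- A system congruent to the traces of `W` is non-Eisenstein at a prime `≡ 1 (mod M)` outside
any finite set. -/
theorem exists_nonEisenstein_prime (hΔ : W.Δ ≠ 0) (hp2 : p ≠ 2) (hirr : W.ModRepIsIrreducible p)
    [Algebra (ZMod p) (ResidueField O)] (a : Nat.Primes → ResidueField O) (S₁ : Finset ℕ)
    (ha : ∀ l : Nat.Primes, (l : ℕ) ∉ S₁ → W.IsGoodPrimeFor l →
      a l = algebraMap (ZMod p) (ResidueField O) (W.apOfModel l : ZMod p))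
    (M : ℕ) [NeZero M] (T : Finset ℕ) :
    ∃ l : Nat.Primes, (l : ℕ) ∉ T ∧ ((l : ℕ) : ZMod M) = 1 ∧
      a l ≠ ((l : ℕ) : ResidueField O) + 1 := by
  classical
  set P : ℕ := ∏ q ∈ (T ∪ S₁).filter Nat.Prime, q
  have hP : 0 < P := Finset.prod_pos fun q hq => (Finset.mem_filter.mp hq).2.pos
  obtain ⟨l, hl, hlM, hgood, hl1, hne⟩ :=
    LevelRaisingPrime.exists_prime_one_mod_trace_ne_two W p hΔ hp2
      (TWHyp.frobeniusTraceDet W p) hirr (M * P) (Nat.mul_pos (NeZero.pos M) hP)
  have hout : l ∉ T ∪ S₁ := fun h => hlM ((dvd_mul_of_dvd_right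
    (Finset.dvd_prod_of_mem _ (Finset.mem_filter.mpr ⟨h, hl⟩)) M).mul_right p)
  rw [Finset.mem_union, not_or] at hout
  have hlM1 : ((l : ℕ) : ZMod M) = 1 := by
    have := congrArg (ZMod.castHom ((dvd_mul_right M P).mul_left p) (ZMod M)) hl1
    rwa [map_natCast, map_one] at this
  have hlp : (l : ZMod p) = 1 := by
    have := congrArg (ZMod.castHom (dvd_mul_right p (M * P)) (ZMod p)) hl1
    rwa [map_natCast, map_one] at this
  refine ⟨⟨l, hl⟩, hout.1, hlM1, fun h => hne ((algebraMap (ZMod p) (ResidueField O)).injective ?_)⟩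
  rw [← ha ⟨l, hl⟩ hout.2 hgood, h, ← map_natCast (algebraMap (ZMod p) (ResidueField O)), hlp,
    map_one, one_add_one_eq_two, map_ofNat]

/-- For `p = 3` such a system is nonzero at some prime `≡ 2 (mod 3)`. -/
theorem exists_prime_two_mod_three_ne_zero (hΔ : W.Δ ≠ 0) (hW : W.IsSemistableModel)
    (hirr : W.ModRepIsIrreducible 3) [Algebra (ZMod 3) (ResidueField O)]
    (a : Nat.Primes → ResidueField O) (S₁ : Finset ℕ)
    (ha : ∀ l : Nat.Primes, (l : ℕ) ∉ S₁ → W.IsGoodPrimeFor l →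
      a l = algebraMap (ZMod 3) (ResidueField O) (W.apOfModel l : ZMod 3))
    (T : Finset ℕ) :
    ∃ l : Nat.Primes, (l : ℕ) ∉ T ∧ (l : ℕ) % 3 = 2 ∧ a l ≠ 0 := by
  have := Fact.mk Nat.prime_three
  obtain ⟨l, hl, hlT, -, hgood, hl3, hne⟩ :=
    TWHyp.exists_prime_two_mod_three W hΔ hW hirr (T ∪ S₁)
  rw [Finset.mem_union, not_or] at hlT
  refine ⟨⟨l, hl⟩, hlT.1, hl3, fun h => hne ((algebraMap (ZMod 3) (ResidueField O)).injective ?_)⟩
  rw [← ha ⟨l, hl⟩ hlT.2 hgood, h, map_zero]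

end Fermat.Agent.Lifting
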