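import Fermat.Agent.CuspIntStr.Main
import Fermat.Agent.S54
import Fermat.Prelude.Def_CuspForm_HeckeLocal
import Fermat.Prelude.Def_GaloisRep_DeformationCondition

/-!
# Levels of the modularity lifting argument

A level is a finite free `𝒪`-module with an action of a local Hecke algebra `heckeLocal N S 𝒪 θ`
(all primes of `N` in `S`).  Its Hecke ring `T` is the image of the action; a deformation ring
whose condition holds for the representation over the local Hecke algebra surjects onto `T`.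
-/

set_option autoImplicit false

noncomputable section

namespace Fermat.Agent.Lifting

open IsLocalRing CuspForm GaloisRep

/-- Weight two cusp forms have an integral structure (instance). -/
instance fact_hasIntegralStructure (N : ℕ) [NeZero N] : Fact (CuspForm.HasIntegralStructure N 2) :=
  ⟨CuspIntStr.hasIntegralStructure N 2⟩

variable (𝒪 : Type) [CommRing 𝒪] [IsDomain 𝒪] [IsDiscreteValuationRing 𝒪]
  [IsAdicComplete (maximalIdeal 𝒪) 𝒪]

/-- A module over a local Hecke algebra. -/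
structure LevelModule (N : ℕ) [NeZero N] (S : Finset ℕ)
    (θ : heckeAlgebra N 2 (↑S : Set ℕ) →+* ResidueField 𝒪) : Type 1 where
  M : Type
  [addCommGroup : AddCommGroup M]
  [module : Module 𝒪 M]
  [finite : Module.Finite 𝒪 M]
  [free : Module.Free 𝒪 M]
  [nontrivial : Nontrivial M]
  act : heckeLocal N (↑S : Set ℕ) 𝒪 θ →ₐ[𝒪] Module.End 𝒪 M

attribute [instance] LevelModule.addCommGroup LevelModule.module LevelModule.finite
  LevelModule.free LevelModule.nontrivial

namespace LevelModule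

variable {𝒪} {N : ℕ} [NeZero N] {S : Finset ℕ}
  {θ : heckeAlgebra N 2 (↑S : Set ℕ) →+* ResidueField 𝒪} (L : LevelModule 𝒪 N S θ)

/-- The Hecke ring of a level. -/
abbrev T : Type := ↥L.act.range

instance instCommRingT : CommRing L.T :=
  { (inferInstance : Ring ↥L.act.range) with
    mul_comm := by
      rintro ⟨_, s, rfl⟩ ⟨_, t, rfl⟩
      exact Subtype.ext ((map_mul L.act s t).symm.trans
        ((congrArg L.act (mul_comm s t)).trans (map_mul L.act t s))) }

/-- The surjection of the local Hecke algebra onto the Hecke ring of a level. -/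
def toT : heckeLocal N (↑S : Set ℕ) 𝒪 θ →ₐ[𝒪] L.T := L.act.rangeRestrict


omit [IsAdicComplete (maximalIdeal 𝒪) 𝒪] in
/-- The map to the Hecke ring of a level is surjective. -/
theorem toT_surjective : Function.Surjective L.toT := L.act.rangeRestrict_surjective

omit [IsAdicComplete (maximalIdeal 𝒪) 𝒪] in
/-- The Hecke ring acts through `act`. -/
theorem smul_def (x : heckeLocal N (↑S : Set ℕ) 𝒪 θ) (m : L.M) : L.toT x • m = L.act x m := rfl

omit [IsAdicComplete (maximalIdeal 𝒪) 𝒪] in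
/-- The Hecke ring of a level acts faithfully. -/
theorem eq_zero_of_smul_eq_zero {t : L.T} (h : ∀ m : L.M, t • m = 0) : t = 0 :=
  Subtype.ext (LinearMap.ext h)

instance instNontrivialT : Nontrivial L.T := Module.nontrivial L.T L.M

instance instFiniteT : Module.Finite 𝒪 L.T :=
  Module.Finite.of_surjective L.toT.toLinearMap L.toT_surjective

instance instIsTorsionFreeT : Module.IsTorsionFree 𝒪 L.T :=
  Module.isTorsionFree_iff_smul_eq_zero.mpr fun r t h => by
    refine or_iff_not_imp_left.mpr fun hr => L.eq_zero_of_smul_eq_zero fun m => ?_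
    have h1 : r • (t • m) = 0 := by rw [← smul_assoc, h, zero_smul]
    exact (smul_eq_zero.mp h1).resolve_left hr

instance instFreeT : Module.Free 𝒪 L.T := Module.free_of_finite_type_torsion_free'

instance instIsLocalRingT : IsLocalRing L.T :=
  IsLocalRing.of_surjective' (L.toT : heckeLocal N (↑S : Set ℕ) 𝒪 θ →+* L.T) L.toT_surjective

instance instIsNoetherianRingT : IsNoetherianRing L.T :=
  isNoetherianRing_of_surjective _ _ (L.toT : heckeLocal N (↑S : Set ℕ) 𝒪 θ →+* L.T)
    L.toT_surjective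

/-- The deformation ring surjects onto the Hecke ring, compatibly with the traces of Frobenius. -/
theorem exists_surjection {ρbar : ResidualGaloisRep (ResidueField 𝒪)}
    {𝒟 : ∀ ⦃A : Type⦄ [CommRing A] [IsLocalRing A] [Algebra 𝒪 A], GaloisRepAdic A → Prop}
    (D : DeformationRingData 𝒪 ρbar 𝒟)
    (H : HeckeGaloisRepDatum N (↑S : Set ℕ) 𝒪 θ (heckeLocal N (↑S : Set ℕ) 𝒪 θ))
    (hS : ∀ q : ℕ, q.Prime → q ∣ N → q ∈ S) (h𝒟 : 𝒟 H.ρ)
    (hres : H.ρ.residual.IsEquiv (ρbar.baseChangeAlong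
      (ResidueField.map (algebraMap 𝒪 (heckeLocal N (↑S : Set ℕ) 𝒪 θ))))) :
    ∃ φ : D.R →ₐ[𝒪] L.T, Function.Surjective φ ∧
      ∀ (ℓ : ℕ) (hℓ : ℓ.Prime) (hℓN : ¬ ℓ ∣ N) (hℓS : ℓ ∉ (↑S : Set ℕ)),
        ∀ P : ValuationSubring (AlgebraicClosure ℚ), P.LiesOverPrime ℓ →
          ∀ σ : AlgebraicClosure ℚ ≃ₐ[ℚ] AlgebraicClosure ℚ, P.IsFrobeniusAt σ ℓ →
            φ (LinearMap.trace D.R D.ρ.V (D.ρ.ρ σ)) =
              L.toT (H.π (heckeAlgebra.T hℓ hℓN hℓS)) := by
  obtain ⟨φ, hφ, hloc, ⟨e⟩⟩ := Fermat.Agent.S54.result D H (fun q hq hqN => hS q hq hqN) h𝒟 hres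
  refine ⟨L.toT.comp φ, L.toT_surjective.comp hφ, fun ℓ hℓ hℓN hℓS P hP σ hσ => ?_⟩
  rw [AlgHom.comp_apply]
  congr 1
  have h1 : ((D.ρ.baseChangeAlong (φ : D.R →+* _) hloc).ρ σ).charpoly = (H.ρ.ρ σ).charpoly := by
    rw [← e.toLinearEquiv.charpoly_conj]
    congr 1
    refine LinearMap.ext fun v => ?_
    simp [LinearEquiv.conj_apply, e.map_apply]
  rw [Fermat.Agent.S54.charpoly_baseChangeAlong, H.charpoly_frob ℓ hℓ hℓN hℓS P hP σ hσ] at h1
  set b := Module.finBasisOfFinrankEq D.R D.ρ.V D.ρ.finrank_eq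
  rw [← LinearMap.charpoly_toMatrix (D.ρ.ρ σ) b, Matrix.charpoly_fin_two,
    ← LinearMap.trace_eq_matrix_trace] at h1
  have h2 := congrArg (fun f : Polynomial (heckeLocal N (↑S : Set ℕ) 𝒪 θ) => f.coeff 1) h1
  simp [Polynomial.coeff_X_pow, Polynomial.coeff_C] at h2 ⊢
  exact h2

end LevelModule

end Fermat.Agent.Lifting
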