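import Fermat.Agent.Lifting.TWPoint
import Fermat.Agent.Lifting.Level
import Fermat.Agent.Lifting.ResidualData
import Fermat.Agent.Oddness.FrobeniusDet
import Fermat.Agent.OrdKummer.Main
import Fermat.Agent.S31
import Fermat.Prelude.Def_GaloisRep_Flat
import Fermat.Prelude.Def_CuspForm_HeckeGaloisRepDatum

/-!
# The deformation conditions satisfied by a Hecke Galois representation

For `H : HeckeGaloisRepDatum N S 𝒪 θ T` with `p` and the primes of `N` in `S`: cyclotomic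
determinant, the conditions of the deformation problems (given flatness at `p ∤ N`, ordinarity
at `p ∥ N` and unipotent inertia at `q ∥ N`), transfer along maps of Hecke rings, and the residual
representation when `θ (T_ℓ) = a_ℓ(W)` for almost all `ℓ`.
-/

set_option autoImplicit false

noncomputable section

open Polynomial IsLocalRing GaloisRep
open scoped TensorProduct

namespace Fermat.Agent.Lifting

open Fermat.Agent.GaloisBasics (Qbar GalQ)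
open Fermat.Agent.RepTheory (IsFrobOutside)
open CuspForm (HeckeGaloisRepDatum heckeAlgebra heckeLocal)

/-- The Galois representations of level `N` prime to the odd prime `p` are flat at `p`. -/
def FlatAtGoodLevel : Prop :=
  ∀ {p : ℕ} {N : ℕ} [NeZero N] {S : Finset ℕ}
    {𝒪 : Type} [CommRing 𝒪] [IsDomain 𝒪] [IsDiscreteValuationRing 𝒪]
    [IsAdicComplete (maximalIdeal 𝒪) 𝒪]
    {θ : heckeAlgebra N 2 (↑S : Set ℕ) →+* ResidueField 𝒪}
    {T : Type} [CommRing T] [IsLocalRing T] [IsNoetherianRing T]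
    [IsAdicComplete (maximalIdeal T) T] [Algebra 𝒪 T] [IsLocalHom (algebraMap 𝒪 T)]
    [Module.Finite 𝒪 T] [Module.Free 𝒪 T] [Finite (ResidueField 𝒪)] [CharZero 𝒪]
    (_hp : p.Prime) (_hp2 : p ≠ 2) (_hp𝒪 : (p : 𝒪) ∈ maximalIdeal 𝒪) (_hpN : ¬ p ∣ N)
    (_hpS : p ∈ S) (_hNS : ∀ q : ℕ, q.Prime → q ∣ N → q ∈ S)
    (H : HeckeGaloisRepDatum N (↑S : Set ℕ) 𝒪 θ T),
    H.ρ.IsFlatAt p

/-- The Galois representations of a level exactly divisible by the odd prime `p` are ordinary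
at `p` when their residual representation is. -/
def OrdinaryAtLevel : Prop :=
  ∀ {p : ℕ} {N : ℕ} [NeZero N] {S : Finset ℕ}
    {𝒪 : Type} [CommRing 𝒪] [IsDomain 𝒪] [IsDiscreteValuationRing 𝒪]
    [IsAdicComplete (maximalIdeal 𝒪) 𝒪]
    {θ : heckeAlgebra N 2 (↑S : Set ℕ) →+* ResidueField 𝒪}
    {T : Type} [CommRing T] [IsLocalRing T] [IsNoetherianRing T]
    [IsAdicComplete (maximalIdeal T) T] [Algebra 𝒪 T] [IsLocalHom (algebraMap 𝒪 T)]
    [Module.Finite 𝒪 T] [Module.Free 𝒪 T] [Finite (ResidueField 𝒪)] [CharZero 𝒪]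
    (_hp : p.Prime) (_hp2 : p ≠ 2) (_hp𝒪 : (p : 𝒪) ∈ maximalIdeal 𝒪)
    (_hN : p ∣ N ∧ ¬ p ^ 2 ∣ N) (_hNS : ∀ q : ℕ, q.Prime → q ∣ N → q ∈ S)
    (H : HeckeGaloisRepDatum N (↑S : Set ℕ) 𝒪 θ T)
    (_hres : (GaloisRepAdic.ofResidualGaloisRep H.ρ.residual).IsOrdinaryAt p),
    H.ρ.IsOrdinaryAt p

/-- Equivalences of residual representations as adic ones. -/
theorem ofResidual_isEquiv {k : Type} [Field k] {r r' : ResidualGaloisRep k} (h : r.IsEquiv r') :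
    (GaloisRepAdic.ofResidualGaloisRep r).IsEquiv (GaloisRepAdic.ofResidualGaloisRep r') := by
  obtain ⟨e⟩ := h
  exact ⟨⟨e.toLinearEquiv, e.map_apply⟩⟩

/-- Peu ramifiée descends along extensions of the coefficient field. -/
theorem isPeuKummer_of_baseChangeAlong {k k' : Type} [Field k] [Finite k] [Field k']
    [Finite k'] (f : k →+* k')
    {r : ResidualGaloisRep k} {p : ℕ} (h : OrdKummer.IsPeuKummer (r.baseChangeAlong f) p) :
    OrdKummer.IsPeuKummer r p := by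
  intro P hP e he
  have hf : IsLocalHom f := ⟨fun a ha => IsUnit.mk0 a fun h0 => by simp [h0] at ha⟩
  let e' : Module.Basis (Fin 2) k'
      (GaloisRepAdic.ofResidualGaloisRep (r.baseChangeAlong f)).V :=
    OrdKummer.baseChangeBasis f hf e
  have hent : ∀ σ i j, OrdKummer.entry (GaloisRepAdic.ofResidualGaloisRep (r.baseChangeAlong f))
      e' σ i j = f (OrdKummer.entry (GaloisRepAdic.ofResidualGaloisRep r) e σ i j) := fun σ i j =>
    OrdKummer.entry_baseChangeBasis f hf σ i j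
  refine OrdKummer.UnitKummer.of_injective f.toAddMonoidHom f.injective
    ((h P hP e' (he.of_entry_map hent)).congr fun σ hσ => ?_)
  exact he.frameCocycle_map hent
    (GaloisBasics.inertiaSubgroupIn_le_decompositionSubgroup hσ)

/-- A map of finite local algebras over a discrete valuation ring is local. -/
theorem isLocalHom_of_algHom {O T R : Type} [CommRing O] [IsDomain O]
    [IsDiscreteValuationRing O] [CommRing T] [IsLocalRing T] [Algebra O T]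
    [CommRing R] [IsLocalRing R] [Algebra O R] [Module.Finite O R] (g : T →ₐ[O] R) :
    IsLocalHom (g : T →+* R) :=
  HeckeRep.isLocalHom_algHom g

variable {p : ℕ} [Fact p.Prime] {N : ℕ} [NeZero N] {S : Finset ℕ}
  {𝒪 : Type} [CommRing 𝒪] [IsDomain 𝒪] [IsDiscreteValuationRing 𝒪]
  [IsAdicComplete (maximalIdeal 𝒪) 𝒪]
  {θ : heckeAlgebra N 2 (↑S : Set ℕ) →+* ResidueField 𝒪}
  {T : Type} [CommRing T] [IsLocalRing T] [IsNoetherianRing T]
  [IsAdicComplete (maximalIdeal T) T] [Algebra 𝒪 T] [IsLocalHom (algebraMap 𝒪 T)]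
  [Module.Finite 𝒪 T] [Module.Free 𝒪 T]
  {ρbar : ResidualGaloisRep (ResidueField 𝒪)}
  (H : HeckeGaloisRepDatum N (↑S : Set ℕ) 𝒪 θ T)
  (hp𝒪 : (p : 𝒪) ∈ maximalIdeal 𝒪) (hpS : p ∈ S)
  (hNS : ∀ q : ℕ, q.Prime → q ∣ N → q ∈ S)

/-! ### Determinant -/

include hp𝒪 hpS hNS in
/-- The determinant of a Hecke Galois representation is cyclotomic. -/
theorem datum_detIsCyclotomic : H.ρ.DetIsCyclotomic p := by
  refine Oddness.detIsCyclotomic_of_frobenius Fact.out ?_ (TWTwist.frobGenerates_chebotarev S)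
    (Finset.mem_coe.mpr hpS) H.ρ fun ℓ hℓ hℓS A hA φ hφ => ?_
  · rw [← map_natCast (algebraMap 𝒪 T)]
    exact map_nonunit (algebraMap 𝒪 T) _ hp𝒪
  · have hℓN : ¬ ℓ ∣ N := fun h => hℓS (Finset.mem_coe.mpr (hNS ℓ hℓ h))
    have h := H.charpoly_frob ℓ hℓ hℓN hℓS A hA φ hφ
    rw [ConductorLevel.charpoly_eq_of_finrank_two H.ρ.finrank_eq] at h
    have h0 := congrArg (fun f : T[X] => f.coeff 0) h
    simpa [coeff_X_pow, coeff_C] using h0

/-- The residue field of the Hecke ring is finite. -/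
theorem finite_residueField_datum [Finite (ResidueField 𝒪)]
    (H : HeckeGaloisRepDatum N (↑S : Set ℕ) 𝒪 θ T) : Finite (ResidueField T) :=
  Finite.of_surjective (ResidueField.map (algebraMap 𝒪 T)) fun y => by
    obtain ⟨a, rfl⟩ := H.residue_surjective y
    exact ⟨residue 𝒪 a, ResidueField.map_residue _ a⟩

/-! ### The conditions -/

include hp𝒪 hpS hNS in
/-- `p ∤ N`: the flat condition. -/
theorem datum_flatCondition [Finite (ResidueField 𝒪)] [CharZero 𝒪] (h32 : FlatAtGoodLevel)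
    (hp2 : p ≠ 2) (hpN : ¬ p ∣ N) : flatCondition 𝒪 p S H.ρ :=
  ⟨datum_detIsCyclotomic H hp𝒪 hpS hNS, h32 Fact.out hp2 hp𝒪 hpN hpS hNS H,
    fun q hq hqS => S31.result Fact.out hp𝒪 hpS hNS H q hq hqS⟩

include hp𝒪 hpS hNS in
/-- Unipotence at the primes of a set of primes dividing the level exactly once. -/
theorem datum_unipotentOn [Finite (ResidueField 𝒪)] [CharZero 𝒪] (h34 : UnipotentAtSemistable)
    (U : Finset ℕ) (hU : ∀ q ∈ U, q.Prime → q ≠ p → q ∣ N ∧ ¬ q ^ 2 ∣ N) :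
    ∀ q ∈ U, q.Prime → q ≠ p → H.ρ.IsUnipotentOnInertiaAt q := fun q hqU hq hqp =>
  h34 Fact.out hp𝒪 hpS hNS H q hq hqp (hU q hqU hq hqp).1 (hU q hqU hq hqp).2

include hp𝒪 hpS hNS in
/-- `p ∤ N`: flat, with unipotent inertia at the primes of `U`. -/
theorem datum_flat_unipotent [Finite (ResidueField 𝒪)] [CharZero 𝒪] (h32 : FlatAtGoodLevel)
    (h34 : UnipotentAtSemistable) (hp2 : p ≠ 2) (hpN : ¬ p ∣ N) (U : Finset ℕ)
    (hU : ∀ q ∈ U, q.Prime → q ≠ p → q ∣ N ∧ ¬ q ^ 2 ∣ N) :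
    flatCondition 𝒪 p S H.ρ ∧ ∀ q ∈ U, q.Prime → q ≠ p → H.ρ.IsUnipotentOnInertiaAt q :=
  ⟨datum_flatCondition H hp𝒪 hpS hNS h32 hp2 hpN, datum_unipotentOn H hp𝒪 hpS hNS h34 U hU⟩

include hp𝒪 hpS hNS in
/-- `p ∤ N`: flat and ordinary, ordinarity being given. -/
theorem datum_flatOrdinary_unipotent [Finite (ResidueField 𝒪)] [CharZero 𝒪]
    (h32 : FlatAtGoodLevel) (h34 : UnipotentAtSemistable) (hp2 : p ≠ 2) (hpN : ¬ p ∣ N)
    (hord : H.ρ.IsOrdinaryAt p) (U : Finset ℕ)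
    (hU : ∀ q ∈ U, q.Prime → q ≠ p → q ∣ N ∧ ¬ q ^ 2 ∣ N) :
    (flatCondition 𝒪 p S H.ρ ∧ H.ρ.IsOrdinaryAt p) ∧
      ∀ q ∈ U, q.Prime → q ≠ p → H.ρ.IsUnipotentOnInertiaAt q :=
  ⟨⟨datum_flatCondition H hp𝒪 hpS hNS h32 hp2 hpN, hord⟩,
    datum_unipotentOn H hp𝒪 hpS hNS h34 U hU⟩

/-- An ordinary residual representation stays so under change of coefficients. -/
theorem residual_isOrdinaryAt_of_equiv (hp2 : p ≠ 2)
    (hdet : (GaloisRepAdic.ofResidualGaloisRep ρbar).DetIsCyclotomic p)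
    (hord : (GaloisRepAdic.ofResidualGaloisRep ρbar).IsOrdinaryAt p)
    (hres : H.ρ.residual.IsEquiv (ρbar.baseChangeAlong (ResidueField.map (algebraMap 𝒪 T)))) :
    (GaloisRepAdic.ofResidualGaloisRep H.ρ.residual).IsOrdinaryAt p := by
  set f := ResidueField.map (algebraMap 𝒪 T)
  have hf : IsLocalHom f := ⟨fun a ha => IsUnit.mk0 a fun h0 => by simp [h0] at ha⟩
  have h1 : DefCond.DetOrdinary p
      ((GaloisRepAdic.ofResidualGaloisRep ρbar).baseChangeAlong f hf) :=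
    DefCond.detOrdinary_map hp2 f hf ⟨hdet, hord⟩
  obtain ⟨e⟩ := hres
  have h2 : ((GaloisRepAdic.ofResidualGaloisRep ρbar).baseChangeAlong f hf).IsEquiv
      (GaloisRepAdic.ofResidualGaloisRep (ρbar.baseChangeAlong f)) := by
    let _ : Algebra (ResidueField 𝒪) (ResidueField T) := f.toAlgebra
    exact ofResidual_baseChange_isEquiv ρbar hf
  exact (DefCond.detOrdinary_iso hp2 (ofResidual_isEquiv ⟨e.symm⟩)
    (DefCond.detOrdinary_iso hp2 h2 h1)).2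

include hp𝒪 hpS hNS in
/-- `p ∥ N`: the ordinary condition. -/
theorem datum_ordinaryCondition [Finite (ResidueField 𝒪)] [CharZero 𝒪] (h33 : OrdinaryAtLevel)
    (hp2 : p ≠ 2) (hN : p ∣ N ∧ ¬ p ^ 2 ∣ N)
    (hdet : (GaloisRepAdic.ofResidualGaloisRep ρbar).DetIsCyclotomic p)
    (hord : (GaloisRepAdic.ofResidualGaloisRep ρbar).IsOrdinaryAt p)
    (hres : H.ρ.residual.IsEquiv (ρbar.baseChangeAlong (ResidueField.map (algebraMap 𝒪 T)))) :
    ordinaryCondition 𝒪 p S H.ρ :=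
  ⟨datum_detIsCyclotomic H hp𝒪 hpS hNS,
    h33 Fact.out hp2 hp𝒪 hN hNS H (residual_isOrdinaryAt_of_equiv H hp2 hdet hord hres),
    fun q hq hqS => S31.result Fact.out hp𝒪 hpS hNS H q hq hqS⟩

include hp𝒪 hpS hNS in
/-- `p ∥ N`: ordinary, with unipotent inertia at the primes of `U`. -/
theorem datum_ordinary_unipotent [Finite (ResidueField 𝒪)] [CharZero 𝒪] (h33 : OrdinaryAtLevel)
    (h34 : UnipotentAtSemistable) (hp2 : p ≠ 2) (hN : p ∣ N ∧ ¬ p ^ 2 ∣ N)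
    (hdet : (GaloisRepAdic.ofResidualGaloisRep ρbar).DetIsCyclotomic p)
    (hord : (GaloisRepAdic.ofResidualGaloisRep ρbar).IsOrdinaryAt p)
    (hres : H.ρ.residual.IsEquiv (ρbar.baseChangeAlong (ResidueField.map (algebraMap 𝒪 T))))
    (U : Finset ℕ) (hU : ∀ q ∈ U, q.Prime → q ≠ p → q ∣ N ∧ ¬ q ^ 2 ∣ N) :
    ordinaryCondition 𝒪 p S H.ρ ∧ ∀ q ∈ U, q.Prime → q ≠ p → H.ρ.IsUnipotentOnInertiaAt q :=
  ⟨datum_ordinaryCondition H hp𝒪 hpS hNS h33 hp2 hN hdet hord hres,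
    datum_unipotentOn H hp𝒪 hpS hNS h34 U hU⟩

include hp𝒪 hpS hNS in
/-- `p ∥ N` and residually not peu ramifiée: the strictly ordinary condition. -/
theorem datum_strictOrdinaryCondition [Finite (ResidueField 𝒪)] [CharZero 𝒪]
    (h33 : OrdinaryAtLevel) (hp2 : p ≠ 2) (hN : p ∣ N ∧ ¬ p ^ 2 ∣ N)
    (hdet : (GaloisRepAdic.ofResidualGaloisRep ρbar).DetIsCyclotomic p)
    (hord : (GaloisRepAdic.ofResidualGaloisRep ρbar).IsOrdinaryAt p)
    (hpeu : ¬ OrdKummer.IsPeuKummer ρbar p)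
    (hres : H.ρ.residual.IsEquiv (ρbar.baseChangeAlong (ResidueField.map (algebraMap 𝒪 T)))) :
    strictOrdinaryCondition 𝒪 p S H.ρ := by
  obtain ⟨hd, ho, hu⟩ := datum_ordinaryCondition H hp𝒪 hpS hNS h33 hp2 hN hdet hord hres
  have := finite_residueField_datum H
  obtain ⟨P, hP⟩ := GaloisBasics.exists_liesOverPrime (Fact.out : p.Prime)
  obtain ⟨e, κ, -, -, hstrict, -, hκ⟩ := OrdKummer.exists_kummerInvariant
    (finite_residueField_datum H) ho hd Fact.out hp2 hP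
  refine ⟨hd, hstrict ?_, hu⟩
  by_contra hκu
  obtain ⟨E⟩ := hres
  exact hpeu (isPeuKummer_of_baseChangeAlong _ ((hκ.mp hκu).of_equiv E))

include hp𝒪 hpS hNS in
/-- `p ∥ N`: strictly ordinary, with unipotent inertia at the primes of `U`. -/
theorem datum_strict_unipotent [Finite (ResidueField 𝒪)] [CharZero 𝒪]
    (h33 : OrdinaryAtLevel) (h34 : UnipotentAtSemistable) (hp2 : p ≠ 2)
    (hN : p ∣ N ∧ ¬ p ^ 2 ∣ N)
    (hdet : (GaloisRepAdic.ofResidualGaloisRep ρbar).DetIsCyclotomic p)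
    (hord : (GaloisRepAdic.ofResidualGaloisRep ρbar).IsOrdinaryAt p)
    (hpeu : ¬ OrdKummer.IsPeuKummer ρbar p)
    (hres : H.ρ.residual.IsEquiv (ρbar.baseChangeAlong (ResidueField.map (algebraMap 𝒪 T))))
    (U : Finset ℕ) (hU : ∀ q ∈ U, q.Prime → q ≠ p → q ∣ N ∧ ¬ q ^ 2 ∣ N) :
    strictOrdinaryCondition 𝒪 p S H.ρ ∧
      ∀ q ∈ U, q.Prime → q ≠ p → H.ρ.IsUnipotentOnInertiaAt q :=
  ⟨datum_strictOrdinaryCondition H hp𝒪 hpS hNS h33 hp2 hN hdet hord hpeu hres,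
    datum_unipotentOn H hp𝒪 hpS hNS h34 U hU⟩

/-! ### Transfer along maps of Hecke rings -/

section Transfer

variable {N' : ℕ} [NeZero N'] {S' : Finset ℕ}
  {θ' : heckeAlgebra N' 2 (↑S' : Set ℕ) →+* ResidueField 𝒪}
  {T' : Type} [CommRing T'] [IsLocalRing T'] [IsNoetherianRing T']
  [IsAdicComplete (maximalIdeal T') T'] [Algebra 𝒪 T'] [IsLocalHom (algebraMap 𝒪 T')]
  [Module.Finite 𝒪 T'] [Module.Free 𝒪 T']
  (H' : HeckeGaloisRepDatum N' (↑S' : Set ℕ) 𝒪 θ' T')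

include hNS in
/-- A map of Hecke rings respecting almost all `T_ℓ` identifies the representations. -/
theorem datum_isEquiv_baseChange (hNS' : ∀ q : ℕ, q.Prime → q ∣ N' → q ∈ S')
    (g : T' →ₐ[𝒪] T) (R : Finset ℕ)
    (hg : ∀ (ℓ : ℕ) (hℓ : ℓ.Prime) (hℓN : ¬ ℓ ∣ N) (hℓS : ℓ ∉ (↑S : Set ℕ))
      (hℓN' : ¬ ℓ ∣ N') (hℓS' : ℓ ∉ (↑S' : Set ℕ)), ℓ ∉ R →
      g (H'.π (heckeAlgebra.T hℓ hℓN' hℓS')) = H.π (heckeAlgebra.T hℓ hℓN hℓS)) :
    ∃ hg' : IsLocalHom (g : T' →+* T),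
      (H'.ρ.baseChangeAlong (g : T' →+* T) hg').IsEquiv H.ρ := by
  refine ⟨isLocalHom_of_algHom g, ?_⟩
  obtain ⟨e⟩ := RepTheory.adic_isEquiv_of_frobenius
    (TWTwist.frobGenerates_chebotarev (S ∪ S' ∪ R)) H.ρ
    (H'.ρ.baseChangeAlong (g : T' →+* T) (isLocalHom_of_algHom g)) H.residual_absIrr (by
      rintro φ ⟨ℓ, hℓ, hℓR, A, hA, hφ⟩
      simp only [Finset.coe_union, Set.mem_union, Finset.mem_coe, not_or] at hℓR
      have hℓN : ¬ ℓ ∣ N := fun h => hℓR.1.1 (hNS ℓ hℓ h)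
      have hℓN' : ¬ ℓ ∣ N' := fun h => hℓR.1.2 (hNS' ℓ hℓ h)
      rw [TWTwist.charpoly_baseChangeAlong_apply,
        H.charpoly_frob ℓ hℓ hℓN (fun h => hℓR.1.1 h) A hA φ hφ,
        H'.charpoly_frob ℓ hℓ hℓN' (fun h => hℓR.1.2 h) A hA φ hφ]
      simp [hg ℓ hℓ hℓN (fun h => hℓR.1.1 h) hℓN' (fun h => hℓR.1.2 h) hℓR.2])
  exact ⟨e.symm⟩

include hNS in
/-- Ordinarity descends along maps of Hecke rings. -/
theorem datum_isOrdinaryAt_of_algHom (hp2 : p ≠ 2)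
    (hNS' : ∀ q : ℕ, q.Prime → q ∣ N' → q ∈ S')
    (hd' : H'.ρ.DetIsCyclotomic p) (ho' : H'.ρ.IsOrdinaryAt p)
    (g : T' →ₐ[𝒪] T) (R : Finset ℕ)
    (hg : ∀ (ℓ : ℕ) (hℓ : ℓ.Prime) (hℓN : ¬ ℓ ∣ N) (hℓS : ℓ ∉ (↑S : Set ℕ))
      (hℓN' : ¬ ℓ ∣ N') (hℓS' : ℓ ∉ (↑S' : Set ℕ)), ℓ ∉ R →
      g (H'.π (heckeAlgebra.T hℓ hℓN' hℓS')) = H.π (heckeAlgebra.T hℓ hℓN hℓS)) :
    H.ρ.IsOrdinaryAt p := by
  obtain ⟨hg', he⟩ := datum_isEquiv_baseChange H hNS H' hNS' g R hg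
  exact (DefCond.detOrdinary_iso hp2 he (DefCond.detOrdinary_map hp2 _ hg' ⟨hd', ho'⟩)).2

end Transfer

/-! ### The residual representation of a curve -/

section Curve

variable (W : WeierstrassCurve ℤ) (hΔ : W.Δ ≠ 0) [Algebra (ZMod p) (ResidueField 𝒪)]

/-- Frobenius on `W[p] ⊗ k`. -/
theorem charpoly_frobenius_residualOver (k : Type) [Field k] [Algebra (ZMod p) k] {ℓ : ℕ}
    (hℓ : ℓ.Prime) (hℓp : ℓ ≠ p) (hgood : W.IsGoodPrimeFor ℓ)
    {A : ValuationSubring Qbar} (hA : A.LiesOverPrime ℓ) {φ : GalQ}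
    (hφ : A.IsFrobeniusAt φ ℓ) :
    LinearMap.charpoly ((residualOver W hΔ p k).ρ φ) =
      X ^ 2 - C (W.apOfModel ℓ : k) * X + C (ℓ : k) := by
  obtain ⟨ht, hd⟩ := TWHyp.frobenius_trace_det W hℓ
    (fun h => hℓp ((Nat.prime_dvd_prime_iff_eq hℓ Fact.out).mp h)) hgood hA hφ (n := p)
  change LinearMap.charpoly (((TWHyp.residualRep W hΔ p).ρ φ).baseChange k) = _
  rw [LinearMap.charpoly_baseChange,
    ConductorLevel.charpoly_eq_of_finrank_two (TWHyp.residualRep W hΔ p).finrank_eq,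
    show LinearMap.trace (ZMod p) _ ((TWHyp.residualRep W hΔ p).ρ φ) =
      (W.apOfModel ℓ : ZMod p) from ht,
    show LinearMap.det ((TWHyp.residualRep W hΔ p).ρ φ) = (ℓ : ZMod p) from hd]
  simp

variable (hW : W.IsSemistableModel) (hp2 : p ≠ 2) (hirr : W.ModRepIsIrreducible p)
  (R : Finset ℕ)
  (hθ : ∀ (ℓ : ℕ) (hℓ : ℓ.Prime) (hℓN : ¬ ℓ ∣ N) (hℓS : ℓ ∉ (↑S : Set ℕ)), ℓ ∉ R →
    ¬ (ℓ : ℤ) ∣ W.Δ → θ (heckeAlgebra.T hℓ hℓN hℓS) = (W.apOfModel ℓ : ResidueField 𝒪))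

include hW hΔ hirr hp2 hNS hθ in
omit [IsAdicComplete (maximalIdeal 𝒪) 𝒪] in
/-- A residual representation with the Frobenius polynomials of `θ` is `W[p] ⊗ k'`. -/
theorem residualOver_isEquiv_of_theta {k' : Type} [Field k'] (f : ResidueField 𝒪 →+* k')
    (r : ResidualGaloisRep k')
    (hr : ∀ (ℓ : ℕ) (hℓ : ℓ.Prime) (hℓN : ¬ ℓ ∣ N) (hℓS : ℓ ∉ (↑S : Set ℕ)),
      ∀ A : ValuationSubring Qbar, A.LiesOverPrime ℓ → ∀ φ : GalQ, A.IsFrobeniusAt φ ℓ →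
        LinearMap.charpoly (r.ρ φ) =
          X ^ 2 - C (f (θ (heckeAlgebra.T hℓ hℓN hℓS))) * X + C (ℓ : k')) :
    ((residualOver W hΔ p (ResidueField 𝒪)).baseChangeAlong f).IsEquiv r := by
  refine RepTheory.residual_isEquiv_of_frobenius
    (TWTwist.frobGenerates_chebotarev (S ∪ R ∪ insert p W.Δ.natAbs.primeFactors)) _ r
    (RepTheory.isAbsolutelyIrreducible_baseChangeAlong _ _
      (TWHyp.isAbsolutelyIrreducible_baseChange _ hp2
        (TWHyp.isTWResidual_residualRep W hΔ hW hirr))) ?_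
  rintro φ ⟨ℓ, hℓ, hℓR, A, hA, hφ⟩
  simp only [Finset.coe_union, Set.mem_union, Finset.coe_insert, Set.mem_insert_iff,
    Finset.mem_coe, not_or] at hℓR
  have hℓN : ¬ ℓ ∣ N := fun h => hℓR.1.1 (hNS ℓ hℓ h)
  have hgood : ¬ (ℓ : ℤ) ∣ W.Δ := fun h =>
    hℓR.2.2 (Nat.mem_primeFactors.mpr ⟨hℓ, Int.natCast_dvd.mp h, Int.natAbs_ne_zero.mpr hΔ⟩)
  rw [HeckeAlg.charpoly_baseChangeAlong,
    charpoly_frobenius_residualOver W hΔ _ hℓ hℓR.2.1 hgood hA hφ,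
    hr ℓ hℓ hℓN (fun h => hℓR.1.1 h) A hA φ hφ,
    hθ ℓ hℓ hℓN (fun h => hℓR.1.1 h) hℓR.1.2 hgood]
  simp

include hW hΔ hirr hp2 hNS hθ in
/-- The residual representation of the datum is `W[p] ⊗ k`. -/
theorem residual_isEquiv_residualOver :
    H.ρ.residual.IsEquiv ((residualOver W hΔ p (ResidueField 𝒪)).baseChangeAlong
      (ResidueField.map (algebraMap 𝒪 T))) := by
  obtain ⟨e⟩ := residualOver_isEquiv_of_theta hNS W hΔ hW hp2 hirr R hθ
    (ResidueField.map (algebraMap 𝒪 T)) H.ρ.residual fun ℓ hℓ hℓN hℓS A hA φ hφ => by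
      rw [HeckeAlg.charpoly_residual, H.charpoly_frob ℓ hℓ hℓN hℓS A hA φ hφ,
        ← H.residue_π]
      simp
  exact ⟨e.symm⟩

include hW hΔ hirr hp2 hNS hθ hp𝒪 hpS in
/-- `θ` matching `W` at almost all primes matches it at every prime outside `S`. -/
theorem charpoly_residualOver_eq_theta [Finite (ResidueField 𝒪)] [CharZero 𝒪]
    (ℓ : ℕ) (hℓ : ℓ.Prime) (hℓN : ¬ ℓ ∣ N) (hℓS : ℓ ∉ (↑S : Set ℕ))
    (A : ValuationSubring Qbar) (hA : A.LiesOverPrime ℓ) (φ : GalQ)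
    (hφ : A.IsFrobeniusAt φ ℓ) :
    LinearMap.charpoly ((residualOver W hΔ p (ResidueField 𝒪)).ρ φ) =
      X ^ 2 - C (θ (heckeAlgebra.T hℓ hℓN hℓS)) * X + C (ℓ : ResidueField 𝒪) := by
  let Th := heckeLocal N (↑S : Set ℕ) 𝒪 θ
  have := HeckeRep.isReduced_heckeLocal N (↑S : Set ℕ) 𝒪 θ
    fun q hq h => Finset.mem_coe.2 (hNS q hq h)
  -- a point in characteristic zero
  obtain ⟨j, -⟩ := HeckeRep.exists_point_ne_zero 𝒪 (T := Th) one_ne_zero
  obtain ⟨L, hL, hjL⟩ := HeckeRep.exists_field_range 𝒪 j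
  let O' := integralClosure 𝒪 L
  have := RepTheory.isLocalRing_integralClosure 𝒪 L
  have := RepTheory.isDiscreteValuationRing_integralClosure 𝒪 L
  have := RepTheory.isAdicComplete_integralClosure 𝒪 L
  have := RepTheory.finite_residueField_integralClosure 𝒪 L
  have := RepTheory.charZero_integralClosure 𝒪 L
  have := RepTheory.finite_integralClosure 𝒪 L
  have := RepTheory.isLocalHom_integralClosure 𝒪 L
  let χ : Th →ₐ[𝒪] O' := HeckeRep.toIC 𝒪 j L hjL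
  have hpO' : (p : O') ∈ maximalIdeal O' := by
    rw [← map_natCast (algebraMap 𝒪 O')]
    exact map_nonunit (algebraMap 𝒪 O') _ hp𝒪
  obtain ⟨O'', _, _, _, _, _, _, _, _, hloc, -, ρ, hρ, -⟩ :=
    HeckeRep.galoisRepOfPoint p N S hpS hNS O' hpO'
      (χ.toRingHom.comp (heckeLocal.π N (↑S : Set ℕ) 𝒪 θ))
  have hχ : IsLocalHom χ.toRingHom := HeckeRep.isLocalHom_algHom χ
  let Φ : Th →+* O'' := (algebraMap O' O'').comp χ.toRingHom
  have hΦ : IsLocalHom Φ := RingHom.isLocalHom_comp _ _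
  let f : ResidueField 𝒪 →+* ResidueField O'' :=
    (ResidueField.map Φ).comp (ResidueField.map (algebraMap 𝒪 Th))
  have hr : ∀ (l : ℕ) (hl : l.Prime) (hlN : ¬ l ∣ N) (hlS : l ∉ (↑S : Set ℕ)),
      ∀ B : ValuationSubring Qbar, B.LiesOverPrime l → ∀ τ : GalQ, B.IsFrobeniusAt τ l →
        LinearMap.charpoly (ρ.residual.ρ τ) =
          X ^ 2 - C (f (θ (heckeAlgebra.T hl hlN hlS))) * X + C (l : ResidueField O'') := by
    intro l hl hlN hlS B hB τ hτ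
    have h1 : residue O'' (Φ (heckeLocal.π N (↑S : Set ℕ) 𝒪 θ (heckeAlgebra.T hl hlN hlS))) =
        f (θ (heckeAlgebra.T hl hlN hlS)) := by
      rw [← ResidueField.map_residue, HeckeRep.residue_π]
      rfl
    rw [HeckeAlg.charpoly_residual, hρ l hl hlN hlS B hB τ hτ, ← h1]
    simp [Φ]
  obtain ⟨e⟩ := residualOver_isEquiv_of_theta hNS W hΔ hW hp2 hirr R hθ f ρ.residual hr
  refine Polynomial.map_injective f f.injective ?_
  rw [← HeckeAlg.charpoly_baseChangeAlong, ← e.toLinearEquiv.charpoly_conj]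
  have hc : e.toLinearEquiv.conj
      (((residualOver W hΔ p (ResidueField 𝒪)).baseChangeAlong f).ρ φ) = ρ.residual.ρ φ :=
    LinearMap.ext fun v => by simp [LinearEquiv.conj_apply, e.map_apply]
  rw [hc, hr ℓ hℓ hℓN hℓS A hA φ hφ]
  simp

include hW hΔ hirr hp2 hNS hθ hp𝒪 hpS in
/-- The Galois representation on the local Hecke algebra, residually `W[p] ⊗ k`. -/
theorem exists_datum_residualOver [Finite (ResidueField 𝒪)] [CharZero 𝒪] :
    ∃ D : HeckeGaloisRepDatum N (↑S : Set ℕ) 𝒪 θ (heckeLocal N (↑S : Set ℕ) 𝒪 θ),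
      D.π = heckeLocal.π N (↑S : Set ℕ) 𝒪 θ ∧
      D.ρ.residual.IsEquiv ((residualOver W hΔ p (ResidueField 𝒪)).baseChangeAlong
        (ResidueField.map (algebraMap 𝒪 (heckeLocal N (↑S : Set ℕ) 𝒪 θ)))) := by
  obtain ⟨D, hD, -⟩ := HeckeRep.nonempty_heckeGaloisRepDatum p N S 𝒪 θ hpS hNS hp𝒪
    (residualOver W hΔ p (ResidueField 𝒪))
    (TWHyp.isAbsolutelyIrreducible_baseChange _ hp2
      (TWHyp.isTWResidual_residualRep W hΔ hW hirr))
    (charpoly_residualOver_eq_theta hp𝒪 hpS hNS W hΔ hW hp2 hirr R hθ)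
  exact ⟨D, hD, residual_isEquiv_residualOver D hNS W hΔ hW hp2 hirr R hθ⟩

end Curve

end Fermat.Agent.Lifting
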