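import Fermat.Agent.Lifting.Constructors
import Fermat.Agent.HeckeRep.Local

/-!
# The Hecke ring of a level is reduced; the residual character of a nonzero level

A finite torsion-free quotient of a reduced finite algebra over a domain is reduced.  A nonzero
level determines its residual Hecke character.
-/

set_option autoImplicit false

noncomputable section

open IsLocalRing CuspForm Polynomial

namespace Fermat.Agent.Lifting

section Reduced

variable {O R : Type} [CommRing O] [IsDomain O] [CommRing R] [Algebra O R] [IsReduced R]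
  [Module.Finite O R]

/-- In a reduced finite torsion-free algebra `c s` is a multiple of `s ^ 2` for some `c ≠ 0`. -/
theorem exists_smul_eq_sq_mul (s : R) : ∃ c : O, c ≠ 0 ∧ ∃ y : R, c • s = s ^ 2 * y := by
  obtain ⟨q, hq, hqs⟩ := Algebra.IsIntegral.isIntegral (R := O) s
  rw [← aeval_def] at hqs
  obtain ⟨r, hr, hr0⟩ := exists_eq_pow_rootMultiplicity_mul_and_not_dvd q hq.ne_zero 0
  set k := q.rootMultiplicity 0
  rw [map_zero, sub_zero] at hr hr0
  rw [X_dvd_iff] at hr0
  have h1 : s * aeval s r = 0 := by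
    refine IsReduced.eq_zero _ ⟨k + 1, ?_⟩
    rw [hr, map_mul, map_pow, aeval_X] at hqs
    rw [show (s * aeval s r) ^ (k + 1) = s * aeval s r ^ k * (s ^ k * aeval s r) by ring, hqs,
      mul_zero]
  refine ⟨r.coeff 0, hr0, -aeval s r.divX, ?_⟩
  conv at h1 => rw [← r.X_mul_divX_add]
  rw [map_add, map_mul, aeval_X, aeval_C] at h1
  rw [Algebra.smul_def]
  linear_combination h1

/-- A torsion-free quotient of a reduced finite torsion-free algebra is reduced. -/
theorem isReduced_of_surjective_torsionFree {T : Type} [CommRing T] [Algebra O T]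
    [Module.IsTorsionFree O T] (f : R →ₐ[O] T) (hf : Function.Surjective f) : IsReduced T := by
  refine ⟨fun t ht => ?_⟩
  obtain ⟨n, hn⟩ := ht
  induction n generalizing t with
  | zero => rw [← mul_one t, ← pow_zero t, hn, mul_zero]
  | succ n ih =>
    rcases Nat.eq_zero_or_pos n with rfl | hpos
    · simpa using hn
    refine ih t ?_
    -- `(t ^ n) ^ 2 = 0`
    obtain ⟨s, hs⟩ := hf (t ^ n)
    obtain ⟨c, hc, y, hy⟩ := exists_smul_eq_sq_mul (O := O) s
    have h2 : (t ^ n) ^ 2 = 0 := by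
      rw [← pow_mul, show n * 2 = (n + 1) + (n - 1) by omega, pow_add, hn, zero_mul]
    have h3 := congrArg f hy
    rw [map_smul, map_mul, map_pow, hs, h2, zero_mul] at h3
    exact (smul_eq_zero.mp h3).resolve_left hc

end Reduced

variable {𝒪 : Type} [CommRing 𝒪] [IsDomain 𝒪] [IsDiscreteValuationRing 𝒪]
  [IsAdicComplete (maximalIdeal 𝒪) 𝒪]

/-- The Hecke ring of a level with reduced local Hecke algebra is reduced. -/
theorem LevelModule.isReduced_T_of_isReduced {N : ℕ} [NeZero N] {S : Finset ℕ}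
    {θ : heckeAlgebra N 2 (↑S : Set ℕ) →+* ResidueField 𝒪} (L : LevelModule 𝒪 N S θ)
    [IsReduced (heckeLocal N (↑S : Set ℕ) 𝒪 θ)] : IsReduced L.T :=
  isReduced_of_surjective_torsionFree L.toT L.toT_surjective

variable [CharZero 𝒪]

/-- The Hecke ring of a level is reduced when all primes of the level are excluded. -/
theorem LevelModule.isReduced_T {N : ℕ} [NeZero N] {S : Finset ℕ}
    {θ : heckeAlgebra N 2 (↑S : Set ℕ) →+* ResidueField 𝒪} (L : LevelModule 𝒪 N S θ)
    (hS : ∀ q : ℕ, q.Prime → q ∣ N → q ∈ S) : IsReduced L.T :=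
  have := HeckeRep.isReduced_heckeLocal N (↑S : Set ℕ) 𝒪 θ
    fun q hq hqN => Finset.mem_coe.mpr (hS q hq hqN)
  L.isReduced_T_of_isReduced

open Fermat.Agent.HeckeCohom (OpIdx wordEval wordEval_surjective)
open Fermat.Agent.GroupH1 (HeckePoly eigIdeal)

variable {N N' : ℕ} [NeZero N] [NeZero N'] {S : Finset ℕ}

/-- **A nonzero level determines a residual Hecke character.** -/
theorem exists_levelHyp (a : Nat.Primes → ResidueField 𝒪) [Nontrivial (levelLoc 𝒪 N a)]
    (hdvd : N ∣ N') (hS : ∀ q, q.Prime → q ∣ N' → q ∈ S)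
    (hl : ∃ l : Nat.Primes, ((l : ℕ) : ZMod N) = 1 ∧ a l ≠ ((l : ℕ) : ResidueField 𝒪) + 1) :
    ∃ θ : heckeAlgebra N' 2 (↑S : Set ℕ) →+* ResidueField 𝒪, LevelHyp N N' S a θ := by
  let ev : FreeAlgebra ℤ (OpIdx (↑S : Set ℕ)) →+* ResidueField 𝒪 :=
    (MvPolynomial.eval₂Hom (residue 𝒪) a).comp
      (wordPoly (opVar 𝒪 (S := (↑S : Set ℕ)))).toRingHom
  have hev : RingHom.ker (wordEval N' (↑S : Set ℕ)).toRingHom ≤ RingHom.ker ev := fun P hP => by
    by_contra hne
    obtain ⟨x, hx⟩ := exists_ne (0 : levelLoc 𝒪 N a)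
    exact hx (GroupH1.smul_locM_eq_zero (eigIdeal a) (fun h => hne (GroupH1.mem_eigIdeal.mp h))
      (wordPoly_smul_eq_zero hdvd hS hl (RingHom.mem_ker.mp hP) x))
  let θ := RingHom.liftOfSurjective _ (wordEval_surjective (N := N') (S := (↑S : Set ℕ)))
    ⟨ev, hev⟩
  refine ⟨θ, hdvd, hS, fun l hl' hlN hlS => ?_, hl⟩
  have h : θ (wordEval N' (↑S : Set ℕ) (FreeAlgebra.ι ℤ ⟨⟨l, hl'⟩, hlS⟩)) =
      ev (FreeAlgebra.ι ℤ ⟨⟨l, hl'⟩, hlS⟩) :=
    RingHom.liftOfRightInverse_comp_apply _ _ _ _ _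
  simpa [wordEval, hlN, ev, wordPoly] using h

end Fermat.Agent.Lifting
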