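import Fermat.Agent.Lifting.UnramifiedStep
import Fermat.Agent.TWTwist.NotUnipotent
import Fermat.Agent.Deformation.RingData
import Fermat.Agent.RepTheory.Descent
import Fermat.Agent.TWTwist.Diagonal
import Mathlib.RingTheory.AdicCompletion.Functoriality
import Mathlib.RingTheory.AdicCompletion.Noetherian

/-!
# The Frobenius traces generate a deformation ring

If a subalgebra of a universal deformation ring contains the traces and determinants of the
Frobenius elements outside `S`, it is dense: the universal deformation descends to it modulo every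
power of the maximal ideal.  Consequences: comparison maps of deformation rings are surjective, and
linear maps are equivariant as soon as they are equivariant for the traces.
-/

set_option autoImplicit false

namespace Fermat.Agent.Lifting

open IsLocalRing GaloisRep Fermat.Agent.Deformation Fermat.Agent.TangentBound
open Fermat.Agent.RepTheory (Gal IsFull FrobGenerates IsFrobOutside)

/-- Equivalent representations have the same traces. -/
theorem adic_trace_eq_of_isEquiv {A : Type} [CommRing A] [IsLocalRing A] {ρ ρ' : GaloisRepAdic A}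
    (h : ρ.IsEquiv ρ') (σ : Gal) : ρ.trace σ = ρ'.trace σ := by
  obtain ⟨e⟩ := h
  have hc : ρ'.ρ σ = e.toLinearEquiv.conj (ρ.ρ σ) := LinearMap.ext fun x => by
    rw [LinearEquiv.conj_apply_apply, e.map_apply, LinearEquiv.apply_symm_apply]
  rw [GaloisRepAdic.trace, GaloisRepAdic.trace, hc, LinearMap.trace_conj']

/-- The trace of the residual representation is the reduced trace. -/
theorem residual_trace_apply {A : Type} [CommRing A] [IsLocalRing A] (ρ : GaloisRepAdic A)
    (σ : Gal) : LinearMap.trace _ ρ.residual.V (ρ.residual.ρ σ) = residue A (ρ.trace σ) :=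
  LinearMap.trace_baseChange (ρ.ρ σ) (ResidueField A)

theorem residual_trace_baseChangeAlong {k k' : Type} [Field k] [Field k'] (φ : k →+* k')
    (ρ : ResidualGaloisRep k) (σ : Gal) :
    LinearMap.trace k' (ρ.baseChangeAlong φ).V ((ρ.baseChangeAlong φ).ρ σ) =
      φ (LinearMap.trace k ρ.V (ρ.ρ σ)) := by
  let _ : Algebra k k' := φ.toAlgebra
  exact LinearMap.trace_baseChange (ρ.ρ σ) k'

theorem residual_trace_eq_of_isEquiv {k : Type} [Field k] {ρ ρ' : ResidualGaloisRep k}
    (h : ρ.IsEquiv ρ') (σ : Gal) :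
    LinearMap.trace k ρ.V (ρ.ρ σ) = LinearMap.trace k ρ'.V (ρ'.ρ σ) := by
  obtain ⟨e⟩ := h
  have hc : ρ'.ρ σ = e.toLinearEquiv.conj (ρ.ρ σ) := LinearMap.ext fun x => by
    rw [LinearEquiv.conj_apply_apply, e.map_apply, LinearEquiv.apply_symm_apply]
  rw [hc, LinearMap.trace_conj']

/-- A nilpotent maximal ideal is complete. -/
theorem isAdicComplete_of_pow_eq_bot {A : Type} [CommRing A] {I : Ideal A} {N : ℕ}
    (h : I ^ N = ⊥) : IsAdicComplete I A where
  haus' x hx := by simpa [SModEq.zero, h] using hx N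
  prec' f hf := ⟨f N, fun n => by
    rcases le_total n N with hn | hn
    · exact hf hn
    · have h1 := hf hn
      rw [h, Submodule.bot_smul, SModEq.bot] at h1
      rw [h1]⟩

variable {𝒪 : Type} [CommRing 𝒪] [IsDomain 𝒪] [IsDiscreteValuationRing 𝒪]
  [IsAdicComplete (maximalIdeal 𝒪) 𝒪] [Finite (ResidueField 𝒪)]
  {ρbar : ResidualGaloisRep (ResidueField 𝒪)}
  {𝒟 : ∀ ⦃A : Type⦄ [CommRing A] [IsLocalRing A] [Algebra 𝒪 A], GaloisRepAdic A → Prop}

/-- **A subalgebra containing the Frobenius traces is dense.** -/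
theorem exists_sub_mem_of_traces (h𝒟 : IsDeformationCondition 𝒪 𝒟)
    (D : DeformationRingData 𝒪 ρbar 𝒟) {S : Set ℕ} (hS : FrobGenerates S)
    (B : Subalgebra 𝒪 D.R)
    (hB : ∀ φ : Gal, IsFrobOutside S φ → D.ρ.trace φ ∈ B ∧ LinearMap.det (D.ρ.ρ φ) ∈ B)
    (x : D.R) (n : ℕ) : ∃ b ∈ B, x - b ∈ maximalIdeal D.R ^ (n + 1) := by
  have hne : maximalIdeal D.R ^ (n + 1) ≠ ⊤ :=
    ne_top_of_le_ne_top (Ideal.IsMaximal.ne_top inferInstance) (Ideal.pow_le_self n.succ_ne_zero)
  have := Ideal.Quotient.nontrivial_iff.mpr hne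
  have hlocA : IsLocalRing (D.R ⧸ maximalIdeal D.R ^ (n + 1)) :=
    .of_surjective' (Ideal.Quotient.mk _) Ideal.Quotient.mk_surjective
  have hT := isArtinianTestAlgebra_quotient_pow (𝒪 := 𝒪) D.residue_surjective n
  have hpow : maximalIdeal (D.R ⧸ maximalIdeal D.R ^ (n + 1)) ^ (n + 1) = ⊥ := by
    rw [maximalIdeal_quotient, ← Ideal.map_pow, Ideal.map_quotient_self]
  set A := D.R ⧸ maximalIdeal D.R ^ (n + 1)
  have := finite_of_isArtinianTestAlgebra hT
  have := hT.isLocalHom
  let q : D.R →ₐ[𝒪] A := Ideal.Quotient.mkₐ 𝒪 _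
  have hq : IsLocalHom (q : D.R →+* A) := .of_surjective _ Ideal.Quotient.mk_surjective
  let ρA := D.ρ.baseChangeAlong (q : D.R →+* A) hq
  have hρA : 𝒟 ρA := (h𝒟.iff_forall_surjective inferInstance D.residue_surjective D.ρ).mp
    D.isOfType hT q hq Ideal.Quotient.mk_surjective
  have hresA := residual_baseChange_isEquiv D q hq
  -- the image of `B`
  let B' : Subalgebra 𝒪 A := B.map q
  have hB'loc := isLocalRing_subalgebra B'
  have hB' := isArtinianTestAlgebra_subalgebra hT B'
  have := hB'.isArtinian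
  have := hB'.isLocalHom
  obtain ⟨N₀, hN₀⟩ := exists_pow_maximalIdeal_eq_bot (A := B')
  have hB'c : IsAdicComplete (maximalIdeal B') B' := isAdicComplete_of_pow_eq_bot hN₀
  have hAc : IsAdicComplete (maximalIdeal A) A := isAdicComplete_of_pow_eq_bot hpow
  have hB'h : HenselianLocalRing B' := RepTheory.henselianLocalRing_of_isAdicComplete _
  -- all traces lie in the image
  have htrA : ∀ σ, ρA.trace σ ∈ B' := by
    intro σ
    have hBφ : ∀ φ : Gal, IsFrobOutside S φ → ρA.trace φ ∈ B' ∧ LinearMap.det (ρA.ρ φ) ∈ B' :=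
      fun φ hφ =>
        ⟨Subalgebra.mem_map.mpr
          ⟨_, (hB φ hφ).1, (TWTwist.trace_baseChangeAlong_apply _ hq D.ρ φ).symm⟩,
        Subalgebra.mem_map.mpr
          ⟨_, (hB φ hφ).2, (TWTwist.det_baseChangeAlong_apply _ hq D.ρ φ).symm⟩⟩
    obtain ⟨b, hb, hbσ⟩ := RepTheory.exists_mem_trace_congr hS ρA B' hBφ σ (n + 1)
    rw [hpow, Ideal.mem_bot, sub_eq_zero] at hbσ
    rwa [hbσ]
  obtain ⟨M, hM⟩ := MatRep.exists_rep_isEquiv ρA
  have htrM : ∀ σ, (M.toHom σ).trace = ρA.trace σ := by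
    intro σ
    rw [adic_trace_eq_of_isEquiv hM]
    exact (Matrix.trace_toLin'_eq (M.toHom σ)).symm
  have habs : M.rep.residual.IsAbsolutelyIrreducible := by
    refine RepTheory.isAbsolutelyIrreducible_of_isEquiv ⟨hM.some.residual⟩
      (RepTheory.isAbsolutelyIrreducible_of_isEquiv ⟨hresA.some.symm⟩ ?_)
    exact RepTheory.isAbsolutelyIrreducible_baseChangeAlong _ _ D.absIrr
  have hfull : IsFull (RepTheory.mapRep (residue A) M.toHom) := by
    have h1 := RepTheory.isFull_of_residual_absIrr M.rep habs (Pi.basisFun A (Fin 2))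
    have h2 : ∀ σ, RepTheory.matRep (Pi.basisFun A (Fin 2)) M.rep.ρ σ = M.toHom σ := fun σ => by
      rw [RepTheory.matRep_apply, LinearMap.toMatrix_eq_toMatrix']
      exact LinearMap.toMatrix'_toLin' (M.toHom σ)
    have h3 : RepTheory.matRep (Pi.basisFun A (Fin 2)) M.rep.ρ = M.toHom := MonoidHom.ext h2
    replace h1 : IsFull M.toHom := h3 ▸ h1
    exact h1.map _
  obtain ⟨P, ρB, -, hP⟩ := RepTheory.exists_descent (B := B') Subtype.val_injective M.toHom
    (fun σ => ⟨⟨_, htrA σ⟩, (htrM σ).symm⟩)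
    (fun σ i j => by
      obtain ⟨a, ha⟩ := hT.residue_surjective (residue A (M.toHom σ i j))
      exact ⟨algebraMap 𝒪 B' a, ha⟩)
    hfull
  have hA' := hT.isArtinian
  obtain ⟨L, hL, hL1⟩ := M.exists_eq_one
  let N : MatRep B' := MatRep.ofTrivialOn ρB L hL fun σ hσ => by
    refine Matrix.map_injective Subtype.val_injective ((Units.mul_right_inj P).1 ?_)
    show (P : Matrix (Fin 2) (Fin 2) A) * (ρB σ).map (algebraMap B' A) =
      (P : Matrix (Fin 2) (Fin 2) A) * (1 : Matrix (Fin 2) (Fin 2) B').map (algebraMap B' A)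
    rw [← hP, hL1 σ hσ, Matrix.map_one _ (map_zero _) (map_one _), one_mul, mul_one]
  have hval : IsLocalHom ((B'.val : B' →ₐ[𝒪] A) : B' →+* A) := isLocalHom_of_isArtinian _
  have hMN : M.rep.IsEquiv (N.map (B'.val : B' →+* A) hval).rep := by
    refine MatRep.isEquiv_iff.mpr ⟨↑P⁻¹, (Matrix.isUnit_iff_isUnit_det _).mp (Units.isUnit _),
      fun σ => ?_⟩
    show (ρB σ).map (algebraMap B' A) * ((P⁻¹ : (Matrix (Fin 2) (Fin 2) A)ˣ) : Matrix (Fin 2) (Fin 2) A) =
      ((P⁻¹ : (Matrix (Fin 2) (Fin 2) A)ˣ) : Matrix (Fin 2) (Fin 2) A) * M.toHom σ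
    refine (Units.mul_right_inj P).1 ?_
    rw [← mul_assoc, ← hP, mul_assoc, Units.mul_inv, mul_one, Units.mul_inv_cancel_left]
  have hNA : ρA.IsEquiv (N.rep.baseChangeAlong (B'.val : B' →+* A) hval) :=
    ⟨hM.some.trans (hMN.some.trans (N.rep_baseChangeAlong_isEquiv _ hval).some.symm)⟩
  have hN : 𝒟 N.rep := h𝒟.of_baseChangeAlong_injective hB' hT B'.val hval Subtype.val_injective
    (h𝒟.of_isEquiv hT hNA hρA)
  -- its residual representation
  have hNres : N.rep.residual.IsEquiv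
      (ρbar.baseChangeAlong (ResidueField.map (algebraMap 𝒪 B'))) := by
    refine ⟨(RepTheory.residual_isEquiv_of_trace_eq _ _
      (RepTheory.isAbsolutelyIrreducible_baseChangeAlong _ _ D.absIrr) fun σ => ?_).some.symm⟩
    refine (ResidueField.map (B'.val : B' →+* A)).injective ?_
    rw [residual_trace_baseChangeAlong, residual_trace_apply, ResidueField.map_residue,
      ← TWTwist.trace_baseChangeAlong_apply _ hval, ← adic_trace_eq_of_isEquiv hNA,
      ← residual_trace_apply, residual_trace_eq_of_isEquiv hresA, residual_trace_baseChangeAlong]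
    obtain ⟨a, ha⟩ := residue_surjective (LinearMap.trace _ ρbar.V (ρbar.ρ σ))
    rw [← ha, ResidueField.map_residue, ResidueField.map_residue, ResidueField.map_residue]
    rfl
  obtain ⟨ψ, ⟨hψ, hψe⟩, -⟩ := D.universal B' hB'.residue_surjective N.rep hN hNres
  -- uniqueness over the quotient
  have heq : B'.val.comp ψ = q := by
    refine (D.universal A hT.residue_surjective ρA hρA hresA).unique ?_
      ⟨hq, ⟨GaloisRepAdic.Equiv.refl _⟩⟩
    have hloc : IsLocalHom ((B'.val : B' →+* A).comp (ψ : D.R →+* B')) :=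
      haveI := hψ; haveI := hval; RingHom.isLocalHom_comp _ _
    refine ⟨hloc, ⟨?_⟩⟩
    exact (baseChange_baseChange_isEquiv _ hψ _ hval hloc D.ρ).some.symm.trans
      ((hψe.some.baseChangeAlong _ hval).trans hNA.some.symm)
  obtain ⟨b, hb, hbx⟩ := (ψ x).2
  refine ⟨b, hb, Ideal.Quotient.eq.mp ?_⟩
  have := DFunLike.congr_fun heq x
  exact (this.symm.trans hbx.symm)

/-- **A subalgebra containing the Frobenius traces is dense**, determinants being cyclotomic. -/
theorem exists_sub_mem_of_traces_of_det (h𝒟 : IsDeformationCondition 𝒪 𝒟)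
    (D : DeformationRingData 𝒪 ρbar 𝒟) {p : ℕ} (hp : p.Prime) (hdet : D.ρ.DetIsCyclotomic p)
    {S : Finset ℕ} (hpS : p ∈ S) (B : Subalgebra 𝒪 D.R)
    (hB : ∀ φ : Gal, IsFrobOutside (↑S : Set ℕ) φ → D.ρ.trace φ ∈ B)
    (x : D.R) (n : ℕ) : ∃ b ∈ B, x - b ∈ maximalIdeal D.R ^ (n + 1) := by
  refine exists_sub_mem_of_traces h𝒟 D (TWTwist.frobGenerates_chebotarev S) B
    (fun φ hφ => ⟨hB φ hφ, ?_⟩) x n
  obtain ⟨ℓ, hℓ, hℓS, P, hP, hφP⟩ := hφ
  have hℓp : ℓ ≠ p := fun h => hℓS (h ▸ hpS)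
  rw [sub_eq_zero.mp (TWTwist.eq_zero_of_forall_mem_pow (A := D.R) fun k =>
    (Ideal.span_singleton_le_iff_mem _).mpr (Ideal.pow_mem_pow hdet.1 k)
      (det_frobenius_sub_mem hdet hp hℓ hℓp hP hφP k))]
  exact natCast_mem B ℓ

/-- Equivariance for the Frobenius traces implies equivariance. -/
theorem map_smul_of_traces (h𝒟 : IsDeformationCondition 𝒪 𝒟)
    (D : DeformationRingData 𝒪 ρbar 𝒟) {p : ℕ} (hp : p.Prime) (hdet : D.ρ.DetIsCyclotomic p)
    {S : Finset ℕ} (hpS : p ∈ S)
    {M M' : Type} [AddCommGroup M] [Module 𝒪 M] [Module D.R M] [IsScalarTower 𝒪 D.R M]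
    [Module.Finite 𝒪 M] [AddCommGroup M'] [Module 𝒪 M'] [Module D.R M']
    [IsScalarTower 𝒪 D.R M'] [Module.Finite 𝒪 M']
    (c : M' →ₗ[𝒪] M)
    (hc : ∀ φ : Gal, IsFrobOutside (↑S : Set ℕ) φ →
      ∀ y, c (D.ρ.trace φ • y) = D.ρ.trace φ • c y)
    (x : D.R) (y : M') : c (x • y) = x • c y := by
  let B : Subalgebra 𝒪 D.R :=
    { carrier := {a | ∀ y, c (a • y) = a • c y}
      mul_mem' := fun {a b} ha hb y => by rw [mul_smul, mul_smul, ha, hb]
      one_mem' := fun y => by rw [one_smul, one_smul]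
      add_mem' := fun {a b} ha hb y => by rw [add_smul, add_smul, map_add, ha, hb]
      zero_mem' := fun y => by rw [zero_smul, zero_smul, map_zero]
      algebraMap_mem' := fun r y => by rw [algebraMap_smul, algebraMap_smul, map_smul] }
  -- every congruence class contains an equivariant element
  refine sub_eq_zero.mp ?_
  refine (IsHausdorff.haus (I := maximalIdeal 𝒪) inferInstance) _ fun k => ?_
  rw [SModEq.zero]
  have key : ∀ (W : Type) [AddCommGroup W] [Module 𝒪 W] [Module D.R W] [IsScalarTower 𝒪 D.R W]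
      [Module.Finite 𝒪 W], ∃ N : ℕ, ∀ a ∈ maximalIdeal D.R ^ (N + 1), ∀ w : W,
        a • w ∈ (maximalIdeal 𝒪 ^ k) • (⊤ : Submodule 𝒪 W) := by
    intro W _ _ _ _ _
    set I : Ideal D.R := (maximalIdeal 𝒪 ^ k).map (algebraMap 𝒪 D.R)
    have hI : ∀ w ∈ I • (⊤ : Submodule D.R W), w ∈ (maximalIdeal 𝒪 ^ k) • (⊤ : Submodule 𝒪 W) := by
      intro w hw
      refine Submodule.smul_induction_on hw ?_ fun _ _ => add_mem
      intro a ha z _
      induction ha using Submodule.span_induction generalizing z with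
      | mem b hb =>
        obtain ⟨r, hr, rfl⟩ := hb
        rw [algebraMap_smul]
        exact Submodule.smul_mem_smul hr trivial
      | zero => rw [zero_smul]; exact zero_mem _
      | add a b _ _ ha hb => rw [add_smul]; exact add_mem (ha z trivial) (hb z trivial)
      | smul d a _ ha => rw [smul_eq_mul, mul_comm, mul_smul]; exact ha (d • z) trivial
    have : Finite (W ⧸ I • (⊤ : Submodule D.R W)) := by
      obtain ⟨a, g, hg⟩ := Module.Finite.exists_fin' 𝒪 W
      have : Finite (𝒪 ⧸ maximalIdeal 𝒪 ^ k) := by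
        have : Finite (𝒪 ⧸ maximalIdeal 𝒪) := inferInstanceAs (Finite (ResidueField 𝒪))
        exact Ideal.finite_quotient_pow (IsNoetherian.noetherian _) k
      refine Finite.of_surjective
        (fun e : Fin a → 𝒪 ⧸ maximalIdeal 𝒪 ^ k =>
          (Submodule.Quotient.mk (g fun i => Quotient.out (e i)) : W ⧸ I • (⊤ : Submodule D.R W)))
        fun w => ?_
      obtain ⟨w, rfl⟩ := Submodule.Quotient.mk_surjective _ w
      obtain ⟨v, rfl⟩ := hg w
      refine ⟨fun i => Ideal.Quotient.mk _ (v i), (Submodule.Quotient.eq _).mpr ?_⟩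
      rw [← map_sub]
      set e := (fun i => Quotient.out (Ideal.Quotient.mk (maximalIdeal 𝒪 ^ k) (v i))) - v with he
      rw [pi_eq_sum_univ' e, map_sum]
      refine Submodule.sum_mem _ fun i _ => ?_
      rw [map_smul, ← algebraMap_smul D.R (e i)]
      exact Submodule.smul_mem_smul (Ideal.mem_map_of_mem _ (Ideal.Quotient.eq.mp
        (Ideal.Quotient.mk_out _))) Submodule.mem_top
    set W' := W ⧸ I • (⊤ : Submodule D.R W)
    have : Module.Finite D.R W' := Module.Finite.of_finite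
    have : IsArtinian D.R W' := isArtinian_of_finite (R := D.R) (M := W')
    obtain ⟨N, hN⟩ := IsArtinian.monotone_stabilizes (R := D.R) (M := W')
      ⟨fun j => OrderDual.toDual ((maximalIdeal D.R ^ j) • (⊤ : Submodule D.R W')),
        fun i j hij => Submodule.smul_mono_left (Ideal.pow_le_pow_right hij)⟩
    have hbot : (maximalIdeal D.R ^ N) • (⊤ : Submodule D.R W') = ⊥ := by
      refine Submodule.eq_bot_of_le_smul_of_le_jacobson_bot (maximalIdeal D.R) _
        (IsNoetherian.noetherian _) ?_ (maximalIdeal_le_jacobson _)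
      rw [← Submodule.mul_smul, ← pow_succ']
      exact le_of_eq (OrderDual.toDual.injective (hN (N + 1) N.le_succ))
    refine ⟨N, fun a ha w => hI _ ((Submodule.Quotient.mk_eq_zero _).mp ?_)⟩
    have : (a • Submodule.Quotient.mk w : W') ∈ (maximalIdeal D.R ^ N) • (⊤ : Submodule D.R W') :=
      Submodule.smul_mem_smul (Ideal.pow_le_pow_right N.le_succ ha) trivial
    rw [hbot, Submodule.mem_bot] at this
    exact this
  obtain ⟨N₁, hN₁⟩ := key M
  obtain ⟨N₂, hN₂⟩ := key M'
  obtain ⟨b, hb, hxb⟩ := exists_sub_mem_of_traces_of_det h𝒟 D hp hdet hpS B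
    (fun φ hφ => hc φ hφ) x (N₁ + N₂)
  have e : c (x • y) - x • c y = c ((x - b) • y) - (x - b) • c y := by
    rw [sub_smul, sub_smul, map_sub, hb y]
    abel
  rw [e]
  refine sub_mem ?_ (hN₁ _ (Ideal.pow_le_pow_right (by omega) hxb) _)
  have := Submodule.mem_map_of_mem (f := c) (hN₂ _ (Ideal.pow_le_pow_right (by omega) hxb) y)
  rw [Submodule.map_smul''] at this
  exact Submodule.smul_mono le_rfl le_top this

/-- The comparison map to a deformation ring with a stronger condition is surjective. -/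
theorem exists_surjective_algHom {𝒟' : ∀ ⦃A : Type⦄ [CommRing A] [IsLocalRing A] [Algebra 𝒪 A],
      GaloisRepAdic A → Prop} (h𝒟' : IsDeformationCondition 𝒪 𝒟')
    (D : DeformationRingData 𝒪 ρbar 𝒟) (D' : DeformationRingData 𝒪 ρbar 𝒟') (hD' : 𝒟 D'.ρ)
    {S : Set ℕ} (hS : FrobGenerates S) :
    ∃ τ : D.R →ₐ[𝒪] D'.R, Function.Surjective τ ∧ ∃ hτ : IsLocalHom (τ : D.R →+* D'.R),
      (D.ρ.baseChangeAlong (τ : D.R →+* D'.R) hτ).IsEquiv D'.ρ := by
  obtain ⟨τ, ⟨hτ, hτe⟩, -⟩ := D.universal D'.R D'.residue_surjective D'.ρ hD' D'.residual_isEquiv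
  refine ⟨τ, ?_, hτ, hτe⟩
  have hdense := exists_sub_mem_of_traces h𝒟' D' hS τ.range fun φ _ => ⟨⟨D.ρ.trace φ, by
      rw [← adic_trace_eq_of_isEquiv hτe]
      exact (TWTwist.trace_baseChangeAlong_apply _ hτ D.ρ φ).symm⟩,
    ⟨LinearMap.det (D.ρ.ρ φ), by
      obtain ⟨e⟩ := hτe
      have hc : D'.ρ.ρ φ = (e.toLinearEquiv : _ →ₗ[D'.R] _) ∘ₗ
          ((D.ρ.baseChangeAlong (τ : D.R →+* D'.R) hτ).ρ φ) ∘ₗ
          (e.toLinearEquiv.symm : _ →ₗ[D'.R] _) := LinearMap.ext fun v => by
        simp [e.map_apply]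
      rw [hc, LinearMap.det_conj]
      exact (TWTwist.det_baseChangeAlong_apply _ hτ D.ρ φ).symm⟩⟩
  set f : D.R →+* D'.R := (τ : D.R →+* D'.R)
  set J := (maximalIdeal D.R).map f
  have hJ : J = maximalIdeal D'.R := by
    refine le_antisymm (Ideal.map_le_iff_le_comap.mpr fun a ha => hτ.map_nonunit a |> mt <| ha) ?_
    refine Submodule.le_of_le_smul_of_le_jacobson_bot (I := maximalIdeal D'.R)
      (IsNoetherian.noetherian _) (maximalIdeal_le_jacobson _) fun y hy => ?_
    obtain ⟨_, ⟨b, rfl⟩, hb⟩ := hdense y 1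
    have hbm : b ∈ maximalIdeal D.R := fun hu => by
      have h1 : τ b ∈ maximalIdeal D'.R := by
        rw [show τ b = y - (y - τ b) by ring]
        exact sub_mem hy (Ideal.pow_le_self two_ne_zero hb)
      exact h1 (hu.map τ)
    refine Submodule.mem_sup.mpr ⟨τ b, Ideal.mem_map_of_mem f hbm, y - τ b, ?_, by ring⟩
    rwa [smul_eq_mul, ← pow_two]
  have : IsHausdorff J D'.R := hJ ▸ inferInstance
  refine surjective_of_mk_map_comp_surjective (I := maximalIdeal D.R) f fun z => ?_
  obtain ⟨y, rfl⟩ := Ideal.Quotient.mk_surjective z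
  obtain ⟨_, ⟨b, rfl⟩, hb⟩ := hdense y 0
  refine ⟨b, (Ideal.Quotient.eq.mpr ?_).symm⟩
  rw [pow_one] at hb
  have hb' : y - τ b ∈ J := by rw [hJ]; exact hb
  exact hb'

end Fermat.Agent.Lifting
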