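import Fermat.Agent.Lifting.Conclusion

/-!
# From an eigenform at a raised level to the exact conductor level

A curve modular of a cube-free level divisible by its bad primes, not by `p²`, is modular of its
conductor level once `LevelExact` holds.
-/

set_option autoImplicit false

noncomputable section

namespace Fermat.Agent.Lifting

open WeierstrassCurve CuspForm CongruenceSubgroup ModularFormClass

/-- A curve modular of a cube-free level divisible by its bad primes and not by `p²`, with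
irreducible mod `p` representation, is modular of its conductor level. -/
def LevelExact : Prop :=
  ∀ (W : WeierstrassCurve ℤ), W.IsSemistableModel → ∀ (N : ℕ) (p : ℕ) [Fact p.Prime], p ≠ 2 →
    W.ModRepIsIrreducible p → ¬ p ^ 2 ∣ N → W.IsModularModelOfLevel N →
    (∀ ℓ : ℕ, ℓ.Prime → (ℓ : ℤ) ∣ W.Δ → ℓ ∣ N) → (∀ q : ℕ, q.Prime → ¬ q ^ 3 ∣ N) →
    W.IsModularModelOfLevel W.conductorLevel

/-- **The end of the lifting argument.** -/
theorem mlc1_of_eigenform (h58 : LevelExact) (W : WeierstrassCurve ℤ) (hΔ : W.Δ ≠ 0)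
    (hW : W.IsSemistableModel) (p : ℕ) [Fact p.Prime] (hp2 : p ≠ 2)
    (hirr : W.ModRepIsIrreducible p) {N : ℕ} (hN : 0 < N) (hp2N : ¬ p ^ 2 ∣ N)
    (hN3 : ∀ q : ℕ, q.Prime → ¬ q ^ 3 ∣ N)
    (hbad : ∀ ℓ : ℕ, ℓ.Prime → ℓ ≠ p → (ℓ : ℤ) ∣ W.Δ → ℓ ∣ N)
    {S : Finset ℕ} (hS : ∀ q ∈ S, q.Prime → q = p ∨ q ∣ N)
    {g : CuspForm (Gamma0 N) 2} (hg : g.IsNormalizedEigenform)
    (ha : ∀ ℓ : ℕ, ℓ.Prime → ¬ ℓ ∣ N → ℓ ∉ S → qCoeff g ℓ = (W.apOfModel ℓ : ℂ)) :
    Mlc1IsModularModelOfExactConductorLevel W := by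
  have hp : p.Prime := Fact.out
  -- put `p` into the level
  obtain ⟨N', hN'pos, hNN', hpN', hp2N', hN'3⟩ : ∃ N' : ℕ, 0 < N' ∧ N ∣ N' ∧ p ∣ N' ∧
      ¬ p ^ 2 ∣ N' ∧ ∀ q : ℕ, q.Prime → ¬ q ^ 3 ∣ N' := by
    by_cases hpN : p ∣ N
    · exact ⟨N, hN, dvd_rfl, hpN, hp2N, hN3⟩
    · refine ⟨N * p, Nat.mul_pos hN hp.pos, dvd_mul_right N p, dvd_mul_left p N, fun h => hpN ?_,
        fun q hq h => ?_⟩
      · rw [pow_two, mul_comm N p] at h
        exact Nat.dvd_of_mul_dvd_mul_left hp.pos h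
      · by_cases hqp : q = p
        · subst hqp
          rw [pow_succ, mul_comm N q, mul_comm (q ^ 2)] at h
          exact hp2N (Nat.dvd_of_mul_dvd_mul_left hq.pos h)
        · exact hN3 q hq (((Nat.coprime_primes hq hp).mpr hqp).pow_left 3 |>.dvd_of_dvd_mul_right h)
  refine mlc1_of_isModularModelOfLevel_conductorLevel hΔ
    (h58 W hW N' p hp2 hirr hp2N' ?_ (fun ℓ hℓ hℓΔ => ?_) hN'3)
  · refine isModularModelOfLevel_of_eigenform hNN' hN'pos (fun q hq hqp => ?_) hg ha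
    rcases hS q hq hqp with rfl | h
    · exact hpN'
    · exact h.trans hNN'
  · rcases eq_or_ne ℓ p with rfl | hne
    · exact hpN'
    · exact (hbad ℓ hℓ hne hℓΔ).trans hNN'

end Fermat.Agent.Lifting
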