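import Fermat.Agent.Lifting.UnramifiedStep
import Fermat.Agent.Patching.GroupAlgebra

/-!
# Maps between deformation rings

A deformation ring maps to the deformation ring of a stronger condition, compatibly with the
universal representations, and the map is surjective.
-/

set_option autoImplicit false

noncomputable section

namespace Fermat.Agent.Lifting

open IsLocalRing GaloisRep Fermat.Agent.TangentBound

/-- If derivations into the residue field are separated by finitely many elements of the maximal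
ideal, these generate the algebra topologically. -/
theorem exists_surjective_of_separated {𝒪 R : Type} [CommRing 𝒪] [IsLocalRing 𝒪]
    [IsAdicComplete (maximalIdeal 𝒪) 𝒪] [CommRing R] [IsLocalRing R] [IsNoetherianRing R]
    [IsAdicComplete (maximalIdeal R) R] [Algebra 𝒪 R] [IsLocalHom (algebraMap 𝒪 R)]
    (hres : Function.Surjective (residue R ∘ algebraMap 𝒪 R)) {r : ℕ} (x : Fin r → R)
    (hx : ∀ i, x i ∈ maximalIdeal R)
    (hsep : ∀ d : derSpace hres, (∀ i, (d : R →ₗ[𝒪] ResidueField 𝒪) (x i) = 0) → d = 0) :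
    ∃ γ : MvPowerSeries (Fin r) 𝒪 →ₐ[𝒪] R, Function.Surjective γ ∧
      ∀ i, γ (MvPowerSeries.X i) = x i :=
  ⟨evalHom x hx, evalHom_surjective hres x hx (le_span_of_separating hres x hx hsep),
    evalHom_X x hx⟩

variable {𝒪 : Type} [CommRing 𝒪] [IsDomain 𝒪] [IsDiscreteValuationRing 𝒪]
  [IsAdicComplete (maximalIdeal 𝒪) 𝒪]
  {ρbar : ResidualGaloisRep (ResidueField 𝒪)}
  {𝒟 𝒟' : ∀ ⦃A : Type⦄ [CommRing A] [IsLocalRing A] [Algebra 𝒪 A], GaloisRepAdic A → Prop}

/-- The map of deformation rings. -/
theorem exists_compatHom (D : DeformationRingData 𝒪 ρbar 𝒟) (D' : DeformationRingData 𝒪 ρbar 𝒟')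
    (h : 𝒟 D'.ρ) :
    ∃ (f : D.R →ₐ[𝒪] D'.R) (hf : IsLocalHom (f : D.R →+* D'.R)),
      (D.ρ.baseChangeAlong (f : D.R →+* D'.R) hf).IsEquiv D'.ρ := by
  obtain ⟨f, ⟨hf, hfeq⟩, -⟩ := D.universal D'.R D'.residue_surjective D'.ρ h D'.residual_isEquiv
  exact ⟨f, hf, hfeq⟩

/-- Base changes along equal maps are equivalent. -/
theorem isEquiv_baseChangeAlong_congr {A B : Type} [CommRing A] [IsLocalRing A] [CommRing B]
    [IsLocalRing B] (ρ : GaloisRepAdic A) {g g' : A →+* B} (h : g = g') (hg : IsLocalHom g)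
    (hg' : IsLocalHom g') :
    (ρ.baseChangeAlong g hg).IsEquiv (ρ.baseChangeAlong g' hg') := by
  subst h
  exact ⟨GaloisRepAdic.Equiv.refl _⟩

/-- The map of deformation rings is surjective. -/
theorem surjective_compatHom [Finite (ResidueField 𝒪)] (h𝒟' : IsDeformationCondition 𝒪 𝒟')
    (D : DeformationRingData 𝒪 ρbar 𝒟) (D' : DeformationRingData 𝒪 ρbar 𝒟')
    (f : D.R →ₐ[𝒪] D'.R) (hf : IsLocalHom (f : D.R →+* D'.R))
    (hfeq : (D.ρ.baseChangeAlong (f : D.R →+* D'.R) hf).IsEquiv D'.ρ) :
    Function.Surjective f := by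
  classical
  obtain ⟨n, y, hy⟩ := Submodule.fg_iff_exists_fin_generating_family.mp
    (IsNoetherian.noetherian (maximalIdeal D.R))
  have hym : ∀ i, y i ∈ maximalIdeal D.R := fun i => hy ▸ Submodule.subset_span ⟨i, rfl⟩
  have hfm : ∀ z ∈ maximalIdeal D.R, f z ∈ maximalIdeal D'.R := fun z hz =>
    map_nonunit (f : D.R →+* D'.R) z hz
  have hres := D'.residue_surjective
  obtain ⟨γ, hγ, hγX⟩ := exists_surjective_of_separated hres (fun i => f (y i))
    (fun i => hfm _ (hym i)) fun d hd => by
      by_contra hd0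
      have := isAdicComplete_dualNumber (ResidueField 𝒪)
      -- the two maps to the dual numbers agree on `f`
      have hkill : ∀ z ∈ maximalIdeal D.R, (d : D'.R →ₗ[𝒪] ResidueField 𝒪) (f z) = 0 := by
        intro z hz
        rw [← hy] at hz
        induction hz using Submodule.span_induction with
        | mem w hw => obtain ⟨i, rfl⟩ := hw; exact hd i
        | zero => simp
        | add a b _ _ ha hb => rw [map_add, map_add, ha, hb, add_zero]
        | smul a b hb ih =>
          rw [smul_eq_mul, map_mul, d.2, ih, mul_zero, zero_add,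
            (resK_eq_zero_iff hres _).mpr (hfm b (hy ▸ hb)), zero_mul]
      have hcomp : (dualHom hres d).comp f = (dualHom hres 0).comp f := by
        refine AlgHom.ext fun z => ?_
        obtain ⟨c, hc⟩ := residue_surjective (resK D.residue_surjective z)
        have hz := hkill _ (sub_algebraMap_mem D.residue_surjective hc)
        rw [map_sub, map_sub, AlgHom.commutes, derSpace_apply_algebraMap, sub_zero] at hz
        refine TrivSqZeroExt.ext ?_ ?_ <;> simp [hz]
      set hl := isLocalHom_dualHom hres d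
      set ρd := D'.ρ.baseChangeAlong (dualHom hres d : D'.R →+* DualNumber (ResidueField 𝒪)) hl
      have : Finite (DualNumber (ResidueField 𝒪)) :=
        inferInstanceAs (Finite (ResidueField 𝒪 × ResidueField 𝒪))
      have hA : IsArtinianTestAlgebra 𝒪 (DualNumber (ResidueField 𝒪)) :=
        ⟨isLocalHom_algebraMap_dual, dual_residue_surjective, inferInstance⟩
      have hρd : 𝒟' ρd :=
        (h𝒟'.iff_forall_surjective inferInstance hres D'.ρ).mp D'.isOfType
          hA (dualHom hres d) hl (dualHom_surjective hres hd0)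
      have huniq := (D'.universal (DualNumber (ResidueField 𝒪)) dual_residue_surjective ρd hρd
        (residual_baseChange_isEquiv D' (dualHom hres d) hl)).unique
        (y₁ := dualHom hres d) (y₂ := dualHom hres 0) ⟨hl, ⟨GaloisRepAdic.Equiv.refl _⟩⟩
        ⟨isLocalHom_dualHom hres 0, ?_⟩
      · exact hd0 (dualHom_injective hres huniq)
      · obtain ⟨e⟩ := hfeq
        have hc1 : IsLocalHom (((dualHom hres d : D'.R →+* DualNumber (ResidueField 𝒪))).comp
            (f : D.R →+* D'.R)) :=
          RingHom.isLocalHom_comp (dualHom hres d : D'.R →+* DualNumber (ResidueField 𝒪))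
            (f : D.R →+* D'.R)
        obtain ⟨e1⟩ := baseChange_baseChange_isEquiv (f : D.R →+* D'.R) hf
          (dualHom hres d : D'.R →+* DualNumber (ResidueField 𝒪)) hl hc1 D.ρ
        obtain ⟨e0⟩ := baseChange_baseChange_isEquiv (f : D.R →+* D'.R) hf
          (dualHom hres 0 : D'.R →+* DualNumber (ResidueField 𝒪)) (isLocalHom_dualHom hres 0)
          (RingHom.isLocalHom_comp (dualHom hres 0 : D'.R →+* DualNumber (ResidueField 𝒪)) (f : D.R →+* D'.R)) D.ρ
        have hc : ((dualHom hres 0 : D'.R →+* DualNumber (ResidueField 𝒪))).comp (f : D.R →+* D'.R) =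
            ((dualHom hres d : D'.R →+* DualNumber (ResidueField 𝒪))).comp (f : D.R →+* D'.R) :=
          congrArg (fun g : D.R →ₐ[𝒪] DualNumber (ResidueField 𝒪) => (g : D.R →+* DualNumber (ResidueField 𝒪))) hcomp.symm
        have e01 : GaloisRepAdic.IsEquiv
            (D.ρ.baseChangeAlong (((dualHom hres 0 : D'.R →+* DualNumber (ResidueField 𝒪))).comp (f : D.R →+* D'.R))
              (RingHom.isLocalHom_comp (dualHom hres 0 : D'.R →+* DualNumber (ResidueField 𝒪)) (f : D.R →+* D'.R)))
            (D.ρ.baseChangeAlong (((dualHom hres d : D'.R →+* DualNumber (ResidueField 𝒪))).comp (f : D.R →+* D'.R)) hc1) := by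
          exact isEquiv_baseChangeAlong_congr D.ρ hc _ _
        obtain ⟨e01⟩ := e01
        exact ⟨((e.baseChangeAlong _ (isLocalHom_dualHom hres 0)).symm.trans e0).trans
          ((e01.trans e1.symm).trans (e.baseChangeAlong _ hl))⟩
  intro z
  obtain ⟨P, rfl⟩ := hγ z
  let ev : MvPowerSeries (Fin n) 𝒪 →ₐ[𝒪] D.R := evalHom y hym
  refine ⟨ev P, ?_⟩
  have hext : γ = f.comp ev := Patching.algHom_ext_of_X (fun i => by rw [hγX]; exact hfm _ (hym i))
    fun i => by rw [hγX, AlgHom.comp_apply, evalHom_X]
  exact (DFunLike.congr_fun hext P).symm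

end Fermat.Agent.Lifting
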