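import Fermat.Agent.Lifting.UnramifiedStep
import Fermat.Agent.Lifting.Compat
import Fermat.Agent.Frobenius.Existence

/-!
# Adding finitely many primes to a deformation problem

For a family of conditions `𝒟 S` indexed by the set `S` of primes at which ramification is
allowed, the cotangent space at a point grows by at most the sum over the added primes of the
orders of `(q - 1) ((q + 1) ^ 2 - a_q ^ 2)`.
-/

set_option autoImplicit false

noncomputable section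

namespace Fermat.Agent.Lifting

open IsLocalRing GaloisRep Fermat.Agent.GaloisBasics Fermat.Agent.TangentBound

variable {𝒪 : Type} [CommRing 𝒪] [IsDomain 𝒪] [IsDiscreteValuationRing 𝒪]
  [IsAdicComplete (maximalIdeal 𝒪) 𝒪]
  {ρbar : ResidualGaloisRep (ResidueField 𝒪)}

section Compat

variable {𝒟 𝒟' 𝒟'' : ∀ ⦃A : Type⦄ [CommRing A] [IsLocalRing A] [Algebra 𝒪 A],
  GaloisRepAdic A → Prop}

/-- The map of deformation rings sends traces to traces. -/
theorem compatHom_trace {D : DeformationRingData 𝒪 ρbar 𝒟} {D' : DeformationRingData 𝒪 ρbar 𝒟'}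
    (f : D.R →ₐ[𝒪] D'.R) (hf : IsLocalHom (f : D.R →+* D'.R))
    (hfeq : (D.ρ.baseChangeAlong (f : D.R →+* D'.R) hf).IsEquiv D'.ρ) (σ : GalQ) :
    f (LinearMap.trace D.R D.ρ.V (D.ρ.ρ σ)) = LinearMap.trace D'.R D'.ρ.V (D'.ρ.ρ σ) := by
  obtain ⟨e⟩ := hfeq
  have h : LinearMap.trace D'.R D'.ρ.V (D'.ρ.ρ σ) =
      LinearMap.trace D'.R _ ((D.ρ.baseChangeAlong (f : D.R →+* D'.R) hf).ρ σ) := by
    rw [← LinearMap.trace_conj' ((D.ρ.baseChangeAlong (f : D.R →+* D'.R) hf).ρ σ) e.toLinearEquiv]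
    congr 1
    exact LinearMap.ext fun v => by simp [LinearEquiv.conj_apply, e.map_apply]
  let _ : Algebra D.R D'.R := (f : D.R →+* D'.R).toAlgebra
  rw [h]
  exact (LinearMap.trace_baseChange (D.ρ.ρ σ) D'.R).symm

/-- Maps of deformation rings compose. -/
theorem compatHom_comp {D : DeformationRingData 𝒪 ρbar 𝒟} {D' : DeformationRingData 𝒪 ρbar 𝒟'}
    {D'' : DeformationRingData 𝒪 ρbar 𝒟''} (h : 𝒟 D''.ρ)
    (f : D.R →ₐ[𝒪] D''.R) (hf : IsLocalHom (f : D.R →+* D''.R))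
    (hfeq : (D.ρ.baseChangeAlong (f : D.R →+* D''.R) hf).IsEquiv D''.ρ)
    (g : D.R →ₐ[𝒪] D'.R) (hg : IsLocalHom (g : D.R →+* D'.R))
    (hgeq : (D.ρ.baseChangeAlong (g : D.R →+* D'.R) hg).IsEquiv D'.ρ)
    (g' : D'.R →ₐ[𝒪] D''.R) (hg' : IsLocalHom (g' : D'.R →+* D''.R))
    (hg'eq : (D'.ρ.baseChangeAlong (g' : D'.R →+* D''.R) hg').IsEquiv D''.ρ) :
    f = g'.comp g := by
  have hc : IsLocalHom ((g' : D'.R →+* D''.R).comp (g : D.R →+* D'.R)) :=
    RingHom.isLocalHom_comp (g' : D'.R →+* D''.R) (g : D.R →+* D'.R)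
  refine (D.universal D''.R D''.residue_surjective D''.ρ h D''.residual_isEquiv).unique
    ⟨hf, hfeq⟩ ⟨hc, ?_⟩
  obtain ⟨e1⟩ := baseChange_baseChange_isEquiv (g : D.R →+* D'.R) hg (g' : D'.R →+* D''.R) hg' hc
    D.ρ
  obtain ⟨e2⟩ := hgeq
  obtain ⟨e3⟩ := hg'eq
  exact ⟨e1.symm.trans ((e2.baseChangeAlong _ hg').trans e3)⟩

end Compat

/-- A family of conditions indexed by the primes at which ramification is allowed. -/
structure CondFamily (𝒪 : Type) [CommRing 𝒪] [IsLocalRing 𝒪] (p : ℕ)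
    (𝒟 : Finset ℕ → ∀ ⦃A : Type⦄ [CommRing A] [IsLocalRing A] [Algebra 𝒪 A],
      GaloisRepAdic A → Prop) : Prop where
  isDeformationCondition : ∀ S, IsDeformationCondition 𝒪 (𝒟 S)
  mono : ∀ ⦃S S' : Finset ℕ⦄, S ⊆ S' → ∀ ⦃A : Type⦄ [CommRing A] [IsLocalRing A] [Algebra 𝒪 A]
    (ρ : GaloisRepAdic A), 𝒟 S ρ → 𝒟 S' ρ
  drop : ∀ ⦃S : Finset ℕ⦄ ⦃q : ℕ⦄, ∀ ⦃A : Type⦄ [CommRing A] [IsLocalRing A] [Algebra 𝒪 A]
    (ρ : GaloisRepAdic A), 𝒟 (insert q S) ρ → ρ.IsUnramifiedAt q → 𝒟 S ρ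
  detIsCyclotomic : ∀ ⦃S : Finset ℕ⦄ ⦃A : Type⦄ [CommRing A] [IsLocalRing A] [Algebra 𝒪 A]
    (ρ : GaloisRepAdic A), 𝒟 S ρ → ρ.DetIsCyclotomic p
  isUnramifiedAt : ∀ ⦃S : Finset ℕ⦄ ⦃q : ℕ⦄ ⦃A : Type⦄ [CommRing A] [IsLocalRing A] [Algebra 𝒪 A]
    (ρ : GaloisRepAdic A), 𝒟 S ρ → q.Prime → q ∉ S → ρ.IsUnramifiedAt q

variable [Finite (ResidueField 𝒪)]
  {p : ℕ} {𝒟 : Finset ℕ → ∀ ⦃A : Type⦄ [CommRing A] [IsLocalRing A] [Algebra 𝒪 A],
    GaloisRepAdic A → Prop}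

/-- The cotangent bound for adding the primes of `T`. -/
theorem length_cotangent_le_chain (h𝒟 : CondFamily 𝒪 p 𝒟) (hp : p.Prime) (S₀ : Finset ℕ)
    (hex : ∀ S, S₀ ⊆ S → Nonempty (DeformationRingData 𝒪 ρbar (𝒟 S)))
    (T : Finset ℕ) (hT : ∀ q ∈ T, q.Prime ∧ q ≠ p ∧ q ∉ S₀)
    (D₀ : DeformationRingData 𝒪 ρbar (𝒟 S₀)) (π₀ : D₀.R →ₐ[𝒪] 𝒪) (a : ℕ → 𝒪)
    (ha : ∀ q ∈ T, ∀ P : ValuationSubring Qbar, P.LiesOverPrime q → ∀ φ : GalQ,
      P.IsFrobeniusAt φ q → π₀ (LinearMap.trace D₀.R D₀.ρ.V (D₀.ρ.ρ φ)) = a q)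
    (D : DeformationRingData 𝒪 ρbar (𝒟 (S₀ ∪ T)))
    (f : D.R →ₐ[𝒪] D₀.R) (hf : IsLocalHom (f : D.R →+* D₀.R))
    (hfeq : (D.ρ.baseChangeAlong (f : D.R →+* D₀.R) hf).IsEquiv D₀.ρ) :
    Module.length 𝒪 (RingHom.ker (π₀.comp f)).Cotangent ≤
      (∑ q ∈ T, Ring.ord 𝒪 (((q : 𝒪) - 1) * (((q : 𝒪) + 1) ^ 2 - a q ^ 2))) +
        Module.length 𝒪 (RingHom.ker π₀).Cotangent := by
  classical
  induction T using Finset.induction_on with
  | empty =>
    rw [Finset.sum_empty, zero_add]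
    have h : 𝒟 S₀ D.ρ := by simpa using D.isOfType
    obtain ⟨g, hg, hgeq⟩ := exists_compatHom D₀ D h
    have hid : IsLocalHom (AlgHom.id 𝒪 D.R : D.R →+* D.R) := ⟨fun _ hx => hx⟩
    have hgf : AlgHom.id 𝒪 D.R = g.comp f := by
      refine compatHom_comp D.isOfType _ hid ?_ f hf hfeq g hg hgeq
      obtain ⟨b1, hb1⟩ := exists_basis_adic_baseChangeAlong _ hid D.ρ (univBasis D)
      refine adic_isEquiv_of_matrix b1 (univBasis D) 1 fun σ => ?_
      rw [Units.val_one, one_mul, mul_one, hb1]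
      ext i j
      rfl
    let p' := RingHom.ker (π₀.comp f)
    have hinj : Function.Injective f := fun x y hxy => by
      simpa using (DFunLike.congr_fun hgf x).trans
        ((congrArg g hxy).trans (DFunLike.congr_fun hgf y).symm)
    have hle : RingHom.ker (π₀.comp f) ≤ (RingHom.ker π₀).comap f := fun x hx => by
      simpa [RingHom.mem_ker] using hx
    refine Module.length_le_of_injective (Ideal.mapCotangent _ _ f hle) ?_
    rw [injective_iff_map_eq_zero]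
    intro z hz
    obtain ⟨⟨x, hx⟩, rfl⟩ := (RingHom.ker (π₀.comp f)).toCotangent_surjective z
    rw [Ideal.mapCotangent_toCotangent, Ideal.toCotangent_eq_zero] at hz
    rw [Ideal.toCotangent_eq_zero]
    have hmap : (RingHom.ker π₀).map g ≤ RingHom.ker (π₀.comp f) := by
      refine Ideal.map_le_iff_le_comap.mpr fun y hy => ?_
      have hfs : f (g y) = y := by
        obtain ⟨x', hx'⟩ := surjective_compatHom (h𝒟.isDeformationCondition S₀) D D₀ f hf hfeq y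
        rw [← hx']
        exact congrArg f (DFunLike.congr_fun hgf x').symm
      simpa [RingHom.mem_ker, hfs] using hy
    have h1 := Ideal.mem_map_of_mem g hz
    rw [Ideal.map_pow] at h1
    have h2 := Ideal.pow_right_mono hmap 2 h1
    have hgx : g (f x) = x := (DFunLike.congr_fun hgf x).symm
    rwa [hgx] at h2
  | insert q T hqT ih =>
    obtain ⟨hq, hqp, hqS⟩ := hT q (Finset.mem_insert_self _ _)
    obtain ⟨D'⟩ := hex (S₀ ∪ T) Finset.subset_union_left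
    have hqST : q ∉ S₀ ∪ T := by simp [hqS, hqT]
    have hS : S₀ ∪ insert q T = insert q (S₀ ∪ T) := Finset.union_insert q S₀ T
    obtain ⟨g, hg, hgeq⟩ := exists_compatHom D D'
      (h𝒟.mono (Finset.union_subset_union_right (Finset.subset_insert _ _)) _ D'.isOfType)
    obtain ⟨g', hg', hg'eq⟩ := exists_compatHom D' D₀
      (h𝒟.mono Finset.subset_union_left _ D₀.isOfType)
    have hfg : f = g'.comp g := compatHom_comp
      (h𝒟.mono Finset.subset_union_left _ D₀.isOfType) f hf hfeq g hg hgeq g' hg' hg'eq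
    obtain ⟨P, φ, hP, hφ⟩ := Fermat.Agent.Frobenius.exists_place_isFrobeniusAt hq
    have htr : (π₀.comp g') (g (LinearMap.trace D.R D.ρ.V (D.ρ.ρ φ))) = a q := by
      rw [AlgHom.comp_apply, compatHom_trace g hg hgeq, compatHom_trace g' hg' hg'eq]
      exact ha q (Finset.mem_insert_self _ _) P hP φ hφ
    have hstep := length_cotangent_le_unramified (h𝒟.isDeformationCondition _) D D' hp hq hqp
      (h𝒟.detIsCyclotomic _ D.isOfType)
      (fun B _ _ _ _ ρ hρ hu => h𝒟.drop ρ (hS ▸ hρ) hu)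
      (h𝒟.isUnramifiedAt _ D'.isOfType hq hqST) g hg
      (surjective_compatHom (h𝒟.isDeformationCondition _) D D' g hg hgeq) hgeq
      (π₀.comp g') hP hφ (a q) htr
    have hih := ih (fun r hr => hT r (Finset.mem_insert_of_mem hr))
      (fun r hr => ha r (Finset.mem_insert_of_mem hr)) D' g' hg' hg'eq
    rw [hfg, ← AlgHom.comp_assoc, Finset.sum_insert hqT, add_assoc]
    exact hstep.trans (add_le_add le_rfl hih)

end Fermat.Agent.Lifting
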