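import Fermat.Agent.Lifting.Constructors
import Fermat.Agent.Frobenius.Existence

/-!
# The minimal deformation ring acting on the minimal level

Through a map to the Hecke ring with the right traces, Frobenius traces act on the level as `T_ℓ`.
-/

set_option autoImplicit false

noncomputable section

namespace Fermat.Agent.Lifting

open IsLocalRing CuspForm GaloisRep
open Fermat.Agent.GroupH1 (HeckePoly)

variable {𝒪 : Type} [CommRing 𝒪] [IsDomain 𝒪] [IsDiscreteValuationRing 𝒪]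
  [IsAdicComplete (maximalIdeal 𝒪) 𝒪] [CharZero 𝒪]
  {ρbar : ResidualGaloisRep (ResidueField 𝒪)}
  {𝒟 : ∀ ⦃A : Type⦄ [CommRing A] [IsLocalRing A] [Algebra 𝒪 A], GaloisRepAdic A → Prop}
  {N : ℕ} [NeZero N] {S : Finset ℕ} {a : Nat.Primes → ResidueField 𝒪}
  {θ : heckeAlgebra N 2 (↑S : Set ℕ) →+* ResidueField 𝒪}

/-- The trace of a Frobenius at `ℓ ∉ S` acts on the level as `T_ℓ`. -/
theorem trace_smul_eq_X_smul (h : LevelHyp N N S a θ) [Nontrivial (levelLoc 𝒪 N a)]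
    (H : HeckeGaloisRepDatum N (↑S : Set ℕ) 𝒪 θ (heckeLocal N (↑S : Set ℕ) 𝒪 θ))
    (hπ : H.π = heckeLocal.π N (↑S : Set ℕ) 𝒪 θ)
    (D₀ : DeformationRingData 𝒪 ρbar 𝒟) (φ₀ : D₀.R →ₐ[𝒪] (levelModule h).T)
    (htr₀ : ∀ (ℓ : ℕ) (hℓ : ℓ.Prime) (hℓN : ¬ ℓ ∣ N) (hℓS : ℓ ∉ (↑S : Set ℕ)),
        ∀ P : ValuationSubring (AlgebraicClosure ℚ), P.LiesOverPrime ℓ →
          ∀ σ : AlgebraicClosure ℚ ≃ₐ[ℚ] AlgebraicClosure ℚ, P.IsFrobeniusAt σ ℓ →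
            φ₀ (LinearMap.trace D₀.R D₀.ρ.V (D₀.ρ.ρ σ)) =
              (levelModule h).toT (H.π (heckeAlgebra.T hℓ hℓN hℓS)))
    {ℓ : ℕ} (hℓ : ℓ.Prime) (hℓS : ℓ ∉ S) {P : ValuationSubring (AlgebraicClosure ℚ)}
    (hP : P.LiesOverPrime ℓ) {σ : AlgebraicClosure ℚ ≃ₐ[ℚ] AlgebraicClosure ℚ}
    (hσ : P.IsFrobeniusAt σ ℓ) (x : (levelModule h).M) :
    levelModuleEquiv h (φ₀ (D₀.ρ.trace σ) • x) =
      (MvPolynomial.X ⟨ℓ, hℓ⟩ : HeckePoly 𝒪) • levelModuleEquiv h x := by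
  have hℓS' : ℓ ∉ (↑S : Set ℕ) := fun h' => hℓS (Finset.mem_coe.mp h')
  have hℓN : ¬ ℓ ∣ N := fun h' => hℓS (h.prime_mem ℓ hℓ h')
  rw [GaloisRepAdic.trace, htr₀ ℓ hℓ hℓN hℓS' P hP σ hσ, hπ]
  exact levelModule_toT_smul h hℓ hℓN hℓS' x

end Fermat.Agent.Lifting
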