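import Fermat.Agent.Lifting.MinimalFrame
import Fermat.Agent.Lifting.MinimalModule
import Fermat.Agent.Lifting.Chain
import Fermat.Agent.Lifting.TWLevel

/-!
# `R = T` at the minimal level

For a family of deformation conditions and a residual system occurring at a level `N₀`, the
deformation ring with ramification in `S₀` is the Hecke ring of the level, which acts freely, and
it is a quotient of a power series ring in `r` variables by `r` relations.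
-/

set_option autoImplicit false

noncomputable section

namespace Fermat.Agent.Lifting

open IsLocalRing Polynomial CuspForm GaloisRep
open Fermat.Agent.GroupH1 (HeckePoly IsTWRoot)

variable {𝒪 : Type} [CommRing 𝒪] [IsDomain 𝒪] [IsDiscreteValuationRing 𝒪]
  [IsAdicComplete (maximalIdeal 𝒪) 𝒪] [CharZero 𝒪] [Finite (ResidueField 𝒪)]
  {p : ℕ} [Fact p.Prime] {ρbar : ResidualGaloisRep (ResidueField 𝒪)}
  {𝒟 : Finset ℕ → ∀ ⦃A : Type⦄ [CommRing A] [IsLocalRing A] [Algebra 𝒪 A], GaloisRepAdic A → Prop}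

/-- **`R = T` at the minimal level.** -/
theorem exists_bijective_minimal (h𝒟 : CondFamily 𝒪 p 𝒟) (hp2 : p ≠ 2)
    (hp𝒪 : (p : 𝒪) ∈ maximalIdeal 𝒪) (hodd : ρbar.IsOdd)
    (hdet : (GaloisRepAdic.ofResidualGaloisRep ρbar).DetIsCyclotomic p)
    {N₀ : ℕ} [NeZero N₀] {S S₀ : Finset ℕ} (hSS : S₀ ⊆ S) (hpS : p ∈ S₀)
    (a : Nat.Primes → ResidueField 𝒪)
    (ha : ∀ (l : ℕ) (hl : l.Prime), l ∉ S₀ →
      ∀ P : ValuationSubring (AlgebraicClosure ℚ), P.LiesOverPrime l →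
        ∀ σ : AlgebraicClosure ℚ ≃ₐ[ℚ] AlgebraicClosure ℚ, P.IsFrobeniusAt σ l →
          LinearMap.charpoly (ρbar.ρ σ) =
            X ^ 2 - C (a ⟨l, hl⟩) * X + C (l : ResidueField 𝒪))
    (hρbar : ∀ q : ℕ, q.Prime → q ∉ S₀ → ρbar.IsUnramifiedAt q)
    [Nontrivial (levelLoc 𝒪 N₀ a)]
    {θ₀ : heckeAlgebra N₀ 2 (↑S₀ : Set ℕ) →+* ResidueField 𝒪}
    (h₀ : LevelHyp N₀ N₀ S₀ a θ₀)
    (H₀ : HeckeGaloisRepDatum N₀ (↑S₀ : Set ℕ) 𝒪 θ₀ (heckeLocal N₀ (↑S₀ : Set ℕ) 𝒪 θ₀))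
    (hπ₀ : H₀.π = heckeLocal.π N₀ (↑S₀ : Set ℕ) 𝒪 θ₀) (hH₀ : 𝒟 S₀ H₀.ρ)
    (hres₀ : H₀.ρ.residual.IsEquiv (ρbar.baseChangeAlong
      (ResidueField.map (algebraMap 𝒪 (heckeLocal N₀ (↑S₀ : Set ℕ) 𝒪 θ₀)))))
    (D₀ : DeformationRingData 𝒪 ρbar (𝒟 S₀))
    (hex : ∀ T, S₀ ⊆ T → Nonempty (DeformationRingData 𝒪 ρbar (𝒟 T)))
    {r : ℕ} (h56 : HasTWPrimes ρbar p S S₀ r 𝒟)
    (hcondQ : ∀ (qv : Fin r → Nat.Primes), Function.Injective qv → (∀ j, (qv j : ℕ) ∉ S) →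
      ∀ (θ : heckeAlgebra (twM2 N₀ qv) 2
          (↑(S₀ ∪ Finset.univ.image fun j => (qv j : ℕ)) : Set ℕ) →+* ResidueField 𝒪)
        (H : HeckeGaloisRepDatum (twM2 N₀ qv)
          (↑(S₀ ∪ Finset.univ.image fun j => (qv j : ℕ)) : Set ℕ) 𝒪 θ
          (heckeLocal (twM2 N₀ qv)
            (↑(S₀ ∪ Finset.univ.image fun j => (qv j : ℕ)) : Set ℕ) 𝒪 θ)),
      (∀ q : ℕ, q.Prime → q ∉ S₀ ∪ Finset.univ.image (fun j => (qv j : ℕ)) →
        H.ρ.IsUnramifiedAt q) →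
      H.ρ.residual.IsEquiv (ρbar.baseChangeAlong (ResidueField.map (algebraMap 𝒪
        (heckeLocal (twM2 N₀ qv)
          (↑(S₀ ∪ Finset.univ.image fun j => (qv j : ℕ)) : Set ℕ) 𝒪 θ)))) →
      𝒟 (S₀ ∪ Finset.univ.image fun j => (qv j : ℕ)) H.ρ)
    (hnonEis : ∀ (M : ℕ) (T : Finset ℕ), M ≠ 0 → ∃ l : Nat.Primes, (l : ℕ) ∉ T ∧
      ((l : ℕ) : ZMod M) = 1 ∧ a l ≠ ((l : ℕ) : ResidueField 𝒪) + 1)
    (h3 : IsUnit (3 : 𝒪) ∨
      ∀ T : Finset ℕ, ∃ l : Nat.Primes, (l : ℕ) ∉ T ∧ (l : ℕ) % 3 = 2 ∧ a l ≠ 0)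
    (h34 : UnipotentAtSemistable) (h36 : ConductorLevel.NewformCarayol)
    (hforms : ∀ (n : ℕ) (qv : Fin r → Nat.Primes) (hinj : Function.Injective qv),
      (∀ j, (qv j : ℕ) ∉ S) → (∀ j, p ^ (n + 1) ∣ (qv j : ℕ) - 1) →
      ∀ α : Nat.Primes → ResidueField 𝒪, (∀ j, IsTWRoot a (qv j) (α (qv j))) →
        TWPointForms 𝒪 N₀ p qv hinj a α (S₀ ∪ Finset.univ.image fun j => (qv j : ℕ))) :
    ∃ φ₀ : D₀.R →ₐ[𝒪] (levelModule h₀).T, Function.Bijective φ₀ ∧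
      (∀ (ℓ : ℕ) (hℓ : ℓ.Prime) (hℓN : ¬ ℓ ∣ N₀) (hℓS : ℓ ∉ (↑S₀ : Set ℕ)),
        ∀ P : ValuationSubring (AlgebraicClosure ℚ), P.LiesOverPrime ℓ →
          ∀ σ : AlgebraicClosure ℚ ≃ₐ[ℚ] AlgebraicClosure ℚ, P.IsFrobeniusAt σ ℓ →
            φ₀ (LinearMap.trace D₀.R D₀.ρ.V (D₀.ρ.ρ σ)) =
              (levelModule h₀).toT (H₀.π (heckeAlgebra.T hℓ hℓN hℓS))) ∧
      Module.Free (levelModule h₀).T (levelModule h₀).M ∧
      Module.Finite (levelModule h₀).T (levelModule h₀).M ∧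
      ∃ (ψ : MvPowerSeries (Fin r) 𝒪 →ₐ[𝒪] D₀.R) (f : Fin r → MvPowerSeries (Fin r) 𝒪),
        Function.Surjective ψ ∧ RingHom.ker ψ = Ideal.span (Set.range f) := by
  classical
  obtain ⟨φ₀, hφ₀, htr₀⟩ :=
    (levelModule h₀).exists_surjection D₀ H₀ h₀.prime_mem hH₀ hres₀
  have htr : ∀ q : Nat.Primes, (q : ℕ) ∉ S →
      ∀ P : ValuationSubring (AlgebraicClosure ℚ), P.LiesOverPrime q →
        ∀ φ : AlgebraicClosure ℚ ≃ₐ[ℚ] AlgebraicClosure ℚ, P.IsFrobeniusAt φ q →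
          LinearMap.trace (ResidueField 𝒪) ρbar.V (ρbar.ρ φ) = a q := by
    intro q hq P hP φ hφ
    have h := ha q q.2 (fun h' => hq (hSS h')) P hP φ hφ
    rw [ConductorLevel.charpoly_eq_of_finrank_two ρbar.finrank_eq] at h
    have h1 := congrArg (fun f : (ResidueField 𝒪)[X] => f.coeff 1) h
    simpa [coeff_X_pow, coeff_C] using h1
  obtain ⟨hbij, hfree, hfin, hψ⟩ := bijective_of_twPrimes hp𝒪 hdet h𝒟.isDeformationCondition
    h𝒟.mono hex h56 a htr D₀ (levelModule h₀) φ₀ hφ₀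
    fun n qv hinj hqv α hα DQ γ hγ τ _ _ _ => by
      let qv' : Fin r → Nat.Primes := fun i => ⟨qv i, (hqv i).1⟩
      have hinj' : Function.Injective qv' := fun i j h => hinj (congrArg Subtype.val h)
      let _ : Module D₀.R (levelLoc 𝒪 N₀ a) :=
        Module.compHom (levelModule h₀).M (φ₀ : D₀.R →+* (levelModule h₀).T)
      have : IsScalarTower 𝒪 D₀.R (levelLoc 𝒪 N₀ a) := ⟨fun c y x => by
        show φ₀ (c • y) • (show (levelModule h₀).M from x) =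
          c • (φ₀ y • (show (levelModule h₀).M from x))
        rw [map_smul, smul_assoc]⟩
      have hqS : ∀ j, (qv' j : ℕ) ∉ S := fun j => (hqv j).2.1
      have hq1 : ∀ j, p ^ (n + 1) ∣ (qv' j : ℕ) - 1 := fun j => (hqv j).2.2
      exact exists_twLevel hp2 hp𝒪 hodd N₀ S₀ hpS h₀.prime_mem a ha hρbar D₀
        (h𝒟.isDeformationCondition S₀)
        (fun q hq hqS₀ => h𝒟.isUnramifiedAt D₀.ρ D₀.isOfType hq hqS₀)
        (fun ℓ hℓ hℓS P hP σ hσ x =>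
          trace_smul_eq_X_smul h₀ H₀ hπ₀ D₀ φ₀ htr₀ hℓ hℓS hP hσ x)
        qv' hinj' (fun j h => hqS j (hSS h)) hq1 α hα DQ
        (h𝒟.isDeformationCondition _) (h𝒟.detIsCyclotomic DQ.ρ DQ.isOfType)
        (h𝒟.mono Finset.subset_union_left D₀.ρ D₀.isOfType) γ hγ
        (hcondQ qv' hinj' hqS) (fun T => hnonEis _ T (NeZero.ne _)) h3 h34 h36
        (hforms n qv' hinj' hqS hq1 α hα)
  exact ⟨φ₀, hbij, htr₀, hfree, hfin, hψ⟩

end Fermat.Agent.Lifting
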