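import Fermat.Agent.Lifting.Externals
import Fermat.Agent.Lifting.DatumConditions
import Fermat.Agent.Lifting.Finish
import Fermat.Agent.Lifting.Minimal
import Fermat.Agent.Lifting.MinimalForm
import Fermat.Prelude.Def_GaloisRep_StrictOrdinary

/-!
# The inputs of modularity lifting at `p = 3, 5`

`LiftingInputs` bundles the statements the case theorems consume: Taylor–Wiles primes, the local
behaviour of Hecke representations at `p` and at primes exactly dividing the level, Carayol's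
theorem, exactness of the conductor level, level lowering, and the forms attached to Taylor–Wiles
points.
-/

set_option autoImplicit false

noncomputable section

namespace Fermat.Agent.Lifting

open IsLocalRing GaloisRep Polynomial

/-- Taylor–Wiles primes exist for the strictly ordinary and for the flat condition at `p`. -/
def TWPrimesExist : Prop :=
  ∀ {𝒪 : Type} [CommRing 𝒪] [IsDomain 𝒪] [IsDiscreteValuationRing 𝒪]
    [IsAdicComplete (maximalIdeal 𝒪) 𝒪] [Finite (ResidueField 𝒪)]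
    (p : ℕ) [Fact p.Prime] (_hp2 : p ≠ 2) (_hp𝒪 : (p : 𝒪) ∈ maximalIdeal 𝒪)
    (ρbar : ResidualGaloisRep (ResidueField 𝒪)) (_habs : ρbar.IsAbsolutelyIrreducible)
    (_hdet : (GaloisRepAdic.ofResidualGaloisRep ρbar).DetIsCyclotomic p)
    (_hsplit : ∀ σ : AlgebraicClosure ℚ ≃ₐ[ℚ] AlgebraicClosure ℚ,
      ∃ α β : ResidueField 𝒪, LinearMap.charpoly (ρbar.ρ σ) = (X - C α) * (X - C β))
    (_hTW : ∀ (K : Type) [Field K] [Algebra (ResidueField 𝒪) K]
      (G : Subgroup (AlgebraicClosure ℚ ≃ₐ[ℚ] AlgebraicClosure ℚ)), G.index = 2 →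
      ∀ V : Submodule K (ρbar.baseChange K).V,
        (∀ σ ∈ G, ∀ x ∈ V, (ρbar.baseChange K).ρ σ x ∈ V) → V = ⊥ ∨ V = ⊤)
    (S Smin : Finset ℕ) (_hpSmin : p ∈ Smin) (_hSmin : Smin ⊆ S) (_hS : ∀ q ∈ S, q.Prime)
    (_hmin : ∀ q : ℕ, q.Prime → q ≠ p → (q ∈ Smin ↔ ¬ ρbar.IsUnramifiedAt q)),
    (∃ r : ℕ, HasTWPrimes ρbar p S Smin r fun S' _A _ _ _ ρ =>
      strictOrdinaryCondition 𝒪 p S' ρ ∧ ∀ q ∈ Smin, q.Prime → q ≠ p → ρ.IsUnipotentOnInertiaAt q) ∧
    (∃ r : ℕ, HasTWPrimes ρbar p S Smin r fun S' _A _ _ _ ρ =>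
      flatCondition 𝒪 p S' ρ ∧ ∀ q ∈ Smin, q.Prime → q ≠ p → ρ.IsUnipotentOnInertiaAt q)

/-- Taylor–Wiles points come from eigenforms, new of exponent two where the diamond is not
trivial. -/
def TWFormsExist : Prop :=
  ∀ {𝒪 : Type} [CommRing 𝒪] [IsDomain 𝒪] [IsDiscreteValuationRing 𝒪]
    [IsAdicComplete (maximalIdeal 𝒪) 𝒪] [Finite (ResidueField 𝒪)] [CharZero 𝒪]
    (p : ℕ) [Fact p.Prime] (_hp2 : p ≠ 2) (_hp𝒪 : (p : 𝒪) ∈ maximalIdeal 𝒪)
    (N₀ : ℕ) [NeZero N₀] (S S₀ : Finset ℕ) (_hSS : S₀ ⊆ S) (_hpS : p ∈ S₀)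
    (_hNS : ∀ q : ℕ, q.Prime → q ∣ N₀ → q ∈ S₀)
    (a : Nat.Primes → ResidueField 𝒪)
    (_hnonEis : ∀ (M : ℕ) (T : Finset ℕ), M ≠ 0 → ∃ l : Nat.Primes, (l : ℕ) ∉ T ∧
      ((l : ℕ) : ZMod M) = 1 ∧ a l ≠ ((l : ℕ) : ResidueField 𝒪) + 1)
    (r n : ℕ) (qv : Fin r → Nat.Primes) (hinj : Function.Injective qv),
      (∀ j, (qv j : ℕ) ∉ S) → (∀ j, p ^ (n + 1) ∣ (qv j : ℕ) - 1) →
      ∀ α : Nat.Primes → ResidueField 𝒪, (∀ j, GroupH1.IsTWRoot a (qv j) (α (qv j))) →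
        TWPointForms 𝒪 N₀ p qv hinj a α (S₀ ∪ Finset.univ.image fun j => (qv j : ℕ))

/-- The inputs of modularity lifting. -/
structure LiftingInputs : Prop where
  twPrimes : TWPrimesExist
  flat : FlatAtGoodLevel
  ordinary : OrdinaryAtLevel
  unipotent : UnipotentAtSemistable
  carayol : ConductorLevel.NewformCarayol
  forms : TWFormsExist
  levelExact : LevelExact
  sqf : LevelLoweringSqf
  peu : LevelLoweringAtP
  residualCarayol : ResidualCarayol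

end Fermat.Agent.Lifting
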