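import Fermat.Agent.HeckeCohom.Points
import Fermat.Agent.Lifting.Inputs

/-!
# Taylor–Wiles points come from forms

A point of the algebra of a Taylor–Wiles level gives a newform with the twisted eigenvalues, with
exponent two at `qⱼ` exactly when the diamond at `qⱼ` is nontrivial at the point.
-/

set_option autoImplicit false

noncomputable section

open IsLocalRing

namespace Fermat.Agent.Lifting

open Fermat.Agent.Patching
open Fermat.Agent.GroupH1 (eigIdeal twSystem HeckePoly)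

variable (N p : ℕ) {r : ℕ} (qv : Fin r → Nat.Primes)

/-- A unit congruent to one at the other primes whose class is the generator at `j`. -/
theorem exists_unit_twChi_eq_genV [NeZero N] [Fact p.Prime] {qv : Fin r → Nat.Primes}
    (hinj : Function.Injective qv) (j : Fin r) :
    ∃ u : (ZMod (twM N qv))ˣ, twChi N p qv ⟨u, Subgroup.mem_top u⟩ = genV j ∧
      ∀ i, i ≠ j → ZMod.unitsMap (dvd_twM N qv i) u = 1 := by
  classical
  obtain ⟨x₀, hx₀⟩ := twComp_surjective p qv j ((genV j : DeltaV p (twExp p qv)) j)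
  let x : ∀ i, (ZMod (qv i : ℕ))ˣ := Pi.mulSingle j x₀
  have hcop : Pairwise (Function.onFun Nat.Coprime fun i => (qv i : ℕ)) := fun i k hik =>
    (Nat.coprime_primes (qv i).2 (qv k).2).2 fun h => hik (hinj (Subtype.ext h))
  let e := ZMod.prodEquivPi (fun i => (qv i : ℕ)) hcop
  let w : (ZMod (∏ i, (qv i : ℕ)))ˣ :=
    Units.map e.symm.toRingHom.toMonoidHom ((MulEquiv.piUnits (M := fun i => ZMod (qv i : ℕ))).symm x)
  have hd : (∏ i, (qv i : ℕ)) ∣ twM N qv := by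
    rw [← prod_twQ hinj]
    exact dvd_mul_left _ _
  obtain ⟨u, hu⟩ := ZMod.unitsMap_surjective hd w
  have hux : ∀ i, ZMod.unitsMap (dvd_twM N qv i) u = x i := fun i => by
    refine Units.ext ?_
    rw [← ZMod.unitsMap_comp (Finset.dvd_prod_of_mem (fun i => (qv i : ℕ)) (Finset.mem_univ i)) hd,
      MonoidHom.comp_apply, hu]
    show ZMod.castHom (Finset.dvd_prod_of_mem (fun i => (qv i : ℕ)) (Finset.mem_univ i))
      (ZMod (qv i : ℕ))
      (e.symm ((MulEquiv.piUnits (M := fun i => ZMod (qv i : ℕ))).symm x : Π i, ZMod (qv i : ℕ))) = _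
    rw [← ZMod.prodEquivPi_apply (fun i => (qv i : ℕ)) hcop, RingEquiv.apply_symm_apply]
    rfl
  have hx1 : ∀ i, i ≠ j → x i = 1 := fun i hi => Pi.mulSingle_eq_of_ne hi _
  refine ⟨u, funext fun i => ?_, fun i hi => (hux i).trans (hx1 i hi)⟩
  rw [twChi_apply, hux]
  by_cases hi : i = j
  · subst hi
    simpa [x] using hx₀
  · rw [hx1 i hi, map_one, genV, Pi.mulSingle_eq_of_ne hi]

/-- **Taylor–Wiles points come from eigenforms.** -/
theorem twFormsExist : TWFormsExist := by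
  intro 𝒪 _ _ _ _ _ _ p _ hp2 hp𝒪 N₀ _ S S₀ hSS hpS hNS a hnonEis r n qv hinj hqS hq1 α hα χ j
  classical
  set SQ := S₀ ∪ Finset.univ.image fun j => (qv j : ℕ) with hSQ
  have hqN : ∀ i, ¬ (qv i : ℕ) ∣ N₀ := fun i h => hqS i (hSS (hNS _ (qv i).2 h))
  have hN'S : ∀ l : ℕ, l.Prime → l ∣ twM2 N₀ qv → l ∈ SQ := fun l hl hd => by
    rcases (dvd_twM2_iff N₀ qv hl).1 hd with h | ⟨i, rfl⟩
    · exact Finset.mem_union_left _ (hNS l hl h)
    · exact Finset.mem_union_right _ (Finset.mem_image.2 ⟨i, Finset.mem_univ i, rfl⟩)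
  have hout : ∀ l : ℕ, l.Prime → l ∉ SQ → ¬ l ∣ twM N₀ qv := fun l hl hlS hd =>
    hlS (hN'S l hl (hd.trans (twM_dvd_twM2 N₀ qv)))
  obtain ⟨l₀, hl₀S, hl₀1, hl₀a⟩ := hnonEis (twM2 N₀ qv) SQ (NeZero.ne _)
  have hl₀Q : l₀ ∉ twQ qv := fun h => by
    obtain ⟨i, rfl⟩ := exists_of_mem_twQ qv h
    exact hl₀S (Finset.mem_union_right _ (Finset.mem_image.2 ⟨i, Finset.mem_univ i, rfl⟩))
  have : FaithfulSMul 𝒪 (AlgebraicClosure (FractionRing 𝒪)) := by
    rw [faithfulSMul_iff_algebraMap_injective,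
      IsScalarTower.algebraMap_eq 𝒪 (FractionRing 𝒪) (AlgebraicClosure (FractionRing 𝒪))]
    exact (algebraMap (FractionRing 𝒪) _).injective.comp (IsFractionRing.injective 𝒪 _)
  have : CharZero (AlgebraicClosure (FractionRing 𝒪)) :=
    charZero_of_injective_algebraMap (FaithfulSMul.algebraMap_injective 𝒪 _)
  obtain ⟨M', hM', g, -, hg, ⟨R, hR, ι, hι⟩, hexp⟩ := HeckeCohom.exists_newform_of_point
    (twChi N₀ p qv) (twChi_surjective N₀ p hinj) (mem_twH N₀ p qv)
    (eigIdeal (twSystem (twQ qv) a α)) (twAlg 𝒪 N₀ p qv hinj a α)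
    (fun x hx y hy => congrArg Subtype.val
      (mul_comm (⟨x, hx⟩ : twAlg 𝒪 N₀ p qv hinj a α) ⟨y, hy⟩))
    (twDiamond_mem 𝒪 N₀ p qv hinj a α) (D := twM N₀ qv) (NeZero.ne _) dvd_rfl
    (fun l _ => twX_mem 𝒪 N₀ p qv hinj a α l) (sqrtExp p qv)
    (pow_two_mul_sqrtExp qv Fact.out hp2) (s := (twQ qv).image ((↑) : Nat.Primes → ℕ))
    (fun q hq => by
      obtain ⟨q', hq', rfl⟩ := Finset.mem_image.1 hq
      obtain ⟨i, rfl⟩ := exists_of_mem_twQ qv hq'
      exact ⟨(qv i).2, dvd_twM N₀ qv i, not_sq_dvd_twM N₀ qv hqN i⟩)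
    (fun u hu => (mem_twH N₀ p qv ⟨u, Subgroup.mem_top u⟩).2 (funext fun i => by
      have : ZMod.unitsMap (dvd_twM N₀ qv i) u = 1 :=
        Units.ext (hu _ (Finset.mem_image_of_mem _ (mem_twQ qv i)) (dvd_twM N₀ qv i))
      rw [twChi_apply, this, map_one]
      rfl))
    ⟨l₀, hout _ l₀.2 hl₀S, by rw [← twM2_eq_mul]; exact hl₀1, fun h => by
      have h' := GroupH1.X_sub_C_mem_eigIdeal_iff.1 h
      rw [GroupH1.twSystem_of_not_mem hl₀Q, map_add, map_natCast, map_one] at h'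
      exact hl₀a h'⟩ χ
  have hδ : ∀ l : ℕ, HeckeCohom.classOf (twChi N₀ p qv) (HeckeCohom.unitAt (twM N₀ qv) l) =
      deltaOf N₀ p qv l := fun l => by
    unfold HeckeCohom.classOf HeckeCohom.unitAt deltaOf
    split_ifs
    · rfl
    · exact map_one _
  have hval : PointValues N₀ p qv hinj a α g SQ χ := by
    refine ⟨R, fun l hl hlS => hR l hl (hout l hl hlS), ι, fun l hl hlS => ?_⟩
    rw [hι l hl (hout l hl hlS), ← map_mul]
    refine congrArg χ (Subtype.ext ?_)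
    simp only [hδ]
    rfl
  have hj : (qv j : ℕ) ∈ (twQ qv).image ((↑) : Nat.Primes → ℕ) :=
    Finset.mem_image_of_mem _ (mem_twQ qv j)
  refine ⟨fun h1 => ⟨M', hM', g, hg.1, (hexp _ hj).1 fun u hu => ?_, hval⟩,
    fun h1 => ⟨M', hM', g, hg, (hexp _ hj).2 ?_, hval⟩⟩
  · -- the class of `u` is a power of the generator at `j`
    set δ := twChi N₀ p qv ⟨u, Subgroup.mem_top u⟩ with hδ'
    have hpow : δ = genV j ^ (δ j).toAdd.val := funext fun i => by
      by_cases hi : i = j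
      · subst hi
        rw [Pi.pow_apply, genV, Pi.mulSingle_eq_same, ← ofAdd_nsmul, nsmul_eq_mul, mul_one,
          ZMod.natCast_zmod_val, ofAdd_toAdd]
      · rw [Pi.pow_apply, genV, Pi.mulSingle_eq_of_ne hi, one_pow, hδ', twChi_apply,
          show ZMod.unitsMap (dvd_twM N₀ qv i) u = 1 from Units.ext (hu _
            (Finset.mem_image_of_mem _ (mem_twQ qv i))
            (fun e => hi (hinj (Subtype.ext e))) (dvd_twM N₀ qv i)), map_one]
    have h2 : (⟨twDiamond 𝒪 N₀ p qv hinj a α δ, twDiamond_mem 𝒪 N₀ p qv hinj a α δ⟩ :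
        twAlg 𝒪 N₀ p qv hinj a α) = ⟨twDiamond 𝒪 N₀ p qv hinj a α (genV j),
          twDiamond_mem 𝒪 N₀ p qv hinj a α _⟩ ^ (δ j).toAdd.val := by
      refine Subtype.ext ?_
      rw [SubmonoidClass.coe_pow, ← map_pow, ← hpow]
    exact (congrArg χ h2).trans (by rw [map_pow, h1, one_pow])
  · obtain ⟨u, hu, hu1⟩ := exists_unit_twChi_eq_genV N₀ p hinj j
    refine ⟨u, fun x hx hxj hxM => ?_, fun e => h1 ?_⟩
    · obtain ⟨q', hq', rfl⟩ := Finset.mem_image.1 hx
      obtain ⟨i, rfl⟩ := exists_of_mem_twQ qv hq'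
      exact congrArg Units.val (hu1 i fun e => hxj (by rw [e]))
    · refine Eq.trans (congrArg χ (Subtype.ext ?_)) e
      exact congrArg (twDiamond 𝒪 N₀ p qv hinj a α) hu.symm

end Fermat.Agent.Lifting
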