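import Fermat.Agent.Lifting.Inputs
import Fermat.Agent.Lifting.TWForms
import Fermat.Agent.AtP.ClassOrdinary
import Fermat.Agent.AtP.RemoveAtPAll
import Fermat.Agent.OrdinaryCurve.Main
import Fermat.Agent.ResidualCarayol.Final
import Fermat.Agent.ConductorLevel.TorsionFrobenius
import Fermat.Agent.S32
import Fermat.Agent.S33
import Fermat.Agent.S34
import Fermat.Agent.S35
import Fermat.Agent.S36
import Fermat.Agent.S56

/-!
# The inputs of modularity lifting, discharged

Every field of `LiftingInputs`, given Ribet's level lowering at squarefree levels.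
-/

set_option autoImplicit false

noncomputable section

namespace Fermat.Agent.Lifting

open IsLocalRing GaloisRep

/-- Taylor–Wiles primes exist. -/
theorem twPrimesExist : TWPrimesExist :=
  fun p _ hp2 hp𝒪 ρbar habs hdet hsplit hTW S Smin hpSmin hSmin hS hmin =>
    S56.result p hp2 hp𝒪 ρbar habs hdet hsplit hTW S Smin hpSmin hSmin hS hmin

/-- Hecke representations of level prime to `p` are flat at `p`. -/
theorem flatAtGoodLevel : FlatAtGoodLevel :=
  fun hp hp2 hp𝒪 hpN hpS hNS H => S32.result hp hp2 hp𝒪 hpN hpS hNS H

/-- Hecke representations of level exactly divisible by `p` are ordinary at `p`. -/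
theorem ordinaryAtLevel : OrdinaryAtLevel :=
  fun hp hp2 hp𝒪 hN hNS H hres => S33.result hp hp2 hp𝒪 hN hNS H hres

/-- Hecke representations have unipotent inertia at `q ≠ p` exactly dividing the level. -/
theorem unipotentAtSemistable : UnipotentAtSemistable :=
  fun hp hp𝒪 _ _ _ hpS hNS _ _ _ _ _ _ _ _ _ _ H q hq hqp hqN hq2 =>
    S34.result hp hp𝒪 hpS hNS H q hq hqp hqN hq2

set_option linter.overlappingInstances false in
/-- Frobenius at a prime exactly dividing the level of a newform. -/
theorem newformSteinberg : ConductorLevel.NewformSteinberg :=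
  fun hg lam _ S O' _ _ _ _ _ _ hlamO' chig hchig iota hlamS hMS =>
    S35.result hg lam S O' hlamO' chig hchig iota hlamS hMS

set_option linter.overlappingInstances false in
/-- Carayol: non-unipotent inertia at a prime dividing the level of a newform exactly twice. -/
theorem newformCarayol : ConductorLevel.NewformCarayol :=
  fun hg lam _ S O' _ _ _ _ _ _ hlamO' hlam2 chig hchig iota hlamS hMS hres =>
    S36.result hg lam S O' hlamO' hlam2 chig hchig iota hlamS hMS hres

/-- The conductor level is reached. -/
theorem levelExact : LevelExact :=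
  fun W hss N p hp hp2 hirr hp2N hN hbad hN3 =>
    ConductorLevel.isModularModelOfLevel_conductorLevel_of_S35_S36 newformSteinberg newformCarayol
      W hss N p hp.out hp2 hirr hp2N hN hbad hN3

/-- No congruence at level `p M` which is new at `p` for a curve good supersingular at `p`. -/
theorem supersingularExclusion {W : WeierstrassCurve ℤ} (hΔ : W.Δ ≠ 0) {p : ℕ} [Fact p.Prime]
    (hp2 : p ≠ 2) : AtP.SupersingularExclusion W p := fun _ hgood hap M hM hpM h =>
  haveI : NeZero M := ⟨hM.ne'⟩
  AtP.cofiniteResModular_of_supersingular hΔ hp2 hgood hap hpM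
    (fun {_} => OrdinaryCurve.ordinaryTate p (p * M)) h

/-- Level lowering at `p` from Mazur's principle and Ribet's level lowering away from `p`. -/
theorem levelLoweringAtP (h38 : LevelLoweringSqf) : LevelLoweringAtP :=
  fun W hΔ hW p _ hp hirr hv h =>
    AtP.isResiduallyModularOfLevel_minimalLevel_of_mul h38 hΔ hW (by omega)
      (supersingularExclusion hΔ (by omega)) hirr hv h

/-- The inputs, given level lowering away from `p`. -/
theorem liftingInputs (h38 : LevelLoweringSqf) : LiftingInputs where
  twPrimes := twPrimesExist
  flat := flatAtGoodLevel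
  ordinary := ordinaryAtLevel
  unipotent := unipotentAtSemistable
  carayol := newformCarayol
  forms := twFormsExist
  levelExact := levelExact
  sqf := h38
  peu := levelLoweringAtP h38
  residualCarayol := Fermat.Agent.ResidualCarayol.residualCarayol

end Fermat.Agent.Lifting
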