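import Fermat.Agent.LocalInertia.Corollaries
import Mathlib.LinearAlgebra.Matrix.NonsingularInverse

/-!
# Inertia in a representation which is unramified up to a square zero ideal

If inertia at `q` is trivial modulo a square zero ideal killed by a power of `p ≠ q`, it acts
through one element `t`, and Frobenius conjugates `t - 1` to `q (t - 1)`.
-/

set_option autoImplicit false

namespace Fermat.Agent.Lifting

open Fermat.Agent.GaloisBasics Fermat.Agent.LocalInertia

variable {A : ValuationSubring Qbar} {q : ℕ} {S : Type} [CommRing S]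

/-- Matrices with entries in a square-zero ideal multiply to zero. -/
theorem mul_eq_zero_of_entries_mem {P : Ideal S} (hP : P * P = ⊥) {X Y : Matrix (Fin 2) (Fin 2) S}
    (hX : ∀ i j, X i j ∈ P) (hY : ∀ i j, Y i j ∈ P) : X * Y = 0 := by
  ext i j
  rw [Matrix.mul_apply, Matrix.zero_apply]
  refine Finset.sum_eq_zero fun l _ => ?_
  simpa [hP] using Ideal.mul_mem_mul (hX i l) (hY l j)

theorem one_add_pow_of_sq_zero {R : Type*} [Ring R] {X : R} (h : X * X = 0) (n : ℕ) :
    (1 + X) ^ n = 1 + n • X := by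
  induction n with
  | zero => simp
  | succ n ih =>
    rw [pow_succ, ih, mul_add, mul_one, add_mul, one_mul, smul_mul_assoc, h, smul_zero, add_zero,
      succ_nsmul, add_assoc]

/-- If inertia at `q` acts as `1` modulo a square zero ideal `P` killing a power of `p ≠ q`, the
deviations from `1` are multiples of one of them, on which Frobenius acts as multiplication
by `q`. -/
theorem exists_inertia_relations (hA : A.LiesOverPrime q) (hq : q.Prime) {p k : ℕ}
    (hqp : Nat.Coprime p q) (hpk : (p : S) ^ k = 0) (M : GalQ →* Matrix (Fin 2) (Fin 2) S)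
    (hM : ∃ F : IntermediateField ℚ Qbar, FiniteDimensional ℚ F ∧
      ∀ σ : GalQ, (∀ x ∈ F, σ x = x) → M σ = 1)
    {P : Ideal S} (hP : P * P = ⊥)
    (hI : ∀ σ ∈ A.inertiaSubgroupIn ℚ, ∀ i j, (M σ - 1) i j ∈ P) :
    ∃ t ∈ A.inertiaSubgroupIn ℚ,
      (∀ σ ∈ A.inertiaSubgroupIn ℚ, ∃ j : ℕ, M σ - 1 = j • (M t - 1)) ∧
      ∀ φ : GalQ, A.IsFrobeniusAt φ q →
        M φ * (M t - 1) = (q : S) • ((M t - 1) * M φ) := by
  have hsq : ∀ σ ∈ A.inertiaSubgroupIn ℚ, (M σ - 1) * (M σ - 1) = 0 := fun σ hσ =>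
    mul_eq_zero_of_entries_mem hP (hI σ hσ) (hI σ hσ)
  have hpowM : ∀ σ ∈ A.inertiaSubgroupIn ℚ, ∀ n : ℕ, M σ ^ n = 1 + n • (M σ - 1) :=
    fun σ hσ n => by
      conv_lhs => rw [show M σ = 1 + (M σ - 1) from (add_sub_cancel _ _).symm]
      exact one_add_pow_of_sq_zero (hsq σ hσ) n
  obtain ⟨F, hF, hFM⟩ := hM
  let f : GalQ →* (Matrix (Fin 2) (Fin 2) S)ˣ := M.toHomUnits
  have hf : ∀ σ, (f σ : Matrix (Fin 2) (Fin 2) S) = M σ := fun σ => rfl
  obtain ⟨t, ht, hgen, hconj⟩ := exists_inertia_image_generator hA hq f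
    ⟨F, hF, fun σ hσ => Units.ext (by rw [hf, hFM σ hσ]; rfl)⟩ fun σ hσ => by
      refine Nat.Coprime.coprime_dvd_left (orderOf_dvd_of_pow_eq_one (n := p ^ k) (Units.ext ?_))
        (hqp.pow_left k)
      rw [Units.val_pow_eq_pow_val, hf, hpowM σ hσ, ← Nat.cast_smul_eq_nsmul S,
        Nat.cast_pow, hpk, zero_smul, add_zero]
      rfl
  refine ⟨t, ht, fun σ hσ => ?_, fun φ hφ => ?_⟩
  · obtain ⟨j, hj⟩ := hgen σ hσ
    refine ⟨j, ?_⟩
    rw [← hf σ, hj, Units.val_pow_eq_pow_val, hf, hpowM t ht, add_sub_cancel_left]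
  · have h := congrArg (fun u : (Matrix (Fin 2) (Fin 2) S)ˣ =>
      (u : Matrix (Fin 2) (Fin 2) S) * M φ) (hconj φ hφ)
    simp only [Units.val_mul, Units.val_pow_eq_pow_val, hf, hpowM t ht] at h
    rw [mul_assoc, ← hf φ, Units.inv_mul, mul_one, hf, add_mul, one_mul] at h
    rw [mul_sub, mul_one, h, Nat.cast_smul_eq_nsmul, smul_mul_assoc, add_sub_cancel_left]

/-- The relations between the upper left, upper right and lower left entries of a trace zero
matrix `X` with `F X = q X F`, where `F = !![a, b; c, d]`. -/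
def frobRel {O : Type*} [CommRing O] (a b c d : O) (q : ℕ) : Matrix (Fin 3) (Fin 3) O :=
  !![a * d + b * c - q ^ 2, -(a * c), b * d;
     -(2 * a * b), a ^ 2 - q ^ 2, -b ^ 2;
     2 * c * d, -c ^ 2, d ^ 2 - q ^ 2]

/-- The determinant of the Frobenius relations. -/
theorem det_frobRel {O : Type*} [CommRing O] {a b c d : O} {q : ℕ} (h : a * d - b * c = q) :
    (frobRel a b c d q).det =
      (q : O) ^ 3 * ((1 - q) * (((q : O) + 1) ^ 2 - (a + d) ^ 2)) := by
  simp only [frobRel, Matrix.det_fin_three, Matrix.of_apply, Matrix.cons_val_zero,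
    Matrix.cons_val_one, Matrix.cons_val]
  rw [← h]
  ring

/-- `frobRel` kills the entries of `X`. -/
theorem frobRel_mulVec_eq_zero {O : Type*} [CommRing O] [Algebra O S] {a b c d : O} {q : ℕ}
    {X : Matrix (Fin 2) (Fin 2) S} (hdet : a * d - b * c = q) (htr : X 1 1 = -X 0 0)
    (h : (!![a, b; c, d] : Matrix (Fin 2) (Fin 2) O).map (algebraMap O S) * X =
      (q : S) • (X * (!![a, b; c, d] : Matrix (Fin 2) (Fin 2) O).map (algebraMap O S))) :
    ∀ i, ∑ j, frobRel a b c d q i j • ![X 0 0, X 0 1, X 1 0] j = 0 := by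
  have hd : algebraMap O S a * algebraMap O S d - algebraMap O S b * algebraMap O S c = (q : S) := by
    rw [← map_mul, ← map_mul, ← map_sub, hdet, map_natCast]
  have e00 := congrFun (congrFun h 0) 0
  have e01 := congrFun (congrFun h 0) 1
  have e10 := congrFun (congrFun h 1) 0
  have e11 := congrFun (congrFun h 1) 1
  simp only [Matrix.mul_apply, Matrix.smul_apply, Fin.sum_univ_two, Matrix.map_apply, Matrix.of_apply,
    Matrix.cons_val_zero, Matrix.cons_val_one, smul_eq_mul, htr] at e00 e01 e10 e11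
  intro i
  fin_cases i <;>
    simp [frobRel, Fin.sum_univ_three, Algebra.smul_def, map_ofNat]
  · linear_combination (algebraMap O S d) * e00 - (algebraMap O S c) * e01 +
      (q : S) * X 0 0 * hd
  · linear_combination (algebraMap O S a) * e01 - (algebraMap O S b) * e00 +
      (q : S) * X 0 1 * hd
  · linear_combination (algebraMap O S d) * e10 - (algebraMap O S c) * e11 +
      (q : S) * X 1 0 * hd

end Fermat.Agent.Lifting
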