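import Fermat.Agent.Lifting.CotangentBound
import Fermat.Agent.Lifting.InertiaEntries
import Fermat.Agent.GaloisBasics.Roots
import Fermat.Agent.GaloisBasics.Unramified
import Fermat.Agent.TangentBound.Cocycle
import Fermat.Agent.TWAssembly.BaseChange
import Fermat.Agent.Deformation.RingData
import Fermat.Prelude.Def_GaloisRep_LocalConditions
import Fermat.Prelude.Def_GaloisRep_DeformationCondition

/-!
# Adding one prime to a deformation problem

If `R` is the deformation ring of a condition `𝒟` and `R'` that of `𝒟` together with "unramified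
at `q ≠ p`", then the cotangent space of `R` at a point coming from `R'` is at most that of `R'`
plus the order of `(q - 1) ((q + 1) ^ 2 - a ^ 2)`, `a` the trace of Frobenius at the point.
-/

set_option autoImplicit false

namespace Fermat.Agent.Lifting

open IsLocalRing GaloisRep Fermat.Agent.GaloisBasics Fermat.Agent.TangentBound

section General

variable {A B C : Type} [CommRing A] [IsLocalRing A] [CommRing B] [IsLocalRing B] [CommRing C]
  [IsLocalRing C]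

/-- Two base changes in a row are the base change along the composite. -/
theorem baseChange_baseChange_isEquiv (f : A →+* B) (hf : IsLocalHom f) (g : B →+* C)
    (hg : IsLocalHom g) (h : IsLocalHom (g.comp f)) (ρ : GaloisRepAdic A) :
    ((ρ.baseChangeAlong f hf).baseChangeAlong g hg).IsEquiv
      (ρ.baseChangeAlong (g.comp f) h) := by
  let b := Module.finBasisOfFinrankEq A ρ.V ρ.finrank_eq
  obtain ⟨b1, hb1⟩ := exists_basis_adic_baseChangeAlong f hf ρ b
  obtain ⟨b2, hb2⟩ := exists_basis_adic_baseChangeAlong g hg _ b1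
  obtain ⟨b3, hb3⟩ := exists_basis_adic_baseChangeAlong (g.comp f) h ρ b
  refine adic_isEquiv_of_matrix b2 b3 1 fun σ => ?_
  rw [Units.val_one, one_mul, mul_one, hb2, hb1, hb3, Matrix.map_map]
  rfl

/-- Being unramified is invariant under isomorphism. -/
theorem isUnramifiedAt_of_isEquiv {ρ ρ' : GaloisRepAdic A} (h : ρ.IsEquiv ρ') {q : ℕ}
    (hu : ρ'.IsUnramifiedAt q) : ρ.IsUnramifiedAt q := by
  obtain ⟨e⟩ := h
  intro P hP σ hσ
  refine LinearMap.ext fun v => e.toLinearEquiv.injective ?_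
  rw [e.map_apply, hu P hP σ hσ]
  rfl

theorem isUnramifiedAt_of_one_place (ρ : GaloisRepAdic A) {q : ℕ} (hq : q.Prime)
    {P : ValuationSubring Qbar} (hP : P.LiesOverPrime q)
    (h : ∀ σ ∈ P.inertiaSubgroupIn ℚ, ρ.ρ σ = 1) : ρ.IsUnramifiedAt q :=
  fun _ hQ => map_inertia_eq_one_of_one_place ρ.ρ hP hq h hQ

theorem det_inertia_sub_one_mem {ρ : GaloisRepAdic A} {p q : ℕ} (hdet : ρ.DetIsCyclotomic p)
    (hp : p.Prime) (hq : q.Prime) (hqp : q ≠ p) {P : ValuationSubring Qbar}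
    (hP : P.LiesOverPrime q) {σ : GalQ} (hσ : σ ∈ P.inertiaSubgroupIn ℚ) (n : ℕ) :
    LinearMap.det (ρ.ρ σ) - 1 ∈ Ideal.span {((p : A) ^ n)} := by
  have h := hdet.2 n σ 1 fun μ hμ => by
    rw [pow_one]
    exact inertia_apply_of_pow_eq_one hP hq (fun h => hqp ((Nat.prime_dvd_prime_iff_eq hq hp).mp
      (hq.dvd_of_dvd_pow h))) hσ hμ
  simpa using h

/-- The determinant of a Frobenius at `q ≠ p` is `q` modulo every power of `p`. -/
theorem det_frobenius_sub_mem {ρ : GaloisRepAdic A} {p q : ℕ} (hdet : ρ.DetIsCyclotomic p)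
    (hp : p.Prime) (hq : q.Prime) (hqp : q ≠ p) {P : ValuationSubring Qbar}
    (hP : P.LiesOverPrime q) {φ : GalQ} (hφ : P.IsFrobeniusAt φ q) (n : ℕ) :
    LinearMap.det (ρ.ρ φ) - (q : A) ∈ Ideal.span {((p : A) ^ n)} := by
  have h := hdet.2 n φ q fun μ hμ =>
    frobenius_apply_of_pow_eq_one hP hq (fun h => hqp ((Nat.prime_dvd_prime_iff_eq hq hp).mp
      (hq.dvd_of_dvd_pow h))) hφ hμ
  simpa using h

end General

variable {𝒪 : Type} [CommRing 𝒪] [IsDomain 𝒪] [IsDiscreteValuationRing 𝒪]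
  [IsAdicComplete (maximalIdeal 𝒪) 𝒪]
  {ρbar : ResidualGaloisRep (ResidueField 𝒪)}
  {𝒟 𝒟' : ∀ ⦃A : Type⦄ [CommRing A] [IsLocalRing A] [Algebra 𝒪 A], GaloisRepAdic A → Prop}

omit [IsAdicComplete (maximalIdeal 𝒪) 𝒪] in
/-- A prime other than `p` is a unit. -/
theorem isUnit_natCast_of_mem {p q : ℕ} (hp : p.Prime) (hp𝒪 : (p : 𝒪) ∈ maximalIdeal 𝒪)
    (hq : q.Prime) (hqp : q ≠ p) : IsUnit (q : 𝒪) := by
  by_contra hn
  have hcop : Nat.gcd p q = 1 := (Nat.coprime_primes hp hq).mpr hqp.symm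
  have h1 := congrArg (fun z : ℤ => (z : 𝒪)) (Nat.gcd_eq_gcd_ab p q)
  rw [hcop] at h1
  push_cast at h1
  refine (maximalIdeal.isMaximal 𝒪).ne_top ((Ideal.eq_top_iff_one _).mpr ?_)
  rw [h1]
  exact add_mem (Ideal.mul_mem_right _ _ hp𝒪) (Ideal.mul_mem_right _ _ hn)

omit [IsAdicComplete (maximalIdeal 𝒪) 𝒪] in
/-- At a point the determinant of a Frobenius at `q ≠ p` is `q`. -/
theorem map_det_frobenius {A : Type} [CommRing A] [IsLocalRing A] [Algebra 𝒪 A]
    {ρ : GaloisRepAdic A} {p q : ℕ} (hdet : ρ.DetIsCyclotomic p) (hp : p.Prime) (hq : q.Prime)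
    (hqp : q ≠ p) {P : ValuationSubring Qbar} (hP : P.LiesOverPrime q) {φ : GalQ}
    (hφ : P.IsFrobeniusAt φ q) (π : A →ₐ[𝒪] 𝒪) : π (LinearMap.det (ρ.ρ φ)) = (q : 𝒪) := by
  have hp𝒪 : (p : 𝒪) ∈ maximalIdeal 𝒪 := by
    have h1 := hdet.1
    rw [← map_natCast (algebraMap 𝒪 A)] at h1
    exact fun hu => h1 (hu.map _)
  rw [← sub_eq_zero]
  refine IsHausdorff.haus (I := maximalIdeal 𝒪) inferInstance _ fun n => ?_
  rw [SModEq.zero, smul_eq_mul, Ideal.mul_top]
  obtain ⟨c, hc⟩ := Ideal.mem_span_singleton'.mp (det_frobenius_sub_mem hdet hp hq hqp hP hφ n)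
  have : π (LinearMap.det (ρ.ρ φ)) - (q : 𝒪) = π c * (p : 𝒪) ^ n := by
    rw [← map_natCast π q, ← map_sub, ← hc, map_mul, map_pow, map_natCast]
  rw [this]
  exact Ideal.mul_mem_left _ _ (Ideal.pow_mem_pow hp𝒪 n)

omit [IsDomain 𝒪] [IsDiscreteValuationRing 𝒪] [IsAdicComplete (maximalIdeal 𝒪) 𝒪] in
/-- The order of the determinant of the Frobenius relations. -/
theorem ord_det_frobRel {a b c d : 𝒪} {q : ℕ} (hq : IsUnit (q : 𝒪))
    (h : a * d - b * c = (q : 𝒪)) :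
    Ring.ord 𝒪 (frobRel a b c d q).det =
      Ring.ord 𝒪 (((q : 𝒪) - 1) * (((q : 𝒪) + 1) ^ 2 - (a + d) ^ 2)) := by
  rw [det_frobRel h,
    show (q : 𝒪) ^ 3 * ((1 - q) * (((q : 𝒪) + 1) ^ 2 - (a + d) ^ 2)) =
      (-(q : 𝒪) ^ 3) * (((q : 𝒪) - 1) * (((q : 𝒪) + 1) ^ 2 - (a + d) ^ 2)) by ring,
    NumCrit.ord_unit_mul (hq.pow 3).neg]

/-- The residual representation of a base change of a deformation is `ρbar`. -/
theorem residual_baseChange_isEquiv (D : DeformationRingData 𝒪 ρbar 𝒟) {B : Type} [CommRing B]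
    [IsLocalRing B] [Algebra 𝒪 B] [IsLocalHom (algebraMap 𝒪 B)] (g : D.R →ₐ[𝒪] B)
    (hg : IsLocalHom (g : D.R →+* B)) :
    (D.ρ.baseChangeAlong (g : D.R →+* B) hg).residual.IsEquiv
      (ρbar.baseChangeAlong (ResidueField.map (algebraMap 𝒪 B))) := by
  obtain ⟨b1, hb1⟩ := exists_basis_adic_baseChangeAlong (g : D.R →+* B) hg D.ρ (univBasis D)
  obtain ⟨b2, hb2⟩ := exists_basis_residual _ b1
  obtain ⟨c, hc⟩ := exists_basis_barMat D
  obtain ⟨c2, hc2⟩ := exists_basis_baseChangeAlong (ResidueField.map (algebraMap 𝒪 B)) ρbar c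
  refine residual_isEquiv_of_matrix b2 c2 1 fun σ => ?_
  rw [Units.val_one, one_mul, mul_one, hb2, hb1, hc2, hc, barMat_apply, Matrix.map_map,
    Matrix.map_map]
  ext i j
  set x := LinearMap.toMatrix (univBasis D) (univBasis D) (D.ρ.ρ σ) i j
  show residue _ (g x) = ResidueField.map (algebraMap 𝒪 B) (resK D.residue_surjective x)
  obtain ⟨a, ha⟩ := residue_surjective (resK D.residue_surjective x)
  rw [← ha, ResidueField.map_residue, ← sub_eq_zero, ← map_sub, residue_eq_zero_iff,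
    ← g.commutes a, ← map_sub]
  exact map_nonunit (g : D.R →+* B) _ (sub_algebraMap_mem D.residue_surjective ha)

variable [Finite (ResidueField 𝒪)]

/-- If the universal deformation of `𝒟` becomes of type `𝒟'` modulo `J`, an ideal containing a
power of the maximal ideal, then `J` contains the kernel of the map to the deformation ring of
`𝒟'`. -/
theorem ker_le_of_isOfType_quotient (h𝒟 : IsDeformationCondition 𝒪 𝒟)
    (D : DeformationRingData 𝒪 ρbar 𝒟) (D' : DeformationRingData 𝒪 ρbar 𝒟')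
    (f : D.R →ₐ[𝒪] D'.R) (hfl : IsLocalHom (f : D.R →+* D'.R))
    (hfeq : (D.ρ.baseChangeAlong (f : D.R →+* D'.R) hfl).IsEquiv D'.ρ)
    {J : Ideal D.R} (hJm : J ≤ maximalIdeal D.R) {k : ℕ} (hkJ : maximalIdeal D.R ^ k ≤ J)
    (h' : ∀ [IsLocalRing (D.R ⧸ J)]
      (hql : IsLocalHom (Ideal.Quotient.mkₐ 𝒪 J : D.R →+* D.R ⧸ J)),
      IsArtinianTestAlgebra 𝒪 (D.R ⧸ J) → Finite (D.R ⧸ J) →
      𝒟 (D.ρ.baseChangeAlong (Ideal.Quotient.mkₐ 𝒪 J : D.R →+* D.R ⧸ J) hql) →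
      𝒟' (D.ρ.baseChangeAlong (Ideal.Quotient.mkₐ 𝒪 J : D.R →+* D.R ⧸ J) hql)) :
    RingHom.ker f ≤ J := by
  have : Nontrivial (D.R ⧸ J) := Ideal.Quotient.nontrivial_iff.mpr
    (ne_top_of_le_ne_top (maximalIdeal.isMaximal _).ne_top hJm)
  have : IsLocalRing (D.R ⧸ J) :=
    IsLocalRing.of_surjective' (Ideal.Quotient.mk J) Ideal.Quotient.mk_surjective
  have hql : IsLocalHom (Ideal.Quotient.mkₐ 𝒪 J : D.R →+* D.R ⧸ J) :=
    .of_surjective _ Ideal.Quotient.mk_surjective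
  have hloc : IsLocalHom (algebraMap 𝒪 (D.R ⧸ J)) :=
    ⟨fun c hc => D.instIsLocalHom.map_nonunit c
      (hql.map_nonunit _ (by simpa [Ideal.Quotient.mk_algebraMap] using hc))⟩
  have hres : Function.Surjective (residue (D.R ⧸ J) ∘ algebraMap 𝒪 (D.R ⧸ J)) := by
    intro y
    obtain ⟨z, rfl⟩ := residue_surjective y
    obtain ⟨w, rfl⟩ := Ideal.Quotient.mk_surjective z
    obtain ⟨c, hc⟩ := D.residue_surjective (residue _ w)
    refine ⟨c, (Ideal.Quotient.eq.mpr ?_)⟩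
    have := map_nonunit (Ideal.Quotient.mkₐ 𝒪 J : D.R →+* D.R ⧸ J) _ (Ideal.Quotient.eq.mp hc)
    simpa [Ideal.Quotient.mk_algebraMap] using this
  have hfinite : Finite (D.R ⧸ J) := by
    have : Finite (D.R ⧸ maximalIdeal D.R) :=
      Finite.of_surjective (ResidueField.map (algebraMap 𝒪 D.R)) fun y => by
        obtain ⟨c, hc⟩ := D.residue_surjective y
        exact ⟨residue 𝒪 c, (ResidueField.map_residue _ c).trans hc⟩
    have : Finite (D.R ⧸ maximalIdeal D.R ^ k) :=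
      Ideal.finite_quotient_pow (IsNoetherian.noetherian _) _
    exact Finite.of_surjective _ (Ideal.Quotient.factor_surjective hkJ)
  have hT : IsArtinianTestAlgebra 𝒪 (D.R ⧸ J) :=
    { isLocalHom := hloc, residue_surjective := hres, isArtinian := inferInstance }
  set ρB := D.ρ.baseChangeAlong (Ideal.Quotient.mkₐ 𝒪 J : D.R →+* D.R ⧸ J) hql
  have hDB : 𝒟 ρB := (h𝒟.iff_forall_surjective inferInstance D.residue_surjective D.ρ).mp
    D.isOfType hT (Ideal.Quotient.mkₐ 𝒪 J) hql Ideal.Quotient.mk_surjective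
  have := Deformation.isAdicComplete_quotient J
  have hρres := residual_baseChange_isEquiv D (Ideal.Quotient.mkₐ 𝒪 J) hql
  obtain ⟨ψ, ⟨hψl, hψ⟩, -⟩ := D'.universal (D.R ⧸ J) hres ρB (h' hql hT hfinite hDB) hρres
  have hcl : IsLocalHom (((ψ.comp f : D.R →ₐ[𝒪] D.R ⧸ J) : D.R →+* D.R ⧸ J)) :=
    RingHom.isLocalHom_comp (ψ : D'.R →+* D.R ⧸ J) (f : D.R →+* D'.R)
  have heq : ψ.comp f = Ideal.Quotient.mkₐ 𝒪 J := by
    refine (D.universal (D.R ⧸ J) hres ρB hDB hρres).unique ⟨hcl, ?_⟩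
      ⟨hql, ⟨GaloisRepAdic.Equiv.refl _⟩⟩
    obtain ⟨e1⟩ := baseChange_baseChange_isEquiv (f : D.R →+* D'.R) hfl
      (ψ : D'.R →+* D.R ⧸ J) hψl hcl D.ρ
    obtain ⟨e2⟩ := hfeq
    obtain ⟨e3⟩ := hψ
    exact ⟨e1.symm.trans ((e2.baseChangeAlong _ hψl).trans e3)⟩
  intro x hx
  rw [← Ideal.Quotient.eq_zero_iff_mem, ← Ideal.Quotient.mkₐ_eq_mk 𝒪, ← heq, AlgHom.comp_apply,
    RingHom.mem_ker.mp hx, map_zero]

omit [Finite (ResidueField 𝒪)] in
/-- **Inertia modulo the square of a point.** If inertia at `q ≠ p` is trivial at the point `π`,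
then modulo `℘² + m ^ (k + 1)` it is generated by one element `t` of trace two, whose other
entries satisfy the relations `frobRel` of a Frobenius. -/
theorem exists_inertia_generator (D : DeformationRingData 𝒪 ρbar 𝒟) {p q : ℕ} (hp : p.Prime)
    (hq : q.Prime) (hqp : q ≠ p) (hdet : D.ρ.DetIsCyclotomic p) {P : ValuationSubring Qbar}
    (hP : P.LiesOverPrime q) {φ : GalQ} (hφ : P.IsFrobeniusAt φ q) (π : D.R →ₐ[𝒪] 𝒪)
    (hπ : ∀ σ ∈ P.inertiaSubgroupIn ℚ, ∀ i j, (univMat D σ - 1) i j ∈ RingHom.ker π) (k : ℕ) :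
    let I : Ideal D.R := RingHom.ker π ^ 2 ⊔ maximalIdeal D.R ^ (k + 1)
    let F := (univMat D φ).map π
    ∃ t ∈ P.inertiaSubgroupIn ℚ,
      (univMat D t - 1) 1 1 + (univMat D t - 1) 0 0 ∈ I ∧
      (∀ σ ∈ P.inertiaSubgroupIn ℚ, ∃ j : ℕ, ∀ u v,
        (univMat D σ - 1) u v - j • (univMat D t - 1) u v ∈ I) ∧
      ∀ i, ∑ j, frobRel (F 0 0) (F 0 1) (F 1 0) (F 1 1) q i j •
        ![(univMat D t - 1) 0 0, (univMat D t - 1) 0 1, (univMat D t - 1) 1 0] j ∈ I := by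
  intro I F
  set W := univMat D with hW
  have hdetW : ∀ σ, (W σ).det = LinearMap.det (D.ρ.ρ σ) := fun σ => LinearMap.det_toMatrix _ _
  have hFdet : F 0 0 * F 1 1 - F 0 1 * F 1 0 = (q : 𝒪) := by
    rw [← map_det_frobenius hdet hp hq hqp hP hφ π, ← hdetW, Matrix.det_fin_two, map_sub,
      map_mul, map_mul]
    rfl
  let mkS := (Ideal.Quotient.mk I).mapMatrix (m := Fin 2)
  let M : GalQ →* Matrix (Fin 2) (Fin 2) (D.R ⧸ I) := (mkS : _ →* _).comp W
  have hM : ∀ σ i j, M σ i j = Ideal.Quotient.mk I (W σ i j) := fun _ _ _ => rfl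
  have hMsub : ∀ σ i j, (M σ - 1) i j = Ideal.Quotient.mk I ((W σ - 1) i j) := fun σ i j => by
    rw [Matrix.sub_apply, Matrix.sub_apply, hM, map_sub]
    rcases eq_or_ne i j with rfl | hij <;> simp [*]
  let PS : Ideal (D.R ⧸ I) := (RingHom.ker π).map (Ideal.Quotient.mk I)
  have hPS : PS * PS = ⊥ := by
    rw [← Ideal.map_mul, ← sq, eq_bot_iff, ← Ideal.map_quotient_self I]
    exact Ideal.map_mono le_sup_left
  have hpk : ((p : D.R ⧸ I)) ^ (k + 1) = 0 := by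
    rw [← map_natCast (Ideal.Quotient.mk I), ← map_pow, Ideal.Quotient.eq_zero_iff_mem]
    exact Ideal.mem_sup_right (Ideal.pow_mem_pow hdet.1 _)
  have hfin : ∃ E : IntermediateField ℚ Qbar, FiniteDimensional ℚ E ∧
      ∀ σ : GalQ, (∀ x ∈ E, σ x = x) → M σ = 1 := by
    obtain ⟨E, hE, hEσ⟩ := D.ρ.isAdicContinuous (k + 1)
    refine ⟨E, hE, fun σ hσ => ?_⟩
    rw [← sub_eq_zero]
    ext i j
    rw [hMsub, Matrix.zero_apply, Ideal.Quotient.eq_zero_iff_mem]
    refine Ideal.mem_sup_right ?_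
    have h1 := (TWAssembly.mem_smul_top_iff_repr (univBasis D) _ _).mp (hEσ σ hσ (univBasis D j)) i
    convert h1 using 1
    rw [map_sub, Finsupp.sub_apply, Matrix.sub_apply]
    simp [hW, univMat, LinearMap.toMatrix_apply, Matrix.one_apply, Finsupp.single_apply,
      Module.Basis.repr_self, eq_comm]
  obtain ⟨t, ht, hgen, hfrob⟩ :=
    exists_inertia_relations hP hq ((Nat.coprime_primes hp hq).mpr hqp.symm) hpk M hfin hPS
      fun σ hσ i j => by
        rw [hMsub]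
        exact Ideal.mem_map_of_mem _ (hπ σ hσ i j)
  set X := M t - 1
  have htr : X 1 1 = -X 0 0 := by
    have h1 : (M t).det = 1 := by
      have h2 : Ideal.Quotient.mk I ((W t).det - 1) = 0 := by
        rw [Ideal.Quotient.eq_zero_iff_mem, hdetW]
        exact Ideal.mem_sup_right ((Ideal.span_singleton_le_iff_mem _).mpr
          (Ideal.pow_mem_pow hdet.1 _) (det_inertia_sub_one_mem hdet hp hq hqp hP ht (k + 1)))
      rw [map_sub, map_one, sub_eq_zero, RingHom.map_det] at h2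
      exact h2
    have h3 : ∀ u v u' v', X u v * X u' v' = 0 := fun u v u' v' => by
      have : ∀ i j, X i j ∈ PS := fun i j => by
        show (M t - 1) i j ∈ PS
        rw [hMsub]
        exact Ideal.mem_map_of_mem _ (hπ t ht i j)
      simpa [hPS] using Ideal.mul_mem_mul (this u v) (this u' v')
    rw [show M t = 1 + X from (add_sub_cancel _ _).symm, Matrix.det_fin_two] at h1
    simp only [Matrix.add_apply, Matrix.one_apply_eq, Matrix.one_apply_ne (zero_ne_one),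
      Matrix.one_apply_ne (one_ne_zero), zero_add] at h1
    linear_combination h1 - h3 0 0 1 1 + h3 0 1 1 0
  refine ⟨t, ht, ?_, fun σ hσ => ?_, fun i => Ideal.Quotient.eq_zero_iff_mem.mp ?_⟩
  · rw [← Ideal.Quotient.eq_zero_iff_mem, map_add, ← hMsub, ← hMsub]
    simp [X] at htr
    simp [htr]
  · obtain ⟨j, hj⟩ := hgen σ hσ
    refine ⟨j, fun u v => ?_⟩
    rw [← Ideal.Quotient.eq_zero_iff_mem, map_sub, map_nsmul, ← hMsub, ← hMsub, hj]
    simp [X]
  · have hF' : (!![F 0 0, F 0 1; F 1 0, F 1 1] : Matrix (Fin 2) (Fin 2) 𝒪) = F :=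
      (Matrix.eta_fin_two F).symm
    have hdiff : ∀ u v, (M φ - F.map (algebraMap 𝒪 (D.R ⧸ I))) u v ∈ PS := fun u v => by
      rw [Matrix.sub_apply, hM, Matrix.map_apply, ← Ideal.Quotient.mk_algebraMap, ← map_sub]
      refine Ideal.mem_map_of_mem _ ?_
      simp [F, W]
    have hXmem : ∀ u v, X u v ∈ PS := fun u v => by
      show (M t - 1) u v ∈ PS
      rw [hMsub]
      exact Ideal.mem_map_of_mem _ (hπ t ht u v)
    have hrel : F.map (algebraMap 𝒪 (D.R ⧸ I)) * X =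
        (q : D.R ⧸ I) • (X * F.map (algebraMap 𝒪 (D.R ⧸ I))) := by
      have h1 := mul_eq_zero_of_entries_mem hPS hdiff hXmem
      have h2 := mul_eq_zero_of_entries_mem hPS hXmem hdiff
      rw [sub_mul, sub_eq_zero] at h1
      rw [mul_sub, sub_eq_zero] at h2
      rw [← h1, ← h2]
      exact hfrob φ hφ
    have := frobRel_mulVec_eq_zero hFdet htr (hF'.symm ▸ hrel) i
    rw [map_sum]
    refine (Finset.sum_congr rfl fun j _ => ?_).trans this
    rw [← Ideal.Quotient.mkₐ_eq_mk 𝒪, map_smul, Ideal.Quotient.mkₐ_eq_mk]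
    congr 1
    fin_cases j
    · exact (hMsub t 0 0).symm
    · exact (hMsub t 0 1).symm
    · exact (hMsub t 1 0).symm

/-- If inertia at `q` is generated by `t` modulo `I`, then the kernel of the map to the ring with
`q` unramified lies in the ideal of the entries of `t - 1` and `I`. -/
theorem ker_le_span_inertia (h𝒟 : IsDeformationCondition 𝒪 𝒟)
    (D : DeformationRingData 𝒪 ρbar 𝒟) (D' : DeformationRingData 𝒪 ρbar 𝒟') {q : ℕ}
    (hq : q.Prime)
    (h' : ∀ ⦃B : Type⦄ [CommRing B] [IsLocalRing B] [Algebra 𝒪 B], IsArtinianTestAlgebra 𝒪 B →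
      ∀ ρ : GaloisRepAdic B, 𝒟 ρ → ρ.IsUnramifiedAt q → 𝒟' ρ)
    (f : D.R →ₐ[𝒪] D'.R) (hfl : IsLocalHom (f : D.R →+* D'.R))
    (hfeq : (D.ρ.baseChangeAlong (f : D.R →+* D'.R) hfl).IsEquiv D'.ρ)
    {P : ValuationSubring Qbar} (hP : P.LiesOverPrime q) (I : Ideal D.R)
    (hIm : I ≤ maximalIdeal D.R) {k : ℕ} (hkI : maximalIdeal D.R ^ k ≤ I) {t : GalQ}
    (htm : ∀ i j, (univMat D t - 1) i j ∈ maximalIdeal D.R)
    (htr : (univMat D t - 1) 1 1 + (univMat D t - 1) 0 0 ∈ I)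
    (hgen : ∀ σ ∈ P.inertiaSubgroupIn ℚ, ∃ j : ℕ, ∀ u v,
      (univMat D σ - 1) u v - j • (univMat D t - 1) u v ∈ I) :
    RingHom.ker f ≤ Ideal.span (Set.range
      ![(univMat D t - 1) 0 0, (univMat D t - 1) 0 1, (univMat D t - 1) 1 0]) ⊔ I := by
  set W := univMat D
  let g : Fin 3 → D.R := ![(W t - 1) 0 0, (W t - 1) 0 1, (W t - 1) 1 0]
  set J : Ideal D.R := Ideal.span (Set.range g) ⊔ I
  have hJm : J ≤ maximalIdeal D.R := by
    refine sup_le (Ideal.span_le.mpr ?_) hIm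
    rintro _ ⟨i, rfl⟩
    fin_cases i <;> exact htm _ _
  refine ker_le_of_isOfType_quotient h𝒟 D D' f hfl hfeq hJm (hkI.trans le_sup_right)
    fun {_} hql hT hfinite hDB => h' hT _ hDB ?_
  refine isUnramifiedAt_of_one_place _ hq hP fun σ hσ => ?_
  obtain ⟨bB, hbB⟩ := exists_basis_adic_baseChangeAlong
    (Ideal.Quotient.mkₐ 𝒪 J : D.R →+* D.R ⧸ J) hql D.ρ (univBasis D)
  refine (LinearMap.toMatrix bB bB).injective ?_
  rw [hbB, LinearMap.toMatrix_one, ← sub_eq_zero]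
  obtain ⟨j, hj⟩ := hgen σ hσ
  have hmem : ∀ u v, (W t - 1) u v ∈ J := by
    intro u v
    fin_cases u <;> fin_cases v
    · exact Ideal.mem_sup_left (Ideal.subset_span ⟨0, rfl⟩)
    · exact Ideal.mem_sup_left (Ideal.subset_span ⟨1, rfl⟩)
    · exact Ideal.mem_sup_left (Ideal.subset_span ⟨2, rfl⟩)
    · have h2 := sub_mem ((le_sup_right : I ≤ J) htr)
        (Ideal.mem_sup_left (Ideal.subset_span ⟨0, rfl⟩) : g 0 ∈ J)
      simpa [g, J] using h2
  ext u v
  have h2 : (W σ - 1) u v ∈ J := by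
    have := add_mem ((le_sup_right : I ≤ J) (hj u v)) (nsmul_mem (hmem u v) j)
    simpa using this
  rw [← Ideal.Quotient.eq_zero_iff_mem] at h2
  rw [Matrix.zero_apply, ← h2, Matrix.sub_apply, Matrix.sub_apply, map_sub]
  rcases eq_or_ne u v with rfl | huv <;> simp [*, W, univMat]

/-- **Adding a prime.** The cotangent space grows at most by the order of
`(q - 1) ((q + 1) ^ 2 - a ^ 2)`. -/
theorem length_cotangent_le_unramified (h𝒟 : IsDeformationCondition 𝒪 𝒟)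
    (D : DeformationRingData 𝒪 ρbar 𝒟) (D' : DeformationRingData 𝒪 ρbar 𝒟')
    {p q : ℕ} (hp : p.Prime) (hq : q.Prime) (hqp : q ≠ p) (hdet : D.ρ.DetIsCyclotomic p)
    (h' : ∀ ⦃B : Type⦄ [CommRing B] [IsLocalRing B] [Algebra 𝒪 B], IsArtinianTestAlgebra 𝒪 B →
      ∀ ρ : GaloisRepAdic B, 𝒟 ρ → ρ.IsUnramifiedAt q → 𝒟' ρ)
    (hD' : D'.ρ.IsUnramifiedAt q)
    (f : D.R →ₐ[𝒪] D'.R) (hfl : IsLocalHom (f : D.R →+* D'.R)) (hf : Function.Surjective f)
    (hfeq : (D.ρ.baseChangeAlong (f : D.R →+* D'.R) hfl).IsEquiv D'.ρ)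
    (π' : D'.R →ₐ[𝒪] 𝒪) {P : ValuationSubring Qbar} (hP : P.LiesOverPrime q) {φ : GalQ}
    (hφ : P.IsFrobeniusAt φ q) (a : 𝒪)
    (ha : π' (f (LinearMap.trace D.R D.ρ.V (D.ρ.ρ φ))) = a) :
    Module.length 𝒪 (RingHom.ker (π'.comp f)).Cotangent ≤
      Ring.ord 𝒪 (((q : 𝒪) - 1) * (((q : 𝒪) + 1) ^ 2 - a ^ 2)) +
        Module.length 𝒪 (RingHom.ker π').Cotangent := by
  set π := π'.comp f with hπdef
  set W := univMat D with hW
  set F := (W φ).map π with hF
  have hp𝒪 : (p : 𝒪) ∈ maximalIdeal 𝒪 := by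
    have h1 := hdet.1
    rw [← map_natCast (algebraMap 𝒪 D.R)] at h1
    exact fun hu => h1 (hu.map _)
  have hFdet : F 0 0 * F 1 1 - F 0 1 * F 1 0 = (q : 𝒪) := by
    rw [← map_det_frobenius hdet hp hq hqp hP hφ π,
      ← LinearMap.det_toMatrix (univBasis D) (D.ρ.ρ φ), Matrix.det_fin_two, map_sub, map_mul,
      map_mul]
    rfl
  have hFtr : F 0 0 + F 1 1 = a := by
    rw [← ha, LinearMap.trace_eq_matrix_trace D.R (univBasis D), Matrix.trace_fin_two]
    simp [hF, hπdef, hW, univMat]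
  rw [← hFtr, ← ord_det_frobRel (isUnit_natCast_of_mem hp hp𝒪 hq hqp) hFdet]
  refine length_cotangent_le_add_ord f hf π' (n := 3) _ fun k => ?_
  -- inertia dies in `R'`
  have hker : ∀ σ ∈ P.inertiaSubgroupIn ℚ, ∀ i j, f ((W σ - 1) i j) = 0 := by
    intro σ hσ i j
    obtain ⟨b', hb'⟩ := exists_basis_adic_baseChangeAlong (f : D.R →+* D'.R) hfl D.ρ (univBasis D)
    have h1 := hb' σ
    rw [isUnramifiedAt_of_isEquiv hfeq hD' P hP σ hσ] at h1
    rw [LinearMap.toMatrix_one] at h1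
    have h2 := congrFun (congrFun h1 i) j
    rw [Matrix.map_apply] at h2
    rw [Matrix.sub_apply, map_sub, sub_eq_zero]
    refine (h2.symm : f (W σ i j) = _).trans ?_
    rcases eq_or_ne i j with rfl | hij
    · simp only [Matrix.one_apply_eq, map_one]
    · simp only [Matrix.one_apply_ne hij, map_zero]
  have hπker : ∀ σ ∈ P.inertiaSubgroupIn ℚ, ∀ i j, (W σ - 1) i j ∈ RingHom.ker π := by
    intro σ hσ i j
    rw [RingHom.mem_ker, hπdef, AlgHom.comp_apply, hker σ hσ i j, map_zero]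
  -- reduce modulo `℘² + m ^ (k + 1)`
  obtain ⟨t, ht, htr, hgen, hrel⟩ := exists_inertia_generator D hp hq hqp hdet hP hφ π hπker k
  have hle : RingHom.ker π ^ 2 ⊔ maximalIdeal D.R ^ (k + 1) ≤
      RingHom.ker π ^ 2 ⊔ maximalIdeal D.R ^ k :=
    sup_le_sup_left (Ideal.pow_le_pow_right k.le_succ) _
  have hπm : RingHom.ker π ≤ maximalIdeal D.R :=
    IsLocalRing.le_maximalIdeal (RingHom.ker_ne_top _)
  refine ⟨![(W t - 1) 0 0, (W t - 1) 0 1, (W t - 1) 1 0],
    frobRel (F 0 0) (F 0 1) (F 1 0) (F 1 1) q, fun i => ?_, rfl, fun i => hle (hrel i),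
    (ker_le_span_inertia h𝒟 D D' hq h' f hfl hfeq hP _ ?_ le_sup_right
      (fun i j => hπm (hπker t ht i j)) htr hgen).trans (sup_le_sup le_rfl hle)⟩
  · fin_cases i <;> exact RingHom.mem_ker.mp (hπker t ht _ _)
  · exact sup_le ((Ideal.pow_le_self two_ne_zero).trans hπm) (Ideal.pow_le_self k.succ_ne_zero)

end Fermat.Agent.Lifting
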