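import Fermat.Agent.IharaH1.Surjective

/-!
# Raising the level at a finite set of primes

For a finite set `T` of primes prime to `N p`, `zeroOn T a` is the residual system `a` with the
value `0` at the primes of `T`.  The maps `i` and `j` between the localisations at the levels `N`
and `N ∏ q²` are the compositions of `locI` and `locJ`; `i` is injective modulo a uniformiser,
`j` is surjective and `j i = ∏ deltaSq q`.
-/

set_option autoImplicit false

noncomputable section

open IsLocalRing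
open scoped MatrixGroups

namespace Fermat.Agent.Lifting

open Fermat.Agent.GroupH1 (HeckePoly HMod eigIdeal LocM primeOf)
open Fermat.Agent.IharaH1 (locI locJ deltaSq)

/-- The residual system `a` with the value `0` at the primes of `T`. -/
def zeroOn {k : Type*} [Zero k] (T : Finset Nat.Primes) (a : Nat.Primes → k) : Nat.Primes → k :=
  fun r => if r ∈ T then 0 else a r

section ZeroOn

variable {k : Type*} [Zero k] {T : Finset Nat.Primes} {a : Nat.Primes → k} {r : Nat.Primes}

/-- `zeroOn` vanishes on the given primes. -/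
theorem zeroOn_of_mem (h : r ∈ T) : zeroOn T a r = 0 := if_pos h

/-- `zeroOn` is the original system elsewhere. -/
theorem zeroOn_of_not_mem (h : r ∉ T) : zeroOn T a r = a r := if_neg h

@[simp] theorem zeroOn_empty (a : Nat.Primes → k) : zeroOn ∅ a = a :=
  funext fun _ => zeroOn_of_not_mem (Finset.notMem_empty _)

theorem zeroOn_insert [DecidableEq Nat.Primes] (q : Nat.Primes) (T : Finset Nat.Primes)
    (a : Nat.Primes → k) : zeroOn (insert q T) a = Function.update (zeroOn T a) q 0 := by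
  funext r
  by_cases hr : r = q
  · subst hr
    rw [zeroOn_of_mem (Finset.mem_insert_self r T), Function.update_self]
  · rw [Function.update_of_ne hr]
    by_cases hT : r ∈ T
    · rw [zeroOn_of_mem hT, zeroOn_of_mem (Finset.mem_insert_of_mem hT)]
    · rw [zeroOn_of_not_mem hT, zeroOn_of_not_mem (by simp [hr, hT])]

end ZeroOn

variable {O : Type} [CommRing O]

/-- A map commuting with `X q` commutes with `deltaSq q`. -/
theorem map_deltaSq_smul {V V' : Type} [AddCommGroup V] [Module O V] [Module (HeckePoly O) V]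
    [IsScalarTower O (HeckePoly O) V] [AddCommGroup V'] [Module O V'] [Module (HeckePoly O) V']
    [IsScalarTower O (HeckePoly O) V'] (f : V →ₗ[O] V') (q : ℕ) [Fact q.Prime]
    (hf : ∀ x, (MvPolynomial.X (primeOf q) : HeckePoly O) • f x =
      f ((MvPolynomial.X (primeOf q) : HeckePoly O) • x)) (x : V) :
    f (deltaSq q O • x) = deltaSq q O • f x := by
  have hC : ∀ (r : O) (x : V), (MvPolynomial.C r : HeckePoly O) • x = r • x := fun r x =>
    algebraMap_smul (HeckePoly O) r x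
  have hC' : ∀ (r : O) (x : V'), (MvPolynomial.C r : HeckePoly O) • x = r • x := fun r x =>
    algebraMap_smul (HeckePoly O) r x
  simp only [deltaSq, mul_smul, sub_smul, hC, hC', map_smul, map_sub, hf]

variable [IsDomain O] [IsLocalRing O] [IsNoetherianRing O] [IsAdicComplete (maximalIdeal O) O]
  [CharZero O]

/-- **Level raising at a finite set of primes.** -/
theorem exists_level_chain (N : ℕ) [NeZero N] (T : Finset Nat.Primes) {p : ℕ} [Fact p.Prime]
    (hp2 : p ≠ 2) (hpO : (p : O) ∈ maximalIdeal O) (hT : ∀ q ∈ T, (q : ℕ) ≠ p ∧ ¬ (q : ℕ) ∣ N)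
    (a : Nat.Primes → ResidueField O) {ϖ : O} (hϖ : maximalIdeal O = Ideal.span {ϖ})
    (hϖ0 : ϖ ≠ 0) (l : Nat.Primes) (hl1 : ((l : ℕ) : ZMod (N * ∏ q ∈ T, (q : ℕ) ^ 2)) = 1)
    (hlp : ((l : ℕ) : ZMod p) = 1) (hlT : l ∉ T) (hla : a l ≠ 2) :
    ∃ (i : LocM (eigIdeal a) (HMod N ⊤ O) →ₗ[O]
        LocM (eigIdeal (zeroOn T a)) (HMod (N * ∏ q ∈ T, (q : ℕ) ^ 2) ⊤ O))
      (j : LocM (eigIdeal (zeroOn T a)) (HMod (N * ∏ q ∈ T, (q : ℕ) ^ 2) ⊤ O) →ₗ[O]
        LocM (eigIdeal a) (HMod N ⊤ O)),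
      (∀ r, r ∉ T → ∀ x, (MvPolynomial.X r : HeckePoly O) • i x =
        i ((MvPolynomial.X r : HeckePoly O) • x)) ∧
      (∀ r, r ∉ T → ∀ y, (MvPolynomial.X r : HeckePoly O) • j y =
        j ((MvPolynomial.X r : HeckePoly O) • y)) ∧
      Function.Surjective j ∧
      (∀ x, j (i x) =
        (∏ q ∈ T, (haveI : Fact (q : ℕ).Prime := ⟨q.2⟩; deltaSq (q : ℕ) O)) • x) ∧
      (∀ x y, i x = ϖ • y → ∃ x', x = ϖ • x') := by
  induction T using Finset.induction with
  | empty =>
    rw [zeroOn_empty, Finset.prod_empty, mul_one]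
    exact ⟨LinearMap.id, LinearMap.id, fun _ _ _ => rfl, fun _ _ _ => rfl, Function.surjective_id,
      fun x => by simp, fun x y h => ⟨y, h⟩⟩
  | insert q s hq ih =>
    rw [Finset.mem_insert, not_or] at hlT
    set M := N * ∏ r ∈ s, (r : ℕ) ^ 2 with hMdef
    have hdvd : M ∣ N * ∏ r ∈ insert q s, (r : ℕ) ^ 2 :=
      mul_dvd_mul_left N (by rw [Finset.prod_insert hq]; exact dvd_mul_left _ _)
    have hlM : ((l : ℕ) : ZMod M) = 1 := by
      have h := congrArg (ZMod.castHom hdvd (ZMod M)) hl1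
      rwa [map_natCast, map_one] at h
    obtain ⟨i, j, hiX, hjX, hjs, hji, hmod⟩ :=
      ih (fun r hr => hT r (Finset.mem_insert_of_mem hr)) hlM hlT.2
    obtain ⟨hqp, hqN⟩ := hT q (Finset.mem_insert_self q s)
    have : NeZero M :=
      ⟨mul_ne_zero (NeZero.ne N) (Finset.prod_ne_zero_iff.2 fun r _ => pow_ne_zero 2 r.2.ne_zero)⟩
    have : Fact (q : ℕ).Prime := ⟨q.2⟩
    have : Fact (l : ℕ).Prime := ⟨l.2⟩
    have hqM : ¬ (q : ℕ) ∣ M := fun h => by
      rcases q.2.dvd_mul.1 h with h | h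
      · exact hqN h
      · obtain ⟨r, hr, hr'⟩ := (Prime.dvd_finsetProd_iff q.2.prime _).1 h
        exact hq ((Subtype.ext ((Nat.prime_dvd_prime_iff_eq q.2 r.2).1
          (q.2.dvd_of_dvd_pow hr')) : q = r) ▸ hr)
    have hq' : primeOf (q : ℕ) = q := rfl
    have hlq : (l : ℕ) ≠ q := fun h => hlT.1 (Subtype.ext h)
    have hla' : zeroOn s a (primeOf (l : ℕ)) ≠ 2 := by
      show zeroOn s a l ≠ 2
      rwa [zeroOn_of_not_mem hlT.2]
    rw [Finset.prod_insert hq, zeroOn_insert,
      show N * ((q : ℕ) ^ 2 * ∏ r ∈ s, (r : ℕ) ^ 2) = M * q * q by rw [hMdef]; ring]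
    refine ⟨(locI M q (zeroOn s a)).comp i, j.comp (locJ hqM (zeroOn s a)), fun r hr x => ?_,
      fun r hr y => ?_, ?_, fun x => ?_, fun x y h => ?_⟩
    · rw [Finset.mem_insert, not_or] at hr
      exact (IharaH1.X_locI (q := (q : ℕ)) hr.1 (i x)).trans (congrArg _ (hiX r hr.2 x))
    · rw [Finset.mem_insert, not_or] at hr
      exact (hjX r hr.2 _).trans (congrArg j (IharaH1.X_locJ hqM hr.1 y))
    · exact hjs.comp (IharaH1.locJ_surjective hp2 hpO (fun h => hqp h.symm) hqM hlM hlp hlq hla')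
    · show j (locJ hqM _ (locI M q _ (i x))) = _
      rw [IharaH1.locJ_locI, map_deltaSq_smul j (q : ℕ) (fun z => hjX q hq z), hji,
        Finset.prod_insert hq, mul_smul]
    · obtain ⟨x₁, hx₁⟩ := IharaH1.locI_mem_smul hϖ hϖ0 hp2 hpO (fun h => hqp h.symm) hqM hlM hlp
        hlq hla' (i x) ⟨y, h⟩
      exact hmod x x₁ hx₁

omit [IsDomain O] [IsNoetherianRing O] [IsAdicComplete (maximalIdeal O) O] [CharZero O] in
/-- The witness keeps the raised system non-Eisenstein. -/
theorem zeroOn_nonEis {p : ℕ} (hpO : (p : O) ∈ maximalIdeal O) {M : ℕ} (T : Finset Nat.Primes)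
    (a : Nat.Primes → ResidueField O) (l : Nat.Primes) (hl1 : ((l : ℕ) : ZMod M) = 1)
    (hlp : ((l : ℕ) : ZMod p) = 1) (hlT : l ∉ T) (hla : a l ≠ 2) :
    ∃ l : Nat.Primes, ((l : ℕ) : ZMod M) = 1 ∧
      zeroOn T a l ≠ ((l : ℕ) : ResidueField O) + 1 := by
  refine ⟨l, hl1, ?_⟩
  have hk : (p : ResidueField O) = 0 := by
    rw [← map_natCast (residue O), residue_eq_zero_iff]; exact hpO
  obtain ⟨t, ht⟩ : (p : ℤ) ∣ (l : ℕ) - (1 : ℤ) := by
    rw [← ZMod.intCast_zmod_eq_zero_iff_dvd]; push_cast; rw [hlp, sub_self]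
  have h3 := congrArg (Int.cast : ℤ → ResidueField O) ht
  push_cast at h3
  rw [hk, zero_mul, sub_eq_zero] at h3
  rw [zeroOn_of_not_mem hlT, h3, one_add_one_eq_two]
  exact hla

end Fermat.Agent.Lifting
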