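import Fermat.Agent.Lifting.LevelExtras
import Fermat.Agent.LevelRaisingPrime.Frobenius

/-!
# Passing to the target of a level step

A map of localised modules which is injective modulo a uniformiser is injective, so the target
level is nonzero and carries a residual Hecke character.  Auxiliary primes making the residual
system non-Eisenstein at every level.
-/

set_option autoImplicit false

noncomputable section

open IsLocalRing CuspForm

namespace Fermat.Agent.Lifting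

variable {𝒪 : Type} [CommRing 𝒪] [IsDomain 𝒪] [IsDiscreteValuationRing 𝒪]

section inj

variable {M M' : Type} [AddCommGroup M] [Module 𝒪 M] [Module.Finite 𝒪 M] [AddCommGroup M']
  [Module 𝒪 M'] [Module.IsTorsionFree 𝒪 M']

/-- A map which is injective modulo a uniformiser is injective. -/
theorem injective_of_mod {ϖ : 𝒪} (hϖ : Irreducible ϖ) (i : M →ₗ[𝒪] M')
    (hmod : ∀ x y, i x = ϖ • y → ∃ x', x = ϖ • x') : Function.Injective i := by
  rw [← LinearMap.ker_eq_bot]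
  refine eq_bot_iff.mpr fun x hx => ?_
  rw [LinearMap.mem_ker] at hx
  have key : ∀ n : ℕ, ∃ y, x = ϖ ^ n • y ∧ i y = 0 := by
    intro n
    induction n with
    | zero => exact ⟨x, by simp, hx⟩
    | succ n ih =>
      obtain ⟨y, rfl, hy⟩ := ih
      obtain ⟨y', rfl⟩ := hmod y 0 (by rw [hy, smul_zero])
      refine ⟨y', by rw [pow_succ, mul_smul], ?_⟩
      rw [map_smul] at hy
      exact (smul_eq_zero.mp hy).resolve_left hϖ.ne_zero
  rw [← Ideal.iInf_pow_smul_eq_bot_of_isLocalRing (M := M) (maximalIdeal 𝒪)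
    (IsLocalRing.maximalIdeal.isMaximal 𝒪).ne_top, Submodule.mem_iInf]
  intro n
  obtain ⟨y, rfl, -⟩ := key n
  exact Submodule.smul_mem_smul
    (Ideal.pow_mem_pow (hϖ.maximalIdeal_eq ▸ Ideal.mem_span_singleton_self ϖ) n) trivial

end inj

variable [IsAdicComplete (maximalIdeal 𝒪) 𝒪] {N N' : ℕ} [NeZero N] [NeZero N']
  {a a' : Nat.Primes → ResidueField 𝒪}

omit [IsAdicComplete (maximalIdeal 𝒪) 𝒪] [NeZero N] [NeZero N'] in
/-- The target of an injective map from a nonzero level is nonzero. -/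
theorem nontrivial_levelLoc_of_injective [Nontrivial (levelLoc 𝒪 N a)]
    (i : levelLoc 𝒪 N a →ₗ[𝒪] levelLoc 𝒪 N' a') (hi : Function.Injective i) :
    Nontrivial (levelLoc 𝒪 N' a') :=
  hi.nontrivial

omit [NeZero N'] in
/-- The target of a map injective modulo a uniformiser is nonzero. -/
theorem nontrivial_levelLoc_of_mod [Nontrivial (levelLoc 𝒪 N a)] {ϖ : 𝒪} (hϖ : Irreducible ϖ)
    (i : levelLoc 𝒪 N a →ₗ[𝒪] levelLoc 𝒪 N' a')
    (hmod : ∀ x y, i x = ϖ • y → ∃ x', x = ϖ • x') : Nontrivial (levelLoc 𝒪 N' a') :=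
  nontrivial_levelLoc_of_injective i (injective_of_mod hϖ i hmod)

/-- **The target level of a step.** Its residual character sends `T_l` to `a' l`. -/
theorem exists_levelHyp_of_step [CharZero 𝒪] [Nontrivial (levelLoc 𝒪 N a)] {ϖ : 𝒪}
    (hϖ : Irreducible ϖ) (i : levelLoc 𝒪 N a →ₗ[𝒪] levelLoc 𝒪 N' a')
    (hmod : ∀ x y, i x = ϖ • y → ∃ x', x = ϖ • x') {S : Finset ℕ}
    (hS : ∀ q, q.Prime → q ∣ N' → q ∈ S)
    (hl : ∃ l : Nat.Primes, ((l : ℕ) : ZMod N') = 1 ∧ a' l ≠ ((l : ℕ) : ResidueField 𝒪) + 1) :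
    ∃ θ : heckeAlgebra N' 2 (↑S : Set ℕ) →+* ResidueField 𝒪,
      Nontrivial (levelLoc 𝒪 N' a') ∧ LevelHyp N' N' S a' θ := by
  have := nontrivial_levelLoc_of_mod hϖ i hmod
  obtain ⟨θ, hθ⟩ := exists_levelHyp a' dvd_rfl hS hl
  exact ⟨θ, this, hθ⟩

section auxiliary

open WeierstrassCurve

/-- **Auxiliary primes.** For every modulus and finite set there is a prime `l ≡ 1` modulo both
`M` and `p`, outside the set, at which the residual system is neither `2` nor `l + 1`. -/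
theorem exists_nonEis (W : WeierstrassCurve ℤ) (p : ℕ) [Fact p.Prime] (hΔ : W.Δ ≠ 0)
    (hp2 : p ≠ 2) (hirr : W.ModRepIsIrreducible p) {k : Type} [Field k] [Algebra (ZMod p) k]
    (a : Nat.Primes → k) (T : Finset ℕ) {B : ℕ} (hB : B ≠ 0)
    (ha : ∀ l : Nat.Primes, W.IsGoodPrimeFor l → ¬ (l : ℕ) ∣ B → a l = (W.apOfModel l : k))
    (M : ℕ) (hM : M ≠ 0) :
    ∃ l : Nat.Primes, (l : ℕ) ∉ T ∧ ((l : ℕ) : ZMod M) = 1 ∧ ((l : ℕ) : ZMod p) = 1 ∧
      a l ≠ 2 ∧ a l ≠ ((l : ℕ) : k) + 1 := by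
  classical
  set P := ∏ q ∈ T.filter (· ≠ 0), q with hP
  have hP0 : P ≠ 0 := Finset.prod_ne_zero_iff.mpr fun q hq => (Finset.mem_filter.mp hq).2
  obtain ⟨l, hl, hdvd, hgood, h1, h2⟩ := LevelRaisingPrime.exists_prime_one_mod_trace_ne_two W p hΔ
    hp2 (LevelRaisingPrime.frobeniusTraceDet W Fact.out) hirr (M * B * P)
    (Nat.pos_of_ne_zero (mul_ne_zero (mul_ne_zero hM hB) hP0))
  have hcast : ∀ d : ℕ, d ∣ p * (M * B * P) → ((l : ℕ) : ZMod d) = 1 := fun d hd => by
    have := congrArg (ZMod.castHom hd (ZMod d)) h1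
    rwa [map_natCast, map_one] at this
  have hMdvd : M ∣ p * (M * B * P) := ((dvd_mul_right M B).mul_right P).mul_left p
  have hBl : ¬ l ∣ B := fun h => hdvd (((h.mul_left M).mul_right P).mul_right p)
  have hT : l ∉ T := fun h => hdvd (Dvd.dvd.mul_right (Dvd.dvd.mul_left
    (Finset.dvd_prod_of_mem _ (Finset.mem_filter.mpr ⟨h, hl.ne_zero⟩)) _) p)
  have hne : a ⟨l, hl⟩ ≠ 2 := by
    rw [ha ⟨l, hl⟩ hgood hBl, ← map_intCast (algebraMap (ZMod p) k),
      ← map_ofNat (algebraMap (ZMod p) k) 2]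
    exact fun h => h2 ((algebraMap (ZMod p) k).injective h)
  have hp1 : ((l : ℕ) : ZMod p) = 1 := hcast p (dvd_mul_right p _)
  refine ⟨⟨l, hl⟩, hT, hcast M hMdvd, hp1, hne, ?_⟩
  rw [← map_natCast (algebraMap (ZMod p) k), hp1, map_one, one_add_one_eq_two]
  exact hne

end auxiliary

end Fermat.Agent.Lifting
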