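import Fermat.Agent.Lifting.CaseGeneric
import Fermat.Agent.Lifting.DatumConditions
import Fermat.Agent.Lifting.LevelChain
import Fermat.Agent.Lifting.LevelStep
import Fermat.Agent.Lifting.Finish

/-!
# From `R = T` at the minimal level to modularity at the conductor level

`N₀` is squarefree with primes in `S₀`; the primes of `Δ` outside `S₀` enter the level squared.
-/

set_option autoImplicit false

noncomputable section

namespace Fermat.Agent.Lifting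

open IsLocalRing CuspForm GaloisRep ModularFormClass WeierstrassCurve
open Fermat.Agent.GroupH1 (HeckePoly)

/-- The primes of `Δ` outside `S₀`. -/
def raisedPrimes (W : WeierstrassCurve ℤ) (S₀ : Finset ℕ) : Finset ℕ :=
  W.Δ.natAbs.primeFactors \ S₀

/-- The same primes, as elements of `Nat.Primes`. -/
def raisedPrimes' (W : WeierstrassCurve ℤ) (S₀ : Finset ℕ) : Finset Nat.Primes :=
  (raisedPrimes W S₀).subtype Nat.Prime

/-- The raised level. -/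
def raisedLevel (W : WeierstrassCurve ℤ) (S₀ : Finset ℕ) (N₀ : ℕ) : ℕ :=
  N₀ * ∏ q ∈ raisedPrimes' W S₀, (q : ℕ) ^ 2

section Level

variable {W : WeierstrassCurve ℤ} {S₀ : Finset ℕ} {N₀ : ℕ}

/-- The two readings of the raised primes agree. -/
theorem mem_raisedPrimes' {q : Nat.Primes} :
    q ∈ raisedPrimes' W S₀ ↔ (q : ℕ) ∈ raisedPrimes W S₀ := Finset.mem_subtype

/-- A raised prime is prime. -/
theorem prime_of_mem_raisedPrimes {q : ℕ} (h : q ∈ raisedPrimes W S₀) : q.Prime :=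
  Nat.prime_of_mem_primeFactors (Finset.mem_sdiff.mp h).1

/-- The raised level is positive. -/
theorem raisedLevel_pos (hN₀ : N₀ ≠ 0) : 0 < raisedLevel W S₀ N₀ :=
  Nat.mul_pos (Nat.pos_of_ne_zero hN₀) (Finset.prod_pos fun q _ => pow_pos q.2.pos 2)

theorem dvd_raisedLevel {q : ℕ} (h : q ∈ raisedPrimes W S₀) : q ∣ raisedLevel W S₀ N₀ :=
  Dvd.dvd.mul_left ((dvd_pow_self q two_ne_zero).trans (Finset.dvd_prod_of_mem
    (fun r : Nat.Primes => (r : ℕ) ^ 2)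
    (mem_raisedPrimes'.mpr (show ((⟨q, prime_of_mem_raisedPrimes h⟩ : Nat.Primes) : ℕ) ∈ _ from h))))
    N₀

/-- A prime of the raised level lies in `S₀` or is a raised prime. -/
theorem mem_of_prime_dvd_raisedLevel (hN₀S : ∀ q, q.Prime → q ∣ N₀ → q ∈ S₀) {q : ℕ}
    (hq : q.Prime) (h : q ∣ raisedLevel W S₀ N₀) : q ∈ S₀ ∪ raisedPrimes W S₀ := by
  rcases hq.dvd_mul.mp h with h | h
  · exact Finset.mem_union_left _ (hN₀S q hq h)
  · obtain ⟨r, hr, hr'⟩ := (Prime.dvd_finsetProd_iff hq.prime _).mp h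
    rw [(Nat.prime_dvd_prime_iff_eq hq r.2).mp (hq.dvd_of_dvd_pow hr')]
    exact Finset.mem_union_right _ (mem_raisedPrimes'.mp hr)

/-- The exponents of the raised level. -/
theorem factorization_raisedLevel (hN₀ : N₀ ≠ 0) {q : ℕ} (hq : q.Prime) :
    (raisedLevel W S₀ N₀).factorization q =
      N₀.factorization q + if q ∈ raisedPrimes W S₀ then 2 else 0 := by
  rw [raisedLevel, Nat.factorization_mul hN₀
    (Finset.prod_ne_zero_iff.mpr fun r _ => pow_ne_zero 2 r.2.ne_zero), Finsupp.add_apply,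
    Nat.factorization_prod fun r _ => pow_ne_zero 2 r.2.ne_zero, Finsupp.finsetSum_apply]
  congr 1
  simp only [Nat.factorization_pow, Finsupp.smul_apply, smul_eq_mul]
  split_ifs with h
  · show ∑ r ∈ raisedPrimes' W S₀, 2 * (r : ℕ).factorization q = 2
    refine (Finset.sum_eq_single (⟨q, hq⟩ : Nat.Primes) (fun r _ hr => ?_)
      fun h' => absurd (mem_raisedPrimes'.mpr h) h').trans ?_
    · show 2 * (r : ℕ).factorization q = 0
      rw [r.2.factorization, Finsupp.single_eq_of_ne (fun h' => hr (Subtype.ext h'.symm)),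
        mul_zero]
    · show 2 * q.factorization q = 2
      rw [hq.factorization_self]
  · refine Finset.sum_eq_zero fun r hr => ?_
    rw [r.2.factorization, Finsupp.single_eq_of_ne (fun h' => h (by
      rw [h']; exact mem_raisedPrimes'.mp hr)), mul_zero]

/-- A prime of `S₀` divides the raised level at most once. -/
theorem not_sq_dvd_raisedLevel (hsq : Squarefree N₀) {p : ℕ} (hp : p.Prime)
    (hpS : p ∈ S₀) : ¬ p ^ 2 ∣ raisedLevel W S₀ N₀ := by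
  rw [hp.pow_dvd_iff_le_factorization (raisedLevel_pos hsq.ne_zero).ne',
    factorization_raisedLevel hsq.ne_zero hp,
    if_neg fun h : p ∈ raisedPrimes W S₀ => (Finset.mem_sdiff.mp h).2 hpS]
  have := hsq.natFactorization_le_one p
  omega

theorem not_cube_dvd_raisedLevel (hsq : Squarefree N₀) (hN₀S : ∀ q, q.Prime → q ∣ N₀ → q ∈ S₀)
    {q : ℕ} (hq : q.Prime) : ¬ q ^ 3 ∣ raisedLevel W S₀ N₀ := by
  rw [hq.pow_dvd_iff_le_factorization (raisedLevel_pos hsq.ne_zero).ne',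
    factorization_raisedLevel hsq.ne_zero hq]
  have := hsq.natFactorization_le_one q
  split_ifs with h
  · rw [Nat.factorization_eq_zero_of_not_dvd fun hd =>
      (Finset.mem_sdiff.mp h).2 (hN₀S q hq hd)]
    omega
  · omega

/-- The raised primes, from `Nat.Primes` back to `ℕ`. -/
theorem image_raisedPrimes' :
    (raisedPrimes' W S₀).image (fun q : Nat.Primes => (q : ℕ)) = raisedPrimes W S₀ :=
  Finset.ext fun q => by
    simp only [Finset.mem_image]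
    exact ⟨fun ⟨r, hr, hq⟩ => hq ▸ mem_raisedPrimes'.mp hr,
      fun hq => ⟨⟨q, prime_of_mem_raisedPrimes hq⟩, mem_raisedPrimes'.mpr hq, rfl⟩⟩

/-- `p` and the primes of `Δ` lie in `S₀` or are raised. -/
theorem insert_primeFactors_subset {p : ℕ} (hpS : p ∈ S₀) :
    insert p W.Δ.natAbs.primeFactors ⊆ S₀ ∪ raisedPrimes W S₀ := by
  rw [raisedPrimes, Finset.union_sdiff_self_eq_union]
  exact Finset.insert_subset (Finset.mem_union_left _ hpS) Finset.subset_union_right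

end Level

/-- A product over primes, read over the corresponding natural numbers. -/
theorem prod_attach_eq_prod_primes {M : Type*} [CommMonoid M] {T : Finset ℕ}
    {Tp : Finset Nat.Primes} (hTp : ∀ q : Nat.Primes, q ∈ Tp ↔ (q : ℕ) ∈ T)
    (hT : ∀ q ∈ T, q.Prime) (f : ∀ q : ℕ, q.Prime → M) :
    ∏ q ∈ T.attach, f q.1 (hT q.1 q.2) = ∏ q ∈ Tp, f q q.2 :=
  Finset.prod_bij' (fun q _ => (⟨q.1, hT q.1 q.2⟩ : Nat.Primes))
    (fun q hq => (⟨(q : ℕ), (hTp q).mp hq⟩ : T)) (fun q _ => (hTp _).mpr q.2)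
    (fun _ _ => Finset.mem_attach _ _) (fun _ _ => rfl) (fun _ _ => rfl) (fun _ _ => rfl)

variable {𝒪 : Type} [CommRing 𝒪] [IsDomain 𝒪] [IsDiscreteValuationRing 𝒪]
  [IsAdicComplete (maximalIdeal 𝒪) 𝒪] [CharZero 𝒪] [Finite (ResidueField 𝒪)]
  {p : ℕ} [Fact p.Prime] [Algebra (ZMod p) (ResidueField 𝒪)]
  {𝒟 : Finset ℕ → ∀ ⦃A : Type⦄ [CommRing A] [IsLocalRing A] [Algebra 𝒪 A],
    GaloisRepAdic A → Prop}

omit [IsAdicComplete (maximalIdeal 𝒪) 𝒪] [CharZero 𝒪] [Finite (ResidueField 𝒪)]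
  [Algebra (ZMod p) (ResidueField 𝒪)] in
/-- An eigenform at a raised level with the eigenvalues of `W` gives modularity. -/
theorem mlc1_of_raisedEigenform (h58 : LevelExact) (W : WeierstrassCurve ℤ) (hΔ : W.Δ ≠ 0)
    (hW : W.IsSemistableModel) (hp2 : p ≠ 2) (hirr : W.ModRepIsIrreducible p) {S₀ : Finset ℕ}
    (hpS : p ∈ S₀) {N₀ : ℕ} (hsq : Squarefree N₀) (hN₀S : ∀ q, q.Prime → q ∣ N₀ → q ∈ S₀)
    (hS₀N₀ : ∀ q ∈ S₀, q.Prime → q = p ∨ q ∣ N₀)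
    {g : CuspForm (CongruenceSubgroup.Gamma0 (raisedLevel W S₀ N₀)) 2}
    (hg : g.IsNormalizedEigenform)
    (hga : ∀ ℓ : ℕ, ℓ.Prime → ¬ ℓ ∣ raisedLevel W S₀ N₀ → ℓ ∉ S₀ ∪ raisedPrimes W S₀ →
      qCoeff g ℓ = (W.apOfModel ℓ : ℂ)) :
    Mlc1IsModularModelOfExactConductorLevel W := by
  refine mlc1_of_eigenform h58 W hΔ hW p hp2 hirr (raisedLevel_pos hsq.ne_zero)
    (not_sq_dvd_raisedLevel hsq Fact.out hpS)
    (fun q hq => not_cube_dvd_raisedLevel hsq hN₀S hq)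
    (fun q hq hqp hqΔ => ?_) (S := S₀ ∪ raisedPrimes W S₀) (fun q hq hqp => ?_) hg hga
  · by_cases hqS : q ∈ S₀
    · exact ((hS₀N₀ q hqS hq).resolve_left hqp).trans (dvd_mul_right N₀ _)
    · exact dvd_raisedLevel (Finset.mem_sdiff.mpr
        ⟨Nat.mem_primeFactors.mpr ⟨hq, Int.natCast_dvd.mp hqΔ, Int.natAbs_ne_zero.mpr hΔ⟩, hqS⟩)
  · rcases Finset.mem_union.mp hq with hq | hq
    · exact (hS₀N₀ q hq hqp).imp_right fun h => h.trans (dvd_mul_right N₀ _)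
    · exact Or.inr (dvd_raisedLevel hq)

/-- **Modularity from the minimal level.** -/
theorem mlc1_of_minimal (h58 : LevelExact) (W : WeierstrassCurve ℤ) (hΔ : W.Δ ≠ 0)
    (hW : W.IsSemistableModel) (hp2 : p ≠ 2) (hirr : W.ModRepIsIrreducible p)
    (hp𝒪 : (p : 𝒪) ∈ maximalIdeal 𝒪) (h𝒟 : CondFamily 𝒪 p 𝒟) {S₀ : Finset ℕ} (hpS : p ∈ S₀)
    (hex : ∀ S, S₀ ⊆ S → Nonempty
      (DeformationRingData 𝒪 (residualOver W hΔ p (ResidueField 𝒪)) (𝒟 S)))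
    {N₀ : ℕ} [NeZero N₀] (hsq : Squarefree N₀)
    (hS₀N₀ : ∀ q ∈ S₀, q.Prime → q = p ∨ q ∣ N₀)
    -- `R = T` at the minimal level
    {a₀ : Nat.Primes → ResidueField 𝒪} [Nontrivial (levelLoc 𝒪 N₀ a₀)]
    {θ₀ : heckeAlgebra N₀ 2 (↑S₀ : Set ℕ) →+* ResidueField 𝒪}
    (h₀ : LevelHyp N₀ N₀ S₀ a₀ θ₀)
    {B : ℕ} (hB : B ≠ 0)
    (hcongr : ∀ l : Nat.Primes, W.IsGoodPrimeFor l → ¬ (l : ℕ) ∣ B →
      a₀ l = (W.apOfModel l : ResidueField 𝒪))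
    (D₀ : DeformationRingData 𝒪 (residualOver W hΔ p (ResidueField 𝒪)) (𝒟 S₀))
    (H₀ : HeckeGaloisRepDatum N₀ (↑S₀ : Set ℕ) 𝒪 θ₀ (heckeLocal N₀ (↑S₀ : Set ℕ) 𝒪 θ₀))
    (hπ₀ : H₀.π = heckeLocal.π N₀ (↑S₀ : Set ℕ) 𝒪 θ₀)
    (φ₀ : D₀.R →ₐ[𝒪] (levelModule h₀).T) (hφ₀ : Function.Bijective φ₀)
    (htr₀ : ∀ (ℓ : ℕ) (hℓ : ℓ.Prime) (hℓN : ¬ ℓ ∣ N₀) (hℓS : ℓ ∉ (↑S₀ : Set ℕ)),
        ∀ P : ValuationSubring (AlgebraicClosure ℚ), P.LiesOverPrime ℓ →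
          ∀ σ : AlgebraicClosure ℚ ≃ₐ[ℚ] AlgebraicClosure ℚ, P.IsFrobeniusAt σ ℓ →
            φ₀ (LinearMap.trace D₀.R D₀.ρ.V (D₀.ρ.ρ σ)) =
              (levelModule h₀).toT (H₀.π (heckeAlgebra.T hℓ hℓN hℓS)))
    [Module.Free (levelModule h₀).T (levelModule h₀).M]
    [Module.Finite (levelModule h₀).T (levelModule h₀).M]
    {r : ℕ} (ψ : MvPowerSeries (Fin r) 𝒪 →ₐ[𝒪] D₀.R) (hψ : Function.Surjective ψ)
    (rels : Fin r → MvPowerSeries (Fin r) 𝒪)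
    (hrels : RingHom.ker ψ = Ideal.span (Set.range rels))
    (π₀ : D₀.R →ₐ[𝒪] 𝒪)
    -- the condition at the raised level
    (hdatum : ∀ (N : ℕ) [NeZero N] (S : Finset ℕ)
      (θ : heckeAlgebra N 2 (↑S : Set ℕ) →+* ResidueField 𝒪)
      (H : HeckeGaloisRepDatum N (↑S : Set ℕ) 𝒪 θ (heckeLocal N (↑S : Set ℕ) 𝒪 θ)),
      S₀ ⊆ S → (∀ q, q.Prime → q ∣ N → q ∈ S) →
      (∀ q ∈ S₀, q.Prime → N.factorization q = N₀.factorization q) →
      H.π = heckeLocal.π N (↑S : Set ℕ) 𝒪 θ →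
      H.ρ.residual.IsEquiv ((residualOver W hΔ p (ResidueField 𝒪)).baseChangeAlong
        (ResidueField.map (algebraMap 𝒪 (heckeLocal N (↑S : Set ℕ) 𝒪 θ)))) → 𝒟 S H.ρ)
    -- multiplicity
    (hmult : ∀ [NeZero (raisedLevel W S₀ N₀)]
      [Nontrivial (levelLoc 𝒪 (raisedLevel W S₀ N₀) (zeroOn (raisedPrimes' W S₀) a₀))]
      (θ : heckeAlgebra (raisedLevel W S₀ N₀) 2 (↑(S₀ ∪ raisedPrimes W S₀) : Set ℕ) →+*
        ResidueField 𝒪)
      (h : LevelHyp (raisedLevel W S₀ N₀) (raisedLevel W S₀ N₀) (S₀ ∪ raisedPrimes W S₀)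
        (zeroOn (raisedPrimes' W S₀) a₀) θ)
      (π' : (levelModule h).T →ₐ[𝒪] 𝒪),
      (∀ (ℓ : ℕ) (hℓ : ℓ.Prime) (hℓN : ¬ ℓ ∣ raisedLevel W S₀ N₀)
        (hℓS : ℓ ∉ (↑(S₀ ∪ raisedPrimes W S₀) : Set ℕ)),
        ∀ P : ValuationSubring (AlgebraicClosure ℚ), P.LiesOverPrime ℓ →
          ∀ σ : AlgebraicClosure ℚ ≃ₐ[ℚ] AlgebraicClosure ℚ, P.IsFrobeniusAt σ ℓ →
            π' ((levelModule h).toT (heckeLocal.π (raisedLevel W S₀ N₀)
                (↑(S₀ ∪ raisedPrimes W S₀) : Set ℕ) 𝒪 θ (heckeAlgebra.T hℓ hℓN hℓS))) =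
              π₀ (LinearMap.trace D₀.R D₀.ρ.V (D₀.ρ.ρ σ))) →
      Module.finrank 𝒪 ((Submodule.torsionBySet (levelModule h).T (levelModule h).M
        (RingHom.ker π' : Set (levelModule h).T)).restrictScalars 𝒪) ≤
        Module.finrank (levelModule h₀).T (levelModule h₀).M)
    -- the lift
    (ρ : GaloisRepAdic 𝒪) (hρ : 𝒟 (S₀ ∪ raisedPrimes W S₀) ρ)
    (hρres : ρ.residual.IsEquiv ((residualOver W hΔ p (ResidueField 𝒪)).baseChangeAlong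
      (ResidueField.map (algebraMap 𝒪 𝒪))))
    (hρtr : ∀ ℓ : ℕ, ℓ.Prime → ℓ ∉ S₀ ∪ raisedPrimes W S₀ →
      ∀ P : ValuationSubring (AlgebraicClosure ℚ), P.LiesOverPrime ℓ →
        ∀ σ : AlgebraicClosure ℚ ≃ₐ[ℚ] AlgebraicClosure ℚ, P.IsFrobeniusAt σ ℓ →
          LinearMap.trace 𝒪 ρ.V (ρ.ρ σ) = (W.apOfModel ℓ : 𝒪)) :
    Mlc1IsModularModelOfExactConductorLevel W := by
  classical
  have hp : p.Prime := Fact.out
  set T := raisedPrimes W S₀ with hTdef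
  set Tp := raisedPrimes' W S₀
  set N := raisedLevel W S₀ N₀ with hNdef
  set S := S₀ ∪ T with hSdef
  have : NeZero N := ⟨(raisedLevel_pos (NeZero.ne N₀)).ne'⟩
  have hT : ∀ q ∈ T, q.Prime ∧ q ≠ p ∧ q ∉ S₀ := fun q hq =>
    ⟨prime_of_mem_raisedPrimes hq, fun h => (Finset.mem_sdiff.mp hq).2 (h ▸ hpS),
      (Finset.mem_sdiff.mp hq).2⟩
  have hTp : ∀ q ∈ Tp, (q : ℕ) ≠ p ∧ ¬ (q : ℕ) ∣ N₀ := fun q hq =>
    ⟨(hT q (mem_raisedPrimes'.mp hq)).2.1,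
      fun h => (hT q (mem_raisedPrimes'.mp hq)).2.2 (h₀.prime_mem q q.2 h)⟩
  -- a prime witnessing that the system is not Eisenstein
  obtain ⟨l, hlT, hlN, hlp, hl2, hl1⟩ := exists_nonEis W p hΔ hp2 hirr a₀ T hB hcongr N
    (NeZero.ne N)
  have hlT' : l ∉ Tp := fun h => hlT (mem_raisedPrimes'.mp h)
  obtain ⟨ϖ, hϖ⟩ := IsDiscreteValuationRing.exists_irreducible 𝒪
  obtain ⟨i, j, hiX, hjX, hjs, hji, hmod⟩ := exists_level_chain N₀ Tp hp2 hp𝒪 hTp a₀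
    hϖ.maximalIdeal_eq hϖ.ne_zero l hlN hlp hlT' hl2
  have hS : ∀ q, q.Prime → q ∣ N → q ∈ S := fun q hq h =>
    mem_of_prime_dvd_raisedLevel h₀.prime_mem hq h
  obtain ⟨θ, hnt, h⟩ := exists_levelHyp_of_step (N' := N) hϖ i hmod hS
    ⟨l, hlN, by rwa [zeroOn_of_not_mem hlT']⟩
  have hθ : ∀ (ℓ : ℕ) (hℓ : ℓ.Prime) (hℓN : ¬ ℓ ∣ N) (hℓS : ℓ ∉ (↑S : Set ℕ)),
      ℓ ∉ B.primeFactors → ¬ (ℓ : ℤ) ∣ W.Δ →
      θ (heckeAlgebra.T hℓ hℓN hℓS) = (W.apOfModel ℓ : ResidueField 𝒪) := by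
    intro ℓ hℓ hℓN hℓS hℓB hgood
    rw [h.theta_T ℓ hℓ hℓN hℓS, zeroOn_of_not_mem fun hm : (⟨ℓ, hℓ⟩ : Nat.Primes) ∈ Tp => hℓS (Finset.mem_coe.mpr
      (Finset.mem_union_right _ (mem_raisedPrimes'.mp hm)))]
    exact hcongr ⟨ℓ, hℓ⟩ hgood fun hd => hℓB (Nat.mem_primeFactors.mpr ⟨hℓ, hd, hB⟩)
  obtain ⟨H, hπ, hHres⟩ := exists_datum_residualOver hp𝒪 (Finset.mem_union_left _ hpS) hS W hΔ hW
    hp2 hirr B.primeFactors hθ
  have hfac : ∀ q ∈ S₀, q.Prime → N.factorization q = N₀.factorization q := fun q hqS hq => by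
    rw [hNdef, factorization_raisedLevel (NeZero.ne N₀) hq,
      if_neg fun hm => (hT q hm).2.2 hqS, add_zero]
  have hjiT : ∀ x, j (i x) = (∏ q ∈ T.attach,
      haveI : Fact (q.1).Prime := ⟨(hT q.1 q.2).1⟩; IharaH1.deltaSq q.1 𝒪) • x := fun x => by
    rw [hji x]
    refine congrArg (· • x) ?_
    exact (prod_attach_eq_prod_primes (fun _ => mem_raisedPrimes') (fun q hq => (hT q hq).1)
      fun q hq => haveI : Fact q.Prime := ⟨hq⟩; IharaH1.deltaSq q 𝒪).symm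
  obtain ⟨g, hg, hga⟩ := exists_eigenform_of_minimal h𝒟 hp hp𝒪 hT hpS hex D₀ h₀ H₀ hπ₀ φ₀ hφ₀
    htr₀ ψ hψ rels hrels h H hπ (hdatum N S θ H Finset.subset_union_left hS hfac hπ hHres) hHres i j
    (fun ℓ hℓ x => (hiX ℓ (fun hm => hℓ (mem_raisedPrimes'.mp hm)) x).symm)
    (fun ℓ hℓ x => (hjX ℓ (fun hm => hℓ (mem_raisedPrimes'.mp hm)) x).symm) hjs hjiT hϖ hmod π₀
    (fun π' hπ' => hmult θ h π' fun ℓ hℓ hℓN hℓS P hP σ hσ => by
      rw [← hπ]; exact hπ' ℓ hℓ hℓN hℓS P hP σ hσ)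
    ρ hρ hρres W.apOfModel (fun ℓ hℓ _ hℓS => hρtr ℓ hℓ hℓS)
  exact mlc1_of_raisedEigenform h58 W hΔ hW hp2 hirr hpS hsq h₀.prime_mem hS₀N₀ hg hga

end Fermat.Agent.Lifting
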