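import Fermat.Agent.DefCond.Ordinary

/-!
# The unramified quotient of an ordinary representation

With cyclotomic determinant and `p` odd the ordinary line at a place over `p` is unique, so the
scalar by which an element of the decomposition group acts on the quotient is well defined; it is
functorial in the coefficient ring.
-/

set_option autoImplicit false

namespace Fermat.Agent.Lifting

open IsLocalRing Fermat.Agent.DefCond Module
open Fermat.Agent.Deformation (GQ)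

variable {A B : Type} [CommRing A] [IsLocalRing A] [CommRing B] [IsLocalRing B]

/-- `σ` acts by `z` modulo an ordinary line at `P`. -/
def IsQuotientValue (ρ : GaloisRepAdic A) (P : ValuationSubring (AlgebraicClosure ℚ)) (σ : GQ)
    (z : A) : Prop :=
  ∃ L : Submodule A ρ.V, (∃ b : Basis (Fin 2) A ρ.V, L = A ∙ b 0) ∧
    (∀ τ ∈ P.decompositionSubgroup ℚ, ∀ v ∈ L, ρ.ρ τ v ∈ L) ∧
    (∀ τ ∈ P.inertiaSubgroupIn ℚ, ∀ v : ρ.V, ρ.ρ τ v - v ∈ L) ∧
    ∀ v : ρ.V, ρ.ρ σ v - z • v ∈ L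

variable {ρ : GaloisRepAdic A} {P : ValuationSubring (AlgebraicClosure ℚ)} {σ σ₀ : GQ} {z z' : A}
  {p : ℕ}

/-- An ordinary representation has a quotient value at every element of the decomposition group. -/
theorem exists_isQuotientValue (h : ρ.IsOrdinaryAt p) (hP : P.LiesOverPrime p)
    (hσ : σ ∈ P.decompositionSubgroup ℚ) : ∃ z : A, IsQuotientValue ρ P σ z := by
  obtain ⟨L, ⟨b, hL⟩, hD, hI⟩ := h P hP
  refine ⟨repMat ρ b σ 1 1, L, ⟨b, hL⟩, hD, hI, fun v => ?_⟩
  have h10 : repMat ρ b σ 1 0 = 0 := by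
    have h := hD σ hσ _ (hL ▸ Submodule.mem_span_singleton_self (b 0))
    rw [hL, mem_span_basis_iff, repr_apply] at h
    simpa using h
  rw [hL, mem_span_basis_iff, map_sub, map_smul, Finsupp.sub_apply, Finsupp.smul_apply, repr_apply,
    h10, smul_eq_mul]
  ring

/-- The value is determined by traces, in every basis. -/
theorem IsQuotientValue.trace_mul_eq (h : IsQuotientValue ρ P σ z)
    (hσ : σ ∈ P.decompositionSubgroup ℚ) (hσ₀ : σ₀ ∈ P.inertiaSubgroupIn ℚ)
    (b' : Basis (Fin 2) A ρ.V) :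
    (repMat ρ b' σ₀ - 1).trace * z = (repMat ρ b' σ₀ - 1).trace * (repMat ρ b' σ).trace -
      ((repMat ρ b' σ₀ - 1) * repMat ρ b' σ).trace := by
  obtain ⟨L, ⟨b, hL⟩, hD, hI, hz⟩ := h
  obtain ⟨g, hg⟩ := repMat_change ρ b b'
  have hb0 : b 0 ∈ L := hL ▸ Submodule.mem_span_singleton_self _
  set M := repMat ρ b with hM
  have h10 : M σ 1 0 = 0 := by
    have h := hD σ hσ _ hb0
    rw [hL, mem_span_basis_iff, repr_apply] at h
    simpa using h
  have h11 : M σ 1 1 = z := by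
    have h := hz (b 1)
    rw [hL, mem_span_basis_iff, map_sub, Finsupp.sub_apply, repr_apply] at h
    simpa [sub_eq_zero] using h
  have r0 : (M σ₀ - 1) 1 0 = 0 := by
    have h := hI σ₀ hσ₀ (b 0)
    rw [hL, mem_span_basis_iff, map_sub, Finsupp.sub_apply, repr_apply] at h
    simpa using h
  have r1 : (M σ₀ - 1) 1 1 = 0 := by
    have h := hI σ₀ hσ₀ (b 1)
    rw [hL, mem_span_basis_iff, map_sub, Finsupp.sub_apply, repr_apply] at h
    simpa using h
  have e : repMat ρ b' σ₀ - 1 = g * (M σ₀ - 1) * (↑g⁻¹ : Matrix (Fin 2) (Fin 2) A) := by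
    rw [hg, mul_sub, sub_mul, mul_one, Units.mul_inv]
  have e2 : (repMat ρ b' σ₀ - 1) * repMat ρ b' σ =
      g * ((M σ₀ - 1) * M σ) * (↑g⁻¹ : Matrix (Fin 2) (Fin 2) A) := by
    rw [e, hg]
    simp only [mul_assoc, Units.inv_mul_cancel_left]
  rw [e2, e, hg, Matrix.trace_units_conj, Matrix.trace_units_conj, Matrix.trace_units_conj]
  simp only [Matrix.trace_fin_two, Matrix.mul_apply, Fin.sum_univ_two, r0, r1, h10, h11]
  ring

theorem IsQuotientValue.det_sub_one_eq_zero (h : IsQuotientValue ρ P σ z)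
    (hσ₀ : σ₀ ∈ P.inertiaSubgroupIn ℚ) (b' : Basis (Fin 2) A ρ.V) :
    (repMat ρ b' σ₀ - 1).det = 0 := by
  obtain ⟨L, ⟨b, hL⟩, hD, hI, -⟩ := h
  exact (ordEq_of_line (p := 0) b' hL hD hI hσ₀).1.det_eq

variable [Fact p.Prime]

/-- The quotient value is functorial. -/
theorem IsQuotientValue.map_eq (hp2 : p ≠ 2) (hP : P.LiesOverPrime p)
    (hdet : ρ.DetIsCyclotomic p) (h : IsQuotientValue ρ P σ z)
    (hσ : σ ∈ P.decompositionSubgroup ℚ) (f : A →+* B) (hf : IsLocalHom f)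
    {ρ' : GaloisRepAdic B} (he : (ρ.baseChangeAlong f hf).IsEquiv ρ') {w : B}
    (h' : IsQuotientValue ρ' P σ w) : f z = w := by
  obtain ⟨σ₀, hσ₀, hμ⟩ := exists_sigma₀ p hp2 hP
  obtain ⟨b⟩ := exists_basis ρ
  obtain ⟨e⟩ := he
  have hM : ∀ τ, repMat ρ' ((bcBasis ρ b f hf).map e.toLinearEquiv) τ = (repMat ρ b τ).map f :=
    fun τ => (repMat_equiv e _ τ).trans (repMat_bcBasis ρ b f hf τ)
  have h1 := congrArg f (h.trace_mul_eq hσ hσ₀ b)
  have h2 := h'.trace_mul_eq hσ hσ₀ ((bcBasis ρ b f hf).map e.toLinearEquiv)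
  rw [hM, hM, ← map_sub_one, ← Matrix.map_mul, map_trace, map_trace, map_trace] at h2
  rw [map_mul, map_sub, map_mul] at h1
  rw [← h1] at h2
  have hu := (trace_sub_one_isUnit hdet b hμ (h.det_sub_one_eq_zero hσ₀ b)).map f
  exact (hu.mul_left_cancel h2).symm

/-- The quotient value is unique. -/
theorem IsQuotientValue.unique (hp2 : p ≠ 2) (hP : P.LiesOverPrime p)
    (hdet : ρ.DetIsCyclotomic p) (h : IsQuotientValue ρ P σ z)
    (hσ : σ ∈ P.decompositionSubgroup ℚ) (h' : IsQuotientValue ρ P σ z') : z = z' := by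
  obtain ⟨σ₀, hσ₀, hμ⟩ := exists_sigma₀ p hp2 hP
  obtain ⟨b⟩ := exists_basis ρ
  have hu := trace_sub_one_isUnit hdet b hμ (h.det_sub_one_eq_zero hσ₀ b)
  exact hu.mul_left_cancel ((h.trace_mul_eq hσ hσ₀ b).trans (h'.trace_mul_eq hσ hσ₀ b).symm)

end Fermat.Agent.Lifting
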