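import Fermat.Agent.Lifting.UnramifiedStep
import Fermat.Agent.Lifting.QuotientChar
import Fermat.Agent.OrdKummer.Main

/-!
# Dropping flatness at `p`

An ordinary deformation comes with a flatness obstruction `κ`: its base change to a finite
quotient in which `κ` vanishes is flat at `p`, and `(u ^ 2 - 1) κ = 0` for the value `u` of the
unramified quotient character at any element of the decomposition group.  So if `R` is the
deformation ring of an ordinary condition `𝒟` and `R'` that of `𝒟` together with "flat at `p`",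
the cotangent space of `R` at a point coming from `R'` is at most that of `R'` plus the order of
`u ^ 2 - 1` at the point, and a deformation over a ring on which `u ^ 2 - 1` is regular is flat.
-/

set_option autoImplicit false

namespace Fermat.Agent.Lifting

open IsLocalRing GaloisRep Fermat.Agent.GaloisBasics

section General

variable {A : Type} [CommRing A] [IsLocalRing A] {p : ℕ}

/-- The flatness obstruction at any element of the decomposition group. -/
theorem exists_flat_obstruction [IsNoetherianRing A] [IsAdicComplete (maximalIdeal A) A]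
    (hfin : Finite (ResidueField A)) {ρ : GaloisRepAdic A} [Fact p.Prime] (hp2 : p ≠ 2)
    (hdet : ρ.DetIsCyclotomic p) (hord : ρ.IsOrdinaryAt p) {P : ValuationSubring Qbar}
    (hP : P.LiesOverPrime p) :
    ∃ κ : A, (∀ σ ∈ P.decompositionSubgroup ℚ, ∀ z : A, IsQuotientValue ρ P σ z →
        (z ^ 2 - 1) * κ = 0) ∧
      ∀ ⦃B : Type⦄ [CommRing B] [IsLocalRing B], Finite B →
        ∀ (g : A →+* B) (hg : IsLocalHom g), Function.Surjective g → g κ = 0 →
          (ρ.baseChangeAlong g hg).IsFlatAt p := by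
  obtain ⟨e, κ, he, h1, -, h3, -⟩ :=
    OrdKummer.exists_kummerInvariant hfin hord hdet (Fact.out : p.Prime) hp2 hP
  refine ⟨κ, fun σ hσ z hz => ?_, fun B _ _ hB g hg hs h0 => h3 B _ _ hB g hg hs h0⟩
  have he' : IsQuotientValue ρ P σ (OrdKummer.entry ρ e σ 1 1) := by
    refine ⟨A ∙ e 0, ⟨e, rfl⟩, fun τ hτ v hv => ?_, fun τ hτ v => ?_,
      OrdKummer.sub_smul_sub_mem σ _ rfl (he.lower σ hσ)⟩
    · rw [OrdKummer.mem_line_apply he.lower hτ hv]
      exact Submodule.smul_mem _ _ hv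
    · simpa using OrdKummer.sub_smul_sub_mem τ 1 (he.quotient τ hτ)
        (he.lower τ (inertiaSubgroupIn_le_decompositionSubgroup hτ)) v
  rw [hz.unique hp2 hP hdet hσ he']
  exact h1 σ hσ

end General

variable {𝒪 : Type} [CommRing 𝒪] [IsDomain 𝒪] [IsDiscreteValuationRing 𝒪]
  [IsAdicComplete (maximalIdeal 𝒪) 𝒪] [Finite (ResidueField 𝒪)]
  {ρbar : ResidualGaloisRep (ResidueField 𝒪)}
  {𝒟 𝒟' : ∀ ⦃A : Type⦄ [CommRing A] [IsLocalRing A] [Algebra 𝒪 A], GaloisRepAdic A → Prop}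

/-- The cotangent space of an ordinary deformation ring at a point with unit quotient value `a`,
`a ^ 2 ≠ 1`, is at most that of its flat quotient plus the order of `a ^ 2 - 1`. -/
theorem length_cotangent_le_flat (h𝒟 : IsDeformationCondition 𝒪 𝒟)
    (D : DeformationRingData 𝒪 ρbar 𝒟) (D' : DeformationRingData 𝒪 ρbar 𝒟') {p : ℕ}
    (h' : ∀ ⦃B : Type⦄ [CommRing B] [IsLocalRing B] [Algebra 𝒪 B], IsArtinianTestAlgebra 𝒪 B →
      ∀ ρ : GaloisRepAdic B, 𝒟 ρ → ρ.IsFlatAt p → 𝒟' ρ)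
    (f : D.R →ₐ[𝒪] D'.R) (hfl : IsLocalHom (f : D.R →+* D'.R)) (hf : Function.Surjective f)
    (hfeq : (D.ρ.baseChangeAlong (f : D.R →+* D'.R) hfl).IsEquiv D'.ρ)
    {κ u : D.R} (hu : (u ^ 2 - 1) * κ = 0)
    (hκ : ∀ ⦃B : Type⦄ [CommRing B] [IsLocalRing B], Finite B →
      ∀ (g : D.R →+* B) (hg : IsLocalHom g), Function.Surjective g → g κ = 0 →
        (D.ρ.baseChangeAlong g hg).IsFlatAt p)
    (π' : D'.R →ₐ[𝒪] 𝒪) (a : 𝒪) (ha : π' (f u) = a) (ha1 : a ^ 2 ≠ 1) :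
    Module.length 𝒪 (RingHom.ker (π'.comp f)).Cotangent ≤
      Ring.ord 𝒪 (a ^ 2 - 1) + Module.length 𝒪 (RingHom.ker π').Cotangent := by
  set π := π'.comp f with hπdef
  have hπu : π u = a := ha
  have hπκ : π κ = 0 := by
    have h1 : (π u ^ 2 - 1) * π κ = 0 := by
      rw [← map_pow, ← map_one π, ← map_sub, ← map_mul, hu, map_zero]
    rw [hπu] at h1
    exact (mul_eq_zero.mp h1).resolve_left (sub_ne_zero.mpr ha1)
  refine length_cotangent_le_add_ord f hf π' (n := 1) _ fun k =>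
    ⟨![κ], !![a ^ 2 - 1], fun i => ?_, by simp, fun i => ?_, ?_⟩
  · fin_cases i
    exact hπκ
  · refine Ideal.mem_sup_left ?_
    have hd : algebraMap 𝒪 D.R (a ^ 2 - 1) - (u ^ 2 - 1) ∈ RingHom.ker π := by
      simp [RingHom.mem_ker, hπu]
    have h1 : (a ^ 2 - 1) • κ = (algebraMap 𝒪 D.R (a ^ 2 - 1) - (u ^ 2 - 1)) * κ := by
      rw [Algebra.smul_def, sub_mul, hu, sub_zero]
    fin_cases i
    simp only [Fin.sum_univ_one]
    show (a ^ 2 - 1) • κ ∈ _
    rw [h1, sq (RingHom.ker π)]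
    exact Ideal.mul_mem_mul hd (RingHom.mem_ker.mpr hπκ)
  · -- the universal property modulo `κ`, `℘²` and `m ^ (k + 1)`
    set I : Ideal D.R := RingHom.ker π ^ 2 ⊔ maximalIdeal D.R ^ (k + 1)
    set J : Ideal D.R := Ideal.span (Set.range ![κ]) ⊔ I
    have hπm : RingHom.ker π ≤ maximalIdeal D.R :=
      IsLocalRing.le_maximalIdeal (RingHom.ker_ne_top _)
    have hJm : J ≤ maximalIdeal D.R := by
      refine sup_le (Ideal.span_le.mpr ?_) (sup_le ((Ideal.pow_le_self two_ne_zero).trans hπm)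
        (Ideal.pow_le_self k.succ_ne_zero))
      rintro _ ⟨i, rfl⟩
      fin_cases i
      exact hπm (RingHom.mem_ker.mpr hπκ)
    have hle : J ≤ Ideal.span (Set.range ![κ]) ⊔ (RingHom.ker π ^ 2 ⊔ maximalIdeal D.R ^ k) :=
      sup_le_sup le_rfl (sup_le_sup le_rfl (Ideal.pow_le_pow_right k.le_succ))
    exact (ker_le_of_isOfType_quotient h𝒟 D D' f hfl hfeq hJm
      (le_sup_right.trans le_sup_right : maximalIdeal D.R ^ (k + 1) ≤ J)
      fun {_} hql hT hfinite hDB => h' hT _ hDB (hκ hfinite _ hql Ideal.Quotient.mk_surjective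
        (Ideal.Quotient.eq_zero_iff_mem.mpr
          (Ideal.mem_sup_left (Ideal.subset_span ⟨0, rfl⟩))))).trans hle

/-- The cotangent bound with the unit root read off the quotient line of the point. -/
theorem length_cotangent_le_flat_ordinary (h𝒟 : IsDeformationCondition 𝒪 𝒟)
    (D : DeformationRingData 𝒪 ρbar 𝒟) (D' : DeformationRingData 𝒪 ρbar 𝒟') {p : ℕ}
    [Fact p.Prime] (hp2 : p ≠ 2) (hdet : D.ρ.DetIsCyclotomic p) (hord : D.ρ.IsOrdinaryAt p)
    (h' : ∀ ⦃B : Type⦄ [CommRing B] [IsLocalRing B] [Algebra 𝒪 B], IsArtinianTestAlgebra 𝒪 B →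
      ∀ ρ : GaloisRepAdic B, 𝒟 ρ → ρ.IsFlatAt p → 𝒟' ρ)
    (f : D.R →ₐ[𝒪] D'.R) (hfl : IsLocalHom (f : D.R →+* D'.R)) (hf : Function.Surjective f)
    (hfeq : (D.ρ.baseChangeAlong (f : D.R →+* D'.R) hfl).IsEquiv D'.ρ)
    (π' : D'.R →ₐ[𝒪] 𝒪) (hπl : IsLocalHom (π' : D'.R →+* 𝒪)) {ρ₀ : GaloisRepAdic 𝒪}
    (h₀ : (D'.ρ.baseChangeAlong (π' : D'.R →+* 𝒪) hπl).IsEquiv ρ₀)
    {P : ValuationSubring Qbar} (hP : P.LiesOverPrime p) {σ : GalQ}
    (hσ : σ ∈ P.decompositionSubgroup ℚ) (a : 𝒪) (ha : IsQuotientValue ρ₀ P σ a)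
    (ha1 : a ^ 2 ≠ 1) :
    Module.length 𝒪 (RingHom.ker (π'.comp f)).Cotangent ≤
      Ring.ord 𝒪 (a ^ 2 - 1) + Module.length 𝒪 (RingHom.ker π').Cotangent := by
  have hfin : Finite (ResidueField D.R) :=
    Finite.of_surjective (ResidueField.map (algebraMap 𝒪 D.R)) fun y => by
      obtain ⟨c, hc⟩ := D.residue_surjective y
      exact ⟨residue 𝒪 c, (ResidueField.map_residue _ c).trans hc⟩
  obtain ⟨κ, h1, h2⟩ := exists_flat_obstruction hfin hp2 hdet hord hP
  obtain ⟨z, hz⟩ := exists_isQuotientValue hord hP hσ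
  have hcl : IsLocalHom ((π' : D'.R →+* 𝒪).comp (f : D.R →+* D'.R)) :=
    RingHom.isLocalHom_comp (π' : D'.R →+* 𝒪) (f : D.R →+* D'.R)
  have he : (D.ρ.baseChangeAlong ((π' : D'.R →+* 𝒪).comp (f : D.R →+* D'.R)) hcl).IsEquiv ρ₀ := by
    obtain ⟨e1⟩ := baseChange_baseChange_isEquiv (f : D.R →+* D'.R) hfl (π' : D'.R →+* 𝒪) hπl
      hcl D.ρ
    obtain ⟨e2⟩ := hfeq
    obtain ⟨e3⟩ := h₀
    exact ⟨e1.symm.trans ((e2.baseChangeAlong _ hπl).trans e3)⟩
  exact length_cotangent_le_flat h𝒟 D D' h' f hfl hf hfeq (h1 σ hσ z hz) h2 π' a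
    (hz.map_eq hp2 hP hdet hσ _ hcl he ha) ha1

end Fermat.Agent.Lifting
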