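import Fermat.Agent.Lifting.Chain
import Fermat.Agent.Lifting.FlatStep
import Fermat.Agent.DefCond.Main

/-!
# The chain of deformation problems for a representation which is flat at `p`

The families of conditions at `p` used for modularity lifting, indexed by the set of primes at
which ramification is allowed, and the cotangent bound from "flat and ordinary at `S₀`" to
"ordinary at `S₀ ∪ T`".
-/

set_option autoImplicit false

noncomputable section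

namespace Fermat.Agent.Lifting

open IsLocalRing GaloisRep Fermat.Agent.GaloisBasics Fermat.Agent.TangentBound

variable {A B : Type} [CommRing A] [IsLocalRing A] [CommRing B] [IsLocalRing B]

variable (𝒪 : Type) [CommRing 𝒪] (p : ℕ) (U : Finset ℕ)

/-- Flat at `p`, unipotent inertia at the primes of `U`. -/
abbrev flatFamily (S : Finset ℕ) :
    ∀ ⦃A : Type⦄ [CommRing A] [IsLocalRing A] [Algebra 𝒪 A], GaloisRepAdic A → Prop :=
  fun _A _ _ _ ρ => flatCondition 𝒪 p S ρ ∧ ∀ q ∈ U, q.Prime → q ≠ p → ρ.IsUnipotentOnInertiaAt q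

/-- Flat and ordinary at `p`, unipotent inertia at the primes of `U`. -/
abbrev flatOrdinaryFamily (S : Finset ℕ) :
    ∀ ⦃A : Type⦄ [CommRing A] [IsLocalRing A] [Algebra 𝒪 A], GaloisRepAdic A → Prop :=
  fun _A _ _ _ ρ => (flatCondition 𝒪 p S ρ ∧ ρ.IsOrdinaryAt p) ∧
    ∀ q ∈ U, q.Prime → q ≠ p → ρ.IsUnipotentOnInertiaAt q

/-- Strictly ordinary at `p`, unipotent inertia at the primes of `U`. -/
abbrev strictFamily (S : Finset ℕ) :
    ∀ ⦃A : Type⦄ [CommRing A] [IsLocalRing A] [Algebra 𝒪 A], GaloisRepAdic A → Prop :=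
  fun _A _ _ _ ρ => strictOrdinaryCondition 𝒪 p S ρ ∧
    ∀ q ∈ U, q.Prime → q ≠ p → ρ.IsUnipotentOnInertiaAt q

/-- Ordinary at `p`, unipotent inertia at the primes of `U`. -/
abbrev ordinaryFamily (S : Finset ℕ) :
    ∀ ⦃A : Type⦄ [CommRing A] [IsLocalRing A] [Algebra 𝒪 A], GaloisRepAdic A → Prop :=
  fun _A _ _ _ ρ => ordinaryCondition 𝒪 p S ρ ∧
    ∀ q ∈ U, q.Prime → q ≠ p → ρ.IsUnipotentOnInertiaAt q

variable {𝒪 p U}

/-- Unramified outside `insert q S` and unramified at `q`. -/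
theorem isUnramifiedAt_of_insert {ρ : GaloisRepAdic A} {S : Finset ℕ} {q : ℕ}
    (h : ∀ r : ℕ, r.Prime → r ∉ insert q S → ρ.IsUnramifiedAt r) (hq : ρ.IsUnramifiedAt q)
    (r : ℕ) (hr : r.Prime) (hrS : r ∉ S) : ρ.IsUnramifiedAt r := by
  by_cases e : r = q
  · exact e ▸ hq
  · exact h r hr (by simp [e, hrS])

section Local

variable [IsLocalRing 𝒪] [Finite (ResidueField 𝒪)] [Fact p.Prime]

/-- The flat conditions form a family. -/
theorem condFamily_flat : CondFamily 𝒪 p (flatFamily 𝒪 p U) where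
  isDeformationCondition S := DefCond.isDeformationCondition_flat_unipotent p S U
  mono _ _ hS _ _ _ _ _ h :=
    ⟨⟨h.1.1, h.1.2.1, fun q hq hqS => h.1.2.2 q hq fun hh => hqS (hS hh)⟩, h.2⟩
  drop _ _ _ _ _ _ _ h hq := ⟨⟨h.1.1, h.1.2.1, isUnramifiedAt_of_insert h.1.2.2 hq⟩, h.2⟩
  detIsCyclotomic _ _ _ _ _ _ h := h.1.1
  isUnramifiedAt _ q _ _ _ _ _ h := h.1.2.2 q

/-- The flat ordinary conditions form a family. -/
theorem condFamily_flatOrdinary (hp2 : p ≠ 2) : CondFamily 𝒪 p (flatOrdinaryFamily 𝒪 p U) where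
  isDeformationCondition S := DefCond.isDeformationCondition_flatOrdinary_unipotent p S U hp2
  mono _ _ hS _ _ _ _ _ h :=
    ⟨⟨⟨h.1.1.1, h.1.1.2.1, fun q hq hqS => h.1.1.2.2 q hq fun hh => hqS (hS hh)⟩, h.1.2⟩, h.2⟩
  drop _ _ _ _ _ _ _ h hq :=
    ⟨⟨⟨h.1.1.1, h.1.1.2.1, isUnramifiedAt_of_insert h.1.1.2.2 hq⟩, h.1.2⟩, h.2⟩
  detIsCyclotomic _ _ _ _ _ _ h := h.1.1.1
  isUnramifiedAt _ q _ _ _ _ _ h := h.1.1.2.2 q

/-- The strictly ordinary conditions form a family. -/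
theorem condFamily_strict (hp2 : p ≠ 2) : CondFamily 𝒪 p (strictFamily 𝒪 p U) where
  isDeformationCondition S := DefCond.isDeformationCondition_strict_unipotent p S U hp2
  mono _ _ hS _ _ _ _ _ h :=
    ⟨⟨h.1.1, h.1.2.1, fun q hq hqS => h.1.2.2 q hq fun hh => hqS (hS hh)⟩, h.2⟩
  drop _ _ _ _ _ _ _ h hq := ⟨⟨h.1.1, h.1.2.1, isUnramifiedAt_of_insert h.1.2.2 hq⟩, h.2⟩
  detIsCyclotomic _ _ _ _ _ _ h := h.1.1
  isUnramifiedAt _ q _ _ _ _ _ h := h.1.2.2 q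

/-- The ordinary conditions form a family. -/
theorem condFamily_ordinary (hp2 : p ≠ 2) : CondFamily 𝒪 p (ordinaryFamily 𝒪 p U) where
  isDeformationCondition S := DefCond.isDeformationCondition_ordinary_unipotent p S U hp2
  mono _ _ hS _ _ _ _ _ h :=
    ⟨⟨h.1.1, h.1.2.1, fun q hq hqS => h.1.2.2 q hq fun hh => hqS (hS hh)⟩, h.2⟩
  drop _ _ _ _ _ _ _ h hq := ⟨⟨h.1.1, h.1.2.1, isUnramifiedAt_of_insert h.1.2.2 hq⟩, h.2⟩
  detIsCyclotomic _ _ _ _ _ _ h := h.1.1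
  isUnramifiedAt _ q _ _ _ _ _ h := h.1.2.2 q

end Local

variable [IsDomain 𝒪] [IsDiscreteValuationRing 𝒪] [IsAdicComplete (maximalIdeal 𝒪) 𝒪]
  [Finite (ResidueField 𝒪)] [Fact p.Prime] {ρbar : ResidualGaloisRep (ResidueField 𝒪)}

/-- Flat deformation rings exist for every larger set of primes. -/
theorem nonempty_ringData_flatFamily {S₀ : Finset ℕ} (habs : ρbar.IsAbsolutelyIrreducible)
    (hbar : flatFamily 𝒪 p U S₀ (GaloisRepAdic.ofResidualGaloisRep ρbar)) :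
    ∀ S, S₀ ⊆ S → Nonempty (DeformationRingData 𝒪 ρbar (flatFamily 𝒪 p U S)) :=
  fun S hS => DefCond.nonempty_ringData_flat p S U ρbar habs (condFamily_flat.mono hS _ hbar)

/-- Flat ordinary deformation rings exist for every larger set of primes. -/
theorem nonempty_ringData_flatOrdinaryFamily (hp2 : p ≠ 2) {S₀ : Finset ℕ}
    (habs : ρbar.IsAbsolutelyIrreducible)
    (hbar : flatOrdinaryFamily 𝒪 p U S₀ (GaloisRepAdic.ofResidualGaloisRep ρbar)) :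
    ∀ S, S₀ ⊆ S → Nonempty (DeformationRingData 𝒪 ρbar (flatOrdinaryFamily 𝒪 p U S)) :=
  fun S hS => DefCond.nonempty_ringData_flatOrdinary p S U ρbar hp2 habs
    ((condFamily_flatOrdinary hp2).mono hS _ hbar)

/-- Strictly ordinary deformation rings exist for every larger set of primes. -/
theorem nonempty_ringData_strictFamily (hp2 : p ≠ 2) {S₀ : Finset ℕ}
    (habs : ρbar.IsAbsolutelyIrreducible)
    (hbar : strictFamily 𝒪 p U S₀ (GaloisRepAdic.ofResidualGaloisRep ρbar)) :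
    ∀ S, S₀ ⊆ S → Nonempty (DeformationRingData 𝒪 ρbar (strictFamily 𝒪 p U S)) :=
  fun S hS => DefCond.nonempty_ringData_strict p S U ρbar hp2 habs
    ((condFamily_strict hp2).mono hS _ hbar)

/-- Ordinary deformation rings exist for every larger set of primes. -/
theorem nonempty_ringData_ordinaryFamily (hp2 : p ≠ 2) {S₀ : Finset ℕ}
    (habs : ρbar.IsAbsolutelyIrreducible)
    (hbar : ordinaryFamily 𝒪 p U S₀ (GaloisRepAdic.ofResidualGaloisRep ρbar)) :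
    ∀ S, S₀ ⊆ S → Nonempty (DeformationRingData 𝒪 ρbar (ordinaryFamily 𝒪 p U S)) :=
  fun S hS => S53.result 𝒪 ρbar _ habs (DefCond.isDeformationCondition_ordinary_unipotent p S U hp2)
    ((condFamily_ordinary hp2).mono hS _ hbar)
    (DefCond.tangentFinite_ordinary_unipotent p S U ρbar)

/-- From flat and ordinary at `S₀` to ordinary at `S₀ ∪ T`. -/
theorem length_cotangent_le_chainFO (hp2 : p ≠ 2) (S₀ : Finset ℕ)
    (hex : ∀ S, S₀ ⊆ S → Nonempty (DeformationRingData 𝒪 ρbar (ordinaryFamily 𝒪 p U S)))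
    (T : Finset ℕ) (hT : ∀ q ∈ T, q.Prime ∧ q ≠ p ∧ q ∉ S₀)
    (D₀ : DeformationRingData 𝒪 ρbar (flatOrdinaryFamily 𝒪 p U S₀)) (π₀ : D₀.R →ₐ[𝒪] 𝒪)
    (a : ℕ → 𝒪)
    (ha : ∀ q ∈ T, ∀ P : ValuationSubring Qbar, P.LiesOverPrime q → ∀ φ : GalQ,
      P.IsFrobeniusAt φ q → π₀ (LinearMap.trace D₀.R D₀.ρ.V (D₀.ρ.ρ φ)) = a q)
    (D : DeformationRingData 𝒪 ρbar (ordinaryFamily 𝒪 p U (S₀ ∪ T)))
    (f : D.R →ₐ[𝒪] D₀.R) (hf : IsLocalHom (f : D.R →+* D₀.R))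
    (hfeq : (D.ρ.baseChangeAlong (f : D.R →+* D₀.R) hf).IsEquiv D₀.ρ)
    (hπ : IsLocalHom (π₀ : D₀.R →+* 𝒪)) {ρ₀ : GaloisRepAdic 𝒪}
    (h₀ : (D₀.ρ.baseChangeAlong (π₀ : D₀.R →+* 𝒪) hπ).IsEquiv ρ₀)
    {P : ValuationSubring Qbar} (hP : P.LiesOverPrime p) {σ : GalQ}
    (hσ : σ ∈ P.decompositionSubgroup ℚ) (α : 𝒪) (hα : IsQuotientValue ρ₀ P σ α)
    (hα1 : α ^ 2 ≠ 1) :
    Module.length 𝒪 (RingHom.ker (π₀.comp f)).Cotangent ≤
      Ring.ord 𝒪 (α ^ 2 - 1) +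
        (∑ q ∈ T, Ring.ord 𝒪 (((q : 𝒪) - 1) * (((q : 𝒪) + 1) ^ 2 - a q ^ 2))) +
        Module.length 𝒪 (RingHom.ker π₀).Cotangent := by
  have hF := condFamily_ordinary (𝒪 := 𝒪) (U := U) hp2
  obtain ⟨D₁⟩ := hex S₀ subset_rfl
  have hord₀ : ordinaryFamily 𝒪 p U S₀ D₀.ρ :=
    ⟨⟨D₀.isOfType.1.1.1, D₀.isOfType.1.2, D₀.isOfType.1.1.2.2⟩, D₀.isOfType.2⟩
  obtain ⟨g, hg, hgeq⟩ := exists_compatHom D D₁ (hF.mono Finset.subset_union_left _ D₁.isOfType)
  obtain ⟨g', hg', hg'eq⟩ := exists_compatHom D₁ D₀ hord₀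
  have hfg : f = g'.comp g := compatHom_comp (hF.mono Finset.subset_union_left _ hord₀) f hf hfeq
    g hg hgeq g' hg' hg'eq
  have hchain := length_cotangent_le_chain hF Fact.out S₀ hex T hT D₁ (π₀.comp g') a
    (fun q hq Q hQ φ hφ => by
      rw [AlgHom.comp_apply, compatHom_trace g' hg' hg'eq]
      exact ha q hq Q hQ φ hφ) D g hg hgeq
  have hstep := length_cotangent_le_flat_ordinary (hF.isDeformationCondition S₀) D₁ D₀ hp2
    D₁.isOfType.1.1 D₁.isOfType.1.2.1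
    (fun B _ _ _ _ ρ hρ hflat => ⟨⟨⟨hρ.1.1, hflat, hρ.1.2.2⟩, hρ.1.2.1⟩, hρ.2⟩)
    g' hg' (surjective_compatHom ((condFamily_flatOrdinary hp2).isDeformationCondition S₀) D₁ D₀ g' hg' hg'eq) hg'eq
    π₀ hπ h₀ hP hσ α hα hα1
  rw [hfg, ← AlgHom.comp_assoc]
  refine hchain.trans ((add_le_add le_rfl hstep).trans_eq ?_)
  rw [← add_assoc, add_comm _ (Ring.ord 𝒪 (α ^ 2 - 1))]

end Fermat.Agent.Lifting
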