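import Fermat.Agent.CurveTate.FlatTorsion
import Fermat.Agent.Lifting.ResidualData
import Fermat.Prelude.Def_FLTPrelim_FreyPackage

/-!
# Flatness of the residual representation at a prime of good reduction

At an odd prime `p` of good reduction `E[p]` is the generic fibre of the finite flat `p`-torsion
group scheme of the smooth model.
-/

set_option autoImplicit false

noncomputable section

namespace Fermat.Agent.Lifting

/-- `E[p]` is finite flat at an odd prime `p` of good reduction. -/
theorem residualRep_isFlatAt_of_good (W : WeierstrassCurve ℤ) (hΔ : W.Δ ≠ 0) (p : ℕ)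
    [Fact p.Prime] (hp2 : p ≠ 2) (hgood : ¬ (p : ℤ) ∣ W.Δ) :
    (GaloisRepAdic.ofResidualGaloisRep (TWHyp.residualRep W hΔ p)).IsFlatAt p := by
  have hN : Odd p := (Fact.out : p.Prime).odd_of_ne_two hp2
  exact DefCond.isFlatAt_of_model
    (CurveTate.hasFlatModel_torsion (W := W) (N := p) Fact.out hp2 hgood hN)

end Fermat.Agent.Lifting
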