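import Fermat.Agent.Lifting.ResidualData
import Fermat.Agent.Lifting.ResidualFlat
import Fermat.Agent.LowerAtP.LocalNodal
import Fermat.Agent.OrdKummer.FlatOrder
import Fermat.Agent.FlatBound.InertiaField
import Mathlib.FieldTheory.Galois.Infinite

/-!
# `E[p]` is finite flat at an odd multiplicative `p` with `p ∣ v_p(Δ)`

Over the inertia field of a place above `p` the torsion is an extension of the trivial character by
the cyclotomic one with the Kummer class of a unit, so it is locally multiplicative.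
-/

set_option autoImplicit false

noncomputable section

open scoped Pointwise WeierstrassCurve.Affine
open Fermat.Agent.GaloisBasics (Qbar GalQ)

namespace Fermat.Agent.Lifting

open WeierstrassCurve WeierstrassCurve.Affine Fermat.Agent.Multiplicative

/-- A condition on the image of one element is closed. -/
theorem isClosed_setOf_apply (x : Qbar) (C : Qbar → Prop) : IsClosed {σ : GalQ | C (σ x)} := by
  let F := IntermediateField.adjoin ℚ ({x} : Set Qbar)
  have : FiniteDimensional ℚ F :=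
    IntermediateField.adjoin.finiteDimensional (Algebra.IsAlgebraic.isAlgebraic x).isIntegral
  have key : ∀ s : Set Qbar, IsOpen {σ : GalQ | σ x ∈ s} := fun s => by
    refine isOpen_iff_forall_mem_open.mpr fun σ hσ =>
      ⟨(fun τ => σ * τ) '' F.fixingSubgroup, ?_, ?_, ⟨1, one_mem _, mul_one σ⟩⟩
    · rintro _ ⟨τ, hτ, rfl⟩
      have hx := (IntermediateField.mem_fixingSubgroup_iff F τ).mp hτ x
        (IntermediateField.mem_adjoin_simple_self ℚ x)
      show (σ * τ) x ∈ s
      rwa [AlgEquiv.mul_apply, hx]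
    · exact (Homeomorph.mulLeft σ).isOpenMap _ F.fixingSubgroup_isOpen
  exact ⟨key {y | ¬ C y}⟩

/-- The inertia subgroup is closed. -/
theorem isClosed_inertia (A : ValuationSubring Qbar) :
    IsClosed (A.inertiaSubgroupIn ℚ : Set GalQ) := by
  have : (A.inertiaSubgroupIn ℚ : Set GalQ) =
      (⋂ x : Qbar, {σ : GalQ | σ x ∈ A ↔ x ∈ A}) ∩
        ⋂ x : Qbar, {σ : GalQ | x ∈ A → A.valuation (σ x - x) < 1} := by
    ext σ
    rw [SetLike.mem_coe, LocalInertia.mem_inertiaSubgroupIn_iff,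
      LocalInertia.mem_decompositionSubgroup_iff]
    simp only [Set.mem_inter_iff, Set.mem_iInter, Set.mem_ofPred_eq]
  rw [this]
  exact (isClosed_iInter fun x => isClosed_setOf_apply x fun y => y ∈ A ↔ x ∈ A).inter
    (isClosed_iInter fun x => isClosed_setOf_apply x fun y => x ∈ A → A.valuation (y - x) < 1)

variable {A : ValuationSubring Qbar} {p : ℕ}

/-- The fixed field of inertia. -/
abbrev fixedInertia (A : ValuationSubring Qbar) : IntermediateField ℚ Qbar :=
  IntermediateField.fixedField (A.inertiaSubgroupIn ℚ)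

theorem restrictScalars_mem_inertia (σ : Qbar ≃ₐ[fixedInertia A] Qbar) :
    σ.restrictScalars ℚ ∈ A.inertiaSubgroupIn ℚ := by
  have h : (fixedInertia A).fixingSubgroup = A.inertiaSubgroupIn ℚ :=
    InfiniteGalois.fixingSubgroup_fixedField ⟨A.inertiaSubgroupIn ℚ, isClosed_inertia A⟩
  rw [← h, IntermediateField.mem_fixingSubgroup_iff]
  exact fun x hx => σ.commutes ⟨x, hx⟩

/-- An inertia element fixes the fixed field of inertia. -/
theorem exists_lift_inertia {σ : GalQ} (hσ : σ ∈ A.inertiaSubgroupIn ℚ) :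
    ∃ τ : Qbar ≃ₐ[fixedInertia A] Qbar, τ.restrictScalars ℚ = σ :=
  ⟨AlgEquiv.ofRingEquiv (f := σ.toRingEquiv) fun x => x.2 ⟨σ, hσ⟩, AlgEquiv.ext fun _ => rfl⟩

/-- The inertia field is a local setting in the sense of `LowerAtP`. -/
theorem localSetting_fixedInertia (hA : A.LiesOverPrime p) (hp : p.Prime) :
    LowerAtP.LocalSetting (fixedInertia A) A p where
  prime := hp
  lt_one := A.mem_nonunits_iff.mp hA
  ne_zero := Nat.cast_ne_zero.mpr hp.ne_zero
  iso σ x := LocalInertia.valuation_apply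
    (LocalInertia.mem_inertiaSubgroupIn_iff.mp (restrictScalars_mem_inertia σ)).1 x
  trivial_res σ x hx :=
    (LocalInertia.mem_inertiaSubgroupIn_iff.mp (restrictScalars_mem_inertia σ)).2 x
      ((A.valuation_le_one_iff x).mp hx)
  base c hc := FlatBound.exists_zpow_of_inertia_fixed hA hp (x := (c : Qbar))
    (by simpa using hc) fun σ hσ => c.2 ⟨σ, hσ⟩
  rat x hx := by
    have : FiniteDimensional ℚ (IntermediateField.adjoin ℚ ({x} : Set Qbar)) :=
      IntermediateField.adjoin.finiteDimensional (Algebra.IsAlgebraic.isAlgebraic x).isIntegral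
    obtain ⟨j, hj⟩ := LocalInertia.exists_valuation_pow_factorial hp hA _
      (IntermediateField.mem_adjoin_simple_self ℚ x) hx
    exact ⟨_, j, Nat.factorial_pos _, hj⟩
  fixed x hx := ⟨⟨x, fun σ => by
    obtain ⟨τ, hτ⟩ := exists_lift_inertia σ.2
    show σ.1 x = x
    rw [← hτ]
    exact hx τ⟩, rfl⟩

variable {W : WeierstrassCurve ℤ}

/-- The `p`-torsion points with nonsingular reduction. -/
def zeroLine (h : MultAt W A p) [Fact p.Prime] :
    AddSubgroup (TWHyp.residualRep W h.Δ_ne_zero p).V where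
  carrier := {v | W.InZeroComponentAt A v.1}
  zero_mem' := (zeroComponent h).zero_mem
  add_mem' := fun hu hv => (zeroComponent h).add_mem hu hv
  neg_mem' := fun hv => (zeroComponent h).neg_mem hv

open Classical in
/-- `E[p]` at a multiplicative `p ∣ v_p(Δ)` is locally multiplicative. -/
theorem isLocallyMultiplicative (h : MultAt W A p) [Fact p.Prime] (h3 : 3 ≤ p)
    (hdvd : p ∣ padicValInt p W.Δ) :
    OrdKummer.IsLocallyMultiplicative
      (fun σ (v : (TWHyp.residualRep W h.Δ_ne_zero p).V) =>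
        (TWHyp.residualRep W h.Δ_ne_zero p).ρ σ v) A (zeroLine h) := by
  have hp : p.Prime := Fact.out
  set F := h.frame
  have S := localSetting_fixedInertia h.liesOver hp
  let act : (Qbar ≃ₐ[fixedInertia A] Qbar) → NPoint F.a F.b →+ NPoint F.a F.b := fun σ =>
    F.Φ.toAddMonoidHom.comp ((smulHom W (σ.restrictScalars ℚ)).comp F.Φ.symm.toAddMonoidHom)
  obtain ⟨m, hm⟩ := hdvd
  have H : LowerAtP.NodalAction (fixedInertia A) A p F.a F.b act :=
    { setting := S
      three_le := h3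
      nodal := F.nodal
      fix_a := fun σ => (F.inertia_fixes (restrictScalars_mem_inertia σ)).2.2.2.2
      small := val_b_le_q h
      scale := ⟨(p : Qbar) ^ m, fun σ => by simp, by
        rw [F.val_b, val_intCast_eq_pow h.liesOver h.prime h.Δ_ne_zero, hm, map_pow, ← pow_mul,
          mul_comm]⟩
      conj := fun σ Q => by
        obtain ⟨hr, ht, -, hs, -⟩ := F.inertia_fixes (restrictScalars_mem_inertia σ)
        have := F.conj_smul hr ht hs (F.Φ.symm Q)
        rwa [AddEquiv.apply_symm_apply] at this }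
  have : NeZero p := ⟨hp.ne_zero⟩
  obtain ⟨ζ, hζ⟩ := HasEnoughRootsOfUnity.exists_primitiveRoot Qbar p
  obtain ⟨R₀, R, k, η, hR₀, hR, hgen, hactR₀, hactR, hη, hcase⟩ := H.torsion_kummer hζ
  have hη1 : A.valuation η = 1 := by
    rcases hcase with rfl | ⟨u, hu, hηu⟩
    · exact map_one _
    · refine (pow_eq_one_iff.mp ?_).resolve_right hp.ne_zero
      rw [← map_pow, hηu, hu]
  let V := (TWHyp.residualRep W h.Δ_ne_zero p).V
  let r := (TWHyp.residualRep W h.Δ_ne_zero p).ρ
  set L := zeroLine h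
  have hfinV : Finite (TWHyp.residualRep W h.Δ_ne_zero p).V := Module.finite_of_finite (ZMod p)
  have hmem : ∀ Q : NPoint F.a F.b, p • Q = 0 →
      F.Φ.symm Q ∈ Submodule.torsionBy ℤ (curveQbar W).Point p := fun Q hQ => by
    rw [Submodule.mem_torsionBy_iff, natCast_zsmul, ← map_nsmul, hQ, map_zero]
  let g : V := ⟨F.Φ.symm R₀, hmem R₀ hR₀⟩
  let x : V := ⟨F.Φ.symm R, hmem R hR⟩
  have hdecomp : ∀ c : V, ∃ i j : ℕ, c = i • g + j • x := fun c => by
    obtain ⟨i, -, j, -, hij⟩ := hgen (F.Φ c.1) (by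
      rw [← map_nsmul, nsmul_coe_torsion c, map_zero])
    refine ⟨i, j, Subtype.ext ?_⟩
    show c.1 = i • F.Φ.symm R₀ + j • F.Φ.symm R
    rw [← map_nsmul, ← map_nsmul, ← map_add, ← hij, AddEquiv.symm_apply_apply]
  have hexp : ∀ σ : GalQ, ∃ n : ℕ, ∀ μ : Qbar, μ ^ p = 1 → σ μ = μ ^ n := fun σ => by
    obtain ⟨n, hn⟩ := DefCond.exists_exponent p σ 1
    exact ⟨n, fun μ hμ => hn μ (by rwa [pow_one])⟩
  have hrg : ∀ σ ∈ A.inertiaSubgroupIn ℚ, ∀ n : ℕ, σ ζ = ζ ^ n → r σ g = n • g := by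
    intro σ hσ n hn
    obtain ⟨τ, rfl⟩ := exists_lift_inertia hσ
    refine Subtype.ext (F.Φ.injective ?_)
    show F.Φ ((τ.restrictScalars ℚ) • F.Φ.symm R₀) = F.Φ (n • F.Φ.symm R₀)
    rw [map_nsmul, AddEquiv.apply_symm_apply]
    exact hactR₀ τ n hn
  have hrx : ∀ σ ∈ A.inertiaSubgroupIn ℚ, ∀ τ : Qbar ≃ₐ[fixedInertia A] Qbar,
      τ.restrictScalars ℚ = σ → r σ x = x + (k τ).val • g := by
    intro σ _ τ hτ
    subst hτ
    refine Subtype.ext (F.Φ.injective ?_)
    show F.Φ ((τ.restrictScalars ℚ) • F.Φ.symm R) = F.Φ (F.Φ.symm R + (k τ).val • F.Φ.symm R₀)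
    rw [map_add, map_nsmul, AddEquiv.apply_symm_apply, AddEquiv.apply_symm_apply]
    exact hactR τ
  have hgL : g ∈ L := by
    obtain ⟨τ, hτ, hτζ⟩ := LocalInertia.exists_inertia_pow_on_rootsOfUnity h.liesOver hp 1
      (a := 2) ((Nat.coprime_primes Nat.prime_two hp).mpr (by omega))
    have h2 := hrg τ hτ 2 (hτζ ζ (by rw [pow_one]; exact hζ.pow_eq_one))
    have h3 := smul_sub_inZeroComponentAt h hτ g.1
    have h4 : (r τ g).1 - g.1 = g.1 := by
      rw [h2, two_nsmul]
      exact add_sub_cancel_right _ _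
    show W.InZeroComponentAt A g.1
    exact h4 ▸ h3
  refine
    { act_add := fun σ => map_add (r σ)
      act_one := fun v => by show r 1 v = v; rw [map_one]; rfl
      act_mul := fun σ τ v => by show r (σ * τ) v = r σ (r τ v); rw [map_mul]; rfl
      level := ?_
      stable := fun σ hσ t ht => smul_inZeroComponentAt h hσ ht
      inertia_sub := fun σ hσ v => smul_sub_inZeroComponentAt h hσ v.1
      character := ?_
      unit := ?_ }
  · obtain ⟨F₀, hF₀, hfix⟩ := (TWHyp.residualRep W h.Δ_ne_zero p).factorsThroughFiniteLevel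
    exact ⟨F₀, hF₀, fun σ hσ v => by rw [hfix σ hσ]; rfl⟩
  · intro σ hσ ψ t t' ht'
    obtain ⟨n, hn⟩ := hexp σ
    have hpt : p • t = 0 := Subtype.ext (Subtype.ext (nsmul_coe_torsion t.1))
    have hψ : (ψ t) ^ p = 1 := by rw [← AddChar.map_nsmul_eq_pow, hpt, AddChar.map_zero_eq_one]
    have htt : t' = n • t := Subtype.ext (ht'.trans (Subtype.ext
      (smul_eq_nsmul_of_rootsOfUnity h hσ hn t.2 (nsmul_coe_torsion t.1))))
    rw [hn _ hψ, htt, AddChar.map_nsmul_eq_pow]
  · intro c ψ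
    obtain ⟨i, j, rfl⟩ := hdecomp c
    set g' : L := ⟨g, hgL⟩
    have hpg : p • g' = 0 := Subtype.ext (Subtype.ext (nsmul_coe_torsion g))
    have hψ : (ψ g') ^ p = 1 := by rw [← AddChar.map_nsmul_eq_pow, hpg, AddChar.map_zero_eq_one]
    obtain ⟨e, -, he⟩ := hζ.eq_pow_of_pow_eq_one hψ
    refine ⟨ψ g' ^ i * η ^ (e * j), ?_, fun σ hσ t ht => ?_⟩
    · rw [map_mul, map_pow, map_pow, hη1, one_pow, mul_one, OrdKummer.valuation_addChar, one_pow]
    obtain ⟨τ, hτ⟩ := exists_lift_inertia hσ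
    obtain ⟨n, hn⟩ := hexp σ
    have hσg : r σ g = n • g := hrg σ hσ n (hn ζ hζ.pow_eq_one)
    have hkey : t + i • g' = (n * i) • g' + (j * (k τ).val) • g' := by
      refine Subtype.ext ?_
      show t.1 + i • g = (n * i) • g + (j * (k τ).val) • g
      rw [ht]
      show r σ (i • g + j • x) - (i • g + j • x) + i • g = _
      rw [map_add, map_nsmul, map_nsmul, hσg, hrx σ hσ τ hτ, nsmul_add, ← mul_nsmul',
        ← mul_nsmul', mul_comm i n]
      abel
    have hψkey := congrArg ψ hkey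
    rw [AddChar.map_add_eq_mul, AddChar.map_add_eq_mul, AddChar.map_nsmul_eq_pow,
      AddChar.map_nsmul_eq_pow, AddChar.map_nsmul_eq_pow] at hψkey
    have hση : σ η = ζ ^ (k τ).val * η := by rw [← hτ]; exact hη τ
    rw [← mul_assoc, hψkey, map_mul, map_pow, map_pow, hn _ hψ, hση, mul_pow, ← he, ← pow_mul,
      ← pow_mul, ← pow_mul, ← pow_mul]
    ring

/-- **`E[p]` is finite flat at an odd multiplicative `p` with `p ∣ v_p(Δ)`.** -/
theorem residualRep_isFlatAt_of_mult_odd (W : WeierstrassCurve ℤ) (hΔ : W.Δ ≠ 0) (p : ℕ)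
    [Fact p.Prime] (hp2 : p ≠ 2) (hpΔ : (p : ℤ) ∣ W.Δ) (hc₄ : ¬ (p : ℤ) ∣ W.c₄)
    (hdvd : p ∣ padicValInt p W.Δ) :
    (GaloisRepAdic.ofResidualGaloisRep (TWHyp.residualRep W hΔ p)).IsFlatAt p := by
  obtain ⟨A, hA⟩ := GaloisBasics.exists_liesOverPrime (Fact.out : p.Prime)
  have hfin : Finite (TWHyp.residualRep W hΔ p).V :=
    Module.finite_of_finite (ZMod p)
  have h3 : 3 ≤ p := by
    have := (Fact.out : p.Prime).two_le
    omega
  exact DefCond.isFlatAt_of_model
    ((isLocallyMultiplicative (A := A) ⟨Fact.out, hA, hpΔ, hc₄, hΔ⟩ h3 hdvd).hasFlatModel hA Fact.out)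

end Fermat.Agent.Lifting
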