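import Fermat.Agent.Lifting.ChainFO
import Fermat.Agent.Lifting.ResidualFlat
import Fermat.Agent.Lifting.FlatMult
import Fermat.Agent.CurveTate.OverO
import Fermat.Agent.Multiplicative.Tate
import Fermat.Agent.OrdKummer.TresRamifie

/-!
# The lift of `E[p]` given by the curve, and the local conditions on the residual representation

`T_p E ⊗ 𝒪` satisfies the deformation conditions, lifts `E[p] ⊗ k` and has the point counts as
Frobenius traces. The residual representation satisfies the conditions of each case at `p`.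
-/

set_option autoImplicit false

noncomputable section

open IsLocalRing GaloisRep
open Fermat.Agent.GaloisBasics (Qbar GalQ)
open Fermat.Agent.TWHyp (residualRep)

namespace Fermat.Agent.Lifting

/-- Changing coefficients along the identity does nothing. -/
theorem residual_baseChangeAlong_map_id {𝒪 : Type} [CommRing 𝒪] [IsLocalRing 𝒪]
    (ρ : ResidualGaloisRep (ResidueField 𝒪)) :
    ρ.IsEquiv (ρ.baseChangeAlong (ResidueField.map (algebraMap 𝒪 𝒪))) := by
  let b := Module.finBasisOfFinrankEq (ResidueField 𝒪) ρ.V ρ.finrank_eq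
  obtain ⟨b', hb'⟩ := TangentBound.exists_basis_baseChangeAlong
    (ResidueField.map (algebraMap 𝒪 𝒪)) ρ b
  refine TangentBound.residual_isEquiv_of_matrix b b' 1 fun σ => ?_
  rw [Units.val_one, one_mul, mul_one, hb']
  ext i j
  rw [Matrix.map_apply]
  obtain ⟨c, hc⟩ := residue_surjective (LinearMap.toMatrix b b (ρ.ρ σ) i j)
  rw [← hc, ResidueField.map_residue, Algebra.algebraMap_self_apply]

variable (W : WeierstrassCurve ℤ) (hΔ : W.Δ ≠ 0) (p : ℕ) [Fact p.Prime]
  {𝒪 : Type} [CommRing 𝒪] [IsLocalRing 𝒪] (ι : ℤ_[p] →+* 𝒪) (hι : IsLocalHom ι)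
  {S : Finset ℕ} {U : Finset ℕ}

omit [Fact p.Prime] in
include hΔ in
theorem not_dvd_Δ_of_notMem (hS : insert p W.Δ.natAbs.primeFactors ⊆ S) {q : ℕ} (hq : q.Prime)
    (hqS : q ∉ S) : ¬ (q : ℤ) ∣ W.Δ ∧ q ≠ p := by
  refine ⟨fun hd => hqS (hS (Finset.mem_insert_of_mem ?_)),
    fun h => hqS (hS (h ▸ Finset.mem_insert_self _ _))⟩
  exact Nat.mem_primeFactors.mpr ⟨hq, Int.natCast_dvd.mp hd, Int.natAbs_ne_zero.mpr hΔ⟩

include hΔ in
/-- The Tate module is unramified at the good primes other than `p`. -/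
theorem tateRepOver_isUnramifiedOutside (hS : insert p W.Δ.natAbs.primeFactors ⊆ S) (q : ℕ)
    (hq : q.Prime) (hqS : q ∉ S) : (CurveTate.tateRepOver W p ι hι hΔ).IsUnramifiedAt q :=
  CurveTate.isUnramifiedAt_tateRepOver W p ι hι hΔ hq (not_dvd_Δ_of_notMem W hΔ p hS hq hqS).2
    (not_dvd_Δ_of_notMem W hΔ p hS hq hqS).1

variable (hW : W.IsSemistableModel)

include hW in
/-- At a good `p` the Tate module is flat. -/
theorem tateRepOver_flatFamily [Finite (ResidueField 𝒪)] (hp2 : p ≠ 2) (hgood : ¬ (p : ℤ) ∣ W.Δ)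
    (hS : insert p W.Δ.natAbs.primeFactors ⊆ S) :
    flatFamily 𝒪 p U S (CurveTate.tateRepOver W p ι hι hΔ) :=
  ⟨⟨CurveTate.detIsCyclotomic_tateRepOver W p ι hι hΔ,
    CurveTate.isFlatAt_tateRepOver W p ι hι hΔ hp2 hgood,
    tateRepOver_isUnramifiedOutside W hΔ p ι hι hS⟩,
    fun _ _ hq hqp => CurveTate.isUnipotentOnInertiaAt_tateRepOver W p ι hι hΔ hW hq hqp⟩

include hW in
/-- At a multiplicative `p` the Tate module is strictly ordinary. -/
theorem tateRepOver_strictFamily (hpΔ : (p : ℤ) ∣ W.Δ)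
    (hS : insert p W.Δ.natAbs.primeFactors ⊆ S) :
    strictFamily 𝒪 p U S (CurveTate.tateRepOver W p ι hι hΔ) :=
  ⟨⟨CurveTate.detIsCyclotomic_tateRepOver W p ι hι hΔ,
    TWAssembly.isStrictOrdinaryAt_baseChange ι hι
      (Multiplicative.isStrictOrdinaryAt_tateRep W hΔ p hpΔ (hW p Fact.out hpΔ)),
    tateRepOver_isUnramifiedOutside W hΔ p ι hι hS⟩,
    fun _ _ hq hqp => CurveTate.isUnipotentOnInertiaAt_tateRepOver W p ι hι hΔ hW hq hqp⟩

include hW in
/-- At a multiplicative `p` the Tate module is ordinary. -/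
theorem tateRepOver_ordinaryFamily (hpΔ : (p : ℤ) ∣ W.Δ)
    (hS : insert p W.Δ.natAbs.primeFactors ⊆ S) :
    ordinaryFamily 𝒪 p U S (CurveTate.tateRepOver W p ι hι hΔ) :=
  have h := tateRepOver_strictFamily W hΔ p ι hι (U := U) hW hpΔ hS
  ⟨ordinaryCondition_of_strictOrdinaryCondition h.1, h.2⟩

/-- The Tate module lifts `E[p] ⊗ k`. -/
theorem tateRepOver_residual_isEquiv [Algebra (ZMod p) (ResidueField 𝒪)] :
    (CurveTate.tateRepOver W p ι hι hΔ).residual.IsEquiv
      ((residualOver W hΔ p (ResidueField 𝒪)).baseChangeAlong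
        (ResidueField.map (algebraMap 𝒪 𝒪))) := by
  obtain ⟨e⟩ := CurveTate.residual_tateRepOver_isEquiv W p ι hι hΔ
  obtain ⟨e'⟩ := residual_baseChangeAlong_map_id (residualOver W hΔ p (ResidueField 𝒪))
  exact ⟨e.trans e'⟩

/-- Frobenius traces of the Tate module. -/
theorem tateRepOver_trace_frobenius (hS : insert p W.Δ.natAbs.primeFactors ⊆ S) (ℓ : ℕ)
    (hℓ : ℓ.Prime) (hℓS : ℓ ∉ S) (P : ValuationSubring Qbar) (hP : P.LiesOverPrime ℓ)
    (σ : GalQ) (hσ : P.IsFrobeniusAt σ ℓ) :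
    LinearMap.trace 𝒪 (CurveTate.tateRepOver W p ι hι hΔ).V
      ((CurveTate.tateRepOver W p ι hι hΔ).ρ σ) = (W.apOfModel ℓ : 𝒪) :=
  (CurveTate.frobenius_tateRepOver W p ι hι hΔ hℓ (not_dvd_Δ_of_notMem W hΔ p hS hℓ hℓS).2
    (not_dvd_Δ_of_notMem W hΔ p hS hℓ hℓS).1 hP hσ).1

/-! ### The residual representation -/

include hW in
/-- `E[p]` is finite flat at an odd `p` which is good or has `p ∣ v_p(Δ)`. -/
theorem residualRep_isFlatAt (hp2 : p ≠ 2)
    (h : ¬ (p : ℤ) ∣ W.Δ ∨ p ∣ padicValInt p W.Δ) :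
    (GaloisRepAdic.ofResidualGaloisRep (residualRep W hΔ p)).IsFlatAt p := by
  by_cases hpΔ : (p : ℤ) ∣ W.Δ
  · exact residualRep_isFlatAt_of_mult_odd W hΔ p hp2 hpΔ (hW p Fact.out hpΔ)
      (h.resolve_left (not_not.mpr hpΔ))
  · exact residualRep_isFlatAt_of_good W hΔ p hp2 hpΔ

section Ring

variable {O : Type} [CommRing O] [IsDomain O] [IsDiscreteValuationRing O]
  [Finite (ResidueField O)] [Algebra (ZMod p) (ResidueField O)]
  (hp : p = 3 ∨ p = 5) (hirr : W.ModRepIsIrreducible p)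
  (hS : insert p (ramifiedPrimes W p) ⊆ S)

include hW hp hirr hS in
/-- Cases good and multiplicative with `p ∣ v_p(Δ)`: the flat condition. -/
theorem residualOver_flatFamily (h : ¬ (p : ℤ) ∣ W.Δ ∨ p ∣ padicValInt p W.Δ) :
    flatFamily O p U S (GaloisRepAdic.ofResidualGaloisRep
      (residualOver W hΔ p (ResidueField O))) :=
  residualOver_flat W hΔ p hW hp hirr hS U (residualRep_isFlatAt W hΔ p hW (by omega) h)

include hW hp hirr hS in
/-- Multiplicative with `p ∣ v_p(Δ)`: flat and ordinary. -/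
theorem residualOver_flatOrdinaryFamily (hpΔ : (p : ℤ) ∣ W.Δ) (hv : p ∣ padicValInt p W.Δ) :
    flatOrdinaryFamily O p U S (GaloisRepAdic.ofResidualGaloisRep
      (residualOver W hΔ p (ResidueField O))) :=
  residualOver_flatOrdinary W hΔ p hW hp hirr hS U hpΔ
    (residualRep_isFlatAt W hΔ p hW (by omega) (Or.inr hv))

include hW hp hirr hS in
omit [Finite (ResidueField O)] in
/-- Multiplicative: the ordinary condition. -/
theorem residualOver_ordinaryFamily (hpΔ : (p : ℤ) ∣ W.Δ) :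
    ordinaryFamily O p U S (GaloisRepAdic.ofResidualGaloisRep
      (residualOver W hΔ p (ResidueField O))) :=
  have h := residualOver_strict W hΔ p hW hp hirr hS U hpΔ
  ⟨ordinaryCondition_of_strictOrdinaryCondition h.1, h.2⟩

include hW hp hirr hS in
omit [Finite (ResidueField O)] in
/-- Multiplicative: the strict condition. -/
theorem residualOver_strictFamily (hpΔ : (p : ℤ) ∣ W.Δ) :
    strictFamily O p U S (GaloisRepAdic.ofResidualGaloisRep
      (residualOver W hΔ p (ResidueField O))) :=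
  residualOver_strict W hΔ p hW hp hirr hS U hpΔ

include hW hp in
/-- Multiplicative with `p ∤ v_p(Δ)`: the residual class does not come from units. -/
theorem residualOver_not_isPeuKummer (hpΔ : (p : ℤ) ∣ W.Δ) (hv : ¬ p ∣ padicValInt p W.Δ) :
    ¬ OrdKummer.IsPeuKummer (residualOver W hΔ p (ResidueField O)) p :=
  OrdKummer.not_isPeuKummer_baseChange W (by omega) hΔ hpΔ (hW p Fact.out hpΔ) hv _ _ _

end Ring

end Fermat.Agent.Lifting
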