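import Fermat.Agent.Lifting.OrdinaryTransfer
import Fermat.Agent.Lifting.ChainFO
import Fermat.Agent.Lifting.ConstructorsPoint
import Fermat.Agent.Lifting.CurveLift
import Fermat.Agent.Lifting.LevelChain
import Fermat.Agent.Lifting.LevelStep

/-!
# The minimal level and its raisings, around a character congruent to the curve

For `χ : heckeAlgebra M 2 ∅ →+* 𝒪` congruent to the traces of `W` at almost all primes, with
residual system `residualSystem χ`: the level, the Galois representation on its local Hecke algebra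
with residual representation `W[p] ⊗ k`, the conditions of the three cases at `p`, the map from the
deformation ring, the point, and the raised levels.
-/

set_option autoImplicit false

noncomputable section

open Polynomial IsLocalRing GaloisRep
open scoped IsMulCommutative

namespace Fermat.Agent.Lifting

open Fermat.Agent.GaloisBasics (Qbar GalQ)
open CuspForm (HeckeGaloisRepDatum heckeAlgebra heckeLocal)

variable {𝒪 : Type} [CommRing 𝒪] [IsDomain 𝒪] [IsDiscreteValuationRing 𝒪]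
  [IsAdicComplete (maximalIdeal 𝒪) 𝒪] [Finite (ResidueField 𝒪)] [CharZero 𝒪]
  {p : ℕ} [Fact p.Prime] [Algebra (ZMod p) (ResidueField 𝒪)]

/-- The residual system of a character of the full Hecke algebra. -/
def residualSystem {M : ℕ} [NeZero M] (χ : heckeAlgebra M 2 (∅ : Set ℕ) →+* 𝒪) :
    Nat.Primes → ResidueField 𝒪 :=
  fun l => residue 𝒪 (χ (opT M l))

/-- `χ` is congruent to the traces of `W` at the good primes away from `M p`. -/
def CongruentTo (W : WeierstrassCurve ℤ) (p : ℕ) {M : ℕ} [NeZero M]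
    (χ : heckeAlgebra M 2 (∅ : Set ℕ) →+* 𝒪) : Prop :=
  ∀ l : Nat.Primes, W.IsGoodPrimeFor l → ¬ (l : ℕ) ∣ M → (l : ℕ) ≠ p →
    residualSystem χ l = (W.apOfModel l : ResidueField 𝒪)

variable (W : WeierstrassCurve ℤ) (hΔ : W.Δ ≠ 0) (hW : W.IsSemistableModel)
  (hp : p = 3 ∨ p = 5) (hirr : W.ModRepIsIrreducible p) (hp𝒪 : (p : 𝒪) ∈ maximalIdeal 𝒪)

/-! ### The conditions of a datum in the three cases -/

section Families

variable {N : ℕ} [NeZero N] {S U : Finset ℕ}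
  {θ : heckeAlgebra N 2 (↑S : Set ℕ) →+* ResidueField 𝒪}
  (H : HeckeGaloisRepDatum N (↑S : Set ℕ) 𝒪 θ (heckeLocal N (↑S : Set ℕ) 𝒪 θ))
  (hNS : ∀ q : ℕ, q.Prime → q ∣ N → q ∈ S) (hS : insert p (ramifiedPrimes W p) ⊆ S)
  (hU : ∀ q ∈ U, q.Prime → q ≠ p → q ∣ N ∧ ¬ q ^ 2 ∣ N)

include hp𝒪 hNS hS hU in
omit [Algebra (ZMod p) (ResidueField 𝒪)] in
/-- Case F. -/
theorem datum_flatFamily (h32 : FlatAtGoodLevel) (h34 : UnipotentAtSemistable) (hp2 : p ≠ 2)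
    (hpN : ¬ p ∣ N) : flatFamily 𝒪 p U S H.ρ :=
  datum_flat_unipotent H hp𝒪 (hS (Finset.mem_insert_self _ _)) hNS h32 h34 hp2 hpN U hU

include hΔ hW hp hirr hp𝒪 hNS hS hU in
/-- Case FO. -/
theorem datum_flatOrdinaryFamily (h32 : FlatAtGoodLevel) (h33 : OrdinaryAtLevel)
    (h34 : UnipotentAtSemistable) (hpN : ¬ p ∣ N) (hpΔ : (p : ℤ) ∣ W.Δ)
    (hres : H.ρ.residual.IsEquiv ((residualOver W hΔ p (ResidueField 𝒪)).baseChangeAlong
      (ResidueField.map (algebraMap 𝒪 (heckeLocal N (↑S : Set ℕ) 𝒪 θ))))) :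
    flatOrdinaryFamily 𝒪 p U S H.ρ := by
  have hp2 : p ≠ 2 := by omega
  have h := residualOver_ordinaryFamily W hΔ p (O := 𝒪) (U := U) hW hp hirr hS hpΔ
  exact datum_flatOrdinary_unipotent H hp𝒪 (hS (Finset.mem_insert_self _ _)) hNS h32 h34 hp2 hpN
    (datum_isOrdinaryAt_of_residual h33 H hp𝒪 (hS (Finset.mem_insert_self _ _)) hNS hp2 hpN
      (TWHyp.isAbsolutelyIrreducible_baseChange _ hp2
        (TWHyp.isTWResidual_residualRep W hΔ hW hirr)) h.1.1 h.1.2.1 hres) U hU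

include hΔ hW hp hirr hp𝒪 hNS hS hU in
/-- Case S. -/
theorem datum_strictFamily (h33 : OrdinaryAtLevel) (h34 : UnipotentAtSemistable)
    (hpN : p ∣ N ∧ ¬ p ^ 2 ∣ N) (hpΔ : (p : ℤ) ∣ W.Δ) (hv : ¬ p ∣ padicValInt p W.Δ)
    (hres : H.ρ.residual.IsEquiv ((residualOver W hΔ p (ResidueField 𝒪)).baseChangeAlong
      (ResidueField.map (algebraMap 𝒪 (heckeLocal N (↑S : Set ℕ) 𝒪 θ))))) :
    strictFamily 𝒪 p U S H.ρ := by
  have hp2 : p ≠ 2 := by omega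
  have h := residualOver_ordinaryFamily W hΔ p (O := 𝒪) (U := U) hW hp hirr hS hpΔ
  exact datum_strict_unipotent H hp𝒪 (hS (Finset.mem_insert_self _ _)) hNS h33 h34 hp2 hpN
    h.1.1 h.1.2.1 (residualOver_not_isPeuKummer W hΔ p hW hp hpΔ hv) hres U hU

end Families

/-! ### The minimal level -/

variable {M : ℕ} [NeZero M] (χ : heckeAlgebra M 2 (∅ : Set ℕ) →+* 𝒪)
  (hcongr : CongruentTo W p χ) {S₀ : Finset ℕ} (hpS : p ∈ S₀)
  (hMS : ∀ q : ℕ, q.Prime → q ∣ M → q ∈ S₀)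

include hΔ hp hirr hcongr in
omit [IsAdicComplete (maximalIdeal 𝒪) 𝒪] [Finite (ResidueField 𝒪)] [CharZero 𝒪] in
/-- An auxiliary prime for any modulus, outside any finite set. -/
theorem exists_aux_prime (B : ℕ) (hB : B ≠ 0) (T : Finset Nat.Primes) :
    ∃ l : Nat.Primes, ((l : ℕ) : ZMod B) = 1 ∧ ((l : ℕ) : ZMod p) = 1 ∧ l ∉ T ∧
      residualSystem χ l ≠ 2 ∧ residualSystem χ l ≠ ((l : ℕ) : ResidueField 𝒪) + 1 := by
  classical
  obtain ⟨l, hlT, hl1, hlp, h2, h3⟩ := exists_nonEis W p hΔ (by omega) hirr (residualSystem χ)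
    (T.image fun q : Nat.Primes => (q : ℕ)) (B := M * p)
    (mul_ne_zero (NeZero.ne M) (Fact.out : p.Prime).ne_zero)
    (fun l hg hd => hcongr l hg (fun h => hd (h.mul_right p))
      (fun h => hd (h ▸ dvd_mul_left _ _))) B hB
  exact ⟨l, hl1, hlp, fun h => hlT (Finset.mem_image_of_mem (fun q : Nat.Primes => (q : ℕ)) h),
    h2, h3⟩

include hΔ hW hp hirr hp𝒪 hcongr hpS hMS in
/-- The level of `χ` and its Galois representation. -/
theorem exists_minimalLevel :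
    ∃ (θ₀ : heckeAlgebra M 2 (↑S₀ : Set ℕ) →+* ResidueField 𝒪)
      (_ : Nontrivial (levelLoc 𝒪 M (residualSystem χ)))
      (_ : LevelHyp M M S₀ (residualSystem χ) θ₀)
      (H₀ : HeckeGaloisRepDatum M (↑S₀ : Set ℕ) 𝒪 θ₀ (heckeLocal M (↑S₀ : Set ℕ) 𝒪 θ₀)),
      H₀.π = heckeLocal.π M (↑S₀ : Set ℕ) 𝒪 θ₀ ∧
        H₀.ρ.residual.IsEquiv ((residualOver W hΔ p (ResidueField 𝒪)).baseChangeAlong
          (ResidueField.map (algebraMap 𝒪 (heckeLocal M (↑S₀ : Set ℕ) 𝒪 θ₀)))) := by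
  obtain ⟨l, hl1, -, -, -, hl⟩ := exists_aux_prime W hΔ hp hirr χ hcongr M (NeZero.ne M) ∅
  have h₀ : LevelHyp M M S₀ (residualSystem χ) (thetaOf χ dvd_rfl hMS) :=
    levelHyp_thetaOf χ dvd_rfl hMS (fun _ => rfl) ⟨l, hl1, hl⟩
  obtain ⟨H₀, hπ, hres⟩ := exists_datum_residualOver hp𝒪 hpS hMS W hΔ hW (by omega) hirr ∅
    (fun l hl hlM hlS _ hg => (h₀.theta_T l hl hlM hlS).trans
      (hcongr ⟨l, hl⟩ hg hlM fun h => hlS (Finset.mem_coe.mpr ((show l = p from h) ▸ hpS))))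
  exact ⟨_, nontrivial_levelLoc χ fun _ => rfl, h₀, H₀, hπ, hres⟩

omit [Finite (ResidueField 𝒪)] in
/-- The point of `D₀.R` given by `χ`. -/
theorem exists_minimalPoint {ρbar : ResidualGaloisRep (ResidueField 𝒪)}
    {𝒟 : ∀ ⦃A : Type⦄ [CommRing A] [IsLocalRing A] [Algebra 𝒪 A], GaloisRepAdic A → Prop}
    (D₀ : DeformationRingData 𝒪 ρbar 𝒟) {θ₀ : heckeAlgebra M 2 (↑S₀ : Set ℕ) →+* ResidueField 𝒪}
    (h₀ : LevelHyp M M S₀ (residualSystem χ) θ₀)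
    [Nontrivial (levelLoc 𝒪 M (residualSystem χ))]
    (H₀ : HeckeGaloisRepDatum M (↑S₀ : Set ℕ) 𝒪 θ₀ (heckeLocal M (↑S₀ : Set ℕ) 𝒪 θ₀))
    (hπ : H₀.π = heckeLocal.π M (↑S₀ : Set ℕ) 𝒪 θ₀)
    (φ₀ : D₀.R →ₐ[𝒪] (levelModule h₀).T)
    (htr₀ : ∀ (ℓ : ℕ) (hℓ : ℓ.Prime) (hℓM : ¬ ℓ ∣ M) (hℓS : ℓ ∉ (↑S₀ : Set ℕ)),
        ∀ P : ValuationSubring (AlgebraicClosure ℚ), P.LiesOverPrime ℓ →
          ∀ σ : AlgebraicClosure ℚ ≃ₐ[ℚ] AlgebraicClosure ℚ, P.IsFrobeniusAt σ ℓ →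
            φ₀ (LinearMap.trace D₀.R D₀.ρ.V (D₀.ρ.ρ σ)) =
              (levelModule h₀).toT (H₀.π (heckeAlgebra.T hℓ hℓM hℓS))) :
    ∃ π₀ : D₀.R →ₐ[𝒪] 𝒪, ∀ l : Nat.Primes, (l : ℕ) ∉ S₀ →
      ∀ P : ValuationSubring (AlgebraicClosure ℚ), P.LiesOverPrime l →
        ∀ σ : AlgebraicClosure ℚ ≃ₐ[ℚ] AlgebraicClosure ℚ, P.IsFrobeniusAt σ l →
          π₀ (LinearMap.trace D₀.R D₀.ρ.V (D₀.ρ.ρ σ)) = χ (opT M l) := by
  obtain ⟨πL, hπL⟩ := exists_point χ h₀ fun _ => rfl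
  refine ⟨πL.comp φ₀, fun l hlS P hP σ hσ => ?_⟩
  have hlS' : (l : ℕ) ∉ (↑S₀ : Set ℕ) := fun h => hlS (Finset.mem_coe.mp h)
  have hlM : ¬ (l : ℕ) ∣ M := fun h => hlS (h₀.prime_mem l l.2 h)
  rw [AlgHom.comp_apply, htr₀ l l.2 hlM hlS' P hP σ hσ, hπ]
  exact hπL l l.2 hlM hlS'

include hΔ hW hp hirr hp𝒪 hcongr hpS hMS in
/-- A raised level: the residual character, the Galois representation and its condition. -/
theorem exists_raisedSetup {N : ℕ} [NeZero N] (T : Finset Nat.Primes)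
    [Nontrivial (levelLoc 𝒪 M (residualSystem χ))] {ϖ : 𝒪} (hϖ : Irreducible ϖ)
    (i : levelLoc 𝒪 M (residualSystem χ) →ₗ[𝒪]
      levelLoc 𝒪 N (zeroOn T (residualSystem χ)))
    (hmod : ∀ x y, i x = ϖ • y → ∃ x', x = ϖ • x')
    (hNS : ∀ q : ℕ, q.Prime → q ∣ N → q ∈ S₀ ∪ T.image fun q : Nat.Primes => (q : ℕ))
    {𝒟 : Finset ℕ → ∀ ⦃A : Type⦄ [CommRing A] [IsLocalRing A] [Algebra 𝒪 A],
      GaloisRepAdic A → Prop}
    (hfam : ∀ (θ : heckeAlgebra N 2 (↑(S₀ ∪ T.image fun q : Nat.Primes => (q : ℕ)) : Set ℕ) →+*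
        ResidueField 𝒪)
      (H : HeckeGaloisRepDatum N (↑(S₀ ∪ T.image fun q : Nat.Primes => (q : ℕ)) : Set ℕ) 𝒪 θ
        (heckeLocal N (↑(S₀ ∪ T.image fun q : Nat.Primes => (q : ℕ)) : Set ℕ) 𝒪 θ)),
      H.π = heckeLocal.π N (↑(S₀ ∪ T.image fun q : Nat.Primes => (q : ℕ)) : Set ℕ) 𝒪 θ →
      H.ρ.residual.IsEquiv ((residualOver W hΔ p (ResidueField 𝒪)).baseChangeAlong
        (ResidueField.map (algebraMap 𝒪
          (heckeLocal N (↑(S₀ ∪ T.image fun q : Nat.Primes => (q : ℕ)) : Set ℕ) 𝒪 θ)))) →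
      𝒟 (S₀ ∪ T.image fun q : Nat.Primes => (q : ℕ)) H.ρ) :
    ∃ (θ : heckeAlgebra N 2 (↑(S₀ ∪ T.image fun q : Nat.Primes => (q : ℕ)) : Set ℕ) →+*
        ResidueField 𝒪)
      (_ : Nontrivial (levelLoc 𝒪 N (zeroOn T (residualSystem χ))))
      (_ : LevelHyp N N (S₀ ∪ T.image fun q : Nat.Primes => (q : ℕ))
        (zeroOn T (residualSystem χ)) θ)
      (H : HeckeGaloisRepDatum N (↑(S₀ ∪ T.image fun q : Nat.Primes => (q : ℕ)) : Set ℕ) 𝒪 θ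
        (heckeLocal N (↑(S₀ ∪ T.image fun q : Nat.Primes => (q : ℕ)) : Set ℕ) 𝒪 θ)),
      H.π = heckeLocal.π N (↑(S₀ ∪ T.image fun q : Nat.Primes => (q : ℕ)) : Set ℕ) 𝒪 θ ∧
      H.ρ.residual.IsEquiv ((residualOver W hΔ p (ResidueField 𝒪)).baseChangeAlong
        (ResidueField.map (algebraMap 𝒪
          (heckeLocal N (↑(S₀ ∪ T.image fun q : Nat.Primes => (q : ℕ)) : Set ℕ) 𝒪 θ)))) ∧
      𝒟 (S₀ ∪ T.image fun q : Nat.Primes => (q : ℕ)) H.ρ := by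
  obtain ⟨l, hl1, hlp, hlT, hl2, -⟩ := exists_aux_prime W hΔ hp hirr χ hcongr N (NeZero.ne N) T
  obtain ⟨θ, hnt, h⟩ := exists_levelHyp_of_step hϖ i hmod hNS
    (zeroOn_nonEis hp𝒪 T (residualSystem χ) l hl1 hlp hlT hl2)
  have hpS' : p ∈ S₀ ∪ T.image fun q : Nat.Primes => (q : ℕ) := Finset.mem_union_left _ hpS
  obtain ⟨H, hπ, hres⟩ := exists_datum_residualOver hp𝒪 hpS' hNS W hΔ hW (by omega) hirr ∅
    (θ := θ) fun r hr hrN hrS _ hg => by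
      have hr' : r ∉ S₀ ∪ T.image fun q : Nat.Primes => (q : ℕ) := fun h' =>
        hrS (Finset.mem_coe.mpr h')
      rw [Finset.mem_union, not_or] at hr'
      rw [h.theta_T r hr hrN hrS, zeroOn_of_not_mem fun h' =>
        hr'.2 (Finset.mem_image_of_mem (fun q : Nat.Primes => (q : ℕ)) h')]
      exact hcongr ⟨r, hr⟩ hg (fun h' => hr'.1 (hMS r hr h'))
        fun h' => hr'.1 ((show r = p from h') ▸ hpS)
  exact ⟨θ, hnt, h, H, hπ, hres, hfam θ H hπ hres⟩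

end Fermat.Agent.Lifting
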