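import Fermat.Agent.Lifting.CaseFO
import Fermat.Agent.Lifting.CaseRaise
import Fermat.Agent.Lifting.MinimalSetup
import Fermat.Agent.RepTheory.CycloCoeff

/-!
# From `R = T` flat and ordinary at the minimal level to modularity at the conductor level

`N₀` is squarefree and prime to `p`; the level above is `N₀ p ∏ q²`, the product over the primes of
`Δ` outside `S₀`, with the ordinary condition.
-/

set_option autoImplicit false

noncomputable section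

namespace Fermat.Agent.Lifting

open IsLocalRing CuspForm GaloisRep ModularFormClass WeierstrassCurve
open Fermat.Agent.GroupH1 (HeckePoly primeOf)
open scoped IsMulCommutative

variable {𝒪 : Type} [CommRing 𝒪] [IsDomain 𝒪] [IsDiscreteValuationRing 𝒪]
  [IsAdicComplete (maximalIdeal 𝒪) 𝒪] [CharZero 𝒪] [Finite (ResidueField 𝒪)]
  {p : ℕ} [Fact p.Prime] [Algebra (ZMod p) (ResidueField 𝒪)]

omit [IsAdicComplete (maximalIdeal 𝒪) 𝒪] [CharZero 𝒪] [Finite (ResidueField 𝒪)]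
  [Fact p.Prime] [Algebra (ZMod p) (ResidueField 𝒪)] in
/-- A unit root of `X² - c X + p` is congruent to `c`, and `c` is nonzero modulo `m`. -/
theorem unitRoot_congr (hp𝒪 : (p : 𝒪) ∈ maximalIdeal 𝒪) {α₀ c : 𝒪} (hu : IsUnit α₀)
    (hroot : α₀ * α₀ - c * α₀ + (p : 𝒪) = 0) :
    residue 𝒪 c ≠ 0 ∧ α₀ - c ∈ maximalIdeal 𝒪 := by
  have hα₀ : α₀ - c ∈ maximalIdeal 𝒪 := by
    rw [← Ideal.mul_unit_mem_iff_mem _ hu,
      show (α₀ - c) * α₀ = -(p : 𝒪) by linear_combination hroot]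
    exact neg_mem hp𝒪
  refine ⟨fun h => notMem_maximalIdeal.mpr hu ?_, hα₀⟩
  rw [← sub_add_cancel α₀ c]
  exact add_mem hα₀ ((residue_eq_zero_iff c).mp h)

/-- **Modularity from the minimal level, flat and ordinary case.** -/
theorem mlc1_of_minimalFO (h58 : LevelExact) (h33 : OrdinaryAtLevel) (h34 : UnipotentAtSemistable)
    (W : WeierstrassCurve ℤ) (hΔ : W.Δ ≠ 0) (hW : W.IsSemistableModel) (hp : p = 3 ∨ p = 5)
    (hirr : W.ModRepIsIrreducible p) (hpΔ : (p : ℤ) ∣ W.Δ) (hp𝒪 : (p : 𝒪) ∈ maximalIdeal 𝒪)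
    {S₀ : Finset ℕ} (hS₀ : insert p (ramifiedPrimes W p) ⊆ S₀)
    {N₀ : ℕ} [NeZero N₀] (hsq : Squarefree N₀) (hpN₀ : ¬ p ∣ N₀)
    (hS₀N₀ : ∀ q ∈ S₀, q.Prime → q = p ∨ q ∣ N₀)
    -- the character of the minimal form
    (χ : heckeAlgebra N₀ 2 (∅ : Set ℕ) →+* 𝒪) (hcongr : CongruentTo W p χ)
    (D₀ : DeformationRingData 𝒪 (residualOver W hΔ p (ResidueField 𝒪))
      (flatOrdinaryFamily 𝒪 p S₀ S₀))
    [Nontrivial (levelLoc 𝒪 N₀ (residualSystem χ))]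
    {θ₀ : heckeAlgebra N₀ 2 (↑S₀ : Set ℕ) →+* ResidueField 𝒪}
    (h₀ : LevelHyp N₀ N₀ S₀ (residualSystem χ) θ₀)
    -- `R = T` at the minimal level
    (H₀ : HeckeGaloisRepDatum N₀ (↑S₀ : Set ℕ) 𝒪 θ₀ (heckeLocal N₀ (↑S₀ : Set ℕ) 𝒪 θ₀))
    (hπ₀ : H₀.π = heckeLocal.π N₀ (↑S₀ : Set ℕ) 𝒪 θ₀)
    (φ₀ : D₀.R →ₐ[𝒪] (levelModule h₀).T) (hφ₀ : Function.Bijective φ₀)
    (htr₀ : ∀ (ℓ : ℕ) (hℓ : ℓ.Prime) (hℓN : ¬ ℓ ∣ N₀) (hℓS : ℓ ∉ (↑S₀ : Set ℕ)),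
        ∀ P : ValuationSubring (AlgebraicClosure ℚ), P.LiesOverPrime ℓ →
          ∀ σ : AlgebraicClosure ℚ ≃ₐ[ℚ] AlgebraicClosure ℚ, P.IsFrobeniusAt σ ℓ →
            φ₀ (LinearMap.trace D₀.R D₀.ρ.V (D₀.ρ.ρ σ)) =
              (levelModule h₀).toT (H₀.π (heckeAlgebra.T hℓ hℓN hℓS)))
    [Module.Free (levelModule h₀).T (levelModule h₀).M]
    [Module.Finite (levelModule h₀).T (levelModule h₀).M]
    {r : ℕ} (ψ : MvPowerSeries (Fin r) 𝒪 →ₐ[𝒪] D₀.R) (hψ : Function.Surjective ψ)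
    (rels : Fin r → MvPowerSeries (Fin r) 𝒪)
    (hrels : RingHom.ker ψ = Ideal.span (Set.range rels))
    -- the point, the scalar at `p` on its part, the quotient value at Frobenius
    (π₀ : D₀.R →ₐ[𝒪] 𝒪)
    (hscal : ∀ x : (levelModule h₀).M, (∀ y, π₀ y = 0 → φ₀ y • x = 0) →
      (MvPolynomial.X (primeOf p) : HeckePoly 𝒪) • levelModuleEquiv h₀ x =
        χ (opT N₀ (primeOf p)) • levelModuleEquiv h₀ x)
    {α₀ : 𝒪} (hu : IsUnit α₀)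
    (hroot : α₀ * α₀ - χ (opT N₀ (primeOf p)) * α₀ + (p : 𝒪) = 0)
    (hπ₀loc : IsLocalHom (π₀ : D₀.R →+* 𝒪))
    {Pp : ValuationSubring (AlgebraicClosure ℚ)} (hPp : Pp.LiesOverPrime p)
    {σp : AlgebraicClosure ℚ ≃ₐ[ℚ] AlgebraicClosure ℚ}
    (hσp : σp ∈ Pp.decompositionSubgroup ℚ)
    (hval : IsQuotientValue (D₀.ρ.baseChangeAlong (π₀ : D₀.R →+* 𝒪) hπ₀loc) Pp σp α₀)
    (hα1 : α₀ ^ 2 ≠ 1)
    -- multiplicity
    (hmult : ∀ [NeZero (raisedLevel W S₀ (N₀ * p))]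
      [Nontrivial (levelLoc 𝒪 (raisedLevel W S₀ (N₀ * p))
        (zeroOn (raisedPrimes' W S₀) (residualSystem χ)))]
      (S : Finset ℕ) (θ : heckeAlgebra (raisedLevel W S₀ (N₀ * p)) 2 (↑S : Set ℕ) →+*
        ResidueField 𝒪)
      (h : LevelHyp (raisedLevel W S₀ (N₀ * p)) (raisedLevel W S₀ (N₀ * p)) S
        (zeroOn (raisedPrimes' W S₀) (residualSystem χ)) θ)
      (π' : (levelModule h).T →ₐ[𝒪] 𝒪), S₀ ⊆ S →
      (∀ (ℓ : ℕ) (hℓ : ℓ.Prime) (hℓN : ¬ ℓ ∣ raisedLevel W S₀ (N₀ * p))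
        (hℓS : ℓ ∉ (↑S : Set ℕ)),
        ∀ P : ValuationSubring (AlgebraicClosure ℚ), P.LiesOverPrime ℓ →
          ∀ σ : AlgebraicClosure ℚ ≃ₐ[ℚ] AlgebraicClosure ℚ, P.IsFrobeniusAt σ ℓ →
            π' ((levelModule h).toT (heckeLocal.π (raisedLevel W S₀ (N₀ * p))
                (↑S : Set ℕ) 𝒪 θ (heckeAlgebra.T hℓ hℓN hℓS))) =
              π₀ (LinearMap.trace D₀.R D₀.ρ.V (D₀.ρ.ρ σ))) →
      Module.finrank 𝒪 ((Submodule.torsionBySet (levelModule h).T (levelModule h).M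
        (RingHom.ker π' : Set (levelModule h).T)).restrictScalars 𝒪) ≤
        Module.finrank (levelModule h₀).T (levelModule h₀).M) :
    Mlc1IsModularModelOfExactConductorLevel W := by
  classical
  have hpr : p.Prime := Fact.out
  have hp2 : p ≠ 2 := by omega
  have hpS : p ∈ S₀ := hS₀ (Finset.mem_insert_self _ _)
  set Tp := raisedPrimes' W S₀
  set T := Tp.image fun q : Nat.Primes => (q : ℕ) with hTdef
  set N := raisedLevel W S₀ (N₀ * p) with hNdef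
  set S := S₀ ∪ T with hSdef
  have hTeq : T = raisedPrimes W S₀ := image_raisedPrimes'
  have hsq' : Squarefree (N₀ * p) :=
    (Nat.squarefree_mul ((hpr.coprime_iff_not_dvd.mpr hpN₀).symm)).mpr ⟨hsq, hpr.squarefree⟩
  have : NeZero N := ⟨(raisedLevel_pos hsq'.ne_zero).ne'⟩
  have hN₀S : ∀ q, q.Prime → q ∣ N₀ * p → q ∈ S₀ := fun q hq h => by
    rcases hq.dvd_mul.mp h with h | h
    · exact h₀.prime_mem q hq h
    · rwa [(Nat.prime_dvd_prime_iff_eq hq hpr).mp h]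
  have hT : ∀ q ∈ T, q.Prime ∧ q ≠ p ∧ q ∉ S₀ := fun q hq => by
    rw [hTeq] at hq
    exact ⟨prime_of_mem_raisedPrimes hq, fun h => (Finset.mem_sdiff.mp hq).2 (h ▸ hpS),
      (Finset.mem_sdiff.mp hq).2⟩
  have hTp : ∀ q ∈ Tp, (q : ℕ) ≠ p ∧ ¬ (q : ℕ) ∣ N₀ := fun q hq =>
    have h := hT q (Finset.mem_image_of_mem (fun q : Nat.Primes => (q : ℕ)) hq)
    ⟨h.2.1, fun hd => h.2.2 (h₀.prime_mem q q.2 hd)⟩
  have hS : ∀ q, q.Prime → q ∣ N → q ∈ S := fun q hq h => by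
    rw [hSdef, hTeq]
    exact mem_of_prime_dvd_raisedLevel hN₀S hq h
  have hS₀N₀' : ∀ q ∈ S₀, q.Prime → q = p ∨ q ∣ N₀ * p := fun q hqS hq =>
    (hS₀N₀ q hqS hq).imp_right fun h => h.mul_right p
  have honce : ∀ q ∈ S₀, q.Prime → q ∣ N ∧ ¬ q ^ 2 ∣ N := fun q hqS hq =>
    ⟨((hS₀N₀' q hqS hq).elim (fun h => h ▸ dvd_mul_left p N₀) id).mul_right _,
      not_sq_dvd_raisedLevel hsq' hq hqS⟩
  -- the residual representation
  have habs := TWHyp.isAbsolutelyIrreducible_baseChange (ResidueField 𝒪) hp2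
    (TWHyp.isTWResidual_residualRep W hΔ hW hirr)
  have hbar := residualOver_ordinaryFamily W hΔ p (O := 𝒪) (U := S₀) hW hp hirr hS₀ hpΔ
  have hex := nonempty_ringData_ordinaryFamily (𝒪 := 𝒪) hp2 habs hbar
  -- the raised level
  set a := residualSystem χ with hadef
  obtain ⟨hap, hα₀⟩ := unitRoot_congr hp𝒪 hu hroot
  obtain ⟨l, hlN, hlp, hlT, hl2, -⟩ :=
    exists_aux_prime W hΔ hp hirr χ hcongr N (NeZero.ne N) Tp
  obtain ⟨ϖ, hϖ⟩ := IsDiscreteValuationRing.exists_irreducible 𝒪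
  obtain ⟨αp, hαm, hαr, i, j, hiX, hjX, -, -, hjs, hji, hmod⟩ := exists_level_chain_p N₀ Tp hp2
    hp𝒪 hpN₀ hTp a hap hϖ.maximalIdeal_eq hϖ.ne_zero l hlN hlT hl2
  obtain ⟨θ, hnt, h, H, hπ, hHres, hH⟩ := exists_raisedSetup W hΔ hW hp hirr hp𝒪 χ hcongr hpS
    h₀.prime_mem (N := N) Tp hϖ i hmod hS
    (𝒟 := ordinaryFamily 𝒪 p S₀) (fun θ H hπ hres =>
      datum_ordinary_unipotent H hp𝒪 (Finset.mem_union_left _ hpS) hS h33 h34 hp2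
        (honce p hpS hpr) hbar.1.1 hbar.1.2.1 hres S₀ fun q hq hq' _ => honce q hq hq')
  have hℓ : ∀ ℓ : Nat.Primes, (ℓ : ℕ) ∉ S → ℓ ∉ Tp ∧ ℓ ≠ primeOf p := fun ℓ hℓ =>
    ⟨fun hm => hℓ (Finset.mem_union_right _ (Finset.mem_image_of_mem (fun q : Nat.Primes => (q : ℕ)) hm)),
      fun he => hℓ (Finset.mem_union_left _ (he ▸ hpS))⟩
  have hjiT : ∀ x, j (i x) = (∏ q ∈ T.attach,
      haveI : Fact (q.1).Prime := ⟨(hT q.1 q.2).1⟩; IharaH1.deltaSq q.1 𝒪) •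
        ((αp * αp - 1 : HeckePoly 𝒪) • x) := fun x => by
    rw [hji x]
    refine congrArg (fun d => d • ((αp * αp - 1 : HeckePoly 𝒪) • x)) ?_
    exact (prod_attach_eq_prod_primes
      (fun q => by rw [hTeq]; exact mem_raisedPrimes') (fun q hq => (hT q hq).1)
      fun q hq => haveI : Fact q.Prime := ⟨hq⟩; IharaH1.deltaSq q 𝒪).symm
  -- the lift
  let ι := RepTheory.padicHom p 𝒪 hp𝒪
  have hι : IsLocalHom ι := CurveTate.isLocalHom_padic p hp𝒪 ι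
  have hΔS : insert p W.Δ.natAbs.primeFactors ⊆ S := by
    rw [hSdef, hTeq]
    exact insert_primeFactors_subset hpS
  obtain ⟨g, hg, hga⟩ := exists_eigenform_of_minimalFO hp2 hp𝒪 hT hpS hex D₀ h₀ H₀ hπ₀ φ₀ hφ₀
    htr₀ ψ hψ rels hrels h H hπ hH hHres i j
    (fun ℓ hl x => (hiX ℓ (hℓ ℓ hl).1 (hℓ ℓ hl).2 x).symm)
    (fun ℓ hl x => (hjX ℓ (hℓ ℓ hl).1 (hℓ ℓ hl).2 x).symm) hjs (αp * αp - 1) hjiT hϖ hmod
    π₀ (α₀ ^ 2 - 1)
    (fun x hx => rootFactor_smul_eq hap hαm hαr hroot hα₀ (hscal x hx)) hπ₀loc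
    (ρ₀ := D₀.ρ.baseChangeAlong (π₀ : D₀.R →+* 𝒪) hπ₀loc) ⟨GaloisRepAdic.Equiv.refl _⟩
    hPp hσp α₀ hval hα1 le_rfl
    (fun π' hπ' => hmult S θ h π' Finset.subset_union_left fun ℓ hℓ hℓN hℓS P hP σ hσ => by
      rw [← hπ]; exact hπ' ℓ hℓ hℓN hℓS P hP σ hσ)
    (CurveTate.tateRepOver W p ι hι hΔ)
    (tateRepOver_ordinaryFamily W hΔ p ι hι (U := S₀) hW hpΔ hΔS)
    (tateRepOver_residual_isEquiv W hΔ p ι hι) W.apOfModel
    (fun ℓ hℓ _ hℓS => tateRepOver_trace_frobenius W hΔ p ι hι hΔS ℓ hℓ hℓS)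
  exact mlc1_of_raisedEigenform h58 W hΔ hW hp2 hirr hpS hsq' hN₀S hS₀N₀' hg
    fun ℓ hℓ hℓN hℓS => hga ℓ hℓ hℓN (by rwa [← hTeq] at hℓS)

end Fermat.Agent.Lifting
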