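import Fermat.Agent.Lifting.MinimalData
import Fermat.Agent.Supersingular.Instance

/-!
# The unit root of the minimal form at a multiplicative `p`

If `p ∣ Δ` and the minimal form has level prime to `p`, then its `a_p` is a unit, hence so is the
chosen root `α`.
-/

set_option autoImplicit false

noncomputable section

open IsLocalRing CuspForm CongruenceSubgroup WeierstrassCurve
open Fermat.Agent.TWHyp (residualRep)
open Fermat.Agent.GaloisBasics (Qbar GalQ)

namespace Fermat.Agent.Lifting.MinimalData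

variable {W : WeierstrassCurve ℤ} {p : ℕ} [Fact p.Prime] {N : ℕ} [NeZero N]
  (D : MinimalData W p N)

/-- The character of the data is the eigencharacter of the form. -/
theorem coe_eig (t : heckeAlgebra N 2 (∅ : Set ℕ)) :
    (((D.eig t) : integralClosure ℤ ℂ) : ℂ) =
      HeckeEigen.eigenChar D.newform.isNormalizedEigenform ∅ t := by
  obtain ⟨P, rfl⟩ := HeckeCohom.wordEval_surjective t
  induction P using FreeAlgebra.induction with
  | grade0 r => rw [AlgHom.commutes, eq_intCast, map_intCast, map_intCast]; push_cast; rfl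
  | grade1 i =>
    obtain ⟨l, hl⟩ := i
    exact (D.eig_opT l).trans (eigenChar_opT _ l).symm
  | add a b ha hb => simp only [map_add]; push_cast; rw [ha, hb]
  | mul a b ha hb => simp only [map_mul]; push_cast; rw [ha, hb]

/-- **`a_p` and `α` are units** at a multiplicative `p` not dividing the level. -/
theorem isUnit_α (hΔ : W.Δ ≠ 0) (hW : W.IsSemistableModel) (hp2 : p ≠ 2)
    (hirr : W.ModRepIsIrreducible p) (hpΔ : (p : ℤ) ∣ W.Δ) (hpN : ¬ p ∣ N) :
    IsUnit (D.char (opT N ⟨p, Fact.out⟩)) ∧ IsUnit (D.ι D.α) := by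
  have hp : p.Prime := Fact.out
  have hf := D.newform.isNormalizedEigenform
  let F := HeckeEigen.eigenChar hf (∅ : Set ℕ)
  have hmem : ∀ x : F.range, ∃ r : D.R, (((r : integralClosure ℤ ℂ)) : ℂ) = (x : ℂ) := by
    rintro ⟨x, t, rfl⟩
    exact ⟨D.eig t, D.coe_eig t⟩
  choose j hj using hmem
  have hinj : ∀ a b : D.R, ((a : integralClosure ℤ ℂ) : ℂ) = ((b : integralClosure ℤ ℂ) : ℂ) →
      a = b := fun a b h => Subtype.ext (Subtype.ext h)
  let jh : F.range →+* D.R :=
    { toFun := j
      map_one' := hinj _ _ (by rw [hj]; rfl)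
      map_mul' := fun x y => hinj _ _ (by push_cast; rw [hj, hj, hj]; rfl)
      map_zero' := hinj _ _ (by rw [hj]; rfl)
      map_add' := fun x y => hinj _ _ (by push_cast; rw [hj, hj, hj]; rfl) }
  have hq : ∀ l : Nat.Primes,
      jh ⟨ModularFormClass.qCoeff D.f l, HeckeEigen.qCoeff_mem_range_eigenChar hf l⟩ =
        D.eig (opT N l) := fun l => hinj _ _ ((hj _).trans (D.eig_opT l).symm)
  have h : IsUnit (D.char (opT N ⟨p, Fact.out⟩)) := by
    have := Supersingular.isUnit_qCoeff_of_ordinary hp hp2 hpN D.p_mem hf (D.ι.comp jh)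
      (residualOver W hΔ p (ResidueField D.𝒪))
      (residualOver_isOrdinaryAt W hΔ p _ hW hp2 hpΔ)
      (TWHyp.detIsCyclotomic_baseChange _ (TWHyp.isTWResidual_residualRep W hΔ hW hirr))
      (N.primeFactors ∪ {p} ∪ W.Δ.natAbs.primeFactors) fun l hl P hP φ hφ => by
        simp only [Finset.mem_union, Finset.mem_singleton, Nat.mem_primeFactors, not_or] at hl
        obtain ⟨⟨hlN, hlp⟩, hlΔ⟩ := hl
        have hg : W.IsGoodPrimeFor l := fun hd =>
          hlΔ ⟨l.2, Int.natCast_dvd.mp hd, Int.natAbs_ne_zero.mpr hΔ⟩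
        rw [RingHom.comp_apply, hq, D.congr l hg (fun hd => hlN ⟨l.2, hd, NeZero.ne N⟩) hlp]
        have ht := (TWHyp.frobenius_trace_det W l.2
          (fun hd => hlp ((Nat.prime_dvd_prime_iff_eq l.2 hp).mp hd)) hg hP hφ).1
        show LinearMap.trace (ResidueField D.𝒪) _
          (((residualRep W hΔ p).ρ φ).baseChange (ResidueField D.𝒪)) = _
        rw [LinearMap.trace_baseChange,
          ← map_intCast (algebraMap (ZMod p) (ResidueField D.𝒪))]
        exact congrArg _ ht
    rwa [RingHom.comp_apply, hq ⟨p, hp⟩] at this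
  exact ⟨h, D.α_unit h⟩

end Fermat.Agent.Lifting.MinimalData
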