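import Fermat.Agent.Lifting.UnitRootEigen
import Fermat.Agent.OrdinaryCurve.Assembly
import Fermat.Agent.OrdinaryCurve.CurveB
import Fermat.Agent.OrdinaryCurve.CurveLattice
import Fermat.Agent.OrdinaryCurve.Bridge

/-!
# The unit root as quotient value, without hypotheses on the ordinary part

`T_p J₀(pN)` carries the ordinary Tate data required by `exists_isQuotientValue_unitRoot`, so the
unit root of an eigenform of level `N` prime to `p` is the value of the unramified quotient at a
Frobenius.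
-/

set_option autoImplicit false

noncomputable section

open IsLocalRing ModularCurve CongruenceSubgroup
open Fermat.Agent.HeckeEigen (eigenChar qCoeff_mem_range_eigenChar)

namespace Fermat.Agent.Lifting

/-- **The unit root of an eigenform is the quotient value at a Frobenius**, unconditionally. -/
theorem isQuotientValue_unitRoot {N p : ℕ} [NeZero N] {O : Type} [CommRing O] [IsDomain O]
    [CharZero O] [IsDiscreteValuationRing O] [IsAdicComplete (maximalIdeal O) O]
    [Finite (ResidueField O)] {f : CuspForm (Gamma0 N) 2} (hf : f.IsNormalizedEigenform)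
    (ι : (eigenChar hf (∅ : Set ℕ)).range →+* O) (hp : p.Prime) (hp2 : p ≠ 2) (hN : ¬ p ∣ N)
    (hpO : (p : O) ∈ maximalIdeal O) {α : O}
    (hα : α ^ 2 - ι ⟨ModularFormClass.qCoeff f p, qCoeff_mem_range_eigenChar hf p⟩ * α + p = 0)
    (hαu : IsUnit α) (ρ : GaloisRepAdic O) (hdet : ρ.DetIsCyclotomic p) (hord : ρ.IsOrdinaryAt p)
    (S₀ : Finset ℕ)
    (htr : ∀ l : Nat.Primes, (l : ℕ) ∉ S₀ → ∀ P : ValuationSubring (AlgebraicClosure ℚ),
      P.LiesOverPrime l → ∀ φ : AlgebraicClosure ℚ ≃ₐ[ℚ] AlgebraicClosure ℚ,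
        P.IsFrobeniusAt φ l →
        ρ.trace φ = ι ⟨ModularFormClass.qCoeff f l, qCoeff_mem_range_eigenChar hf l⟩) :
    α ^ 2 ≠ 1 ∧ ∃ P : ValuationSubring (AlgebraicClosure ℚ), P.LiesOverPrime p ∧
      ∃ σ ∈ P.decompositionSubgroup ℚ, IsQuotientValue ρ P σ α :=
  haveI := Fact.mk hp
  haveI : NeZero (p * N) := ⟨mul_ne_zero hp.ne_zero (NeZero.ne N)⟩
  exists_isQuotientValue_unitRoot hf ι hp hp2 hN
    (OrdinaryCurve.ordinaryTate_of_inputs p (p * N) (OrdinaryCurve.hasFormalCurve p (p * N))
      (OrdinaryCurve.hasLattices (p * N) p) (OrdinaryCurve.nonempty_torsionBridge p (p * N)))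
    hpO hα hαu ρ hdet hord S₀ htr

end Fermat.Agent.Lifting
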