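import Fermat.Agent.Lifting.CaseF
import Fermat.Agent.Lifting.CaseFORaise
import Fermat.Agent.Lifting.MinimalUnit
import Fermat.Agent.Lifting.UnitRootUncond
import Fermat.Agent.LevelLowering.Avoid.Tower

/-!
# Modularity lifting when `p` is multiplicative and `p ∣ v_p(Δ)`

The condition at the minimal level `minimalLevel W p` is: flat and ordinary at `p`, unipotent
inertia at the primes where `W[p]` is ramified. Above, the level acquires `p` and the condition is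
only ordinary at `p`.
-/

set_option autoImplicit false

noncomputable section

namespace Fermat.Agent.Lifting

open IsLocalRing GaloisRep Polynomial WeierstrassCurve
open CuspForm (HeckeGaloisRepDatum heckeAlgebra heckeLocal)
open Fermat.Agent.GaloisBasics (Qbar GalQ)
open Fermat.Agent.GroupH1 (primeOf)

variable (p : ℕ) [Fact p.Prime] (hp : p = 3 ∨ p = 5) (W : WeierstrassCurve ℤ) (hΔ : W.Δ ≠ 0)
  (hW : W.IsSemistableModel) (hirr : W.ModRepIsIrreducible p)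

variable {p W} in
/-- The coefficient map of the minimal data on the eigenvalues of its form. -/
theorem MinimalData.exists_rangeHom {N : ℕ} [NeZero N] (D : MinimalData W p N) :
    ∃ ι : (HeckeEigen.eigenChar D.newform.1 (∅ : Set ℕ)).range →+* D.𝒪, ∀ l : Nat.Primes,
      ι ⟨ModularFormClass.qCoeff D.f l,
        HeckeEigen.qCoeff_mem_range_eigenChar D.newform.1 l⟩ = D.char (opT N l) := by
  let F := (HeckeEigen.eigenChar D.newform.1 (∅ : Set ℕ)).rangeRestrict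
  have hker : RingHom.ker F ≤ RingHom.ker D.char := fun t ht => by
    rw [RingHom.mem_ker] at ht ⊢
    have h : D.eig t = 0 := Subtype.ext (Subtype.ext ((D.coe_eig t).trans (congrArg Subtype.val ht)))
    rw [MinimalData.char, RingHom.comp_apply, h, map_zero]
  refine ⟨F.liftOfSurjective (RingHom.rangeRestrict_surjective _) ⟨D.char, hker⟩, fun l => ?_⟩
  rw [← show F (opT N l) = ⟨ModularFormClass.qCoeff D.f l,
      HeckeEigen.qCoeff_mem_range_eigenChar D.newform.1 l⟩ from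
    Subtype.ext (eigenChar_opT _ l)]
  exact RingHom.liftOfRightInverse_comp_apply _ _ _ _ _

variable {p W} in
/-- **The unit root of the form.** It is a root of `X² - a_p X + p`, its square is not one, and it
is the quotient value at a Frobenius of every ordinary representation with the traces of the
form. -/
theorem MinimalData.exists_isQuotientValue_α {N : ℕ} [NeZero N] (D : MinimalData W p N)
    (hp2 : p ≠ 2) (hpN : ¬ p ∣ N) (hu : IsUnit (D.ι D.α)) (ρ : GaloisRepAdic D.𝒪)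
    (hdet : ρ.DetIsCyclotomic p) (hord : ρ.IsOrdinaryAt p) (S₀ : Finset ℕ)
    (htr : ∀ l : Nat.Primes, (l : ℕ) ∉ S₀ → ∀ P : ValuationSubring Qbar, P.LiesOverPrime l →
      ∀ σ : GalQ, P.IsFrobeniusAt σ l → ρ.trace σ = D.char (opT N l)) :
    D.ι D.α * D.ι D.α - D.char (opT N (primeOf p)) * D.ι D.α + (p : D.𝒪) = 0 ∧
      D.ι D.α ^ 2 ≠ 1 ∧ ∃ P : ValuationSubring Qbar, P.LiesOverPrime p ∧
        ∃ σ ∈ P.decompositionSubgroup ℚ, IsQuotientValue ρ P σ (D.ι D.α) := by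
  have hpr : p.Prime := Fact.out
  have hroot : D.ι D.α * D.ι D.α - D.char (opT N (primeOf p)) * D.ι D.α + (p : D.𝒪) = 0 := by
    have h := congrArg D.ι D.α_root
    rw [map_add, map_sub, map_mul, map_pow, map_natCast, map_zero, pow_two] at h
    exact h
  obtain ⟨ιf, hιf⟩ := D.exists_rangeHom
  have hroot' : D.ι D.α ^ 2 - ιf ⟨ModularFormClass.qCoeff D.f p,
      HeckeEigen.qCoeff_mem_range_eigenChar D.newform.1 p⟩ * D.ι D.α + (p : D.𝒪) = 0 := by
    rw [show ιf ⟨ModularFormClass.qCoeff D.f p,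
      HeckeEigen.qCoeff_mem_range_eigenChar D.newform.1 p⟩ = D.char (opT N (primeOf p)) from
        hιf (primeOf p), pow_two]
    exact hroot
  exact ⟨hroot, isQuotientValue_unitRoot D.newform.1 ιf hpr hp2 hpN D.p_mem hroot' hu ρ hdet hord
    S₀ fun l hl P hP σ hσ => (htr l hl P hP σ hσ).trans (hιf l).symm⟩

variable {p W} in
/-- The exponents of a prime in `N₀` and in the level raised from `N₀ p`, with the residual value
there: the cases of the multiplicity one statement. -/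
theorem exponents_raisedLevel {k : Type} [Field k] [CharP k p] {S₀ : Finset ℕ} (hpS : p ∈ S₀)
    {N₀ : ℕ} (hsq : Squarefree N₀) (hpN₀ : ¬ p ∣ N₀)
    (hN₀S : ∀ q : ℕ, q.Prime → q ∣ N₀ → q ∈ S₀)
    (hS₀N₀ : ∀ q ∈ S₀, q.Prime → q ≠ p → q ∣ N₀) {a : Nat.Primes → k} (hap : a (primeOf p) ≠ 0)
    (q : Nat.Primes) (hq : (q : ℕ) ∣ raisedLevel W S₀ (N₀ * p)) :
    (N₀.factorization q = 1 ∧ (raisedLevel W S₀ (N₀ * p)).factorization q = 1) ∨
      (N₀.factorization q = 0 ∧ (raisedLevel W S₀ (N₀ * p)).factorization q = 1 ∧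
        zeroOn (raisedPrimes' W S₀) a q ^ 2 ≠ ((q : ℕ) : k)) ∨
      (N₀.factorization q ≤ 1 ∧ (raisedLevel W S₀ (N₀ * p)).factorization q = 2 ∧
        zeroOn (raisedPrimes' W S₀) a q = 0 ∧ ((q : ℕ) : k) ≠ 0) := by
  have hpr : p.Prime := Fact.out
  have hsq' : Squarefree (N₀ * p) :=
    (Nat.squarefree_mul ((hpr.coprime_iff_not_dvd.mpr hpN₀).symm)).mpr ⟨hsq, hpr.squarefree⟩
  rw [factorization_raisedLevel hsq'.ne_zero q.2]
  have hN₀pS : ∀ r : ℕ, r.Prime → r ∣ N₀ * p → r ∈ S₀ := fun r hr hd =>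
    (hr.dvd_mul.mp hd).elim (hN₀S r hr) fun hd => (Nat.prime_dvd_prime_iff_eq hr hpr).mp hd ▸ hpS
  rcases Finset.mem_union.mp (mem_of_prime_dvd_raisedLevel hN₀pS q.2 hq) with hqS | hqT
  · have hqT : (q : ℕ) ∉ raisedPrimes W S₀ := fun h => (Finset.mem_sdiff.mp h).2 hqS
    rw [if_neg hqT, add_zero]
    by_cases hqp : (q : ℕ) = p
    · refine Or.inr (Or.inl ⟨by rw [hqp]; exact Nat.factorization_eq_zero_of_not_dvd hpN₀,
        Nat.factorization_eq_one_of_squarefree hsq' q.2 (by rw [hqp]; exact dvd_mul_left p N₀),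
        ?_⟩)
      rw [zeroOn_of_not_mem fun h => hqT (mem_raisedPrimes'.mp h),
        (CharP.cast_eq_zero_iff _ p _).mpr hqp.symm.dvd]
      obtain rfl : q = primeOf p := Subtype.ext hqp
      exact pow_ne_zero 2 hap
    · have hqN := hS₀N₀ q hqS q.2 hqp
      exact Or.inl ⟨Nat.factorization_eq_one_of_squarefree hsq q.2 hqN,
        Nat.factorization_eq_one_of_squarefree hsq' q.2 (hqN.mul_right p)⟩
  · have hqN : ¬ (q : ℕ) ∣ N₀ * p := fun h => (Finset.mem_sdiff.mp hqT).2 (hN₀pS q q.2 h)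
    refine Or.inr (Or.inr ⟨(Nat.factorization_eq_zero_of_not_dvd
        (fun h => hqN (h.mul_right p))).trans_le zero_le_one,
      by rw [Nat.factorization_eq_zero_of_not_dvd hqN, if_pos hqT],
      zeroOn_of_mem (mem_raisedPrimes'.mpr hqT), fun h0' => ?_⟩)
    rw [CharP.cast_eq_zero_iff _ p] at h0'
    exact (Finset.mem_sdiff.mp hqT).2
      ((Nat.prime_dvd_prime_iff_eq hpr q.2).mp h0' ▸ hpS)

include hp hΔ hW hirr in
/-- **Modularity lifting, case of multiplicative reduction at `p` with `p ∣ v_p(Δ)`.** -/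
theorem mlc1_of_mult_dvd (I : LiftingInputs) (hpΔ : (p : ℤ) ∣ W.Δ)
    (hv : p ∣ padicValInt p W.Δ) {M₀ : ℕ} [NeZero M₀]
    (hres₀ : W.IsResiduallyModularOfLevel p M₀) (hM₀ : ¬ p ^ 2 ∣ M₀)
    (hM₀3 : ∀ q : ℕ, q.Prime → q ≠ p → ¬ q ^ 3 ∣ M₀) :
    Mlc1IsModularModelOfExactConductorLevel W := by
  classical
  have hpr : p.Prime := Fact.out
  have hp2 : p ≠ 2 := by omega
  obtain ⟨hNZ, ⟨D⟩⟩ := exists_minimalData_minimalLevel hΔ hW hp hirr I.sqf I.peu
    I.residualCarayol (NeZero.pos M₀) hM₀ hM₀3 hres₀ hv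
  have := hNZ
  set N₀ := minimalLevel W p
  set S₀ : Finset ℕ := insert p (ramifiedPrimes W p) with hS₀
  have hpS : p ∈ S₀ := Finset.mem_insert_self _ _
  have hS₀pr : ∀ q ∈ S₀, q.Prime := fun q hq =>
    (Finset.mem_insert.mp hq).elim (fun h => h ▸ hpr) (prime_of_mem_ramifiedPrimes W p)
  have hN₀S : ∀ q : ℕ, q.Prime → q ∣ N₀ → q ∈ S₀ := fun q hq h =>
    Finset.mem_insert_of_mem ((prime_dvd_minimalLevel_iff W p hq).mp h)
  have hsq : Squarefree N₀ := squarefree_minimalLevel W p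
  have hpN₀ : ¬ p ∣ N₀ := fun h =>
    notMem_ramifiedPrimes_self W p ((prime_dvd_minimalLevel_iff W p hpr).mp h)
  have hU : ∀ q ∈ S₀, q.Prime → q ≠ p → q ∣ N₀ ∧ ¬ q ^ 2 ∣ N₀ := fun q hq hq' hqp =>
    ⟨(prime_dvd_minimalLevel_iff W p hq').mpr (Finset.mem_of_mem_insert_of_ne hq hqp),
      fun h => hq'.not_isUnit (hsq q (pow_two q ▸ h))⟩
  -- the residual representation and its system
  let O := D.𝒪
  set ρbar := residualOver W hΔ p (ResidueField O)
  obtain ⟨habs, hdet, hsplit, hTW, -⟩ :=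
    residualOver_spec W hΔ p (ResidueField O) hW hp hirr D.emb
  have hρbar : ∀ q : ℕ, q.Prime → q ∉ S₀ → ρbar.IsUnramifiedAt q := fun q hq hqS =>
    (residualOver_isUnramifiedAt_iff W hΔ p _ hW hp2 hq fun h => hqS (h ▸ hpS)).mpr
      fun h => hqS (Finset.mem_insert_of_mem h)
  have hbarFO := residualOver_flatOrdinaryFamily W hΔ p (O := O) (U := S₀) hW hp hirr (S := S₀)
    (fun _ h => h) hpΔ hv
  have hex := nonempty_ringData_flatOrdinaryFamily (U := S₀) (𝒪 := O) hp2 habs hbarFO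
  have hexF := nonempty_ringData_flatFamily (U := S₀) (𝒪 := O) habs
    (residualOver_flatFamily W hΔ p hW hp hirr (S := S₀) (fun _ h => h) (Or.inr hv))
  have hcongr : CongruentTo W p D.char := fun l hg hlN hlp => D.congr l hg hlN hlp
  let a := residualSystem D.char
  -- the minimal level
  obtain ⟨θ₀, hnt, h₀, H₀, hπ₀, hres⟩ :=
    exists_minimalLevel W hΔ hW hp hirr D.p_mem D.char hcongr hpS hN₀S
  have := hnt
  have hH₀ : flatOrdinaryFamily O p S₀ S₀ H₀.ρ :=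
    datum_flatOrdinaryFamily W hΔ hW hp hirr D.p_mem H₀ hN₀S (fun _ h => h) hU I.flat I.ordinary
      I.unipotent hpN₀ hpΔ hres
  obtain ⟨ha, hnonEis, h3⟩ :=
    residualSystem_spec hp W hΔ hW hirr D.p_mem hpS hN₀S hcongr h₀
  obtain ⟨r, h56'⟩ := (I.twPrimes p hp2 D.p_mem ρbar habs hdet hsplit hTW S₀ S₀ hpS
    (fun _ h => h) hS₀pr fun q hq hqp => mem_insert_iff_ramified W hΔ p _ hW hp2 hq hqp).2
  have h56 : HasTWPrimes ρbar p S₀ S₀ r (flatOrdinaryFamily O p S₀) :=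
    h56'.mono (condFamily_flatOrdinary hp2).isDeformationCondition hexF
      fun _ _ _ _ _ _ h => ⟨h.1.1, h.2⟩
  obtain ⟨D₀⟩ := hex S₀ (fun _ h => h)
  obtain ⟨φ₀, hφ₀, htr₀, hfree, hfin, ψ, rels, hψ, hrels⟩ :=
    exists_bijective_minimal (condFamily_flatOrdinary hp2) hp2 D.p_mem
      (Oddness.isOdd_of_detIsCyclotomic hpr.ne_zero hdet) hdet (fun _ h => h) hpS a ha hρbar h₀ H₀
      hπ₀ hH₀ hres D₀ hex h56
      (flatOrdinaryFamily_twLevel W hΔ hW hp hirr D.p_mem (fun _ h => h) (fun _ h => h) hN₀S hU r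
        I.flat I.ordinary I.unipotent hpN₀ hpΔ)
      hnonEis h3 I.unipotent I.carayol
      fun n qv hinj hqS hq1 α hα => I.forms p hp2 D.p_mem N₀ S₀ S₀ (fun _ h => h) hpS hN₀S a
        hnonEis r n qv hinj hqS hq1 α hα
  have := hfree
  have := hfin
  -- the point and the unit root
  obtain ⟨πL, hπL⟩ := exists_point D.char h₀ fun _ => rfl
  let π₀ : D₀.R →ₐ[O] O := πL.comp φ₀
  have hπ₀a : ∀ l : Nat.Primes, (l : ℕ) ∉ S₀ → ∀ P : ValuationSubring Qbar, P.LiesOverPrime l →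
      ∀ σ : GalQ, P.IsFrobeniusAt σ l →
        π₀ (LinearMap.trace D₀.R D₀.ρ.V (D₀.ρ.ρ σ)) = D.char (opT N₀ l) := fun l hl P hP σ hσ => by
    have hlN : ¬ (l : ℕ) ∣ N₀ := fun h => hl (hN₀S l l.2 h)
    have hlS : (l : ℕ) ∉ (↑S₀ : Set ℕ) := fun h => hl (Finset.mem_coe.mp h)
    rw [AlgHom.comp_apply, htr₀ l l.2 hlN hlS P hP σ hσ, hπ₀]
    exact hπL l l.2 hlN hlS
  have hπ₀loc : IsLocalHom (π₀ : D₀.R →+* O) := isLocalHom_of_algHom π₀
  obtain ⟨hcu, hu⟩ := D.isUnit_α hΔ hW hp2 hirr hpΔ hpN₀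
  set c := D.char (opT N₀ (primeOf p))
  have hdo := DefCond.detOrdinary_map hp2 (π₀ : D₀.R →+* O) hπ₀loc
    ⟨D₀.isOfType.1.1.1, D₀.isOfType.1.2⟩
  obtain ⟨hroot, hα1, Pp, hPp, σp, hσp, hval⟩ := D.exists_isQuotientValue_α hp2 hpN₀ hu
    (D₀.ρ.baseChangeAlong (π₀ : D₀.R →+* O) hπ₀loc) hdo.1 hdo.2 S₀
    fun l hl P hP σ hσ => by
      rw [LevelLowering.Avoid.trace_baseChangeAlong]
      exact hπ₀a l hl P hP σ hσ
  -- multiplicity
  obtain ⟨τ, hτ⟩ := D.exists_embedding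
  have := (levelModule h₀).isReduced_T hN₀S
  have hjL : ∀ (ℓ : ℕ) (hℓ : ℓ.Prime) (hℓN : ¬ ℓ ∣ N₀) (hℓS : ℓ ∉ (↑S₀ : Set ℕ)),
      algebraMap O (AlgebraicClosure (FractionRing O))
        (πL ((levelModule h₀).toT
          (heckeLocal.π N₀ (↑S₀ : Set ℕ) O θ₀ (heckeAlgebra.T hℓ hℓN hℓS)))) =
        τ (Mult.coefF D.newform.1 ℓ) := fun ℓ hℓ hℓN hℓS => by
    rw [hπL ℓ hℓ hℓN hℓS, hτ ⟨ℓ, hℓ⟩]
  have hscal : ∀ x : (levelModule h₀).M, (∀ y, π₀ y = 0 → φ₀ y • x = 0) →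
      (MvPolynomial.X (primeOf p) : GroupH1.HeckePoly O) • levelModuleEquiv h₀ x =
        c • levelModuleEquiv h₀ x := fun x hx => by
    obtain ⟨d, hd, -, hdx⟩ := exists_smul_eq_coeff h₀ πL τ D.newform dvd_rfl hjL (primeOf p)
      (Or.inl hpN₀) (pointPart_ne_bot h₀ πL)
    rw [hτ (primeOf p)] at hd
    rw [FaithfulSMul.algebraMap_injective O _ hd] at hdx
    refine hdx x ((Submodule.mem_torsionBySet_iff _ _).mpr fun t => ?_)
    obtain ⟨y, hy⟩ := hφ₀.2 t.1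
    show t.1 • x = 0
    rw [← hy]
    refine hx y ?_
    rw [AlgHom.comp_apply, hy]
    exact t.2
  refine mlc1_of_minimalFO I.levelExact I.ordinary I.unipotent W hΔ hW hp hirr hpΔ D.p_mem
    (fun _ h => h) hsq hpN₀ (fun q hq hq' => or_iff_not_imp_left.mpr fun hqp => (hU q hq hq' hqp).1)
    D.char hcongr D₀ h₀ H₀ hπ₀ φ₀ hφ₀ htr₀ ψ hψ rels hrels π₀ hscal hu hroot hπ₀loc hPp hσp hval
    hα1 ?_
  intro _ _ S θ h π' hSS hπ'
  refine le_trans ?_ (two_le_finrank_of_free h₀ πL τ D.newform hjL hsq)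
  refine finrank_torsion_le_two h π' τ D.newform ((dvd_mul_right N₀ p).trans (dvd_mul_right _ _))
    (fun ℓ hℓ hℓN hℓS => ?_) fun q hq => ?_
  · obtain ⟨P, hP⟩ := GaloisBasics.exists_liesOverPrime hℓ
    obtain ⟨σ, hσ⟩ := GaloisBasics.exists_isFrobeniusAt hP hℓ
    rw [hπ' ℓ hℓ hℓN hℓS P hP σ hσ, hπ₀a ⟨ℓ, hℓ⟩
      (fun h => hℓS (Finset.mem_coe.mpr (hSS h))) P hP σ hσ, hτ ⟨ℓ, hℓ⟩]
  · have : CharP (ResidueField O) p :=
      charP_of_injective_algebraMap (algebraMap (ZMod p) (ResidueField O)).injective p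
    exact exponents_raisedLevel hpS hsq hpN₀ hN₀S (fun q hq hq' hqp => (hU q hq hq' hqp).1)
      ((residue_ne_zero_iff_isUnit c).mpr hcu) q hq

end Fermat.Agent.Lifting
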