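import Fermat.Agent.Lifting.CaseF
import Fermat.Agent.Lifting.MinimalUnit

/-!
# Modularity lifting when `p` is multiplicative and `p ∤ v_p(Δ)`

The condition is: strictly ordinary at `p`, unipotent inertia at the primes where `W[p]` is
ramified. The minimal level is `p * minimalLevel W p`; it carries either a congruent newform or
the stabilisation at `p` of one of level `minimalLevel W p`.
-/

set_option autoImplicit false

noncomputable section

namespace Fermat.Agent.Lifting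

open IsLocalRing GaloisRep Polynomial WeierstrassCurve ModularFormClass
open CuspForm (HeckeGaloisRepDatum heckeAlgebra heckeLocal)
open CongruenceSubgroup
open Fermat.Agent.GaloisBasics (Qbar GalQ)

variable {p : ℕ} [Fact p.Prime]

variable (hp : p = 3 ∨ p = 5) (W : WeierstrassCurve ℤ) (hΔ : W.Δ ≠ 0)
  (hW : W.IsSemistableModel) (hirr : W.ModRepIsIrreducible p)
  {O : Type} [CommRing O] [IsDomain O] [IsDiscreteValuationRing O]
  [IsAdicComplete (maximalIdeal O) O] [Finite (ResidueField O)] [CharZero O]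
  [Algebra (ZMod p) (ResidueField O)]

include hp hΔ hW hirr in
/-- Case (S), given a character of level `N₀ = p * minimalLevel W p` congruent to the curve, the
eigenform `g₀` of that level it comes from, and the newform `g` behind it. -/
theorem mlc1_strict_of_char (I : LiftingInputs) (hpΔ : (p : ℤ) ∣ W.Δ)
    (hv : ¬ p ∣ padicValInt p W.Δ) (hpO : (p : O) ∈ maximalIdeal O)
    (emb : GaloisField p 2 →+* ResidueField O) {N₀ : ℕ} [NeZero N₀]
    (hN₀ : N₀ = p * minimalLevel W p) (χ : heckeAlgebra N₀ 2 (∅ : Set ℕ) →+* O)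
    (hcongr : CongruentTo W p χ)
    {g₀ : CuspForm (Gamma0 N₀) 2} (hg₀ : g₀.IsNormalizedEigenform)
    (τ : Mult.AlgC →+* AlgebraicClosure (FractionRing O))
    (hτ₀ : ∀ l : Nat.Primes, τ (Mult.coefF hg₀ l) = algebraMap O _ (χ (opT N₀ l)))
    {M : ℕ} [NeZero M] {g : CuspForm (Gamma0 M) 2} (hg : g.IsNewform) (hMN : M ∣ N₀)
    (hτ : ∀ l : Nat.Primes, ¬ (l : ℕ) ∣ N₀ →
      τ (Mult.coefF hg.1 l) = algebraMap O _ (χ (opT N₀ l)))
    (hloc : ∀ q : Nat.Primes, (q : ℕ) ∣ N₀ → M.factorization q = 1 ∨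
      ((q : ℕ) = p ∧ M.factorization q = 0 ∧ residualSystem χ q ≠ 0)) :
    Mlc1IsModularModelOfExactConductorLevel W := by
  classical
  have hpr : p.Prime := Fact.out
  have hp2 : p ≠ 2 := by omega
  set S₀ : Finset ℕ := insert p (ramifiedPrimes W p) with hS₀
  have hpS : p ∈ S₀ := Finset.mem_insert_self _ _
  have hS₀pr : ∀ q ∈ S₀, q.Prime := fun q hq =>
    (Finset.mem_insert.mp hq).elim (fun h => h ▸ hpr) (prime_of_mem_ramifiedPrimes W p)
  have hN₀S : ∀ q : ℕ, q.Prime → q ∣ N₀ → q ∈ S₀ := fun q hq h => by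
    rcases hq.dvd_mul.mp (hN₀ ▸ h) with h | h
    · rw [(Nat.prime_dvd_prime_iff_eq hq hpr).mp h]
      exact hpS
    · exact Finset.mem_insert_of_mem ((prime_dvd_minimalLevel_iff W p hq).mp h)
  have hsq : Squarefree N₀ := hN₀ ▸ squarefree_mul_minimalLevel
  have hdvd₀ : ∀ q ∈ S₀, q ∣ N₀ := fun q hq => by
    rcases Finset.mem_insert.mp hq with rfl | hq
    · exact hN₀ ▸ dvd_mul_right _ _
    · exact hN₀ ▸ dvd_mul_of_dvd_right
        ((prime_dvd_minimalLevel_iff W p (prime_of_mem_ramifiedPrimes W p hq)).mpr hq) p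
  have honce : ∀ q ∈ S₀, q ∣ N₀ ∧ ¬ q ^ 2 ∣ N₀ := fun q hq =>
    ⟨hdvd₀ q hq, fun h => (hS₀pr q hq).not_isUnit (hsq q (pow_two q ▸ h))⟩
  have hU : ∀ q ∈ S₀, q.Prime → q ≠ p → q ∣ N₀ ∧ ¬ q ^ 2 ∣ N₀ := fun q hq _ _ => honce q hq
  -- the residual representation and its system
  set ρbar := residualOver W hΔ p (ResidueField O)
  obtain ⟨habs, hdet, hsplit, hTW, -⟩ :=
    residualOver_spec W hΔ p (ResidueField O) hW hp hirr emb
  have hρbar : ∀ q : ℕ, q.Prime → q ∉ S₀ → ρbar.IsUnramifiedAt q := fun q hq hqS =>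
    (residualOver_isUnramifiedAt_iff W hΔ p _ hW hp2 hq fun h => hqS (h ▸ hpS)).mpr
      fun h => hqS (Finset.mem_insert_of_mem h)
  have hex := nonempty_ringData_strictFamily (U := S₀) (𝒪 := O) hp2 habs
    (residualOver_strictFamily W hΔ p hW hp hirr (S := S₀) (fun _ h => h) hpΔ)
  let a := residualSystem χ
  have hcongrB : ∀ l : Nat.Primes, W.IsGoodPrimeFor l → ¬ (l : ℕ) ∣ N₀ * p →
      a l = (W.apOfModel l : ResidueField O) := fun l hgd hd =>
    hcongr l hgd (fun h => hd (h.mul_right p)) fun h => hd (h ▸ dvd_mul_left _ _)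
  have hB : N₀ * p ≠ 0 := mul_ne_zero (NeZero.ne _) hpr.ne_zero
  -- the minimal level
  obtain ⟨θ₀, hnt, h₀, H₀, hπ₀, hres⟩ :=
    exists_minimalLevel W hΔ hW hp hirr hpO χ hcongr hpS hN₀S
  have := hnt
  have hH₀ : strictFamily O p S₀ S₀ H₀.ρ :=
    datum_strictFamily W hΔ hW hp hirr hpO H₀ hN₀S (fun _ h => h) hU I.ordinary I.unipotent
      (honce p hpS) hpΔ hv hres
  obtain ⟨ha, hnonEis, h3⟩ :=
    residualSystem_spec hp W hΔ hW hirr hpO hpS hN₀S hcongr h₀
  obtain ⟨r, h56⟩ := (I.twPrimes p hp2 hpO ρbar habs hdet hsplit hTW S₀ S₀ hpS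
    (fun _ h => h) hS₀pr fun q hq hqp => mem_insert_iff_ramified W hΔ p _ hW hp2 hq hqp).1
  obtain ⟨D₀⟩ := hex S₀ (fun _ h => h)
  obtain ⟨φ₀, hφ₀, htr₀, hfree, hfin, ψ, rels, hψ, hrels⟩ :=
    exists_bijective_minimal (condFamily_strict hp2) hp2 hpO
      (Oddness.isOdd_of_detIsCyclotomic hpr.ne_zero hdet) hdet (fun _ h => h) hpS a ha hρbar h₀ H₀
      hπ₀ hH₀ hres D₀ hex h56
      (strictFamily_twLevel W hΔ hW hp hirr hpO (fun _ h => h) (fun _ h => h) hN₀S hU r
        I.ordinary I.unipotent (honce p hpS) hpΔ hv)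
      hnonEis h3 I.unipotent I.carayol
      fun n qv hinj hqS hq1 α hα => I.forms p hp2 hpO N₀ S₀ S₀ (fun _ h => h) hpS hN₀S a
        hnonEis r n qv hinj hqS hq1 α hα
  have := hfree
  have := hfin
  obtain ⟨π₀, hπ₀a⟩ := exists_minimalPoint χ D₀ h₀ H₀ hπ₀ φ₀ htr₀
  -- above the minimal level
  have hS : insert p W.Δ.natAbs.primeFactors ⊆ S₀ ∪ raisedPrimes W S₀ := fun q hq => by
    by_cases hqS : q ∈ S₀
    · exact Finset.mem_union_left _ hqS
    · rcases Finset.mem_insert.mp hq with rfl | hq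
      · exact absurd hpS hqS
      · exact Finset.mem_union_right _ (Finset.mem_sdiff.mpr ⟨hq, hqS⟩)
  let ι : ℤ_[p] →+* O := RepTheory.padicHom p O hpO
  have hι : IsLocalHom ι := CurveTate.isLocalHom_padic p hpO ι
  refine mlc1_of_minimal I.levelExact W hΔ hW hp2 hirr hpO (condFamily_strict hp2) hpS hex hsq
    (fun q hq _ => Or.inr (hdvd₀ q hq)) h₀ hB hcongrB D₀ H₀ hπ₀ φ₀ hφ₀ htr₀ ψ hψ rels hrels π₀
    (fun N _ S θ H hSS hNS hfac _ hHres => ?_) ?_
    (CurveTate.tateRepOver W p ι hι hΔ)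
    (tateRepOver_strictFamily W hΔ p ι hι hW hpΔ hS)
    (tateRepOver_residual_isEquiv W hΔ p ι hι)
    (tateRepOver_trace_frobenius W hΔ p ι hι hS)
  · have hN : N ≠ 0 := NeZero.ne N
    have key : ∀ q ∈ S₀, q ∣ N ∧ ¬ q ^ 2 ∣ N := fun q hq => by
      have hq' := hS₀pr q hq
      rw [hq'.dvd_iff_one_le_factorization hN, hq'.pow_dvd_iff_le_factorization hN,
        hfac q hq hq', Nat.factorization_eq_one_of_squarefree hsq hq' (hdvd₀ q hq)]
      exact ⟨le_rfl, by omega⟩
    exact datum_strictFamily W hΔ hW hp hirr hpO H hNS hSS (fun q hq _ _ => key q hq)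
      I.ordinary I.unipotent (key p hpS) hpΔ hv hHres
  · intro _ _ θ h π' hπ'
    obtain ⟨πL, hπL⟩ := exists_point χ h₀ fun _ => rfl
    have := (levelModule h₀).isReduced_T hN₀S
    -- rank at least two at the minimal level
    refine le_trans ?_ ((two_le_finrank_pointPart_of_eigen h₀ πL τ hg₀ (fun l => χ (opT N₀ l))
      (fun l => (hτ₀ l).symm) (fun _ => rfl) fun l hl => ?_).trans (finrank_pointPart_le h₀ πL))
    · -- rank at most two at the raised level
      refine finrank_torsion_le_two h π' τ hg (hMN.trans (dvd_mul_right N₀ _))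
        (fun ℓ hℓ hℓN hℓS => ?_) fun q hq => ?_
      · have hℓS₀ : ℓ ∉ S₀ := fun h => hℓS (Finset.mem_coe.mpr (Finset.mem_union_left _ h))
        obtain ⟨P, hP⟩ := GaloisBasics.exists_liesOverPrime hℓ
        obtain ⟨σ, hσ⟩ := GaloisBasics.exists_isFrobeniusAt hP hℓ
        rw [hπ' ℓ hℓ hℓN hℓS P hP σ hσ, hπ₀a ⟨ℓ, hℓ⟩ hℓS₀ P hP σ hσ,
          hτ ⟨ℓ, hℓ⟩ fun h => hℓS₀ (hN₀S ℓ hℓ h)]
      · have hchar : CharP (ResidueField O) p :=
          charP_of_injective_algebraMap (algebraMap (ZMod p) (ResidueField O)).injective p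
        rw [factorization_raisedLevel (NeZero.ne N₀) q.2]
        rcases Finset.mem_union.mp (mem_of_prime_dvd_raisedLevel hN₀S q.2 hq) with hqS | hqT
        · have hqT : (q : ℕ) ∉ raisedPrimes W S₀ := fun h => (Finset.mem_sdiff.mp h).2 hqS
          have h1 := Nat.factorization_eq_one_of_squarefree hsq q.2 (hdvd₀ q hqS)
          rw [h1, if_neg hqT, add_zero]
          rcases hloc q (hdvd₀ q hqS) with hM1 | ⟨hqp, hM0, hne⟩
          · exact Or.inl ⟨hM1, rfl⟩
          · refine Or.inr (Or.inl ⟨hM0, rfl, ?_⟩)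
            rw [zeroOn_of_not_mem fun h => hqT (mem_raisedPrimes'.mp h),
              (CharP.cast_eq_zero_iff _ p _).mpr hqp.symm.dvd]
            exact pow_ne_zero 2 hne
        · have hqN : ¬ (q : ℕ) ∣ N₀ := fun h => (Finset.mem_sdiff.mp hqT).2 (hN₀S q q.2 h)
          have h0 := Nat.factorization_eq_zero_of_not_dvd hqN
          have hM0 : M.factorization q = 0 :=
            Nat.factorization_eq_zero_of_not_dvd fun h => hqN (h.trans hMN)
          refine Or.inr (Or.inr ⟨hM0.trans_le zero_le_one, by rw [h0, if_pos hqT],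
            zeroOn_of_mem (mem_raisedPrimes'.mpr hqT), fun h0' => ?_⟩)
          rw [CharP.cast_eq_zero_iff _ p] at h0'
          exact (Finset.mem_sdiff.mp hqT).2
            ((Nat.prime_dvd_prime_iff_eq hpr q.2).mp h0' ▸ hpS)
    · obtain ⟨l, hlp⟩ := l
      have hlS : l ∉ (↑S₀ : Set ℕ) := fun hm =>
        hl (Finset.mem_filter.mpr ⟨Finset.mem_coe.mp hm, hlp⟩)
      have hlN : ¬ l ∣ N₀ := fun hd => hlS (Finset.mem_coe.mpr (hN₀S l hlp hd))
      rw [pointCoeff_eq h₀ πL hlp hlN hlS]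
      exact hπL l hlp hlN hlS

variable (p) in
include hp hΔ hW hirr in
/-- **Modularity lifting, case of multiplicative reduction at `p` with `p ∤ v_p(Δ)`.** -/
theorem mlc1_of_mult_not_dvd (I : LiftingInputs) (hpΔ : (p : ℤ) ∣ W.Δ)
    (hv : ¬ p ∣ padicValInt p W.Δ) {M₀ : ℕ} [NeZero M₀]
    (hres₀ : W.IsResiduallyModularOfLevel p M₀) (hM₀ : ¬ p ^ 2 ∣ M₀)
    (hM₀3 : ∀ q : ℕ, q.Prime → q ≠ p → ¬ q ^ 3 ∣ M₀) :
    Mlc1IsModularModelOfExactConductorLevel W := by
  classical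
  have hpr : p.Prime := Fact.out
  obtain ⟨M, hNZ, hmin, hMle, ⟨D⟩⟩ := exists_minimalData hΔ hW hp hirr I.sqf I.peu
    I.residualCarayol (NeZero.pos M₀) hM₀ hM₀3 hres₀
  have := hNZ
  rw [minimalLevelAt, if_neg hv] at hMle
  have hsq := squarefree_minimalLevel W p
  have hpm : ¬ p ∣ minimalLevel W p := fun h =>
    notMem_ramifiedPrimes_self W p ((prime_dvd_minimalLevel_iff W p hpr).mp h)
  have hM1 : ∀ q : Nat.Primes, (q : ℕ) ∣ p * minimalLevel W p → (q : ℕ) ≠ p →
      M.factorization q = 1 := fun q hq hqp =>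
    Nat.factorization_eq_one_of_squarefree ((squarefree_mul_minimalLevel).squarefree_of_dvd hMle)
      q.2 (((q.2.dvd_mul.mp hq).resolve_left fun h =>
        hqp ((Nat.prime_dvd_prime_iff_eq q.2 hpr).mp h)).trans hmin)
  obtain ⟨τ, hτ⟩ := D.exists_embedding_coeff
  have hτf : ∀ l : Nat.Primes,
      τ (Mult.coefF D.newform.1 l) = algebraMap D.𝒪 _ (D.char (opT M l)) := fun l =>
    hτ _ (D.eig (opT M l)) (D.eig_opT l).symm
  by_cases hpM : p ∣ M
  · -- the newform has level `p * minimalLevel W p`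
    have hM : M = p * minimalLevel W p := Nat.dvd_antisymm hMle
      (((hpr.coprime_iff_not_dvd).mpr hpm).mul_dvd_of_dvd_of_dvd hpM hmin)
    exact mlc1_strict_of_char hp W hΔ hW hirr I hpΔ hv D.p_mem D.emb hM D.char D.congr
      D.newform.1 τ hτf D.newform dvd_rfl (fun l _ => hτf l) fun q hq => Or.inl <|
        Nat.factorization_eq_one_of_squarefree (hM ▸ squarefree_mul_minimalLevel) q.2 hq
  · -- the newform has level `minimalLevel W p`
    have hM : M = minimalLevel W p := Nat.dvd_antisymm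
      ((Nat.Coprime.dvd_mul_left ((hpr.coprime_iff_not_dvd).mpr hpM).symm).mp hMle) hmin
    obtain ⟨g, hNZ', eig', hg, hcoeff, hαp, heq⟩ := D.exists_stabilised hpM
    have := hNZ'
    have hcongr : CongruentTo W p (D.ι.comp eig') := fun l hgd hlN hlp => by
      show residue D.𝒪 (D.ι (eig' (opT (p * M) l))) = _
      rw [heq l hlp]
      exact D.congr l hgd (fun h => hlN (h.mul_left p)) hlp
    refine mlc1_strict_of_char hp W hΔ hW hirr I hpΔ hv D.p_mem D.emb (by rw [hM])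
      (D.ι.comp eig') hcongr hg τ (fun l => hτ _ _ (hcoeff l).symm) D.newform (dvd_mul_left M p)
      (fun l hl => ?_) fun q hq => ?_
    · have hlp : (l : ℕ) ≠ p := fun h => hl (h ▸ dvd_mul_right _ M)
      rw [hτf l, RingHom.comp_apply, heq l hlp]
      rfl
    · by_cases hqp : (q : ℕ) = p
      · refine Or.inr ⟨hqp, hqp ▸ Nat.factorization_eq_zero_of_not_dvd hpM, ?_⟩
        obtain rfl : q = ⟨p, hpr⟩ := Subtype.ext hqp
        show residue D.𝒪 (D.ι (eig' (opT (p * M) ⟨p, _⟩))) ≠ 0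
        rw [hαp]
        exact (residue_ne_zero_iff_isUnit _).mpr
          (D.isUnit_α hΔ hW (by omega) hirr hpΔ hpM).2
      · exact Or.inl (hM1 q (hM ▸ hq) hqp)

end Fermat.Agent.Lifting
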