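import Fermat.Agent.Lifting.CaseF
import Fermat.Agent.Lifting.CaseFOMain
import Fermat.Agent.Lifting.CaseS

/-!
# Modularity lifting at `p = 3, 5`: the case distinction

Good reduction at `p`, multiplicative with `p ∣ v_p(Δ)`, multiplicative with `p ∤ v_p(Δ)`.
-/

set_option autoImplicit false

noncomputable section

namespace Fermat.Agent.Lifting

open WeierstrassCurve

/-- **Modularity lifting at `p = 3, 5`** from its inputs. -/
theorem mlc1_of_inputs (I : LiftingInputs) (p : ℕ) (hp : p = 3 ∨ p = 5)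
    (W : WeierstrassCurve ℤ) (hΔ : W.Δ ≠ 0) (hW : W.IsSemistableModel)
    (hirr : W.ModRepIsIrreducible p) (M₀ : ℕ) [NeZero M₀]
    (hres₀ : W.IsResiduallyModularOfLevel p M₀) (hM₀ : ¬ p ^ 2 ∣ M₀)
    (hM₀3 : ∀ q : ℕ, q.Prime → q ≠ p → ¬ q ^ 3 ∣ M₀) :
    Mlc1IsModularModelOfExactConductorLevel W := by
  have : Fact p.Prime := ⟨by rcases hp with rfl | rfl <;> norm_num⟩
  by_cases hd : (p : ℤ) ∣ W.Δ
  · by_cases hv : p ∣ padicValInt p W.Δ
    · exact mlc1_of_mult_dvd p hp W hΔ hW hirr I hd hv hres₀ hM₀ hM₀3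
    · exact mlc1_of_mult_not_dvd p hp W hΔ hW hirr I hd hv hres₀ hM₀ hM₀3
  · exact mlc1_of_good p hp W hΔ hW hirr I hd hres₀ hM₀ hM₀3

end Fermat.Agent.Lifting
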