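import Fermat.Agent.GroupH1.TWLevel
import Fermat.Agent.Lifting.UnramifiedStep
import Fermat.Agent.Frobenius.Existence

/-!
# Taylor–Wiles roots from Taylor–Wiles primes

At a prime `q ≡ 1 (mod p)` where Frobenius has two distinct eigenvalues, one of them is a
Taylor–Wiles root of the residual system.
-/

set_option autoImplicit false

noncomputable section

namespace Fermat.Agent.Lifting

open IsLocalRing GaloisRep Polynomial
open Fermat.Agent.GroupH1 (IsTWRoot)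

variable {𝒪 : Type} [CommRing 𝒪] [IsDomain 𝒪] [IsDiscreteValuationRing 𝒪]
  [IsAdicComplete (maximalIdeal 𝒪) 𝒪]

omit [IsAdicComplete (maximalIdeal 𝒪) 𝒪] in
/-- The Taylor–Wiles root at one prime. -/
theorem exists_isTWRoot (ρbar : ResidualGaloisRep (ResidueField 𝒪)) {p : ℕ} [Fact p.Prime]
    (hp𝒪 : (p : 𝒪) ∈ maximalIdeal 𝒪)
    (hdet : (GaloisRepAdic.ofResidualGaloisRep ρbar).DetIsCyclotomic p)
    (a : Nat.Primes → ResidueField 𝒪) (q : Nat.Primes) (hqp : p ∣ (q : ℕ) - 1)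
    (hsplit : ∀ P : ValuationSubring (AlgebraicClosure ℚ), P.LiesOverPrime q →
      ∀ φ : AlgebraicClosure ℚ ≃ₐ[ℚ] AlgebraicClosure ℚ, P.IsFrobeniusAt φ q →
        ∃ α β : ResidueField 𝒪, α ≠ β ∧ LinearMap.charpoly (ρbar.ρ φ) = (X - C α) * (X - C β))
    (htr : ∀ P : ValuationSubring (AlgebraicClosure ℚ), P.LiesOverPrime q →
      ∀ φ : AlgebraicClosure ℚ ≃ₐ[ℚ] AlgebraicClosure ℚ, P.IsFrobeniusAt φ q →
        LinearMap.trace (ResidueField 𝒪) ρbar.V (ρbar.ρ φ) = a q) :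
    ∃ α : ResidueField 𝒪, IsTWRoot a q α := by
  obtain ⟨P, φ, hP, hφ⟩ := Fermat.Agent.Frobenius.exists_place_isFrobeniusAt q.2
  obtain ⟨α, β, hne, hchar⟩ := hsplit P hP φ hφ
  have hp := (Fact.out : p.Prime)
  have hpk : (p : ResidueField 𝒪) = 0 := by
    rw [← map_natCast (residue 𝒪), residue_eq_zero_iff]; exact hp𝒪
  have hq1 : ((q : ℕ) : ResidueField 𝒪) = 1 := by
    obtain ⟨c, hc⟩ := hqp
    rw [show (q : ℕ) = p * c + 1 by rw [← hc, Nat.sub_add_cancel q.2.one_le]]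
    simp [hpk]
  have hne' : (q : ℕ) ≠ p := fun h => by
    have h1 := hqp
    rw [h] at h1
    have := Nat.le_of_dvd (Nat.sub_pos_of_lt hp.one_lt) h1
    have := hp.pos
    omega
  have hdet' : LinearMap.det (ρbar.ρ φ) = 1 := by
    have h := det_frobenius_sub_mem hdet hp q.2 hne' hP hφ 1
    rw [pow_one, hpk, Ideal.span_singleton_eq_bot.mpr rfl, Ideal.mem_bot, sub_eq_zero, hq1] at h
    exact h
  set b := Module.finBasisOfFinrankEq (ResidueField 𝒪) ρbar.V ρbar.finrank_eq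
  rw [← LinearMap.charpoly_toMatrix (ρbar.ρ φ) b, Matrix.charpoly_fin_two,
    ← LinearMap.trace_eq_matrix_trace, LinearMap.det_toMatrix, htr P hP φ hφ, hdet'] at hchar
  have h0 := congrArg (fun f : (ResidueField 𝒪)[X] => f.coeff 0) hchar
  have h1 := congrArg (fun f : (ResidueField 𝒪)[X] => f.coeff 1) hchar
  simp [coeff_X_pow, coeff_C, mul_coeff_one, coeff_one] at h0 h1
  have hαβ : α * β = 1 := by linear_combination -h0
  have hα : α ≠ 0 := fun h => one_ne_zero (by rw [← hαβ, h, zero_mul])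
  have hβ : α⁻¹ = β := inv_eq_of_mul_eq_one_right hαβ
  refine ⟨α, hq1, hα, by rw [hβ]; linear_combination -h1, fun h2 => hne ?_⟩
  rw [← hβ]
  exact eq_inv_of_mul_eq_one_left (by rwa [← sq])

omit [IsAdicComplete (maximalIdeal 𝒪) 𝒪] in
/-- Taylor–Wiles roots at a finite family of Taylor–Wiles primes. -/
theorem exists_twRoots (ρbar : ResidualGaloisRep (ResidueField 𝒪)) {p : ℕ} [Fact p.Prime]
    (hp𝒪 : (p : 𝒪) ∈ maximalIdeal 𝒪)
    (hdet : (GaloisRepAdic.ofResidualGaloisRep ρbar).DetIsCyclotomic p)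
    (a : Nat.Primes → ResidueField 𝒪) (S : Finset ℕ) {n r : ℕ} (qv : Fin r → ℕ)
    (hqv : ∀ i, (qv i).Prime ∧ qv i ∉ S ∧ p ^ (n + 1) ∣ qv i - 1)
    (hsplit : ∀ i, ∀ P : ValuationSubring (AlgebraicClosure ℚ), P.LiesOverPrime (qv i) →
      ∀ φ : AlgebraicClosure ℚ ≃ₐ[ℚ] AlgebraicClosure ℚ, P.IsFrobeniusAt φ (qv i) →
        ∃ α β : ResidueField 𝒪, α ≠ β ∧ LinearMap.charpoly (ρbar.ρ φ) = (X - C α) * (X - C β))
    (htr : ∀ q : Nat.Primes, (q : ℕ) ∉ S →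
      ∀ P : ValuationSubring (AlgebraicClosure ℚ), P.LiesOverPrime q →
        ∀ φ : AlgebraicClosure ℚ ≃ₐ[ℚ] AlgebraicClosure ℚ, P.IsFrobeniusAt φ q →
          LinearMap.trace (ResidueField 𝒪) ρbar.V (ρbar.ρ φ) = a q) :
    ∃ α : Nat.Primes → ResidueField 𝒪, ∀ i, IsTWRoot a ⟨qv i, (hqv i).1⟩ (α ⟨qv i, (hqv i).1⟩) := by
  classical
  have h : ∀ q : Nat.Primes, ∃ α, (∃ i, qv i = (q : ℕ)) → IsTWRoot a q α := fun q => by
    by_cases hq : ∃ i, qv i = (q : ℕ)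
    · obtain ⟨i, hi⟩ := hq
      obtain ⟨α, hα⟩ := exists_isTWRoot ρbar hp𝒪 hdet a q
        (hi ▸ (dvd_pow_self p n.succ_ne_zero).trans (hqv i).2.2)
        (hi ▸ hsplit i) (htr q (hi ▸ (hqv i).2.1))
      exact ⟨α, fun _ => hα⟩
    · exact ⟨0, fun h => absurd h hq⟩
  choose α hα using h
  exact ⟨α, fun i => hα _ ⟨i, rfl⟩⟩

end Fermat.Agent.Lifting
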