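import Fermat.Agent.Lifting.TraceGen
import Fermat.Agent.HeckeRep.Unconditional
import Fermat.Agent.Newforms.Main
import Fermat.Agent.S54

/-!
# The inertia character of a deformation at a point with a form

At a Taylor–Wiles prime a point of the deformation ring whose Frobenius traces are the eigenvalues
of an eigenform is nontrivial on the inertia character when the newform has exponent two at the
prime (Carayol) and trivial when the prime divides the level at most once.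
-/

set_option autoImplicit false

noncomputable section

open Polynomial IsLocalRing

namespace Fermat.Agent.Lifting

open GaloisRep Fermat.Agent.TangentBound Fermat.Agent.GaloisBasics
open Fermat.Agent.RepTheory (Gal IsFrobOutside)

/-- The Galois representations of a level exactly divisible by `q ≠ p` have unipotent inertia
at `q`. -/
def UnipotentAtSemistable : Prop :=
  ∀ {𝒪 : Type} [CommRing 𝒪] [IsDomain 𝒪] [IsDiscreteValuationRing 𝒪]
    [IsAdicComplete (maximalIdeal 𝒪) 𝒪] [Finite (ResidueField 𝒪)] [CharZero 𝒪]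
    {p : ℕ} (_hp : p.Prime) (_hp𝒪 : (p : 𝒪) ∈ maximalIdeal 𝒪)
    {N : ℕ} [NeZero N] {S : Finset ℕ} (_hpS : p ∈ S)
    (_hNS : ∀ q : ℕ, q.Prime → q ∣ N → q ∈ S)
    {θ : CuspForm.heckeAlgebra N 2 (↑S : Set ℕ) →+* ResidueField 𝒪}
    {T : Type} [CommRing T] [IsLocalRing T] [IsNoetherianRing T]
    [IsAdicComplete (maximalIdeal T) T] [Algebra 𝒪 T] [IsLocalHom (algebraMap 𝒪 T)]
    [Module.Finite 𝒪 T] [Module.Free 𝒪 T]
    (H : CuspForm.HeckeGaloisRepDatum N (↑S : Set ℕ) 𝒪 θ T)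
    (q : ℕ) (_hq : q.Prime) (_hqp : q ≠ p) (_hqN : q ∣ N) (_hq2 : ¬ q ^ 2 ∣ N),
    H.ρ.IsUnipotentOnInertiaAt q

/-- The Frobenius polynomial of a representation with cyclotomic determinant. -/
theorem charpoly_frobenius_eq {A : Type} [CommRing A] [IsLocalRing A]
    [IsHausdorff (maximalIdeal A) A] (ρ : GaloisRepAdic A) {p ℓ : ℕ} (hp : p.Prime) (hℓ : ℓ.Prime)
    (hℓp : ℓ ≠ p) (hdet : ρ.DetIsCyclotomic p) {P : ValuationSubring Qbar}
    (hP : P.LiesOverPrime ℓ) {φ : GalQ} (hφ : P.IsFrobeniusAt φ ℓ) :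
    LinearMap.charpoly (ρ.ρ φ) = X ^ 2 - C (ρ.trace φ) * X + C (ℓ : A) := by
  rw [ConductorLevel.charpoly_eq_of_finrank_two ρ.finrank_eq]
  have : LinearMap.det (ρ.ρ φ) = (ℓ : A) :=
    sub_eq_zero.mp (TWTwist.eq_zero_of_forall_mem_pow fun n =>
      (Ideal.span_singleton_le_iff_mem _).mpr (Ideal.pow_mem_pow hdet.1 n)
        (det_frobenius_sub_mem hdet hp hℓ hℓp hP hφ n))
  rw [this]
  rfl

/-- An inertia character of a unipotent representation over a domain is trivial. -/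
theorem map_char_eq_one {A O : Type} [CommRing A] [CommRing O] [IsDomain O] [IsLocalRing O]
    (ρ : GaloisRepAdic O) {q : ℕ} (hu : ρ.IsUnipotentOnInertiaAt q)
    {P : ValuationSubring Qbar} (hP : P.LiesOverPrime q) (π : A →+* O)
    {σ : GalQ} (hσ : σ ∈ P.inertiaSubgroupIn ℚ) {u v : A}
    (hchar : LinearMap.charpoly (ρ.ρ σ) = ((X - C u) * (X - C v)).map π) : π u = 1 := by
  rw [hu P hP σ hσ] at hchar
  have := congrArg (fun f : O[X] => f.eval (π u)) hchar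
  simpa [sub_eq_zero] using this

variable {𝒪 : Type} [CommRing 𝒪] [IsDomain 𝒪] [IsDiscreteValuationRing 𝒪]
  [IsAdicComplete (maximalIdeal 𝒪) 𝒪]
  {ρbar : ResidualGaloisRep (ResidueField 𝒪)}
  {𝒟 : ∀ ⦃A : Type⦄ [CommRing A] [IsLocalRing A] [Algebra 𝒪 A], GaloisRepAdic A → Prop}
  {O' : Type} [CommRing O'] [IsDomain O'] [IsDiscreteValuationRing O']
  [IsAdicComplete (maximalIdeal O') O'] [Finite (ResidueField O')] [CharZero O']
  [Algebra 𝒪 O'] [IsLocalHom (algebraMap 𝒪 O')]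

omit [IsAdicComplete (maximalIdeal O') O'] [Finite (ResidueField O')] [CharZero O'] in
/-- A point of a deformation ring is residually absolutely irreducible. -/
theorem residual_baseChange_absIrr (D : DeformationRingData 𝒪 ρbar 𝒟) (π : D.R →ₐ[𝒪] O')
    (hπ : IsLocalHom (π : D.R →+* O')) :
    (D.ρ.baseChangeAlong (π : D.R →+* O') hπ).residual.IsAbsolutelyIrreducible := by
  obtain ⟨e⟩ := residual_baseChange_isEquiv D π hπ
  exact RepTheory.isAbsolutelyIrreducible_of_isEquiv ⟨e.symm⟩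
    (RepTheory.isAbsolutelyIrreducible_baseChangeAlong _ _ D.absIrr)

omit [IsAdicComplete (maximalIdeal O') O'] [Finite (ResidueField O')] [CharZero O'] in
/-- A point of a deformation ring of an odd representation is residually odd. -/
theorem residual_baseChange_isOdd (hodd : ρbar.IsOdd) (D : DeformationRingData 𝒪 ρbar 𝒟)
    (π : D.R →ₐ[𝒪] O') (hπ : IsLocalHom (π : D.R →+* O')) :
    (D.ρ.baseChangeAlong (π : D.R →+* O') hπ).residual.IsOdd := by
  obtain ⟨e⟩ := residual_baseChange_isEquiv D π hπ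
  intro c hc hc1
  let _ : Algebra (ResidueField 𝒪) (ResidueField O') :=
    (ResidueField.map (algebraMap 𝒪 O')).toAlgebra
  have hcj : (ρbar.baseChangeAlong (ResidueField.map (algebraMap 𝒪 O'))).ρ c =
      (e.toLinearEquiv : _ →ₗ[ResidueField O'] _) ∘ₗ
        ((D.ρ.baseChangeAlong (π : D.R →+* O') hπ).residual.ρ c) ∘ₗ
        (e.toLinearEquiv.symm : _ →ₗ[ResidueField O'] _) := LinearMap.ext fun v => by
    simp [e.map_apply]
  have h := congrArg LinearMap.det hcj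
  rw [LinearMap.det_conj] at h
  rw [← h]
  refine (LinearMap.det_baseChange (A := ResidueField O') (ρbar.ρ c)).trans ?_
  rw [hodd c hc hc1, map_neg, map_one]

/-- The traces of Frobenius at a point are the eigenvalues of a form, through `ι`. -/
def HasTraces {M : ℕ} (f : CuspForm (CongruenceSubgroup.Gamma0 M) 2) (S : Finset ℕ)
    (D : DeformationRingData 𝒪 ρbar 𝒟) (π : D.R →ₐ[𝒪] O') : Prop :=
  ∃ (R : Subring ℂ) (hR : ∀ ℓ : ℕ, ℓ.Prime → ℓ ∉ S → ModularFormClass.qCoeff f ℓ ∈ R)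
    (ι : R →+* O'),
    ∀ (ℓ : ℕ) (hℓ : ℓ.Prime) (hℓS : ℓ ∉ S), ∀ P : ValuationSubring (AlgebraicClosure ℚ),
      P.LiesOverPrime ℓ → ∀ σ : Gal, P.IsFrobeniusAt σ ℓ →
        π (D.ρ.trace σ) = ι ⟨_, hR ℓ hℓ hℓS⟩

variable {p q : ℕ} [Fact p.Prime]

/-- **Exponent two: the inertia character is nontrivial.** -/
theorem map_inertiaChar_ne_one (h36 : ConductorLevel.NewformCarayol) (hodd : ρbar.IsOdd)
    (D : DeformationRingData 𝒪 ρbar 𝒟) (hdet : D.ρ.DetIsCyclotomic p) (hp2 : p ≠ 2)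
    (π : D.R →ₐ[𝒪] O') (hπ : IsLocalHom (π : D.R →+* O'))
    {M : ℕ} [NeZero M] {g : CuspForm (CongruenceSubgroup.Gamma0 M) 2} (hg : g.IsNewform)
    {S : Finset ℕ} (_hpS : p ∈ S) (htr : HasTraces g S D π) (hq : q.Prime) (hqp : q ≠ p)
    (hM2 : M.factorization q = 2) {P : ValuationSubring Qbar} (hP : P.LiesOverPrime q)
    (χ : P.inertiaSubgroupIn ℚ →* D.Rˣ)
    (hchar : ∀ σ : P.inertiaSubgroupIn ℚ, LinearMap.charpoly (D.ρ.ρ σ) =
      (X - C (χ σ : D.R)) * (X - C (((χ σ)⁻¹ : D.Rˣ) : D.R)))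
    (τ : P.inertiaSubgroupIn ℚ) (hgen : ∀ σ, ∃ j : ℕ, χ σ = χ τ ^ j) :
    π (χ τ : D.R) ≠ 1 := by
  obtain ⟨R, hR, ι, htr⟩ := htr
  have hpO : (p : O') ∈ maximalIdeal O' := by
    rw [← map_natCast (π : D.R →+* O')]
    exact map_nonunit (π : D.R →+* O') _ hdet.1
  have hnu := TWTwist.not_isUnipotentOnInertiaAt_of_newform h36 hp2 hpO
    (D.ρ.baseChangeAlong (π : D.R →+* O') hπ) (residual_baseChange_absIrr D π hπ)
    (residual_baseChange_isOdd hodd D π hπ) hg S (R := R) (fun ℓ hℓ _ hℓS => hR ℓ hℓ hℓS) ι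
    (fun ℓ hℓ _ hℓS hℓp A hA σ hσ => by
      rw [TWTwist.charpoly_baseChangeAlong_apply,
        charpoly_frobenius_eq D.ρ Fact.out hℓ hℓp hdet hA hσ, ← htr ℓ hℓ hℓS A hA σ hσ]
      simp)
    hq hqp hM2
  exact TWTwist.map_char_ne_one _ hq hnu hP (π : D.R →+* O') χ
    (fun σ => by rw [TWTwist.charpoly_baseChangeAlong_apply, hchar σ]) τ hgen

variable [CharZero 𝒪] [Finite (ResidueField 𝒪)]

omit [CharZero 𝒪] [Finite (ResidueField 𝒪)] in
/-- **Exponent at most one: the inertia character is trivial.** -/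
theorem map_inertiaChar_eq_one (h34 : UnipotentAtSemistable)
    (D : DeformationRingData 𝒪 ρbar 𝒟) (hdet : D.ρ.DetIsCyclotomic p)
    (π : D.R →ₐ[𝒪] O') (hπ : IsLocalHom (π : D.R →+* O'))
    {M : ℕ} [NeZero M] {f : CuspForm (CongruenceSubgroup.Gamma0 M) 2}
    (hf : f.IsNormalizedEigenform)
    {S : Finset ℕ} (hpS : p ∈ S) (hqS : q ∈ S) (htr : HasTraces f S D π) (hq : q.Prime)
    (hqp : q ≠ p) (hM2 : M.factorization q ≤ 1)
    {P : ValuationSubring Qbar} (hP : P.LiesOverPrime q) {σ : GalQ}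
    (hσ : σ ∈ P.inertiaSubgroupIn ℚ) {u v : D.R}
    (hchar : LinearMap.charpoly (D.ρ.ρ σ) = (X - C u) * (X - C v)) : π u = 1 := by
  classical
  -- pass to a level where `q` divides exactly once
  obtain ⟨M', hM0, hqM', hq2, f', hf', hcoef⟩ : ∃ M' : ℕ, 0 < M' ∧ q ∣ M' ∧ ¬ q ^ 2 ∣ M' ∧
      ∃ f' : CuspForm (CongruenceSubgroup.Gamma0 M') 2, f'.IsNormalizedEigenform ∧
        ∀ ℓ : ℕ, ℓ.Prime → ℓ ≠ q →
          ModularFormClass.qCoeff ⇑f' ℓ = ModularFormClass.qCoeff ⇑f ℓ := by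
    have hM0 : 0 < M := Nat.pos_of_ne_zero (NeZero.ne M)
    by_cases hqM : q ∣ M
    · refine ⟨M, hM0, hqM, fun h => ?_, f, hf, fun _ _ _ => rfl⟩
      have := (hq.pow_dvd_iff_le_factorization hM0.ne').mp h
      omega
    · obtain ⟨f', hf', h⟩ := Newforms.exists_eigenform_of_dvd (dvd_mul_right M q)
        (Nat.mul_pos hM0 hq.pos) f hf
      refine ⟨M * q, Nat.mul_pos hM0 hq.pos, dvd_mul_left q M, fun h2 => hqM ?_, f', hf',
        fun ℓ hℓ hℓq => h ℓ hℓ ?_⟩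
      · rw [pow_two] at h2
        exact Nat.dvd_of_mul_dvd_mul_right hq.pos h2
      · rw [Nat.mul_div_cancel_left _ hM0]
        exact fun hd => hℓq ((Nat.prime_dvd_prime_iff_eq hℓ hq).mp hd)
  have : NeZero M' := ⟨hM0.ne'⟩
  obtain ⟨R, hR, ι, htr⟩ := htr
  set T : Finset ℕ := S ∪ M'.primeFactors with hT
  have hpT : p ∈ T := Finset.mem_union_left _ hpS
  have hMT : ∀ r : ℕ, r.Prime → r ∣ M' → r ∈ T := fun r hr hrM =>
    Finset.mem_union_right _ (Nat.mem_primeFactors.mpr ⟨hr, hrM, hM0.ne'⟩)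
  have hout : ∀ ℓ : ℕ, ℓ ∉ (↑T : Set ℕ) → ℓ ∉ S ∧ ℓ ≠ q := fun ℓ h =>
    ⟨fun h' => h (Finset.mem_coe.mpr (Finset.mem_union_left _ h')),
      fun e => h (Finset.mem_coe.mpr (Finset.mem_union_left _ (e ▸ hqS)))⟩
  have hmem : ∀ t, HeckeEigen.eigenChar hf' (↑T : Set ℕ) t ∈ R :=
    TWTwist.apply_mem_of_forall_T (fun r hr hrM => hMT r hr hrM) _ fun ℓ hℓ hℓM hℓT => by
      rw [HeckeEigen.eigenChar_T hf' hℓ hℓM hℓT, hcoef ℓ hℓ (hout ℓ hℓT).2]
      exact hR ℓ hℓ (hout ℓ hℓT).1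
  let chi : CuspForm.heckeAlgebra M' 2 (↑T : Set ℕ) →+* O' :=
    ι.comp ((HeckeEigen.eigenChar hf' (↑T : Set ℕ)).codRestrict R hmem)
  let θ : CuspForm.heckeAlgebra M' 2 (↑T : Set ℕ) →+* ResidueField O' := (residue O').comp chi
  set ρ' := D.ρ.baseChangeAlong (π : D.R →+* O') hπ
  have hpO : (p : O') ∈ maximalIdeal O' := by
    rw [← map_natCast (π : D.R →+* O')]
    exact map_nonunit (π : D.R →+* O') _ hdet.1
  have hchi : ∀ (ℓ : ℕ) (hℓ : ℓ.Prime) (hℓM : ¬ ℓ ∣ M') (hℓT : ℓ ∉ (↑T : Set ℕ)),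
      ∀ A : ValuationSubring (AlgebraicClosure ℚ), A.LiesOverPrime ℓ →
        ∀ σ : Gal, A.IsFrobeniusAt σ ℓ → LinearMap.charpoly (ρ'.ρ σ) =
          X ^ 2 - C (chi (CuspForm.heckeAlgebra.T hℓ hℓM hℓT)) * X + C (ℓ : O') := by
    intro ℓ hℓ hℓM hℓT A hA σ hσ
    obtain ⟨hℓS, hℓq⟩ := hout ℓ hℓT
    have hℓp : ℓ ≠ p := fun e => hℓS (e ▸ hpS)
    rw [TWTwist.charpoly_baseChangeAlong_apply,
      charpoly_frobenius_eq D.ρ Fact.out hℓ hℓp hdet hA hσ]
    have he : chi (CuspForm.heckeAlgebra.T hℓ hℓM hℓT) = ι ⟨_, hR ℓ hℓ hℓS⟩ :=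
      congrArg ι (Subtype.ext ((HeckeEigen.eigenChar_T hf' hℓ hℓM hℓT).trans (hcoef ℓ hℓ hℓq)))
    rw [he, ← htr ℓ hℓ hℓS A hA σ hσ]
    simp
  have : Fact (CuspForm.HasIntegralStructure M' 2) := HeckeRep.fact_hasIntegralStructure M'
  obtain ⟨H, hHπ, -⟩ := HeckeRep.nonempty_heckeGaloisRepDatum p M' T O' θ hpT hMT hpO ρ'.residual
    (residual_baseChange_absIrr D π hπ) fun ℓ hℓ hℓM hℓT A hA σ hσ => by
      have h1 : LinearMap.charpoly (ρ'.residual.ρ σ) =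
          (LinearMap.charpoly (ρ'.ρ σ)).map (residue O') :=
        LinearMap.charpoly_baseChange (ρ'.ρ σ) (ResidueField O')
      rw [h1, hchi ℓ hℓ hℓM hℓT A hA σ hσ]
      simp [θ]
  obtain ⟨ψ, hψ⟩ := H.exists_point chi fun t => rfl
  have hψl : IsLocalHom (ψ : CuspForm.heckeLocal M' (↑T : Set ℕ) O' θ →+* O') :=
    .of_surjective _ fun x => ⟨algebraMap O' _ x, ψ.commutes x⟩
  have hequiv : ρ'.IsEquiv (H.ρ.baseChangeAlong _ hψl) := by
    refine RepTheory.adic_isEquiv_of_frobenius (TWTwist.frobGenerates_chebotarev T) _ _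
      (residual_baseChange_absIrr D π hπ) ?_
    rintro φ ⟨ℓ, hℓ, hℓT, A, hA, hφ⟩
    have hℓM : ¬ ℓ ∣ M' := fun h => hℓT (Finset.mem_coe.mpr (hMT ℓ hℓ h))
    rw [TWTwist.charpoly_baseChangeAlong_apply _ hψl, hchi ℓ hℓ hℓM hℓT A hA φ hφ,
      H.charpoly_frob ℓ hℓ hℓM hℓT A hA φ hφ]
    simp [hψ]
  have hu := h34 Fact.out hpO hpT hMT H q hq hqp hqM' hq2
  refine map_char_eq_one ρ' (fun P' hP' σ' hσ' => ?_) hP (π : D.R →+* O') hσ
    (by rw [TWTwist.charpoly_baseChangeAlong_apply, hchar])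
  rw [S54.charpoly_eq_of_isEquiv ⟨hequiv.some.symm⟩, TWTwist.charpoly_baseChangeAlong_apply,
    hu P' hP' σ' hσ']
  simp

end Fermat.Agent.Lifting
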