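import Fermat.Agent.Lifting.Level
import Fermat.Agent.HeckeCohom.EigenHoms
import Fermat.Agent.Newforms.Main
import Fermat.Prelude.Def_WeierstrassCurve_Mlc1RowStatement
import Fermat.Prelude.Def_WeierstrassCurve_ConductorLevel

/-!
# From `R = T` to modularity

If the deformation ring maps isomorphically onto the Hecke ring of a level and the Tate module of
`W` is a deformation of the same type, then the traces of `W` are Hecke eigenvalues of an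
eigenform of that level.
-/

set_option autoImplicit false

noncomputable section

namespace Fermat.Agent.Lifting

open IsLocalRing CuspForm GaloisRep CongruenceSubgroup ModularFormClass

variable {𝒪 : Type} [CommRing 𝒪] [IsDomain 𝒪] [IsDiscreteValuationRing 𝒪]
  [IsAdicComplete (maximalIdeal 𝒪) 𝒪] [CharZero 𝒪]
  {ρbar : ResidualGaloisRep (ResidueField 𝒪)}
  {𝒟 : ∀ ⦃A : Type⦄ [CommRing A] [IsLocalRing A] [Algebra 𝒪 A], GaloisRepAdic A → Prop}

/-- A representation with integral traces of Frobenius which is a deformation of the type of a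
modular deformation ring gives an eigenform with these eigenvalues. -/
theorem exists_eigenform_of_bijective (D : DeformationRingData 𝒪 ρbar 𝒟) {N : ℕ} [NeZero N]
    {S : Finset ℕ} {θ : heckeAlgebra N 2 (↑S : Set ℕ) →+* ResidueField 𝒪}
    (L : LevelModule 𝒪 N S θ)
    (H : HeckeGaloisRepDatum N (↑S : Set ℕ) 𝒪 θ (heckeLocal N (↑S : Set ℕ) 𝒪 θ))
    (φ : D.R →ₐ[𝒪] L.T) (hφ : Function.Bijective φ)
    (htr : ∀ (ℓ : ℕ) (hℓ : ℓ.Prime) (hℓN : ¬ ℓ ∣ N) (hℓS : ℓ ∉ (↑S : Set ℕ)),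
        ∀ P : ValuationSubring (AlgebraicClosure ℚ), P.LiesOverPrime ℓ →
          ∀ σ : AlgebraicClosure ℚ ≃ₐ[ℚ] AlgebraicClosure ℚ, P.IsFrobeniusAt σ ℓ →
            φ (LinearMap.trace D.R D.ρ.V (D.ρ.ρ σ)) =
              L.toT (H.π (heckeAlgebra.T hℓ hℓN hℓS)))
    (ρ : GaloisRepAdic 𝒪) (hρ : 𝒟 ρ)
    (hρres : ρ.residual.IsEquiv (ρbar.baseChangeAlong (ResidueField.map (algebraMap 𝒪 𝒪))))
    (a : ℕ → ℤ)
    (hρtr : ∀ (ℓ : ℕ), ℓ.Prime → ¬ ℓ ∣ N → ℓ ∉ S →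
      ∀ P : ValuationSubring (AlgebraicClosure ℚ), P.LiesOverPrime ℓ →
        ∀ σ : AlgebraicClosure ℚ ≃ₐ[ℚ] AlgebraicClosure ℚ, P.IsFrobeniusAt σ ℓ →
          LinearMap.trace 𝒪 ρ.V (ρ.ρ σ) = (a ℓ : 𝒪)) :
    ∃ f : CuspForm (Gamma0 N) 2, f.IsNormalizedEigenform ∧
      ∀ ℓ : ℕ, ℓ.Prime → ¬ ℓ ∣ N → ℓ ∉ S → qCoeff f ℓ = (a ℓ : ℂ) := by
  have hres : Function.Surjective (residue 𝒪 ∘ algebraMap 𝒪 𝒪) := by
    rw [Algebra.algebraMap_self]
    exact residue_surjective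
  obtain ⟨g, ⟨hg, ⟨e⟩⟩, -⟩ := D.universal 𝒪 hres ρ hρ hρres
  let ψ : heckeAlgebra N 2 (↑S : Set ℕ) →+* 𝒪 :=
    ((g : D.R →+* 𝒪).comp (RingEquiv.ofBijective φ hφ).symm.toRingHom).comp
      ((L.toT : heckeLocal N (↑S : Set ℕ) 𝒪 θ →+* L.T).comp H.π)
  obtain ⟨f, hf, ι, hι, hιψ⟩ := HeckeCohom.exists_eigenform_of_ringHom_field
    ((algebraMap 𝒪 (FractionRing 𝒪)).comp ψ)
  refine ⟨f, hf, fun ℓ hℓ hℓN hℓS => ?_⟩
  have hℓS' : ℓ ∉ (↑S : Set ℕ) := by simpa using hℓS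
  obtain ⟨P, σ, hP, hσ⟩ := Fermat.Agent.Frobenius.exists_place_isFrobeniusAt hℓ
  have hψ : ψ (heckeAlgebra.T hℓ hℓN hℓS') = (a ℓ : 𝒪) := by
    rw [← hρtr ℓ hℓ hℓN hℓS P hP σ hσ]
    have h1 : (RingEquiv.ofBijective φ hφ).symm (L.toT (H.π (heckeAlgebra.T hℓ hℓN hℓS'))) =
        LinearMap.trace D.R D.ρ.V (D.ρ.ρ σ) := by
      rw [RingEquiv.symm_apply_eq]
      exact (htr ℓ hℓ hℓN hℓS' P hP σ hσ).symm
    show g ((RingEquiv.ofBijective φ hφ).symm (L.toT (H.π _))) = _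
    rw [h1]
    have h2 : LinearMap.trace 𝒪 ρ.V (ρ.ρ σ) =
        LinearMap.trace 𝒪 _ ((D.ρ.baseChangeAlong (g : D.R →+* 𝒪) hg).ρ σ) := by
      rw [← LinearMap.trace_conj' ((D.ρ.baseChangeAlong (g : D.R →+* 𝒪) hg).ρ σ) e.toLinearEquiv]
      congr 1
      exact LinearMap.ext fun v => by simp [LinearEquiv.conj_apply, e.map_apply]
    let _ : Algebra D.R 𝒪 := (g : D.R →+* 𝒪).toAlgebra
    rw [h2]
    exact (LinearMap.trace_baseChange (D.ρ.ρ σ) 𝒪).symm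
  have h := hιψ (heckeAlgebra.T hℓ hℓN hℓS')
  rw [RingHom.comp_apply, hψ, map_intCast, ← map_intCast ι] at h
  have h' := congrArg Subtype.val (hι h)
  simpa [HeckeEigen.eigenChar_T] using h'

omit [CharZero 𝒪] in
/-- Raising the level keeps a model modular, given its prime coefficients away from a finite set
inside the new level. -/
theorem isModularModelOfLevel_of_eigenform {W : WeierstrassCurve ℤ} {N N' : ℕ} {S : Finset ℕ}
    (hNN' : N ∣ N') (hN' : 0 < N') (hS : ∀ q ∈ S, q.Prime → q ∣ N')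
    {f : CuspForm (Gamma0 N) 2} (hf : f.IsNormalizedEigenform)
    (ha : ∀ ℓ : ℕ, ℓ.Prime → ¬ ℓ ∣ N → ℓ ∉ S → qCoeff f ℓ = (W.apOfModel ℓ : ℂ)) :
    W.IsModularModelOfLevel N' := by
  obtain ⟨g, hg, hgf⟩ := Newforms.exists_eigenform_of_dvd hNN' hN' f hf
  exact ⟨g, hg, fun ℓ hℓ _ hℓN' => by
    rw [hgf ℓ hℓ fun h => hℓN' (h.trans (Nat.div_dvd_of_dvd hNN')), ha ℓ hℓ (fun h => hℓN' (h.trans hNN')) fun h => hℓN' (hS ℓ h hℓ)]⟩

omit [CharZero 𝒪] in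
/-- Modularity at the conductor level, packaged as the row statement asks. -/
theorem mlc1_of_isModularModelOfLevel_conductorLevel {W : WeierstrassCurve ℤ} (hΔ : W.Δ ≠ 0)
    (h : W.IsModularModelOfLevel W.conductorLevel) : Mlc1IsModularModelOfExactConductorLevel W :=
  ⟨W.conductorLevel, W.conductorLevel_pos, W.squarefree_conductorLevel,
    fun _ hq => W.prime_dvd_conductorLevel_iff hΔ hq, h⟩

end Fermat.Agent.Lifting
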