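import Fermat.Agent.Lifting.TraceGen
import Fermat.Agent.NumCrit.Congruence
import Fermat.Agent.NumCrit.CompleteIntersection

/-!
# `R = T` at a non-minimal level

`D₀` is the minimal deformation ring, isomorphic to a Hecke ring `T` which is a complete
intersection with a free module `M`; `D` is the deformation ring of a weaker condition, mapping
onto a Hecke ring `T'` with module `M'`. If there are maps `i`, `j` compatible with the traces of
Frobenius with `j ∘ i = Δ`, and the cotangent space grows by at most the order of `Δ` at a point,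
then `D.R → T'` is bijective.
-/

set_option autoImplicit false

noncomputable section

namespace Fermat.Agent.Lifting

open IsLocalRing GaloisRep
open Fermat.Agent.RepTheory (Gal IsFrobOutside)

variable {𝒪 : Type} [CommRing 𝒪] [IsDomain 𝒪] [IsDiscreteValuationRing 𝒪]
  [IsAdicComplete (maximalIdeal 𝒪) 𝒪] [Finite (ResidueField 𝒪)]
  {ρbar : ResidualGaloisRep (ResidueField 𝒪)}
  {𝒟 𝒟₀ : ∀ ⦃A : Type⦄ [CommRing A] [IsLocalRing A] [Algebra 𝒪 A], GaloisRepAdic A → Prop}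

/-- A map compatible with the traces of Frobenius is compatible with the deformation ring. -/
theorem equivariant_of_traces (h𝒟 : IsDeformationCondition 𝒪 𝒟)
    (D : DeformationRingData 𝒪 ρbar 𝒟) {p : ℕ} (hp : p.Prime) (hdet : D.ρ.DetIsCyclotomic p)
    {S : Finset ℕ} (hpS : p ∈ S) {A B M M' : Type} [CommRing A] [Algebra 𝒪 A] [CommRing B]
    [Algebra 𝒪 B] [AddCommGroup M] [Module 𝒪 M] [Module A M] [IsScalarTower 𝒪 A M]
    [Module.Finite 𝒪 M] [AddCommGroup M'] [Module 𝒪 M'] [Module B M'] [IsScalarTower 𝒪 B M']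
    [Module.Finite 𝒪 M'] (α : D.R →ₐ[𝒪] A) (β : D.R →ₐ[𝒪] B) (c : M →ₗ[𝒪] M')
    (hc : ∀ σ : Gal, IsFrobOutside (↑S : Set ℕ) σ → ∀ m,
      c (α (D.ρ.trace σ) • m) = β (D.ρ.trace σ) • c m)
    (x : D.R) (m : M) : c (α x • m) = β x • c m := by
  let _ := Module.compHom M (α : D.R →+* A)
  let _ := Module.compHom M' (β : D.R →+* B)
  have : IsScalarTower 𝒪 D.R M := IsScalarTower.of_algebraMap_smul fun r y => by
    show α (algebraMap 𝒪 D.R r) • y = r • y
    rw [α.commutes, algebraMap_smul]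
  have : IsScalarTower 𝒪 D.R M' := IsScalarTower.of_algebraMap_smul fun r y => by
    show β (algebraMap 𝒪 D.R r) • y = r • y
    rw [β.commutes, algebraMap_smul]
  exact map_smul_of_traces h𝒟 D hp hdet hpS c hc x m

omit [IsDomain 𝒪] [IsDiscreteValuationRing 𝒪] [IsAdicComplete (maximalIdeal 𝒪) 𝒪] [Finite (ResidueField 𝒪)] in
/-- `η' ≤ d η` when `j ∘ i` is the scalar `d` on the part killed by the kernel of the point. -/
theorem congruenceIdeal_le_mul_point {T T' M M' : Type} [CommRing T] [Algebra 𝒪 T] [CommRing T']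
    [Algebra 𝒪 T'] [AddCommGroup M] [Module 𝒪 M] [Module T M] [IsScalarTower 𝒪 T M]
    [AddCommGroup M'] [Module 𝒪 M'] [Module T' M']
    [Module.Free T M] [Nontrivial M] (ρ : T' →ₐ[𝒪] T) (π : T →ₐ[𝒪] 𝒪)
    (i : M →ₗ[𝒪] M') (hi : ∀ t m, i (ρ t • m) = t • i m)
    (hρ : Function.Surjective ρ) (hinj : Function.Injective i)
    (hsat : ∀ (c : 𝒪) (x : M'), c ≠ 0 → c • x ∈ LinearMap.range i → x ∈ LinearMap.range i)
    (j : M' →+ M) (hj : ∀ t x, j (t • x) = ρ t • j x) (hjsurj : Function.Surjective j)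
    (d : 𝒪) (hji : ∀ m, (∀ s, π s = 0 → s • m = 0) → j (i m) = d • m)
    (hrank : ∀ x : M', (∀ t, π (ρ t) = 0 → t • x = 0) →
      ∃ c : 𝒪, c ≠ 0 ∧ c • x ∈ LinearMap.range i) :
    NumCrit.congruenceIdeal (π.comp ρ) ≤ Ideal.span {d} * NumCrit.congruenceIdeal π := by
  intro c hc
  obtain ⟨t', ht', rfl⟩ := (NumCrit.mem_congruenceIdeal _).mp hc
  let b := Module.Free.chooseBasis T M
  obtain ⟨k⟩ := b.index_nonempty
  obtain ⟨x, hx⟩ := hjsurj (b k)
  have hkill : ∀ t, π (ρ t) = 0 → t • (t' • x) = 0 := fun t ht => by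
    rw [smul_smul, mul_comm, ht' t ht, zero_smul]
  obtain ⟨c, hc0, hcx⟩ := hrank _ hkill
  obtain ⟨y, hy⟩ := hsat c _ hc0 hcx
  have hy0 : ∀ s, π s = 0 → s • y = 0 := by
    intro s hs
    obtain ⟨t, rfl⟩ := hρ s
    exact hinj (by rw [hi, hy, hkill t hs, map_zero])
  have hcoord : ρ t' = algebraMap 𝒪 T d * b.repr y k := by
    have h := congrArg (fun m => b.repr m k)
      (show ρ t' • b k = algebraMap 𝒪 T d • y by
        rw [← hx, ← hj, ← hy, hji y hy0, algebraMap_smul])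
    simp only [map_smul, Finsupp.smul_apply, Module.Basis.repr_self, Finsupp.single_eq_same,
      smul_eq_mul, mul_one] at h
    exact h
  rw [AlgHom.comp_apply, hcoord, map_mul, AlgHom.commutes, Algebra.algebraMap_self,
    RingHom.id_apply]
  refine Ideal.mul_mem_mul (Ideal.mem_span_singleton_self _)
    ((NumCrit.mem_congruenceIdeal π).mpr ⟨b.repr y k, fun s hs => ?_, rfl⟩)
  have h := congrArg (fun m => b.repr m k) (hy0 s hs)
  rw [mul_comm]
  simpa using h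

/-- **`R = T` at a non-minimal level.** -/
theorem bijective_of_levels (h𝒟 : IsDeformationCondition 𝒪 𝒟)
    (D : DeformationRingData 𝒪 ρbar 𝒟) (D₀ : DeformationRingData 𝒪 ρbar 𝒟₀)
    {p : ℕ} (hp : p.Prime) (hdet : D.ρ.DetIsCyclotomic p) {S : Finset ℕ} (hpS : p ∈ S)
    (f : D.R →ₐ[𝒪] D₀.R) (hf : Function.Surjective f)
    {T T' M M' : Type} [CommRing T] [Algebra 𝒪 T] [Module.Finite 𝒪 T] [Module.IsTorsionFree 𝒪 T]
    [CommRing T'] [Algebra 𝒪 T'] [Module.Finite 𝒪 T'] [Module.IsTorsionFree 𝒪 T'] [IsReduced T]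
    [IsReduced T']
    [AddCommGroup M] [Module 𝒪 M] [Module T M] [IsScalarTower 𝒪 T M] [Module.Finite 𝒪 M]
    [Module.Free T M] [Module.Finite T M] [Nontrivial M]
    [AddCommGroup M'] [Module 𝒪 M'] [Module T' M'] [IsScalarTower 𝒪 T' M'] [Module.Finite 𝒪 M']
    [Module.IsTorsionFree 𝒪 M']
    (φ : D.R →ₐ[𝒪] T') (hφ : Function.Surjective φ)
    (φ₀ : D₀.R →ₐ[𝒪] T) (hφ₀ : Function.Bijective φ₀)
    {r : ℕ} (ψ : MvPowerSeries (Fin r) 𝒪 →ₐ[𝒪] D₀.R) (hψ : Function.Surjective ψ)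
    (rels : Fin r → MvPowerSeries (Fin r) 𝒪)
    (hrels : RingHom.ker ψ = Ideal.span (Set.range rels))
    (i : M →ₗ[𝒪] M') (j : M' →ₗ[𝒪] M)
    (hi : ∀ σ : Gal, IsFrobOutside (↑S : Set ℕ) σ → ∀ m,
      i (φ₀ (f (D.ρ.trace σ)) • m) = φ (D.ρ.trace σ) • i m)
    (hj : ∀ σ : Gal, IsFrobOutside (↑S : Set ℕ) σ → ∀ m,
      j (φ (D.ρ.trace σ) • m) = φ₀ (f (D.ρ.trace σ)) • j m)
    (hjs : Function.Surjective j)
    {ϖ : 𝒪} (hϖ : Irreducible ϖ) (hmod : ∀ m x, i m = ϖ • x → ∃ m', m = ϖ • m')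
    (π₀ : D₀.R →ₐ[𝒪] 𝒪) (d : 𝒪)
    (hji : ∀ m, (∀ x, π₀ x = 0 → φ₀ x • m = 0) → j (i m) = d • m)
    (hfin : ∀ π' : T' →ₐ[𝒪] 𝒪, (∀ x, π' (φ x) = π₀ (f x)) →
      Module.finrank 𝒪
        ((Submodule.torsionBySet T' M' (RingHom.ker π' : Set T')).restrictScalars 𝒪) ≤
        Module.finrank T M)
    (hcot : Module.length 𝒪 (RingHom.ker (π₀.comp f)).Cotangent ≤
      Ring.ord 𝒪 d + Module.length 𝒪 (RingHom.ker π₀).Cotangent) :
    Function.Bijective φ := by
  have hinj : Function.Injective i := NumCrit.injective_of_injective_mod i hϖ hmod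
  have hei : ∀ (x : D.R) m, i (φ₀ (f x) • m) = φ x • i m :=
    equivariant_of_traces h𝒟 D hp hdet hpS (φ₀.comp f) φ i hi
  have hej : ∀ (x : D.R) m, j (φ x • m) = φ₀ (f x) • j m :=
    equivariant_of_traces h𝒟 D hp hdet hpS φ (φ₀.comp f) j hj
  obtain ⟨ρ, hρ⟩ := NumCrit.exists_algHom_of_equivariant φ hφ (φ₀.comp f) i.toAddMonoidHom hinj hei
  have hρx : ∀ x, ρ (φ x) = φ₀ (f x) := DFunLike.congr_fun hρ
  have hρs : Function.Surjective ρ := fun t => by
    obtain ⟨y, rfl⟩ := hφ₀.2 t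
    obtain ⟨x, rfl⟩ := hf y
    exact ⟨φ x, hρx x⟩
  let e := AlgEquiv.ofBijective φ₀ hφ₀
  let π : T →ₐ[𝒪] 𝒪 := π₀.comp e.symm.toAlgHom
  have hπ : π.comp φ₀ = π₀ := AlgHom.ext fun x => congrArg π₀ (e.symm_apply_apply x)
  have hπx : ∀ x, π (φ₀ x) = π₀ x := DFunLike.congr_fun hπ
  have hiρ : ∀ t m, i (ρ t • m) = t • i m := fun t m => by
    obtain ⟨x, rfl⟩ := hφ t; rw [hρx, hei]
  have hjρ : ∀ t m, j (t • m) = ρ t • j m := fun t m => by
    obtain ⟨x, rfl⟩ := hφ t; rw [hρx, hej]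
  have hη := NumCrit.congruenceIdeal_ne_bot π
  have hrank := NumCrit.exists_smul_mem_range_of_finrank_le ρ π i hiρ hη hinj
    (hfin (π.comp ρ) fun x => by rw [AlgHom.comp_apply, hρx, hπx])
  have hchange := congruenceIdeal_le_mul_point ρ π i hiρ hρs hinj
    (NumCrit.saturated_of_injective_mod i hϖ hmod) j.toAddMonoidHom hjρ hjs d
    (fun m hm => hji m fun x hx => hm _ (by rw [hπx, hx])) hrank
  have : Module.Finite 𝒪 D₀.R := Module.Finite.equiv e.symm.toLinearEquiv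
  have : Module.IsTorsionFree 𝒪 D₀.R :=
    hφ₀.1.moduleIsTorsionFree φ₀ (map_smul φ₀)
  have hlow : Module.length 𝒪 (RingHom.ker π₀).Cotangent ≤
      Module.length 𝒪 (𝒪 ⧸ NumCrit.congruenceIdeal π) := by
    rw [← NumCrit.congruenceIdeal_comp_of_bijective φ₀ hφ₀ π, hπ]
    exact NumCrit.length_cotangent_le_congruence ψ hψ rels hrels π₀
  refine NumCrit.bijective_of_level_change π₀ φ hφ ρ π (algebraMap 𝒪 T d) ?_ hlow ?_
  · rwa [AlgHom.commutes, Algebra.algebraMap_self, RingHom.id_apply]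
  have hcomp : (π.comp ρ).comp φ = π₀.comp f := AlgHom.ext fun x => by
    simp only [AlgHom.comp_apply, hρx, hπx]
  rw [hcomp, AlgHom.commutes, Algebra.algebraMap_self, RingHom.id_apply]
  exact hcot

end Fermat.Agent.Lifting
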