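import Fermat.Agent.Lifting.Constructors
import Fermat.Agent.Lifting.Numeric
import Fermat.Agent.Lifting.Chain
import Fermat.Agent.Lifting.Conclusion

/-!
# From the minimal level to an eigenform at a higher level

The minimal deformation ring `D₀` is isomorphic to the Hecke ring of `Hom(Γ₀(N₀), 𝒪)` localised at
`a₀`; the deformation ring `D` of the condition satisfied by the Tate module maps onto the Hecke
ring at level `N`. Maps `i`, `j` between the two modules commuting with `T_ℓ` outside `S` turn the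
cotangent bound into an eigenform of level `N` with the eigenvalues of the given lift.
-/

set_option autoImplicit false

noncomputable section

namespace Fermat.Agent.Lifting

open IsLocalRing CuspForm GaloisRep ModularFormClass CongruenceSubgroup
open Fermat.Agent.GroupH1 (HeckePoly)
open Fermat.Agent.RepTheory (Gal IsFrobOutside)

variable {𝒪 : Type} [CommRing 𝒪] [IsDomain 𝒪] [IsDiscreteValuationRing 𝒪]
  [IsAdicComplete (maximalIdeal 𝒪) 𝒪] [Finite (ResidueField 𝒪)] [CharZero 𝒪]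
  {ρbar : ResidualGaloisRep (ResidueField 𝒪)}
  {𝒟 𝒟₀ : ∀ ⦃A : Type⦄ [CommRing A] [IsLocalRing A] [Algebra 𝒪 A], GaloisRepAdic A → Prop}

/-- **An eigenform at the higher level.** -/
theorem exists_eigenform_of_levels (h𝒟 : IsDeformationCondition 𝒪 𝒟)
    (D : DeformationRingData 𝒪 ρbar 𝒟) (D₀ : DeformationRingData 𝒪 ρbar 𝒟₀)
    {p : ℕ} (hp : p.Prime) (hdet : D.ρ.DetIsCyclotomic p)
    (f : D.R →ₐ[𝒪] D₀.R) (hfl : IsLocalHom (f : D.R →+* D₀.R)) (hf : Function.Surjective f)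
    (hfeq : (D.ρ.baseChangeAlong (f : D.R →+* D₀.R) hfl).IsEquiv D₀.ρ)
    {N₀ N : ℕ} [NeZero N₀] [NeZero N] {S₀ S : Finset ℕ} (hpS : p ∈ S) (hSS : S₀ ⊆ S)
    {a₀ a : Nat.Primes → ResidueField 𝒪}
    [Nontrivial (levelLoc 𝒪 N₀ a₀)] [Nontrivial (levelLoc 𝒪 N a)]
    {θ₀ : heckeAlgebra N₀ 2 (↑S₀ : Set ℕ) →+* ResidueField 𝒪}
    (h₀ : LevelHyp N₀ N₀ S₀ a₀ θ₀)
    {θ : heckeAlgebra N 2 (↑S : Set ℕ) →+* ResidueField 𝒪} (h : LevelHyp N N S a θ)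
    [IsReduced (levelModule h₀).T] [IsReduced (levelModule h).T]
    (H₀ : HeckeGaloisRepDatum N₀ (↑S₀ : Set ℕ) 𝒪 θ₀ (heckeLocal N₀ (↑S₀ : Set ℕ) 𝒪 θ₀))
    (hπ₀ : H₀.π = heckeLocal.π N₀ (↑S₀ : Set ℕ) 𝒪 θ₀)
    (φ₀ : D₀.R →ₐ[𝒪] (levelModule h₀).T) (hφ₀ : Function.Bijective φ₀)
    (htr₀ : ∀ (ℓ : ℕ) (hℓ : ℓ.Prime) (hℓN : ¬ ℓ ∣ N₀) (hℓS : ℓ ∉ (↑S₀ : Set ℕ)),
        ∀ P : ValuationSubring (AlgebraicClosure ℚ), P.LiesOverPrime ℓ →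
          ∀ σ : AlgebraicClosure ℚ ≃ₐ[ℚ] AlgebraicClosure ℚ, P.IsFrobeniusAt σ ℓ →
            φ₀ (LinearMap.trace D₀.R D₀.ρ.V (D₀.ρ.ρ σ)) =
              (levelModule h₀).toT (H₀.π (heckeAlgebra.T hℓ hℓN hℓS)))
    [Module.Free (levelModule h₀).T (levelModule h₀).M]
    [Module.Finite (levelModule h₀).T (levelModule h₀).M]
    {r : ℕ} (ψ : MvPowerSeries (Fin r) 𝒪 →ₐ[𝒪] D₀.R) (hψ : Function.Surjective ψ)
    (rels : Fin r → MvPowerSeries (Fin r) 𝒪)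
    (hrels : RingHom.ker ψ = Ideal.span (Set.range rels))
    (H : HeckeGaloisRepDatum N (↑S : Set ℕ) 𝒪 θ (heckeLocal N (↑S : Set ℕ) 𝒪 θ))
    (hπ : H.π = heckeLocal.π N (↑S : Set ℕ) 𝒪 θ) (hH : 𝒟 H.ρ)
    (hHres : H.ρ.residual.IsEquiv (ρbar.baseChangeAlong
      (ResidueField.map (algebraMap 𝒪 (heckeLocal N (↑S : Set ℕ) 𝒪 θ)))))
    (i : levelLoc 𝒪 N₀ a₀ →ₗ[𝒪] levelLoc 𝒪 N a) (j : levelLoc 𝒪 N a →ₗ[𝒪] levelLoc 𝒪 N₀ a₀)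
    (hi : ∀ (ℓ : Nat.Primes), (ℓ : ℕ) ∉ S → ∀ x,
      i ((MvPolynomial.X ℓ : HeckePoly 𝒪) • x) = (MvPolynomial.X ℓ : HeckePoly 𝒪) • i x)
    (hj : ∀ (ℓ : Nat.Primes), (ℓ : ℕ) ∉ S → ∀ x,
      j ((MvPolynomial.X ℓ : HeckePoly 𝒪) • x) = (MvPolynomial.X ℓ : HeckePoly 𝒪) • j x)
    (hjs : Function.Surjective j)
    {ϖ : 𝒪} (hϖ : Irreducible ϖ) (hmod : ∀ x y, i x = ϖ • y → ∃ x', x = ϖ • x')
    (π₀ : D₀.R →ₐ[𝒪] 𝒪) (d : 𝒪)
    (hji : ∀ x : (levelModule h₀).M, (∀ y, π₀ y = 0 → φ₀ y • x = 0) →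
      j (i (levelModuleEquiv h₀ x)) = d • levelModuleEquiv h₀ x)
    (hfin : ∀ π' : (levelModule h).T →ₐ[𝒪] 𝒪,
      (∀ (ℓ : ℕ) (hℓ : ℓ.Prime) (hℓN : ¬ ℓ ∣ N) (hℓS : ℓ ∉ (↑S : Set ℕ)),
        ∀ P : ValuationSubring (AlgebraicClosure ℚ), P.LiesOverPrime ℓ →
          ∀ σ : AlgebraicClosure ℚ ≃ₐ[ℚ] AlgebraicClosure ℚ, P.IsFrobeniusAt σ ℓ →
            π' ((levelModule h).toT (H.π (heckeAlgebra.T hℓ hℓN hℓS))) =
              π₀ (LinearMap.trace D₀.R D₀.ρ.V (D₀.ρ.ρ σ))) →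
      Module.finrank 𝒪 ((Submodule.torsionBySet (levelModule h).T (levelModule h).M
        (RingHom.ker π' : Set (levelModule h).T)).restrictScalars 𝒪) ≤
        Module.finrank (levelModule h₀).T (levelModule h₀).M)
    (hcot : Module.length 𝒪 (RingHom.ker (π₀.comp f)).Cotangent ≤
      Ring.ord 𝒪 d + Module.length 𝒪 (RingHom.ker π₀).Cotangent)
    (ρ : GaloisRepAdic 𝒪) (hρ : 𝒟 ρ)
    (hρres : ρ.residual.IsEquiv (ρbar.baseChangeAlong (ResidueField.map (algebraMap 𝒪 𝒪))))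
    (c : ℕ → ℤ)
    (hρtr : ∀ (ℓ : ℕ), ℓ.Prime → ¬ ℓ ∣ N → ℓ ∉ S →
      ∀ P : ValuationSubring (AlgebraicClosure ℚ), P.LiesOverPrime ℓ →
        ∀ σ : AlgebraicClosure ℚ ≃ₐ[ℚ] AlgebraicClosure ℚ, P.IsFrobeniusAt σ ℓ →
          LinearMap.trace 𝒪 ρ.V (ρ.ρ σ) = (c ℓ : 𝒪)) :
    ∃ g : CuspForm (Gamma0 N) 2, g.IsNormalizedEigenform ∧
      ∀ ℓ : ℕ, ℓ.Prime → ¬ ℓ ∣ N → ℓ ∉ S → qCoeff g ℓ = (c ℓ : ℂ) := by
  obtain ⟨φ, hφ, htr⟩ := (levelModule h).exists_surjection D H h.prime_mem hH hHres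
  refine exists_eigenform_of_bijective D (levelModule h) H φ ?_ htr ρ hρ hρres c hρtr
  let e₀ := levelModuleEquiv h₀
  let e := levelModuleEquiv h
  let i' : (levelModule h₀).M →ₗ[𝒪] (levelModule h).M :=
    e.symm.toLinearMap.comp (i.comp e₀.toLinearMap)
  let j' : (levelModule h).M →ₗ[𝒪] (levelModule h₀).M :=
    e₀.symm.toLinearMap.comp (j.comp e.toLinearMap)
  have hact : ∀ (ℓ : ℕ) (hℓ : ℓ.Prime), ℓ ∉ S → ∀ P : ValuationSubring (AlgebraicClosure ℚ),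
      P.LiesOverPrime ℓ → ∀ σ : Gal, P.IsFrobeniusAt σ ℓ →
      (∀ x, e₀ (φ₀ (f (D.ρ.trace σ)) • x) = (MvPolynomial.X ⟨ℓ, hℓ⟩ : HeckePoly 𝒪) • e₀ x) ∧
      ∀ y, e (φ (D.ρ.trace σ) • y) = (MvPolynomial.X ⟨ℓ, hℓ⟩ : HeckePoly 𝒪) • e y := by
    intro ℓ hℓ hℓS P hP σ hσ
    have hℓS' : ℓ ∉ (↑S : Set ℕ) := by simpa using hℓS
    have hℓS₀ : ℓ ∉ (↑S₀ : Set ℕ) := fun hm => hℓS (hSS (by simpa using hm))
    have hℓN : ¬ ℓ ∣ N := fun hd => hℓS (h.prime_mem ℓ hℓ hd)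
    have hℓN₀ : ¬ ℓ ∣ N₀ := fun hd => hℓS (hSS (h₀.prime_mem ℓ hℓ hd))
    refine ⟨fun x => ?_, fun y => ?_⟩
    · rw [show f (D.ρ.trace σ) = LinearMap.trace D₀.R D₀.ρ.V (D₀.ρ.ρ σ) from
          compatHom_trace f hfl hfeq σ,
        htr₀ ℓ hℓ hℓN₀ hℓS₀ P hP σ hσ, hπ₀]
      exact levelModule_toT_smul h₀ hℓ hℓN₀ hℓS₀ x
    · rw [show φ (D.ρ.trace σ) = _ from htr ℓ hℓ hℓN hℓS' P hP σ hσ, hπ]
      exact levelModule_toT_smul h hℓ hℓN hℓS' y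
  refine bijective_of_levels h𝒟 D D₀ hp hdet hpS f hf φ hφ φ₀ hφ₀ ψ hψ rels hrels i' j'
    ?_ ?_ (e₀.symm.surjective.comp (hjs.comp e.surjective)) hϖ ?_ π₀ d ?_ ?_ hcot
  · intro σ hσ x
    obtain ⟨ℓ, hℓ, hℓS, P, hP, hσP⟩ := hσ
    obtain ⟨h1, h2⟩ := hact ℓ hℓ (by simpa using hℓS) P hP σ hσP
    refine e.injective ?_
    rw [h2]
    simp only [i', LinearMap.comp_apply, LinearEquiv.coe_coe, LinearEquiv.apply_symm_apply, h1]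
    exact hi ⟨ℓ, hℓ⟩ (by simpa using hℓS) _
  · intro σ hσ y
    obtain ⟨ℓ, hℓ, hℓS, P, hP, hσP⟩ := hσ
    obtain ⟨h1, h2⟩ := hact ℓ hℓ (by simpa using hℓS) P hP σ hσP
    refine e₀.injective ?_
    rw [h1]
    simp only [j', LinearMap.comp_apply, LinearEquiv.coe_coe, LinearEquiv.apply_symm_apply, h2]
    exact hj ⟨ℓ, hℓ⟩ (by simpa using hℓS) _
  · intro x y hxy
    obtain ⟨x', hx'⟩ := hmod (e₀ x) (e y) (by
      have := congrArg e hxy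
      simpa [i', map_smul] using this)
    exact ⟨e₀.symm x', e₀.injective (by rw [hx', map_smul, LinearEquiv.apply_symm_apply])⟩
  · intro x hx
    refine e₀.injective ?_
    simp only [i', j', LinearMap.comp_apply, LinearEquiv.coe_coe, LinearEquiv.apply_symm_apply,
      map_smul]
    exact hji x hx
  · intro π' hπ'
    refine hfin π' fun ℓ hℓ hℓN hℓS P hP σ hσ => ?_
    rw [← htr ℓ hℓ hℓN hℓS P hP σ hσ, ← compatHom_trace f hfl hfeq σ]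
    exact hπ' _

end Fermat.Agent.Lifting
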