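import Fermat.Agent.Lifting.Mult.Local
import Fermat.Agent.NumCrit.Congruence

/-!
# Multiplicity at most two

At a point `π'` of the Hecke ring of a level attached to a newform `g`, the part of the level
killed by `ker π'` has rank at most two, and exactly two at the minimal level.
-/

set_option autoImplicit false

noncomputable section

namespace Fermat.Agent.Lifting

open IsLocalRing CuspForm CongruenceSubgroup ModularCurve.Period ModularFormClass
open Fermat.Agent.GroupH1 (HeckePoly eigIdeal toH toLocM)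
open Fermat.Agent.HeckeCohom (wordEval wordEval_surjective)
open scoped MatrixGroups TensorProduct

variable {𝒪 : Type} [CommRing 𝒪] [IsDomain 𝒪] [IsDiscreteValuationRing 𝒪]
  [IsAdicComplete (maximalIdeal 𝒪) 𝒪] [CharZero 𝒪] {N : ℕ} [NeZero N] {N' : ℕ} [NeZero N']
  {S : Finset ℕ} {a : Nat.Primes → ResidueField 𝒪}
  {θ : heckeAlgebra N' 2 (↑S : Set ℕ) →+* ResidueField 𝒪} (h : LevelHyp N N' S a θ)
  [Nontrivial (levelLoc 𝒪 N a)] {K : Type} [Field K] [CharZero K] [Algebra 𝒪 K]
  [FaithfulSMul 𝒪 K] (π' : (levelModule h).T →ₐ[𝒪] 𝒪) (σ : Mult.AlgC →+* K)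

/-- The elements of a level killed by the kernel of a point. -/
abbrev pointPart : Submodule 𝒪 (levelModule h).M :=
  (Submodule.torsionBySet (levelModule h).T (levelModule h).M
    (RingHom.ker π' : Set (levelModule h).T)).restrictScalars 𝒪

/-- The value of a point at the Hecke operator of a prime outside `S`. -/
def pointCoeff (l : Nat.Primes) : 𝒪 :=
  if hl : (l : ℕ) ∈ S then 0 else
    π' ((levelModule h).toT (heckeLocal.π N' (↑S : Set ℕ) 𝒪 θ
      (heckeAlgebra.T l.2 (fun hd => hl (h.prime_mem _ l.2 hd)) (fun hm => hl hm))))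

/-- The coefficients of a point away from the level. -/
theorem pointCoeff_eq {l : ℕ} (hl : l.Prime) (hlN : ¬ l ∣ N') (hlS : l ∉ (↑S : Set ℕ)) :
    pointCoeff h π' ⟨l, hl⟩ =
      π' ((levelModule h).toT (heckeLocal.π N' (↑S : Set ℕ) 𝒪 θ (heckeAlgebra.T hl hlN hlS))) :=
  dif_neg fun hm => hlS (Finset.mem_coe.mpr hm)

theorem smul_of_mem_pointPart {x : (levelModule h).M} (hx : x ∈ pointPart h π')
    (t : (levelModule h).T) : t • x = π' t • x := by
  have hk : t - algebraMap 𝒪 _ (π' t) ∈ RingHom.ker π' := by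
    rw [RingHom.mem_ker, map_sub, π'.commutes, Algebra.algebraMap_self, RingHom.id_apply,
      sub_self]
  have h0 := (Submodule.mem_torsionBySet_iff _ _).mp hx ⟨_, hk⟩
  rwa [Subtype.coe_mk, sub_smul, sub_eq_zero, algebraMap_smul] at h0

omit [IsAdicComplete (maximalIdeal 𝒪) 𝒪] [CharZero 𝒪] in
/-- The local Hecke algebra is generated by the operators at the primes outside `S`. -/
theorem LevelModule.act_eq_smul_of_T (L : LevelModule 𝒪 N' S θ)
    (hS : ∀ q : ℕ, q.Prime → q ∣ N' → q ∈ S)
    (χ : heckeLocal N' (↑S : Set ℕ) 𝒪 θ →ₐ[𝒪] 𝒪) (x : L.M)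
    (hT : ∀ (l : ℕ) (hl : l.Prime) (hlN : ¬ l ∣ N') (hlS : l ∉ (↑S : Set ℕ)),
      L.act (heckeLocal.π N' (↑S : Set ℕ) 𝒪 θ (heckeAlgebra.T hl hlN hlS)) x =
        χ (heckeLocal.π N' (↑S : Set ℕ) 𝒪 θ (heckeAlgebra.T hl hlN hlS)) • x)
    (z : heckeLocal N' (↑S : Set ℕ) 𝒪 θ) : L.act z x = χ z • x := by
  let E : Subalgebra 𝒪 (heckeLocal N' (↑S : Set ℕ) 𝒪 θ) :=
    { carrier := {z | L.act z x = χ z • x}
      mul_mem' := fun {p q} (hp : L.act p x = χ p • x) (hq : L.act q x = χ q • x) => by
        show L.act (p * q) x = χ (p * q) • x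
        rw [map_mul, map_mul, Module.End.mul_apply, hq, map_smul, hp, smul_smul, mul_comm]
      add_mem' := fun {p q} (hp : L.act p x = χ p • x) (hq : L.act q x = χ q • x) => by
        show L.act (p + q) x = χ (p + q) • x
        rw [map_add, map_add, LinearMap.add_apply, hp, hq, add_smul]
      algebraMap_mem' := fun r => by
        show L.act (algebraMap 𝒪 _ r) x = χ (algebraMap 𝒪 _ r) • x
        rw [AlgHom.commutes, AlgHom.commutes, Module.algebraMap_end_apply, Algebra.algebraMap_self,
          RingHom.id_apply] }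
  have hπ : ∀ t, heckeLocal.π N' (↑S : Set ℕ) 𝒪 θ t ∈ E := by
    intro t
    obtain ⟨P, rfl⟩ := wordEval_surjective (N := N') (S := (↑S : Set ℕ)) t
    induction P using FreeAlgebra.induction with
    | grade0 r => rw [eq_intCast, map_intCast, map_intCast]; exact intCast_mem E r
    | grade1 i =>
      obtain ⟨⟨l, hl⟩, hi⟩ := i
      have hN' : ¬ l ∣ N' := fun hd => hi (Finset.mem_coe.mpr (hS l hl hd))
      have he : wordEval N' (↑S : Set ℕ) (FreeAlgebra.ι ℤ ⟨⟨l, hl⟩, hi⟩) =
          heckeAlgebra.T hl hN' hi := by simp [wordEval, hN']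
      rw [he]
      exact hT l hl hN' hi
    | add p q hp hq => rw [map_add, map_add]; exact add_mem hp hq
    | mul p q hp hq => rw [map_mul, map_mul]; exact mul_mem hp hq
  have hb : ∀ y : heckeBaseAlgebra N' (↑S : Set ℕ) 𝒪, algebraMap _ _ y ∈ E := by
    intro y
    obtain ⟨y, rfl⟩ := latticeBaseChange_surjective N' (↑S : Set ℕ) 𝒪 y
    induction y using TensorProduct.induction_on with
    | zero => rw [map_zero, map_zero]; exact zero_mem E
    | add p q hp hq => rw [map_add, map_add]; exact add_mem hp hq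
    | tmul r t =>
      rw [show r ⊗ₜ[ℤ] t = algebraMap 𝒪 _ r * (1 ⊗ₜ t) from by
          rw [Algebra.TensorProduct.algebraMap_apply, Algebra.TensorProduct.tmul_mul_tmul, mul_one,
            one_mul]; rfl, map_mul, latticeBaseChange_algebraMap, map_mul,
        ← IsScalarTower.algebraMap_apply]
      exact mul_mem (E.algebraMap_mem r) (hπ t)
  obtain ⟨⟨b, s⟩, hzs⟩ := IsLocalization.surj (heckeLocalSubmonoid N' (↑S : Set ℕ) 𝒪 θ) z
  set u := algebraMap (heckeBaseAlgebra N' (↑S : Set ℕ) 𝒪) (heckeLocal N' (↑S : Set ℕ) 𝒪 θ) ↑s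
    with hu
  have hs : L.act u x = χ u • x := hb ↑s
  have hz : L.act (z * u) x = χ (z * u) • x := by
    rw [hzs]
    exact hb b
  have huu : IsUnit (χ u) := (IsLocalization.map_units _ s).map χ
  rw [map_mul, map_mul, Module.End.mul_apply, hs, map_smul, mul_comm, mul_smul] at hz
  exact huu.smul_left_cancel.mp hz

theorem smul_eq_of_forall {x : (levelModule h).M}
    (hx : ∀ l : Nat.Primes, (l : ℕ) ∉ S →
      (MvPolynomial.X l : HeckePoly 𝒪) • levelModuleEquiv h x =
        pointCoeff h π' l • levelModuleEquiv h x) (t : (levelModule h).T) :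
    t • x = π' t • x := by
  obtain ⟨z, rfl⟩ := (levelModule h).toT_surjective t
  rw [LevelModule.smul_def]
  refine LevelModule.act_eq_smul_of_T (levelModule h) h.prime_mem (π'.comp (levelModule h).toT) x
    (fun l hl hlN hlS => ?_) z
  rw [AlgHom.comp_apply, ← pointCoeff_eq h π' hl hlN hlS, ← LevelModule.smul_def]
  refine (levelModuleEquiv h).injective ?_
  rw [levelModule_toT_smul, map_smul]
  exact hx ⟨l, hl⟩ fun hm => hlS (Finset.mem_coe.mpr hm)

/-- An eigenvector for the operators outside `S` is killed by the kernel of the point. -/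
theorem mem_pointPart_of_forall {x : (levelModule h).M}
    (hx : ∀ l : Nat.Primes, (l : ℕ) ∉ S →
      (MvPolynomial.X l : HeckePoly 𝒪) • levelModuleEquiv h x =
        pointCoeff h π' l • levelModuleEquiv h x) :
    x ∈ pointPart h π' := by
  refine (Submodule.mem_torsionBySet_iff _ _).mpr fun t => ?_
  rw [smul_eq_of_forall h π' hx, RingHom.mem_ker.mp t.2, zero_smul]

/-- The elements killed by the kernel of the point as eigen elements. -/
theorem mem_pointPart_iff {x : (levelModule h).M} :
    x ∈ pointPart h π' ↔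
      levelModuleEquiv h x ∈ Mult.goodPart N a (S.filter Nat.Prime) (pointCoeff h π') := by
  refine ⟨fun hx => ?_, fun hx => mem_pointPart_of_forall h π' fun l hl => hx l fun hm =>
    hl (Finset.mem_filter.mp hm).1⟩
  rintro ⟨l, hlp⟩ hl
  have hlS : l ∉ S := fun hm => hl (Finset.mem_filter.mpr ⟨hm, hlp⟩)
  have hlN : ¬ l ∣ N' := fun hd => hlS (h.prime_mem _ hlp hd)
  rw [← levelModule_toT_smul h hlp hlN (fun hm => hlS (Finset.mem_coe.mp hm)),
    smul_of_mem_pointPart h π' hx, map_smul, ← pointCoeff_eq h π']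

/-- The part killed by the kernel of the point as an eigen part of the level. -/
def pointPartEquiv :
    pointPart h π' ≃ₗ[𝒪] Mult.goodPart N a (S.filter Nat.Prime) (pointCoeff h π') where
  toFun x := ⟨levelModuleEquiv h x.1, (mem_pointPart_iff h π').mp x.2⟩
  invFun x := ⟨(levelModuleEquiv h).symm x.1, (mem_pointPart_iff h π').mpr
    (by rw [LinearEquiv.apply_symm_apply]; exact x.2)⟩
  left_inv _ := rfl
  right_inv _ := rfl
  map_add' x y := Subtype.ext (map_add (levelModuleEquiv h) x.1 y.1)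
  map_smul' r x := Subtype.ext (map_smul (levelModuleEquiv h) r x.1)

theorem filter_prime {q : ℕ} (hq : q ∈ S.filter Nat.Prime) : q.Prime := (Finset.mem_filter.mp hq).2

include h in
omit [IsAdicComplete (maximalIdeal 𝒪) 𝒪] [CharZero 𝒪] [NeZero N] [Nontrivial (levelLoc 𝒪 N a)] in
theorem prime_dvd_mem {q : ℕ} (hq : q.Prime) (hd : q ∣ N) : q ∈ S.filter Nat.Prime :=
  Finset.mem_filter.mpr ⟨h.prime_mem q hq (hd.trans h.dvd), hq⟩

variable {M : ℕ} [NeZero M] {g : CuspForm (Gamma0 M) 2} (hg : g.IsNewform) (hMN : M ∣ N)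
  (hj : ∀ (l : ℕ) (hl : l.Prime) (hlN : ¬ l ∣ N') (hlS : l ∉ (↑S : Set ℕ)),
    algebraMap 𝒪 K
        (π' ((levelModule h).toT
          (heckeLocal.π N' (↑S : Set ℕ) 𝒪 θ (heckeAlgebra.T hl hlN hlS)))) =
      σ (Mult.coefF hg.1 l))

include hj in
omit [CharZero K] [FaithfulSMul 𝒪 K] in
theorem algebraMap_pointCoeff (l : Nat.Primes) (hl : (l : ℕ) ∉ S.filter Nat.Prime) :
    algebraMap 𝒪 K (pointCoeff h π' l) = σ (Mult.coefF hg.1 l) := by
  obtain ⟨l, hlp⟩ := l
  have hlS : l ∉ S := fun hm => hl (Finset.mem_filter.mpr ⟨hm, hlp⟩)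
  rw [← hj l hlp (fun hd => hlS (h.prime_mem _ hlp hd)) (fun hm => hlS (Finset.mem_coe.mp hm)),
    ← pointCoeff_eq h π']

include hg hMN hj in
/-- **Multiplicity at most two.** -/
theorem finrank_torsion_le_two
    (hloc : ∀ r : Nat.Primes, (r : ℕ) ∣ N →
      (M.factorization r = 1 ∧ N.factorization r = 1) ∨
      (M.factorization r = 0 ∧ N.factorization r = 1 ∧
        a r ^ 2 ≠ ((r : ℕ) : ResidueField 𝒪)) ∨
      (M.factorization r ≤ 1 ∧ N.factorization r = 2 ∧ a r = 0 ∧
        ((r : ℕ) : ResidueField 𝒪) ≠ 0)) :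
    Module.finrank 𝒪 ((Submodule.torsionBySet (levelModule h).T (levelModule h).M
      (RingHom.ker π' : Set (levelModule h).T)).restrictScalars 𝒪) ≤ 2 := by
  rw [(pointPartEquiv h π').finrank_eq]
  exact Mult.finrank_goodPart_le_two h.nonEis hg hMN (fun _ => filter_prime)
    (fun _ => prime_dvd_mem h) σ (algebraMap_pointCoeff h π' σ hg hj) hloc

include hg hMN hj in
omit [CharZero K] in
/-- At a prime with a single root the part killed by the kernel of a point is an eigen space for
that root, which lies in `𝒪` and lifts the residual value. -/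
theorem exists_smul_eq_coeff (r : Nat.Primes)
    (hr : ¬ (r : ℕ) ∣ N ∨ (M.factorization r = 1 ∧ N.factorization r = 1))
    (hne : pointPart h π' ≠ ⊥) :
    ∃ d : 𝒪, algebraMap 𝒪 K d = σ (Mult.coefF hg.1 r) ∧ residue 𝒪 d = a r ∧
      ∀ x ∈ pointPart h π',
        (MvPolynomial.X r : HeckePoly 𝒪) • levelModuleEquiv h x =
          d • levelModuleEquiv h x := by
  have hW : Mult.goodPart N a (S.filter Nat.Prime) (pointCoeff h π') ≠ ⊥ := by
    intro hbot
    refine hne ((Submodule.eq_bot_iff _).mpr fun x hx => ?_)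
    have := (mem_pointPart_iff h π').mp hx
    rw [hbot, Submodule.mem_bot] at this
    exact (LinearEquiv.map_eq_zero_iff _).mp this
  obtain ⟨d, hd, hres, hx⟩ := Mult.exists_eq_smul_of_ne_bot h.nonEis hg hMN
    (fun _ => filter_prime) (fun _ => prime_dvd_mem h) σ (algebraMap_pointCoeff h π' σ hg hj)
    r hr hW
  exact ⟨d, hd, hres, fun x hxm => hx _ ((mem_pointPart_iff h π').mp hxm)⟩

omit [CharZero K] [FaithfulSMul 𝒪 K] in
/-- Over a reduced Hecke ring the part killed by the kernel of a point is not zero. -/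
theorem pointPart_ne_bot [IsReduced (levelModule h).T] : pointPart h π' ≠ ⊥ := by
  intro hbot
  refine NumCrit.congruenceIdeal_ne_bot π' ((Submodule.eq_bot_iff _).mpr fun y hy => ?_)
  obtain ⟨t, ht, rfl⟩ := (Ideal.mem_map_iff_of_surjective _
    (fun r => ⟨algebraMap 𝒪 _ r, π'.commutes r⟩)).mp hy
  suffices t = 0 by rw [this, map_zero]
  refine (levelModule h).eq_zero_of_smul_eq_zero fun m => ?_
  have : t • m ∈ pointPart h π' := (Submodule.mem_torsionBySet_iff _ _).mpr fun s => by
    rw [smul_smul, show (s : (levelModule h).T) * t = 0 from ?_, zero_smul]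
    rw [mul_comm]
    exact Submodule.mem_annihilator.mp ht _ s.2
  rwa [hbot, Submodule.mem_bot] at this

omit [CharZero K] [FaithfulSMul 𝒪 K] in
/-- The rank of the part killed by the kernel of a point is at most the rank of a free module. -/
theorem finrank_pointPart_le [IsReduced (levelModule h).T]
    [Module.Free (levelModule h).T (levelModule h).M] :
    Module.finrank 𝒪 (pointPart h π') ≤
      Module.finrank (levelModule h).T (levelModule h).M := by
  have : Module.Finite (levelModule h).T (levelModule h).M := Module.Finite.of_restrictScalars_finite 𝒪 _ _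
  let b := Module.Free.chooseBasis (levelModule h).T (levelModule h).M
  let Φ : pointPart h π' →ₗ[𝒪] (Module.Free.ChooseBasisIndex (levelModule h).T (levelModule h).M → 𝒪) :=
    { toFun := fun x i => π' (b.repr x.1 i)
      map_add' := fun x y => funext fun i => by simp
      map_smul' := fun r x => funext fun i => by
        rw [RingHom.id_apply, Pi.smul_apply, Submodule.coe_smul,
          ← algebraMap_smul (levelModule h).T r x.1, map_smul, Finsupp.smul_apply, smul_eq_mul,
          map_mul, π'.commutes, Algebra.algebraMap_self, RingHom.id_apply, smul_eq_mul] }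
  have hΦ : Function.Injective Φ := by
    rw [injective_iff_map_eq_zero]
    intro x hx
    refine Subtype.ext (b.repr.injective (Finsupp.ext fun i => ?_))
    rw [ZeroMemClass.coe_zero, map_zero, Finsupp.zero_apply]
    have hi : b.repr x.1 i ∈ RingHom.ker π' := congrFun hx i
    have h2 := (Submodule.mem_torsionBySet_iff _ _).mp x.2 ⟨_, hi⟩
    have h3 := congrArg (fun m => b.repr m i) h2
    simp only [map_smul, Finsupp.smul_apply, smul_eq_mul, map_zero, Finsupp.zero_apply] at h3
    exact eq_zero_of_pow_eq_zero (n := 2) (by rw [sq, h3])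
  refine (LinearMap.finrank_le_finrank_of_injective hΦ).trans_eq ?_
  rw [Module.finrank_fintype_fun_eq_card, Module.finrank_eq_card_basis b]

/-- The element of the level with given values on parabolic generators. -/
def solClass : (Mult.ParIdx N → 𝒪) →ₗ[𝒪] levelLoc 𝒪 N a :=
  ((toLocM (eigIdeal a) :
      GroupH1.HMod N (⊤ : Subgroup (ZMod N)ˣ) 𝒪 →ₗ[HeckePoly 𝒪] levelLoc 𝒪 N a).restrictScalars
        𝒪).comp
    { toFun := fun x => toH (IharaH1.ofGamma0 (Mult.parPhi N 𝒪 x))
      map_add' := fun x y => by simp only [map_add]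
      map_smul' := fun r x => by
        rw [map_smul, RingHom.id_apply, ← map_smul toH]
        rfl }

omit [IsDomain 𝒪] [IsDiscreteValuationRing 𝒪] [IsAdicComplete (maximalIdeal 𝒪) 𝒪] [CharZero 𝒪] [NeZero N] in
theorem gamma0Hom_toH_ofGamma0 (φ : Additive (Gamma0 N) →+ 𝒪) :
    gamma0Hom (toH (IharaH1.ofGamma0 φ)) = φ := by
  show IharaH1.toGamma0 (toH.symm (toH (IharaH1.ofGamma0 φ))) = φ
  rw [LinearEquiv.symm_apply_apply, IharaH1.toGamma0_ofGamma0]

omit [IsDomain 𝒪] [IsDiscreteValuationRing 𝒪] [IsAdicComplete (maximalIdeal 𝒪) 𝒪] [CharZero 𝒪] in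
/-- A polynomial acts on a simultaneous eigenvector through its value. -/
theorem poly_smul_of_forall {V : Type} [AddCommGroup V] [Module 𝒪 V] [Module (HeckePoly 𝒪) V]
    [IsScalarTower 𝒪 (HeckePoly 𝒪) V] (d : Nat.Primes → 𝒪) {v : V}
    (hv : ∀ r, (MvPolynomial.X r : HeckePoly 𝒪) • v = d r • v) (P : HeckePoly 𝒪) :
    P • v = MvPolynomial.eval d P • v := by
  induction P using MvPolynomial.induction_on with
  | C r => rw [MvPolynomial.eval_C, ← MvPolynomial.algebraMap_eq, algebraMap_smul]
  | add p q hp hq => rw [map_add, add_smul, hp, hq, add_smul]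
  | mul_X p r hp =>
    rw [map_mul, MvPolynomial.eval_X, mul_comm p, mul_smul, hp, smul_comm, hv, smul_smul]

omit [NeZero N] [Nontrivial (levelLoc 𝒪 N a)] in
omit [IsAdicComplete (maximalIdeal 𝒪) 𝒪] [CharZero 𝒪] in
/-- An eigenvector whose values lift the residual system survives localisation. -/
theorem eq_zero_of_toLocM_eq_zero (d : Nat.Primes → 𝒪) (hres : ∀ r, residue 𝒪 (d r) = a r)
    {v : GroupH1.HMod N (⊤ : Subgroup (ZMod N)ˣ) 𝒪}
    (hv : ∀ r, (MvPolynomial.X r : HeckePoly 𝒪) • v = d r • v)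
    (h0 : toLocM (eigIdeal a) v = 0) : v = 0 := by
  obtain ⟨P, hP, hP0⟩ := (GroupH1.toLocM_eq_zero_iff (eigIdeal a)).mp h0
  rw [poly_smul_of_forall d hv] at hP0
  have hPd : IsUnit (MvPolynomial.eval d P) := by
    by_contra hn
    refine hP ?_
    rw [← mem_nonunits_iff, ← mem_maximalIdeal, ← residue_eq_zero_iff] at hn
    have he : (residue 𝒪).comp (MvPolynomial.eval d) =
        MvPolynomial.eval₂Hom (residue 𝒪) a :=
      MvPolynomial.ringHom_ext (fun r => by simp) fun r => by simp [hres r]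
    exact (DFunLike.congr_fun he P).symm.trans hn
  exact hPd.smul_eq_zero.mp hP0

omit [IsAdicComplete (maximalIdeal 𝒪) 𝒪] [CharZero 𝒪] [Nontrivial (levelLoc 𝒪 N a)] in
theorem solClass_apply (x : Mult.ParIdx N → 𝒪) :
    solClass (a := a) x = toLocM (eigIdeal a) (toH (IharaH1.ofGamma0 (Mult.parPhi N 𝒪 x))) := rfl

section Minimal

variable {g₀ : CuspForm (Gamma0 N) 2} (hg₀ : g₀.IsNewform)
  (hj₀ : ∀ (l : ℕ) (hl : l.Prime) (hlN : ¬ l ∣ N') (hlS : l ∉ (↑S : Set ℕ)),
    algebraMap 𝒪 K
        (π' ((levelModule h).toT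
          (heckeLocal.π N' (↑S : Set ℕ) 𝒪 θ (heckeAlgebra.T hl hlN hlS)))) =
      σ (Mult.coefF hg₀.1 l))
  (hsq : Squarefree N)

omit [CharZero K] in
/-- An eigenform of the level itself whose values lift the residual system gives rank at least two
to the part killed by the kernel of its point. -/
theorem two_le_finrank_pointPart_of_eigen (hg₀' : g₀.IsNormalizedEigenform) (d : Nat.Primes → 𝒪)
    (hd : ∀ r, algebraMap 𝒪 K (d r) = σ (Mult.coefF hg₀' r)) (hres : ∀ r, residue 𝒪 (d r) = a r)
    (hdS : ∀ l : Nat.Primes, (l : ℕ) ∉ S.filter Nat.Prime → pointCoeff h π' l = d l) :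
    2 ≤ Module.finrank 𝒪 (pointPart h π') := by
  classical
  -- two independent solutions over the fraction field
  let jK : FractionRing 𝒪 →+* K :=
    IsFractionRing.lift (FaithfulSMul.algebraMap_injective 𝒪 K)
  have hjK : ∀ x, jK (algebraMap 𝒪 (FractionRing 𝒪) x) = algebraMap 𝒪 K x :=
    fun x => IsFractionRing.lift_algebraMap _ x
  let lam : Nat.Primes → FractionRing 𝒪 := fun r => algebraMap 𝒪 _ (d r)
  have hdim : 2 ≤ Module.finrank (FractionRing 𝒪) (Mult.kerSol (Mult.fullOps (N := N) lam)) := by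
    rw [← Mult.finrank_kerSol_map jK (T := Mult.fullOps (N := N) lam)
      (T' := Mult.fullOps (N := N) fun r => σ (Mult.coefF hg₀' r)) fun r φ => by
        have := Mult.mapHom_sub_algebraMap (N := N) jK r (lam r) φ
        simp only [lam, hjK, hd] at this
        exact this]
    exact Mult.two_le_finrank_kerSol_of_eigen σ hg₀' rfl
  obtain ⟨f, hf⟩ := exists_linearIndependent_of_le_finrank hdim
  obtain ⟨b, hb⟩ := IsLocalization.exist_integer_multiples (nonZeroDivisors 𝒪) Finset.univ
    fun p : Fin 2 × Mult.ParIdx N => (f p.1 : Mult.ParIdx N → FractionRing 𝒪) p.2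
  choose u hu using fun p : Fin 2 × Mult.ParIdx N => hb p (Finset.mem_univ p)
  let x : Fin 2 → Mult.ParIdx N → 𝒪 := fun k i => u (k, i)
  have hxf : ∀ k, (algebraMap 𝒪 (FractionRing 𝒪)) ∘ x k =
      algebraMap 𝒪 (FractionRing 𝒪) (b : 𝒪) • (f k : Mult.ParIdx N → FractionRing 𝒪) := fun k =>
    funext fun i => by
      rw [Pi.smul_apply, algebraMap_smul]
      exact hu (k, i)
  have hinjF : Function.Injective
      (Mult.mapHom (N := N) (algebraMap 𝒪 (FractionRing 𝒪))) := fun p q hpq =>
    AddMonoidHom.ext fun γ => IsFractionRing.injective 𝒪 _ (DFunLike.congr_fun hpq γ)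
  have hx : ∀ k r, Mult.opK N 𝒪 r (Mult.parPhi N 𝒪 (x k)) = d r • Mult.parPhi N 𝒪 (x k) := by
    intro k r
    refine hinjF ?_
    rw [Mult.mapHom_opK, Mult.mapHom_smul, Mult.mapHom_parPhi, hxf, map_smul, map_smul,
      Mult.fullOps_apply_eq_zero.mp (Mult.mem_kerSol.mp (f k).2 r), smul_comm]
  -- the solutions in the level
  have heig : ∀ k r, (MvPolynomial.X r : HeckePoly 𝒪) • toH (IharaH1.ofGamma0
      (Mult.parPhi N 𝒪 (x k))) = d r • toH (IharaH1.ofGamma0 (Mult.parPhi N 𝒪 (x k))) := by
    intro k r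
    refine gamma0Hom_injective ?_
    rw [gamma0Hom_X_smul, gamma0Hom_toH_ofGamma0]
    refine (hx k r).trans ?_
    conv_lhs => rw [← gamma0Hom_toH_ofGamma0 (Mult.parPhi N 𝒪 (x k))]
    rfl
  have hmem : ∀ k, solClass (a := a) (x k) ∈
      Mult.goodPart N a (S.filter Nat.Prime) (pointCoeff h π') := fun k l hl => by
    have hcd : pointCoeff h π' l = d l := hdS l hl
    show (MvPolynomial.X l : HeckePoly 𝒪) •
        toLocM (eigIdeal a) (toH (IharaH1.ofGamma0 (Mult.parPhi N 𝒪 (x k)))) =
      pointCoeff h π' l • toLocM (eigIdeal a) (toH (IharaH1.ofGamma0 (Mult.parPhi N 𝒪 (x k))))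
    rw [hcd, ← map_smul, ← LinearMap.map_smul_of_tower]
    exact congrArg _ (heig k l)
  have hli : LinearIndependent 𝒪 x := by
    have hb0 : algebraMap 𝒪 (FractionRing 𝒪) (b : 𝒪) ≠ 0 := fun h0 =>
      nonZeroDivisors.ne_zero b.2 (IsFractionRing.injective 𝒪 _ (h0.trans (map_zero _).symm))
    have h1 : LinearIndependent (FractionRing 𝒪)
        fun k => (algebraMap 𝒪 (FractionRing 𝒪)) ∘ x k := by
      simp only [hxf]
      exact (hf.map' (Mult.kerSol (Mult.fullOps (N := N) lam)).subtype
        (Submodule.ker_subtype _)).units_smul fun _ => Units.mk0 _ hb0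
    refine LinearIndependent.of_comp ((Algebra.linearMap 𝒪 (FractionRing 𝒪)).compLeft _)
      (h1.restrict_scalars ?_)
    intro p q hpq
    simpa [Algebra.smul_def] using hpq
  have hker : ∀ c : Fin 2 → 𝒪, solClass (a := a) (∑ k, c k • x k) = 0 → ∑ k, c k • x k = 0 := by
    intro c hc
    set y := ∑ k, c k • x k with hy
    set v := toH (IharaH1.ofGamma0 (Mult.parPhi N 𝒪 y)) with hv
    have heig' : ∀ r, (MvPolynomial.X r : HeckePoly 𝒪) • v = d r • v := by
      intro r
      refine gamma0Hom_injective ?_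
      rw [gamma0Hom_X_smul, hv, gamma0Hom_toH_ofGamma0]
      have hyr : Mult.opK N 𝒪 r (Mult.parPhi N 𝒪 y) = d r • Mult.parPhi N 𝒪 y := by
        simp only [hy, map_sum, map_smul, hx, Finset.smul_sum, smul_comm (c _)]
      refine hyr.trans ?_
      conv_lhs => rw [← gamma0Hom_toH_ofGamma0 (Mult.parPhi N 𝒪 y)]
      rfl
    rw [solClass_apply] at hc
    have hP0 : v = 0 := eq_zero_of_toLocM_eq_zero d hres heig' hc
    refine Mult.parPhi_injective ?_
    rw [map_zero, ← gamma0Hom_toH_ofGamma0 (Mult.parPhi N 𝒪 y), ← hv, hP0, map_zero]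
  have hli' : LinearIndependent 𝒪 fun k =>
      (⟨solClass (x k), hmem k⟩ :
        Mult.goodPart N a (S.filter Nat.Prime) (pointCoeff h π')) := by
    refine LinearIndependent.of_comp (Submodule.subtype _) ?_
    rw [Fintype.linearIndependent_iff] at hli ⊢
    intro c hc
    refine hli c (hker c ?_)
    rw [map_sum]
    simpa only [map_smul, Function.comp_apply, Submodule.subtype_apply] using hc
  rw [(pointPartEquiv h π').finrank_eq]
  simpa using hli'.fintype_card_le_finrank

include hg₀ hj₀ hsq in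
omit [CharZero K] in
/-- At the minimal level the part killed by the kernel of a point has rank at least two. -/
theorem two_le_finrank_pointPart [IsReduced (levelModule h).T] :
    2 ≤ Module.finrank 𝒪 (pointPart h π') := by
  classical
  have hr : ∀ r : Nat.Primes,
      ¬ (r : ℕ) ∣ N ∨ (N.factorization r = 1 ∧ N.factorization r = 1) := fun r => by
    by_cases hd : (r : ℕ) ∣ N
    · have h1 : N.factorization r = 1 :=
        le_antisymm (hsq.natFactorization_le_one _)
          (r.2.factorization_pos_of_dvd (NeZero.ne N) hd)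
      exact .inr ⟨h1, h1⟩
    · exact .inl hd
  choose d hd hres hdx using fun r =>
    exists_smul_eq_coeff h π' σ hg₀ dvd_rfl hj₀ r (hr r) (pointPart_ne_bot h π')
  exact two_le_finrank_pointPart_of_eigen h π' σ hg₀.1 d hd hres fun l hl =>
    FaithfulSMul.algebraMap_injective 𝒪 K
      ((algebraMap_pointCoeff h π' σ hg₀ hj₀ l hl).trans (hd l).symm)

include hg₀ hj₀ hsq in
omit [CharZero K] in
/-- **At the minimal level a free level has rank at least two over its Hecke ring.** -/
theorem two_le_finrank_of_free [IsReduced (levelModule h).T]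
    [Module.Free (levelModule h).T (levelModule h).M] :
    2 ≤ Module.finrank (levelModule h).T (levelModule h).M :=
  (two_le_finrank_pointPart h π' σ hg₀ hj₀ hsq).trans (finrank_pointPart_le h π')

end Minimal

instance faithfulSMul_algClosure_fractionRing (R : Type) [CommRing R] [IsDomain R] :
    FaithfulSMul R (AlgebraicClosure (FractionRing R)) := by
  refine (faithfulSMul_iff_algebraMap_injective R _).mpr ?_
  rw [IsScalarTower.algebraMap_eq R (FractionRing R) (AlgebraicClosure (FractionRing R))]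
  exact (algebraMap (FractionRing R) (AlgebraicClosure (FractionRing R))).injective.comp
    (IsFractionRing.injective R _)

omit [IsDiscreteValuationRing 𝒪] [IsAdicComplete (maximalIdeal 𝒪) 𝒪] in
/-- A map to `𝒪` of a ring of algebraic integers in `ℂ` extends to all algebraic numbers. -/
theorem exists_algC_ringHom {R : Subring ℂ} (hR : ∀ x ∈ R, IsIntegral ℤ x) (ι : R →+* 𝒪) :
    ∃ τ : Mult.AlgC →+* AlgebraicClosure (FractionRing 𝒪), ∀ (x : R) (y : Mult.AlgC),
      (y : ℂ) = x → τ y = algebraMap 𝒪 (AlgebraicClosure (FractionRing 𝒪)) (ι x) := by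
  have hι : Function.Injective ι := by
    have : Algebra.IsIntegral ℤ R := ⟨fun x =>
      (isIntegral_algHom_iff R.subtype.toIntAlgHom Subtype.val_injective).mp (hR x x.2)⟩
    refine (RingHom.injective_iff_ker_eq_bot ι).mpr ?_
    refine Ideal.eq_bot_of_comap_eq_bot (R := ℤ) ?_
    rw [RingHom.comap_ker]
    exact (RingHom.injective_iff_ker_eq_bot _).mp (RingHom.injective_int _)
  let i : R →+* Mult.AlgC :=
    R.subtype.codRestrict (algebraicClosure ℚ ℂ) fun x =>
      mem_algebraicClosure_iff.mpr ((hR x x.2).tower_top (A := ℚ)).isAlgebraic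
  let _ : Algebra R Mult.AlgC := i.toAlgebra
  let e : 𝒪 →+* AlgebraicClosure (FractionRing 𝒪) := algebraMap 𝒪 _
  let _ : Algebra R (AlgebraicClosure (FractionRing 𝒪)) := (e.comp ι).toAlgebra
  have he : Function.Injective e := FaithfulSMul.algebraMap_injective 𝒪 _
  have : FaithfulSMul R Mult.AlgC := (faithfulSMul_iff_algebraMap_injective R Mult.AlgC).mpr
    fun p q hpq => Subtype.ext (congrArg Subtype.val hpq :)
  have : FaithfulSMul R (AlgebraicClosure (FractionRing 𝒪)) :=
    (faithfulSMul_iff_algebraMap_injective R _).mpr (he.comp hι)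
  have : Algebra.IsAlgebraic ℤ Mult.AlgC :=
    (IsFractionRing.comap_isAlgebraic_iff (A := ℤ) (K := ℚ) (C := Mult.AlgC)).mpr
      (algebraicClosure.isAlgebraic ℚ ℂ)
  have : IsScalarTower ℤ R Mult.AlgC := IsScalarTower.of_algebraMap_eq' (RingHom.ext_int _ _)
  have : Algebra.IsAlgebraic R Mult.AlgC :=
    Algebra.IsAlgebraic.extendScalars (R := ℤ) (RingHom.injective_int _)
  let τ : Mult.AlgC →ₐ[R] AlgebraicClosure (FractionRing 𝒪) := IsAlgClosed.lift
  exact ⟨τ, fun x y hxy => by rw [show y = algebraMap R Mult.AlgC x from Subtype.ext hxy]; exact τ.commutes x⟩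

end Fermat.Agent.Lifting
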