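import Fermat.Agent.Patching.GroupAlgebra
import Fermat.Agent.GroupH1.TWLevel
import Mathlib.Data.ZMod.QuotientRing
import Mathlib.Data.ZMod.Units
import Mathlib.Algebra.Group.Pi.Units
import Mathlib.GroupTheory.SpecificGroups.Cyclic

/-!
# The `p`-quotient of `(ℤ/N ∏ qⱼ)ˣ` at Taylor–Wiles primes

For primes `q₁, …, q_r` prime to `N`, the character `twChi` of `(ℤ/N ∏ qⱼ)ˣ` onto
`∏ⱼ ℤ/p ^ vⱼ`, `vⱼ = v_p (qⱼ - 1)`, its kernel `twH`, and an exponent `sqrtExp` giving square roots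
in the quotient.
-/

set_option autoImplicit false

noncomputable section

namespace Fermat.Agent.Lifting

open Fermat.Agent.Patching

variable (N p : ℕ) {r : ℕ} (qv : Fin r → Nat.Primes)

/-- The set of Taylor–Wiles primes. -/
def twQ : Finset Nat.Primes := Finset.univ.image qv

/-- The level `N ∏ qⱼ`. -/
def twM : ℕ := N * ∏ q ∈ twQ qv, (q : ℕ)

/-- The level `N ∏ qⱼ²` of the twisted forms. -/
def twM2 : ℕ := N * ∏ q ∈ twQ qv, (q : ℕ) ^ 2

/-- The exponents `v_p (qⱼ - 1)`. -/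
def twExp : Fin r → ℕ := fun j => ((qv j : ℕ) - 1).factorization p

/-- `qv j` is a Taylor–Wiles prime. -/
lemma mem_twQ (j : Fin r) : qv j ∈ twQ qv := Finset.mem_image_of_mem _ (Finset.mem_univ j)

/-- Every element of `twQ` is some `qv j`. -/
lemma exists_of_mem_twQ {q : Nat.Primes} (h : q ∈ twQ qv) : ∃ j, qv j = q := by
  simpa [twQ] using h

variable {qv} in
/-- The product of the Taylor–Wiles primes. -/
lemma prod_twQ (hinj : Function.Injective qv) :
    ∏ q ∈ twQ qv, (q : ℕ) = ∏ j, (qv j : ℕ) := by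
  rw [twQ, Finset.prod_image fun x _ y _ h => hinj h]

/-- `qv j` divides the level `twM`. -/
lemma dvd_twM (j : Fin r) : (qv j : ℕ) ∣ twM N qv :=
  dvd_mul_of_dvd_right (Finset.dvd_prod_of_mem (fun q : Nat.Primes => (q : ℕ)) (mem_twQ qv j)) N

/-- `twM` divides `twM2`. -/
lemma twM_dvd_twM2 : twM N qv ∣ twM2 N qv :=
  mul_dvd_mul_left N (Finset.prod_dvd_prod_of_dvd _ _ fun _ _ => dvd_pow_self _ two_ne_zero)

/-- `N` divides `twM`. -/
lemma dvd_twM_self : N ∣ twM N qv := dvd_mul_right _ _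

instance neZero_twM [NeZero N] : NeZero (twM N qv) :=
  ⟨mul_ne_zero (NeZero.ne N) (Finset.prod_ne_zero_iff.2 fun q _ => q.2.ne_zero)⟩

instance neZero_twM2 [NeZero N] : NeZero (twM2 N qv) :=
  ⟨mul_ne_zero (NeZero.ne N) (Finset.prod_ne_zero_iff.2 fun q _ => pow_ne_zero 2 q.2.ne_zero)⟩

/-- A prime divides `N ∏ qⱼ²` iff it divides `N` or is one of the `qⱼ`. -/
lemma dvd_twM2_iff {ℓ : ℕ} (hℓ : ℓ.Prime) :
    ℓ ∣ twM2 N qv ↔ ℓ ∣ N ∨ ∃ j, (qv j : ℕ) = ℓ := by
  constructor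
  · intro h
    refine (hℓ.dvd_mul.1 h).imp id fun h => ?_
    obtain ⟨q, hq, hd⟩ := (Prime.dvd_finsetProd_iff hℓ.prime _).1 h
    obtain ⟨j, rfl⟩ := exists_of_mem_twQ qv hq
    exact ⟨j, ((Nat.prime_dvd_prime_iff_eq hℓ (qv j).2).1 (hℓ.dvd_of_dvd_pow hd)).symm⟩
  · rintro (h | ⟨j, rfl⟩)
    · exact h.trans ((dvd_twM_self N qv).trans (twM_dvd_twM2 N qv))
    · exact (dvd_twM N qv j).trans (twM_dvd_twM2 N qv)

/-- `p ^ twExp` divides the order of the unit group at `qv j`. -/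
lemma pow_twExp_dvd (j : Fin r) :
    p ^ twExp p qv j ∣ Nat.card (ZMod (qv j : ℕ))ˣ := by
  have : Fact (qv j : ℕ).Prime := ⟨(qv j).2⟩
  rw [Nat.card_eq_fintype_card, ZMod.card_units]
  exact Nat.ordProj_dvd _ p

/-- The projection of `(ℤ/qⱼ)ˣ` onto `ℤ/p ^ vⱼ`. -/
def twComp (j : Fin r) : (ZMod (qv j : ℕ))ˣ →* Multiplicative (ZMod (p ^ twExp p qv j)) :=
  haveI : Fact (qv j : ℕ).Prime := ⟨(qv j).2⟩
  (AddMonoidHom.toMultiplicative
      (ZMod.castHom (pow_twExp_dvd p qv j) (ZMod (p ^ twExp p qv j))).toAddMonoidHom).comp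
    (zmodCyclicMulEquiv (G := (ZMod (qv j : ℕ))ˣ) inferInstance).symm.toMonoidHom

/-- Each component character is surjective. -/
lemma twComp_surjective (j : Fin r) : Function.Surjective (twComp p qv j) := fun x => by
  obtain ⟨y, hy⟩ := ZMod.castHom_surjective (pow_twExp_dvd p qv j) x.toAdd
  have : Fact (qv j : ℕ).Prime := ⟨(qv j).2⟩
  refine ⟨zmodCyclicMulEquiv (G := (ZMod (qv j : ℕ))ˣ) inferInstance (Multiplicative.ofAdd y), ?_⟩
  simp only [twComp, MonoidHom.comp_apply, MulEquiv.coe_toMonoidHom, MulEquiv.symm_apply_apply]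
  exact congrArg Multiplicative.ofAdd hy

/-- The character onto the product. -/
def twChi : (⊤ : Subgroup (ZMod (twM N qv))ˣ) →* DeltaV p (twExp p qv) :=
  (MonoidHom.pi fun j => (twComp p qv j).comp (ZMod.unitsMap (dvd_twM N qv j))).comp
    (⊤ : Subgroup (ZMod (twM N qv))ˣ).subtype

/-- The components of `twChi`. -/
lemma twChi_apply (u : (⊤ : Subgroup (ZMod (twM N qv))ˣ)) (j : Fin r) :
    twChi N p qv u j = twComp p qv j (ZMod.unitsMap (dvd_twM N qv j) u.1) := rfl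

/-- Its kernel. -/
def twH : Subgroup (ZMod (twM N qv))ˣ :=
  ((twChi N p qv).comp Subgroup.topEquiv.symm.toMonoidHom).ker

/-- `twH` is the kernel of `twChi`. -/
lemma mem_twH (u : (⊤ : Subgroup (ZMod (twM N qv))ˣ)) :
    (u : (ZMod (twM N qv))ˣ) ∈ twH N p qv ↔ twChi N p qv u = 1 := Iff.rfl

variable {qv} in
/-- The character onto the `p`-quotient is surjective. -/
theorem twChi_surjective [NeZero N] (hinj : Function.Injective qv) :
    Function.Surjective (twChi N p qv) := by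
  intro g
  choose x hx using fun j => twComp_surjective p qv j (g j)
  have hcop : Pairwise (Function.onFun Nat.Coprime fun j => (qv j : ℕ)) := fun i j hij =>
    (Nat.coprime_primes (qv i).2 (qv j).2).2 fun h => hij (hinj (Subtype.ext h))
  let e := ZMod.prodEquivPi (fun j => (qv j : ℕ)) hcop
  let w : (ZMod (∏ j, (qv j : ℕ)))ˣ :=
    Units.map e.symm.toRingHom.toMonoidHom ((MulEquiv.piUnits (M := fun j => ZMod (qv j : ℕ))).symm x)
  have hd : (∏ j, (qv j : ℕ)) ∣ twM N qv := by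
    rw [← prod_twQ hinj]
    exact dvd_mul_left _ _
  obtain ⟨u, hu⟩ := ZMod.unitsMap_surjective hd w
  refine ⟨⟨u, Subgroup.mem_top u⟩, funext fun j => ?_⟩
  rw [twChi_apply, ← hx j]
  refine congrArg _ (Units.ext ?_)
  rw [← ZMod.unitsMap_comp (Finset.dvd_prod_of_mem (fun j => (qv j : ℕ)) (Finset.mem_univ j)) hd,
    MonoidHom.comp_apply, hu]
  show ZMod.castHom (Finset.dvd_prod_of_mem (fun j => (qv j : ℕ)) (Finset.mem_univ j))
    (ZMod (qv j : ℕ))
    (e.symm ((MulEquiv.piUnits (M := fun j => ZMod (qv j : ℕ))).symm x : Π j, ZMod (qv j : ℕ))) = _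
  rw [← ZMod.prodEquivPi_apply (fun j => (qv j : ℕ)) hcop, RingEquiv.apply_symm_apply]
  rfl

/-- `-1` lies in `twH` for odd `p`. -/
theorem neg_one_mem_twH (hp : p.Prime) (hp2 : p ≠ 2) :
    (-1 : (ZMod (twM N qv))ˣ) ∈ twH N p qv := by
  refine (mem_twH N p qv ⟨-1, Subgroup.mem_top _⟩).2 (funext fun j => ?_)
  rw [twChi_apply, Pi.one_apply]
  set z := twComp p qv j (ZMod.unitsMap (dvd_twM N qv j) (-1 : (ZMod (twM N qv))ˣ)) with hz
  have h2 : z ^ 2 = 1 := by
    rw [hz, ← map_pow, ← map_pow, neg_one_sq, map_one, map_one]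
  have hcard : z ^ (p ^ twExp p qv j) = 1 := by
    apply Multiplicative.toAdd.injective
    rw [toAdd_pow, toAdd_one, ← Nat.cast_smul_eq_nsmul (ZMod (p ^ twExp p qv j)), ZMod.natCast_self,
      zero_smul]
  exact orderOf_eq_one_iff.1 (Nat.eq_one_of_dvd_coprimes
    ((Nat.coprime_primes Nat.prime_two hp).2 (Ne.symm hp2) |>.pow_right _)
    (orderOf_dvd_of_pow_eq_one h2) (orderOf_dvd_of_pow_eq_one hcard))

/-- An exponent giving square roots in the quotient. -/
def sqrtExp : ℕ := (p ^ ∑ j, twExp p qv j + 1) / 2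

variable {p} in
/-- `sqrtExp` gives square roots in `Δ`. -/
theorem pow_two_mul_sqrtExp (hp : p.Prime) (hp2 : p ≠ 2) (x : DeltaV p (twExp p qv)) :
    x ^ (2 * sqrtExp p qv) = x := by
  have hodd : Odd (p ^ ∑ j, twExp p qv j) := (hp.odd_of_ne_two hp2).pow
  have he : 2 * sqrtExp p qv = p ^ (∑ j, twExp p qv j) + 1 := by
    rw [sqrtExp, Nat.mul_div_cancel']
    exact (Odd.add_odd hodd odd_one).two_dvd
  rw [he, pow_succ]
  suffices h : x ^ p ^ (∑ j, twExp p qv j) = 1 by rw [h, one_mul]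
  funext j
  rw [Pi.pow_apply, Pi.one_apply]
  obtain ⟨c, hc⟩ := pow_dvd_pow p
    (Finset.single_le_sum (f := twExp p qv) (fun _ _ => Nat.zero_le _) (Finset.mem_univ j))
  rw [hc, pow_mul]
  have : x j ^ (p ^ twExp p qv j) = 1 := by
    apply Multiplicative.toAdd.injective
    rw [toAdd_pow, toAdd_one, ← Nat.cast_smul_eq_nsmul (ZMod (p ^ twExp p qv j)), ZMod.natCast_self,
      zero_smul]
  rw [this, one_pow]

/-- `Δ` is a `p`-group. -/
theorem isPGroup_deltaV [Fact p.Prime] : IsPGroup p (DeltaV p (twExp p qv)) := by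
  intro x
  refine ⟨∑ j, twExp p qv j, funext fun j => ?_⟩
  rw [Pi.pow_apply, Pi.one_apply]
  obtain ⟨c, hc⟩ := pow_dvd_pow p
    (Finset.single_le_sum (f := twExp p qv) (fun _ _ => Nat.zero_le _) (Finset.mem_univ j))
  rw [hc, pow_mul]
  have : x j ^ (p ^ twExp p qv j) = 1 := by
    apply Multiplicative.toAdd.injective
    rw [toAdd_pow, toAdd_one, ← Nat.cast_smul_eq_nsmul (ZMod (p ^ twExp p qv j)), ZMod.natCast_self,
      zero_smul]
  rw [this, one_pow]

/-- The exponent at a Taylor–Wiles prime of depth `n` is at least `n + 1`. -/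
theorem le_twExp {n : ℕ} (hp : p.Prime) (hq : ∀ j, p ^ (n + 1) ∣ (qv j : ℕ) - 1) (j : Fin r) :
    n + 1 ≤ twExp p qv j := by
  refine (hp.pow_dvd_iff_le_factorization ?_).1 (hq j)
  have := (qv j).2.two_le
  omega

/-- The image of a natural number prime to the level. -/
def deltaOf (ℓ : ℕ) : DeltaV p (twExp p qv) :=
  if h : ℓ.Coprime (twM N qv) then twChi N p qv ⟨ZMod.unitOfCoprime ℓ h, Subgroup.mem_top _⟩ else 1

end Fermat.Agent.Lifting
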