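import Fermat.Agent.Lifting.MinimalSetup
import Fermat.Agent.Lifting.TWDelta

/-!
# The conditions of the three cases at the Taylor–Wiles levels

At level `N₀ ∏ qⱼ²`, with ramification allowed in `S₀ ∪ {qⱼ}`, a Hecke Galois representation with
residual representation `W[p] ⊗ k` satisfies the condition of each case: the level has the same
behaviour as `N₀` at the primes of `S₀`.
-/

set_option autoImplicit false

noncomputable section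

open IsLocalRing GaloisRep

namespace Fermat.Agent.Lifting

open CuspForm (HeckeGaloisRepDatum heckeAlgebra heckeLocal)

section Level

variable {N₀ : ℕ} {S S₀ : Finset ℕ} {r : ℕ} {qv : Fin r → Nat.Primes}

/-- Powers of a prime other than the `qⱼ` divide `N₀ ∏ qⱼ²` iff they divide `N₀`. -/
theorem pow_dvd_twM2_iff {q : ℕ} (hq : q.Prime) (hne : ∀ j, (qv j : ℕ) ≠ q) (k : ℕ) :
    q ^ k ∣ twM2 N₀ qv ↔ q ^ k ∣ N₀ := by
  refine ⟨fun h => ?_, fun h => h.trans ((dvd_twM_self N₀ qv).trans (twM_dvd_twM2 N₀ qv))⟩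
  refine (Nat.Coprime.dvd_of_dvd_mul_right ?_ h)
  refine Nat.Coprime.pow_left k (Nat.Coprime.prod_right fun x hx => Nat.Coprime.pow_right 2 ?_)
  obtain ⟨j, rfl⟩ := exists_of_mem_twQ qv hx
  exact (Nat.coprime_primes hq (qv j).2).2 (hne j).symm

variable (hSS : S₀ ⊆ S) (hNS₀ : ∀ q : ℕ, q.Prime → q ∣ N₀ → q ∈ S₀)
  (hqS : ∀ j, (qv j : ℕ) ∉ S)

include hSS hqS in
/-- The primes of `S₀` are none of the `qⱼ`. -/
theorem twPrime_ne_of_mem {q : ℕ} (hq : q ∈ S₀) (j : Fin r) : (qv j : ℕ) ≠ q := fun h =>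
  hqS j (h ▸ hSS hq)

include hNS₀ in
/-- The primes of the Taylor–Wiles level lie in `S₀ ∪ {qⱼ}`. -/
theorem mem_of_dvd_twM2 (q : ℕ) (hq : q.Prime) (h : q ∣ twM2 N₀ qv) :
    q ∈ S₀ ∪ Finset.univ.image fun j => (qv j : ℕ) := by
  rcases (dvd_twM2_iff N₀ qv hq).1 h with h | ⟨j, rfl⟩
  · exact Finset.mem_union_left _ (hNS₀ q hq h)
  · exact Finset.mem_union_right _ (Finset.mem_image.2 ⟨j, Finset.mem_univ j, rfl⟩)

include hSS hNS₀ hqS in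
/-- Dividing the level exactly once is kept. -/
theorem dvd_once_twM2 {q : ℕ} (hq : q.Prime) (h : q ∣ N₀ ∧ ¬ q ^ 2 ∣ N₀) :
    q ∣ twM2 N₀ qv ∧ ¬ q ^ 2 ∣ twM2 N₀ qv := by
  have hne := twPrime_ne_of_mem hSS hqS (hNS₀ q hq h.1)
  exact ⟨(dvd_twM2_iff N₀ qv hq).2 (Or.inl h.1),
    fun hd => h.2 ((pow_dvd_twM2_iff hq hne 2).1 hd)⟩

include hSS hqS in
/-- Not dividing the level is kept. -/
theorem not_dvd_twM2 {p : ℕ} (hp : p.Prime) (hpS : p ∈ S₀) (h : ¬ p ∣ N₀) :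
    ¬ p ∣ twM2 N₀ qv := fun hd =>
  ((dvd_twM2_iff N₀ qv hp).1 hd).elim h fun ⟨j, hj⟩ => twPrime_ne_of_mem hSS hqS hpS j hj

end Level

variable {𝒪 : Type} [CommRing 𝒪] [IsDomain 𝒪] [IsDiscreteValuationRing 𝒪]
  [IsAdicComplete (maximalIdeal 𝒪) 𝒪] [Finite (ResidueField 𝒪)] [CharZero 𝒪]
  {p : ℕ} [Fact p.Prime] [Algebra (ZMod p) (ResidueField 𝒪)]
  (W : WeierstrassCurve ℤ) (hΔ : W.Δ ≠ 0) (hW : W.IsSemistableModel)
  (hp : p = 3 ∨ p = 5) (hirr : W.ModRepIsIrreducible p) (hp𝒪 : (p : 𝒪) ∈ maximalIdeal 𝒪)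
  {N₀ : ℕ} [NeZero N₀] {S S₀ U : Finset ℕ} (hS₀ : insert p (ramifiedPrimes W p) ⊆ S₀)
  (hSS : S₀ ⊆ S) (hNS₀ : ∀ q : ℕ, q.Prime → q ∣ N₀ → q ∈ S₀)
  (hU : ∀ q ∈ U, q.Prime → q ≠ p → q ∣ N₀ ∧ ¬ q ^ 2 ∣ N₀) (r : ℕ)

include hp𝒪 hS₀ hSS hNS₀ hU in
/-- The flat condition holds at the Taylor–Wiles levels. -/
theorem flatFamily_twLevel (h32 : FlatAtGoodLevel) (h34 : UnipotentAtSemistable) (hp2 : p ≠ 2)
    (hpN : ¬ p ∣ N₀) :
    ∀ (qv : Fin r → Nat.Primes), Function.Injective qv → (∀ j, (qv j : ℕ) ∉ S) →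
      ∀ (θ : heckeAlgebra (twM2 N₀ qv) 2
          (↑(S₀ ∪ Finset.univ.image fun j => (qv j : ℕ)) : Set ℕ) →+* ResidueField 𝒪)
        (H : HeckeGaloisRepDatum (twM2 N₀ qv)
          (↑(S₀ ∪ Finset.univ.image fun j => (qv j : ℕ)) : Set ℕ) 𝒪 θ
          (heckeLocal (twM2 N₀ qv)
            (↑(S₀ ∪ Finset.univ.image fun j => (qv j : ℕ)) : Set ℕ) 𝒪 θ)),
      (∀ q : ℕ, q.Prime → q ∉ S₀ ∪ Finset.univ.image (fun j => (qv j : ℕ)) →
        H.ρ.IsUnramifiedAt q) →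
      H.ρ.residual.IsEquiv ((residualOver W hΔ p (ResidueField 𝒪)).baseChangeAlong
        (ResidueField.map (algebraMap 𝒪 (heckeLocal (twM2 N₀ qv)
          (↑(S₀ ∪ Finset.univ.image fun j => (qv j : ℕ)) : Set ℕ) 𝒪 θ)))) →
      flatFamily 𝒪 p U (S₀ ∪ Finset.univ.image fun j => (qv j : ℕ)) H.ρ :=
  fun _ _ hqS _ H _ _ =>
    datum_flatFamily W hp𝒪 H (mem_of_dvd_twM2 hNS₀) (hS₀.trans Finset.subset_union_left)
      (fun q hq hq' hqp => dvd_once_twM2 hSS hNS₀ hqS hq' (hU q hq hq' hqp)) h32 h34 hp2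
      (not_dvd_twM2 hSS hqS Fact.out (hS₀ (Finset.mem_insert_self _ _)) hpN)

include hW hp hirr hp𝒪 hS₀ hSS hNS₀ hU in
/-- The flat ordinary condition holds at the Taylor–Wiles levels. -/
theorem flatOrdinaryFamily_twLevel (h32 : FlatAtGoodLevel) (h33 : OrdinaryAtLevel)
    (h34 : UnipotentAtSemistable) (hpN : ¬ p ∣ N₀) (hpΔ : (p : ℤ) ∣ W.Δ) :
    ∀ (qv : Fin r → Nat.Primes), Function.Injective qv → (∀ j, (qv j : ℕ) ∉ S) →
      ∀ (θ : heckeAlgebra (twM2 N₀ qv) 2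
          (↑(S₀ ∪ Finset.univ.image fun j => (qv j : ℕ)) : Set ℕ) →+* ResidueField 𝒪)
        (H : HeckeGaloisRepDatum (twM2 N₀ qv)
          (↑(S₀ ∪ Finset.univ.image fun j => (qv j : ℕ)) : Set ℕ) 𝒪 θ
          (heckeLocal (twM2 N₀ qv)
            (↑(S₀ ∪ Finset.univ.image fun j => (qv j : ℕ)) : Set ℕ) 𝒪 θ)),
      (∀ q : ℕ, q.Prime → q ∉ S₀ ∪ Finset.univ.image (fun j => (qv j : ℕ)) →
        H.ρ.IsUnramifiedAt q) →
      H.ρ.residual.IsEquiv ((residualOver W hΔ p (ResidueField 𝒪)).baseChangeAlong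
        (ResidueField.map (algebraMap 𝒪 (heckeLocal (twM2 N₀ qv)
          (↑(S₀ ∪ Finset.univ.image fun j => (qv j : ℕ)) : Set ℕ) 𝒪 θ)))) →
      flatOrdinaryFamily 𝒪 p U (S₀ ∪ Finset.univ.image fun j => (qv j : ℕ)) H.ρ :=
  fun _ _ hqS _ H _ hres =>
    datum_flatOrdinaryFamily W hΔ hW hp hirr hp𝒪 H (mem_of_dvd_twM2 hNS₀)
      (hS₀.trans Finset.subset_union_left)
      (fun q hq hq' hqp => dvd_once_twM2 hSS hNS₀ hqS hq' (hU q hq hq' hqp)) h32 h33 h34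
      (not_dvd_twM2 hSS hqS Fact.out (hS₀ (Finset.mem_insert_self _ _)) hpN) hpΔ hres

include hW hp hirr hp𝒪 hS₀ hSS hNS₀ hU in
/-- The strictly ordinary condition holds at the Taylor–Wiles levels. -/
theorem strictFamily_twLevel (h33 : OrdinaryAtLevel) (h34 : UnipotentAtSemistable)
    (hpN : p ∣ N₀ ∧ ¬ p ^ 2 ∣ N₀) (hpΔ : (p : ℤ) ∣ W.Δ) (hv : ¬ p ∣ padicValInt p W.Δ) :
    ∀ (qv : Fin r → Nat.Primes), Function.Injective qv → (∀ j, (qv j : ℕ) ∉ S) →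
      ∀ (θ : heckeAlgebra (twM2 N₀ qv) 2
          (↑(S₀ ∪ Finset.univ.image fun j => (qv j : ℕ)) : Set ℕ) →+* ResidueField 𝒪)
        (H : HeckeGaloisRepDatum (twM2 N₀ qv)
          (↑(S₀ ∪ Finset.univ.image fun j => (qv j : ℕ)) : Set ℕ) 𝒪 θ
          (heckeLocal (twM2 N₀ qv)
            (↑(S₀ ∪ Finset.univ.image fun j => (qv j : ℕ)) : Set ℕ) 𝒪 θ)),
      (∀ q : ℕ, q.Prime → q ∉ S₀ ∪ Finset.univ.image (fun j => (qv j : ℕ)) →
        H.ρ.IsUnramifiedAt q) →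
      H.ρ.residual.IsEquiv ((residualOver W hΔ p (ResidueField 𝒪)).baseChangeAlong
        (ResidueField.map (algebraMap 𝒪 (heckeLocal (twM2 N₀ qv)
          (↑(S₀ ∪ Finset.univ.image fun j => (qv j : ℕ)) : Set ℕ) 𝒪 θ)))) →
      strictFamily 𝒪 p U (S₀ ∪ Finset.univ.image fun j => (qv j : ℕ)) H.ρ :=
  fun _ _ hqS _ H _ hres =>
    datum_strictFamily W hΔ hW hp hirr hp𝒪 H (mem_of_dvd_twM2 hNS₀)
      (hS₀.trans Finset.subset_union_left)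
      (fun q hq hq' hqp => dvd_once_twM2 hSS hNS₀ hqS hq' (hU q hq hq' hqp)) h33 h34
      (dvd_once_twM2 hSS hNS₀ hqS Fact.out hpN) hpΔ hv hres

end Fermat.Agent.Lifting
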