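import Fermat.Agent.Lifting.Inputs
import Fermat.Agent.Lifting.CaseRaise
import Fermat.Agent.Lifting.MinimalData
import Fermat.Agent.Lifting.MinimalSetup
import Fermat.Agent.Lifting.TWConditions
import Fermat.Agent.Lifting.AuxPrimes
import Fermat.Agent.Lifting.Multiplicity

/-!
# Modularity lifting when `p` is a prime of good reduction

The condition is: flat at `p`, unipotent inertia at the primes where `W[p]` is ramified.
-/

set_option autoImplicit false

noncomputable section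

namespace Fermat.Agent.Lifting

open IsLocalRing GaloisRep Polynomial WeierstrassCurve
open CuspForm (HeckeGaloisRepDatum heckeAlgebra heckeLocal)
open Fermat.Agent.GaloisBasics (Qbar GalQ)

section General

variable {p : ℕ} [Fact p.Prime]

/-- `3` is a unit when the residue characteristic is not `3`. -/
theorem isUnit_three_of_ne {O : Type} [CommRing O] [IsLocalRing O] [Algebra (ZMod p) (ResidueField O)]
    (hp3 : p ≠ 3) : IsUnit (3 : O) := by
  rw [← notMem_maximalIdeal, ← residue_eq_zero_iff, map_ofNat]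
  have : CharP (ResidueField O) p :=
    charP_of_injective_algebraMap (algebraMap (ZMod p) (ResidueField O)).injective p
  intro h
  have h3 : ((3 : ℕ) : ResidueField O) = 0 := by exact_mod_cast h
  rw [CharP.cast_eq_zero_iff _ p] at h3
  exact hp3 ((Nat.prime_dvd_prime_iff_eq Fact.out Nat.prime_three).mp h3)

/-- The coefficient map of the minimal data extends to the algebraic numbers. -/
theorem MinimalData.exists_embedding_coeff {W : WeierstrassCurve ℤ} {N : ℕ} [NeZero N]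
    (D : MinimalData W p N) :
    ∃ τ : Mult.AlgC →+* AlgebraicClosure (FractionRing D.𝒪), ∀ (y : Mult.AlgC) (x : D.R),
      (y : ℂ) = ((x : integralClosure ℤ ℂ) : ℂ) → τ y = algebraMap D.𝒪 _ (D.ι x) := by
  let f : integralClosure ℤ ℂ →+* ℂ := (integralClosure ℤ ℂ).val.toRingHom
  let e := D.R.equivMapOfInjective f Subtype.val_injective
  obtain ⟨τ, hτ⟩ := exists_algC_ringHom (R := D.R.map f) (fun x ⟨y, _, hy⟩ => hy ▸ y.2)
    (D.ι.comp e.symm.toRingHom)
  refine ⟨τ, fun y x hxy => ?_⟩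
  rw [hτ (e x) y hxy]
  simp only [RingHom.comp_apply, RingEquiv.toRingHom_eq_coe, RingEquiv.coe_toRingHom,
    RingEquiv.symm_apply_apply]

/-- The coefficients of a congruent newform, as algebraic numbers in `ℂ`, map to an algebraic
closure of the fraction field compatibly with `D.char`. -/
theorem MinimalData.exists_embedding {W : WeierstrassCurve ℤ} {N : ℕ} [NeZero N]
    (D : MinimalData W p N) :
    ∃ τ : Mult.AlgC →+* AlgebraicClosure (FractionRing D.𝒪), ∀ l : Nat.Primes,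
      τ (Mult.coefF D.newform.1 l) = algebraMap D.𝒪 _ (D.char (opT N l)) := by
  obtain ⟨τ, hτ⟩ := D.exists_embedding_coeff
  exact ⟨τ, fun l => hτ _ (D.eig (opT N l)) (D.eig_opT l).symm⟩

variable {O : Type} [CommRing O] [IsDomain O] [IsDiscreteValuationRing O]
  [IsAdicComplete (maximalIdeal O) O] [Finite (ResidueField O)] [CharZero O]
  [Algebra (ZMod p) (ResidueField O)]

/-- The residual system of a congruent character: its characteristic polynomials are those of
`W[p] ⊗ k`, it is non-Eisenstein, and `3` is a unit or it is nonzero at some `l ≡ 2 (mod 3)`. -/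
theorem residualSystem_spec (hp : p = 3 ∨ p = 5) (W : WeierstrassCurve ℤ) (hΔ : W.Δ ≠ 0)
    (hW : W.IsSemistableModel) (hirr : W.ModRepIsIrreducible p) (hpO : (p : O) ∈ maximalIdeal O)
    {N₀ : ℕ} [NeZero N₀] {S₀ : Finset ℕ} (hpS : p ∈ S₀)
    (hN₀S : ∀ q : ℕ, q.Prime → q ∣ N₀ → q ∈ S₀) {χ : heckeAlgebra N₀ 2 (∅ : Set ℕ) →+* O}
    (hcongr : CongruentTo W p χ) {θ₀ : heckeAlgebra N₀ 2 (↑S₀ : Set ℕ) →+* ResidueField O}
    (h₀ : LevelHyp N₀ N₀ S₀ (residualSystem χ) θ₀) :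
    (∀ (l : ℕ) (hl : l.Prime), l ∉ S₀ → ∀ P : ValuationSubring Qbar, P.LiesOverPrime l →
      ∀ σ : GalQ, P.IsFrobeniusAt σ l →
        LinearMap.charpoly ((residualOver W hΔ p (ResidueField O)).ρ σ) =
          X ^ 2 - C (residualSystem χ ⟨l, hl⟩) * X + C (l : ResidueField O)) ∧
    (∀ (M : ℕ) (T : Finset ℕ), M ≠ 0 → ∃ l : Nat.Primes, (l : ℕ) ∉ T ∧
      ((l : ℕ) : ZMod M) = 1 ∧ residualSystem χ l ≠ ((l : ℕ) : ResidueField O) + 1) ∧
    (IsUnit (3 : O) ∨
      ∀ T : Finset ℕ, ∃ l : Nat.Primes, (l : ℕ) ∉ T ∧ (l : ℕ) % 3 = 2 ∧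
        residualSystem χ l ≠ 0) := by
  have hp2 : p ≠ 2 := by omega
  have hB : N₀ * p ≠ 0 := mul_ne_zero (NeZero.ne _) (Fact.out : p.Prime).ne_zero
  have hcongrB : ∀ l : Nat.Primes, W.IsGoodPrimeFor l → ¬ (l : ℕ) ∣ N₀ * p →
      residualSystem χ l = (W.apOfModel l : ResidueField O) := fun l hg hd =>
    hcongr l hg (fun h => hd (h.mul_right p)) fun h => hd (h ▸ dvd_mul_left _ _)
  refine ⟨fun l hl hlS P hP σ hσ => ?_, fun M T hM => ?_, ?_⟩
  · have hlN : ¬ l ∣ N₀ := fun h => hlS (hN₀S l hl h)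
    have hlS' : l ∉ (↑S₀ : Set ℕ) := fun h => hlS (Finset.mem_coe.mp h)
    rw [charpoly_residualOver_eq_theta hpO hpS hN₀S W hΔ hW hp2 hirr ∅ (θ := θ₀)
      (fun r hr hrN hrS _ hg => (h₀.theta_T r hr hrN hrS).trans
        (hcongr ⟨r, hr⟩ hg hrN fun h => hrS (Finset.mem_coe.mpr ((show r = p from h) ▸ hpS))))
      l hl hlN hlS' P hP σ hσ, h₀.theta_T l hl hlN hlS']
  · obtain ⟨l, hlT, hl1, -, -, hl⟩ :=
      exists_nonEis W p hΔ hp2 hirr (residualSystem χ) T hB hcongrB M hM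
    exact ⟨l, hlT, hl1, hl⟩
  · by_cases hp3 : p = 3
    · subst hp3
      exact Or.inr <| exists_prime_two_mod_three_ne_zero hΔ hW hirr (residualSystem χ)
        (N₀ * 3).primeFactors fun l hl hg => by
          rw [hcongrB l hg fun hd => hl (Nat.mem_primeFactors.mpr ⟨l.2, hd, hB⟩), map_intCast]
    · exact Or.inl (isUnit_three_of_ne hp3)

end General

variable (p : ℕ) [Fact p.Prime] (hp : p = 3 ∨ p = 5) (W : WeierstrassCurve ℤ) (hΔ : W.Δ ≠ 0)
  (hW : W.IsSemistableModel) (hirr : W.ModRepIsIrreducible p)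

include hp hΔ hW hirr in
/-- **Modularity lifting, case of good reduction at `p`.** -/
theorem mlc1_of_good (I : LiftingInputs) (hgood : ¬ (p : ℤ) ∣ W.Δ) {M₀ : ℕ} [NeZero M₀]
    (hres₀ : W.IsResiduallyModularOfLevel p M₀) (hM₀ : ¬ p ^ 2 ∣ M₀)
    (hM₀3 : ∀ q : ℕ, q.Prime → q ≠ p → ¬ q ^ 3 ∣ M₀) :
    Mlc1IsModularModelOfExactConductorLevel W := by
  classical
  have hpr : p.Prime := Fact.out
  have hp2 : p ≠ 2 := by omega
  have hv : p ∣ padicValInt p W.Δ := by
    rw [padicValInt.eq_zero_of_not_dvd hgood]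
    exact dvd_zero p
  obtain ⟨hNZ, ⟨D⟩⟩ := exists_minimalData_minimalLevel hΔ hW hp hirr I.sqf I.peu
    I.residualCarayol (NeZero.pos M₀) hM₀ hM₀3 hres₀ hv
  have := hNZ
  set N₀ := minimalLevel W p
  set S₀ : Finset ℕ := insert p (ramifiedPrimes W p) with hS₀
  have hpS : p ∈ S₀ := Finset.mem_insert_self _ _
  have hS₀pr : ∀ q ∈ S₀, q.Prime := fun q hq =>
    (Finset.mem_insert.mp hq).elim (fun h => h ▸ hpr) (prime_of_mem_ramifiedPrimes W p)
  have hN₀S : ∀ q : ℕ, q.Prime → q ∣ N₀ → q ∈ S₀ := fun q hq h =>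
    Finset.mem_insert_of_mem ((prime_dvd_minimalLevel_iff W p hq).mp h)
  have hsq : Squarefree N₀ := squarefree_minimalLevel W p
  have hpN₀ : ¬ p ∣ N₀ := fun h =>
    notMem_ramifiedPrimes_self W p ((prime_dvd_minimalLevel_iff W p hpr).mp h)
  have hU : ∀ q ∈ S₀, q.Prime → q ≠ p → q ∣ N₀ ∧ ¬ q ^ 2 ∣ N₀ := fun q hq hq' hqp =>
    ⟨(prime_dvd_minimalLevel_iff W p hq').mpr (Finset.mem_of_mem_insert_of_ne hq hqp),
      fun h => hq'.not_isUnit (hsq q (pow_two q ▸ h))⟩
  -- the residual representation and its system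
  let O := D.𝒪
  set ρbar := residualOver W hΔ p (ResidueField O)
  obtain ⟨habs, hdet, hsplit, hTW, -⟩ :=
    residualOver_spec W hΔ p (ResidueField O) hW hp hirr D.emb
  have hρbar : ∀ q : ℕ, q.Prime → q ∉ S₀ → ρbar.IsUnramifiedAt q := fun q hq hqS =>
    (residualOver_isUnramifiedAt_iff W hΔ p _ hW hp2 hq fun h => hqS (h ▸ hpS)).mpr
      fun h => hqS (Finset.mem_insert_of_mem h)
  have hex := nonempty_ringData_flatFamily (U := S₀) (𝒪 := O) habs
    (residualOver_flatFamily W hΔ p hW hp hirr (S := S₀) (fun _ h => h) (Or.inl hgood))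
  have hcongr : CongruentTo W p D.char := fun l hg hlN hlp => D.congr l hg hlN hlp
  let a := residualSystem D.char
  have hcongrB : ∀ l : Nat.Primes, W.IsGoodPrimeFor l → ¬ (l : ℕ) ∣ N₀ * p →
      a l = (W.apOfModel l : ResidueField O) := fun l hg hd =>
    hcongr l hg (fun h => hd (h.mul_right p)) fun h => hd (h ▸ dvd_mul_left _ _)
  have hB : N₀ * p ≠ 0 := mul_ne_zero (NeZero.ne _) hpr.ne_zero
  -- the minimal level
  obtain ⟨θ₀, hnt, h₀, H₀, hπ₀, hres⟩ :=
    exists_minimalLevel W hΔ hW hp hirr D.p_mem D.char hcongr hpS hN₀S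
  have := hnt
  have hH₀ : flatFamily O p S₀ S₀ H₀.ρ :=
    datum_flatFamily W D.p_mem H₀ hN₀S (fun _ h => h) hU I.flat I.unipotent hp2 hpN₀
  obtain ⟨ha, hnonEis, h3⟩ :=
    residualSystem_spec hp W hΔ hW hirr D.p_mem hpS hN₀S hcongr h₀
  obtain ⟨r, h56⟩ := (I.twPrimes p hp2 D.p_mem ρbar habs hdet hsplit hTW S₀ S₀ hpS
    (fun _ h => h) hS₀pr fun q hq hqp => mem_insert_iff_ramified W hΔ p _ hW hp2 hq hqp).2
  obtain ⟨D₀⟩ := hex S₀ (fun _ h => h)
  obtain ⟨φ₀, hφ₀, htr₀, hfree, hfin, ψ, rels, hψ, hrels⟩ :=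
    exists_bijective_minimal condFamily_flat hp2 D.p_mem
      (Oddness.isOdd_of_detIsCyclotomic hpr.ne_zero hdet) hdet (fun _ h => h) hpS a ha hρbar h₀ H₀
      hπ₀ hH₀ hres D₀ hex h56
      (flatFamily_twLevel W hΔ D.p_mem (fun _ h => h) (fun _ h => h) hN₀S hU r I.flat I.unipotent
        hp2 hpN₀)
      hnonEis h3 I.unipotent I.carayol
      fun n qv hinj hqS hq1 α hα => I.forms p hp2 D.p_mem N₀ S₀ S₀ (fun _ h => h) hpS hN₀S a
        hnonEis r n qv hinj hqS hq1 α hα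
  have := hfree
  have := hfin
  obtain ⟨π₀, hπ₀a⟩ := exists_minimalPoint D.char D₀ h₀ H₀ hπ₀ φ₀ htr₀
  -- above the minimal level
  have hS : insert p W.Δ.natAbs.primeFactors ⊆ S₀ ∪ raisedPrimes W S₀ := fun q hq => by
    by_cases hqS : q ∈ S₀
    · exact Finset.mem_union_left _ hqS
    · rcases Finset.mem_insert.mp hq with rfl | hq
      · exact absurd hpS hqS
      · exact Finset.mem_union_right _ (Finset.mem_sdiff.mpr ⟨hq, hqS⟩)
  let ι : ℤ_[p] →+* O := RepTheory.padicHom p O D.p_mem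
  have hι : IsLocalHom ι := CurveTate.isLocalHom_padic p D.p_mem ι
  refine mlc1_of_minimal I.levelExact W hΔ hW hp2 hirr D.p_mem condFamily_flat hpS hex hsq
    (fun q hq hq' => or_iff_not_imp_left.mpr fun hqp => (hU q hq hq' hqp).1) h₀ hB hcongrB D₀ H₀
    hπ₀ φ₀ hφ₀ htr₀ ψ hψ rels hrels π₀ (fun N _ S θ H hSS hNS hfac _ _ => ?_) ?_
    (CurveTate.tateRepOver W p ι hι hΔ)
    (tateRepOver_flatFamily W hΔ p ι hι hW hp2 hgood hS)
    (tateRepOver_residual_isEquiv W hΔ p ι hι)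
    (tateRepOver_trace_frobenius W hΔ p ι hι hS)
  · have hN : N ≠ 0 := NeZero.ne N
    refine datum_flat_unipotent H D.p_mem (hSS hpS) hNS I.flat I.unipotent hp2 (fun h => ?_) S₀
      fun q hq hq' hqp => ?_
    · have := hpr.factorization_pos_of_dvd hN h
      rw [hfac p hpS hpr, Nat.factorization_eq_zero_of_not_dvd hpN₀] at this
      exact this.false
    · rw [hq'.dvd_iff_one_le_factorization hN, hq'.pow_dvd_iff_le_factorization hN,
        hfac q hq hq', Nat.factorization_eq_one_of_squarefree hsq hq' (hU q hq hq' hqp).1]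
      exact ⟨le_rfl, by omega⟩
  · intro _ _ θ h π' hπ'
    obtain ⟨τ, hτ⟩ := D.exists_embedding
    obtain ⟨πL, hπL⟩ := exists_point D.char h₀ fun _ => rfl
    have := (levelModule h₀).isReduced_T hN₀S
    -- rank at least two at the minimal level
    refine le_trans ?_ (two_le_finrank_of_free h₀ πL τ D.newform
      (fun ℓ hℓ hℓN hℓS => by rw [hπL ℓ hℓ hℓN hℓS, hτ ⟨ℓ, hℓ⟩]) hsq)
    -- rank at most two at the raised level
    refine finrank_torsion_le_two h π' τ D.newform (dvd_mul_right N₀ _)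
      (fun ℓ hℓ hℓN hℓS => ?_) fun q hq => ?_
    · obtain ⟨P, hP⟩ := GaloisBasics.exists_liesOverPrime hℓ
      obtain ⟨σ, hσ⟩ := GaloisBasics.exists_isFrobeniusAt hP hℓ
      rw [hπ' ℓ hℓ hℓN hℓS P hP σ hσ, hπ₀a ⟨ℓ, hℓ⟩
          (fun h => hℓS (Finset.mem_coe.mpr (Finset.mem_union_left _ h))) P hP σ hσ, hτ ⟨ℓ, hℓ⟩]
    · rw [factorization_raisedLevel (NeZero.ne N₀) q.2]
      rcases Finset.mem_union.mp (mem_of_prime_dvd_raisedLevel hN₀S q.2 hq) with hqS | hqT
      · have hqT : (q : ℕ) ∉ raisedPrimes W S₀ := fun h => (Finset.mem_sdiff.mp h).2 hqS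
        have hqN : (q : ℕ) ∣ N₀ :=
          (q.2.dvd_mul.mp hq).resolve_right fun h => by
            obtain ⟨s, hs, hs'⟩ := (Prime.dvd_finsetProd_iff q.2.prime _).mp h
            exact hqT (((Nat.prime_dvd_prime_iff_eq q.2 s.2).mp (q.2.dvd_of_dvd_pow hs')) ▸
              mem_raisedPrimes'.mp hs)
        have h1 := Nat.factorization_eq_one_of_squarefree hsq q.2 hqN
        exact Or.inl ⟨h1, by rw [h1, if_neg hqT]⟩
      · have hqN : ¬ (q : ℕ) ∣ N₀ := fun h => (Finset.mem_sdiff.mp hqT).2 (hN₀S q q.2 h)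
        have h0 := Nat.factorization_eq_zero_of_not_dvd hqN
        refine Or.inr (Or.inr ⟨h0.trans_le zero_le_one, by rw [h0, if_pos hqT],
          zeroOn_of_mem (mem_raisedPrimes'.mpr hqT), fun h0' => ?_⟩)
        have : CharP (ResidueField O) p :=
          charP_of_injective_algebraMap (algebraMap (ZMod p) (ResidueField O)).injective p
        rw [CharP.cast_eq_zero_iff _ p] at h0'
        exact (Finset.mem_sdiff.mp hqT).2
          ((Nat.prime_dvd_prime_iff_eq hpr q.2).mp h0' ▸ hpS)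

end Fermat.Agent.Lifting
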