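import Fermat.Agent.IharaH1.StepP
import Fermat.Agent.Lifting.LevelChain

/-!
# Raising the level at `p` and at a finite set of primes

For `p ∤ N` and `a p ≠ 0` the step `N → N p` followed by the chain `N p → N p ∏ q²`. The composites
satisfy `j i = ∏ deltaSq q • (α² - 1)` with `α` the unit root of `X² - T_p X + p` at level `N`.
-/

set_option autoImplicit false

noncomputable section

open IsLocalRing
open scoped MatrixGroups

namespace Fermat.Agent.Lifting

open Fermat.Agent.GroupH1 (HeckePoly HMod eigIdeal LocM primeOf)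
open Fermat.Agent.IharaH1 (deltaSq rootRel subP locIP locJP)

variable {O : Type} [CommRing O]

/-- A map commuting with every `X q`, `q ∈ T`, commutes with `∏ deltaSq q`. -/
theorem map_prod_deltaSq_smul {V V' : Type} [AddCommGroup V] [Module O V] [Module (HeckePoly O) V]
    [IsScalarTower O (HeckePoly O) V] [AddCommGroup V'] [Module O V'] [Module (HeckePoly O) V']
    [IsScalarTower O (HeckePoly O) V'] (f : V →ₗ[O] V') (T : Finset Nat.Primes)
    (hf : ∀ q ∈ T, ∀ x, (MvPolynomial.X q : HeckePoly O) • f x =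
      f ((MvPolynomial.X q : HeckePoly O) • x)) (x : V) :
    f ((∏ q ∈ T, (haveI : Fact (q : ℕ).Prime := ⟨q.2⟩; deltaSq (q : ℕ) O)) • x) =
      (∏ q ∈ T, (haveI : Fact (q : ℕ).Prime := ⟨q.2⟩; deltaSq (q : ℕ) O)) • f x := by
  induction T using Finset.induction generalizing x with
  | empty => simp
  | insert q s hq ih =>
    have : Fact (q : ℕ).Prime := ⟨q.2⟩
    rw [Finset.prod_insert hq, mul_smul, mul_smul,
      map_deltaSq_smul f (q : ℕ) (fun y => hf q (Finset.mem_insert_self q s) y),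
      ih (fun r hr => hf r (Finset.mem_insert_of_mem hr))]

variable [IsDomain O] [IsLocalRing O] [IsNoetherianRing O] [IsAdicComplete (maximalIdeal O) O]
  [CharZero O]

/-- **Level raising at `p` and at a finite set of primes.** -/
theorem exists_level_chain_p (N : ℕ) [NeZero N] (T : Finset Nat.Primes) {p : ℕ} [Fact p.Prime]
    (hp2 : p ≠ 2) (hpO : (p : O) ∈ maximalIdeal O) (hpN : ¬ p ∣ N)
    (hT : ∀ q ∈ T, (q : ℕ) ≠ p ∧ ¬ (q : ℕ) ∣ N)
    (a : Nat.Primes → ResidueField O) (hap : a (primeOf p) ≠ 0) {ϖ : O}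
    (hϖ : maximalIdeal O = Ideal.span {ϖ}) (hϖ0 : ϖ ≠ 0) (l : Nat.Primes)
    (hl1 : ((l : ℕ) : ZMod (N * p * ∏ q ∈ T, (q : ℕ) ^ 2)) = 1) (hlT : l ∉ T) (hla : a l ≠ 2) :
    ∃ α : HeckePoly O, α - MvPolynomial.X (primeOf p) ∈ eigIdeal a ∧
      (∀ x : LocM (eigIdeal a) (HMod N ⊤ O), rootRel p α • x = 0) ∧
      ∃ (i : LocM (eigIdeal a) (HMod N ⊤ O) →ₗ[O]
          LocM (eigIdeal (zeroOn T a)) (HMod (N * p * ∏ q ∈ T, (q : ℕ) ^ 2) ⊤ O))
        (j : LocM (eigIdeal (zeroOn T a)) (HMod (N * p * ∏ q ∈ T, (q : ℕ) ^ 2) ⊤ O) →ₗ[O]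
          LocM (eigIdeal a) (HMod N ⊤ O)),
        (∀ r, r ∉ T → r ≠ primeOf p → ∀ x, (MvPolynomial.X r : HeckePoly O) • i x =
          i ((MvPolynomial.X r : HeckePoly O) • x)) ∧
        (∀ r, r ∉ T → r ≠ primeOf p → ∀ y, (MvPolynomial.X r : HeckePoly O) • j y =
          j ((MvPolynomial.X r : HeckePoly O) • y)) ∧
        (∀ x, (MvPolynomial.X (primeOf p) : HeckePoly O) • i x = i (α • x)) ∧
        (∀ y, j ((MvPolynomial.X (primeOf p) : HeckePoly O) • y) = α • j y) ∧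
        Function.Surjective j ∧
        (∀ x, j (i x) = (∏ q ∈ T, (haveI : Fact (q : ℕ).Prime := ⟨q.2⟩; deltaSq (q : ℕ) O)) •
          ((α * α - 1) • x)) ∧
        (∀ x y, i x = ϖ • y → ∃ x', x = ϖ • x') := by
  have : Fact (l : ℕ).Prime := ⟨l.2⟩
  have : NeZero (N * p) := ⟨Nat.mul_ne_zero (NeZero.ne N) (Fact.out : p.Prime).ne_zero⟩
  have hp : p.Prime := Fact.out
  have hpM : p ∣ N * p * ∏ q ∈ T, (q : ℕ) ^ 2 := (dvd_mul_left p N).mul_right _
  have hlp : ((l : ℕ) : ZMod p) = 1 := by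
    have h := congrArg (ZMod.castHom hpM (ZMod p)) hl1
    rwa [map_natCast, map_one] at h
  have hlN : ((l : ℕ) : ZMod N) = 1 := by
    have h := congrArg (ZMod.castHom ((dvd_mul_right N p).mul_right _ :
      N ∣ N * p * ∏ q ∈ T, (q : ℕ) ^ 2) (ZMod N)) hl1
    rwa [map_natCast, map_one] at h
  have hT' : ∀ q ∈ T, (q : ℕ) ≠ p ∧ ¬ (q : ℕ) ∣ N * p := fun q hq => ⟨(hT q hq).1, fun h =>
    (q.2.dvd_mul.mp h).elim (hT q hq).2 fun h' =>
      (hT q hq).1 ((Nat.prime_dvd_prime_iff_eq q.2 hp).mp h')⟩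
  have hne : ∀ q ∈ T, q ≠ primeOf p := fun q hq h => (hT q hq).1 (congrArg Subtype.val h)
  have hpT : primeOf p ∉ T := fun h => (hT _ h).1 rfl
  obtain ⟨α, hαm, hα⟩ := IharaH1.exists_rootPoly (N := N) hap hpO
  obtain ⟨i, j, hiX, hjX, hjs, hji, hmod⟩ :=
    exists_level_chain (N * p) T hp2 hpO hT' a hϖ hϖ0 l hl1 hlp hlT hla
  refine ⟨α, hαm, hα, i.comp (locIP N p a α), (locJP hpN hαm hα).comp j, fun r hr hrp x => ?_,
    fun r hr hrp y => ?_, fun x => ?_, fun y => ?_, ?_, fun x => ?_, fun x y h => ?_⟩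
  · exact (hiX r hr _).trans (congrArg i (IharaH1.X_locIP hrp x))
  · exact (IharaH1.X_locJP hpN hαm hα hrp (j y)).trans (congrArg _ (hjX r hr y))
  · exact (hiX _ hpT _).trans (congrArg i (IharaH1.Xp_locIP hpN hα x))
  · exact (congrArg _ (hjX _ hpT y).symm).trans (IharaH1.locJP_Xp hpN hαm hα (j y))
  · exact (IharaH1.locJP_surjective hpN hαm hα hp2 hpO hap hlN hlp
      (show a (primeOf (l : ℕ)) ≠ 2 from hla)).comp hjs
  · show locJP hpN hαm hα (j (i (locIP N p a α x))) = _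
    rw [hji, map_prod_deltaSq_smul _ T (fun q hq => IharaH1.X_locJP hpN hαm hα (hne q hq)),
      IharaH1.locJP_locIP hpN hαm hα hap]
  · obtain ⟨x₁, hx₁⟩ := hmod (locIP N p a α x) y h
    exact IharaH1.locIP_mem_smul hpN hαm hα hϖ hϖ0 hp2 hpO hlN hlp
      (show a (primeOf (l : ℕ)) ≠ 2 from hla) x ⟨x₁, hx₁⟩

omit [IsNoetherianRing O] [IsAdicComplete (maximalIdeal O) O] [IsDomain O] [CharZero O] in
/-- Where `X p` is the scalar `c`, the root polynomial is the unit root of `X² - c X + p`. -/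
theorem rootPoly_smul_eq {N p : ℕ} [Fact p.Prime] {a : Nat.Primes → ResidueField O}
    {α : HeckePoly O} (hap : a (primeOf p) ≠ 0)
    (hαm : α - MvPolynomial.X (primeOf p) ∈ eigIdeal a)
    (hα : ∀ x : LocM (eigIdeal a) (HMod N ⊤ O), rootRel p α • x = 0) {c α₀ : O}
    (hroot : α₀ * α₀ - c * α₀ + (p : O) = 0) (hα₀ : α₀ - c ∈ maximalIdeal O)
    {x : LocM (eigIdeal a) (HMod N ⊤ O)}
    (hx : (MvPolynomial.X (primeOf p) : HeckePoly O) • x = c • x) : α • x = α₀ • x := by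
  set Xp : HeckePoly O := MvPolynomial.X (primeOf p)
  set β : HeckePoly O := MvPolynomial.C (c - α₀)
  have hnot : α - β ∉ eigIdeal a := fun h => hap (by
    rw [GroupH1.mem_eigIdeal] at hαm h
    rw [map_sub, MvPolynomial.eval₂Hom_X', sub_eq_zero] at hαm
    rw [map_sub, hαm, MvPolynomial.eval₂Hom_C, (residue_eq_zero_iff _).mpr (by
      rw [← neg_sub]; exact neg_mem hα₀), sub_zero] at h
    exact h)
  refine sub_eq_zero.mp (GroupH1.smul_locM_eq_zero _ hnot ?_)
  have e : (α - β) • (α • x - α₀ • x) = rootRel p α • x + α • (Xp • x - c • x) +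
      (-(α₀ * α₀ - c * α₀ + (p : O))) • x := by
    rw [rootRel, show (MvPolynomial.X (primeOf p) : HeckePoly O) = Xp from rfl]
    simp only [β, smul_sub, sub_smul, add_smul, neg_smul, mul_smul,
      ← MvPolynomial.algebraMap_eq, algebraMap_smul, ← smul_comm α₀ α, ← smul_comm c α,
      smul_comm Xp α]
    abel
  rw [e, hα, hx, sub_self, hroot, smul_zero, neg_zero, zero_smul, add_zero, add_zero]

end Fermat.Agent.Lifting

end
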