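import Fermat.Agent.Lifting.CaseGeneric
import Fermat.Agent.Lifting.ChainFO
import Fermat.Agent.Lifting.LevelChainP

/-!
# Raising the level of a flat and ordinary minimal deformation problem

An isomorphism `R = T` for the flat ordinary condition at the level `N₀` prime to `p`, and
degeneracy maps to a level `N` divisible by `p` and by `q²`, `q ∈ T`, whose composite is the
product of the factors of the primes `q` and of a factor `e` at `p`, give an eigenform of level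
`N` for every ordinary lift with ramification in `S₀ ∪ T`; `e` need only be a scalar on the part
of the minimal level killed by the kernel of the point.
-/

set_option autoImplicit false

noncomputable section

namespace Fermat.Agent.Lifting

open IsLocalRing CuspForm GaloisRep ModularFormClass CongruenceSubgroup
open Fermat.Agent.GroupH1 (HeckePoly)
open Fermat.Agent.IharaH1 (deltaSq)

variable {𝒪 : Type} [CommRing 𝒪] [IsDomain 𝒪] [IsDiscreteValuationRing 𝒪]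
  [IsAdicComplete (maximalIdeal 𝒪) 𝒪] [CharZero 𝒪]

omit [IsAdicComplete (maximalIdeal 𝒪) 𝒪] [CharZero 𝒪] in
theorem ord_add_ord_le (a b : 𝒪) : Ring.ord 𝒪 a + Ring.ord 𝒪 b ≤ Ring.ord 𝒪 (a * b) := by
  by_cases hb : b = 0
  · rw [hb, mul_zero, NumCrit.ord_zero_eq_top]
    exact le_top
  · exact (Ring.ord_mul 𝒪 (mem_nonZeroDivisors_of_ne_zero hb)).ge

omit [IsAdicComplete (maximalIdeal 𝒪) 𝒪] [CharZero 𝒪] in
/-- Where `X p` is the scalar `c`, the factor `α² - 1` at `p` is `α₀² - 1`. -/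
theorem rootFactor_smul_eq {N p : ℕ} [Fact p.Prime] {a : Nat.Primes → ResidueField 𝒪}
    {α : HeckePoly 𝒪} (hap : a (GroupH1.primeOf p) ≠ 0)
    (hαm : α - MvPolynomial.X (GroupH1.primeOf p) ∈ GroupH1.eigIdeal a)
    (hα : ∀ x : levelLoc 𝒪 N a, IharaH1.rootRel p α • x = 0) {c α₀ : 𝒪}
    (hroot : α₀ * α₀ - c * α₀ + (p : 𝒪) = 0) (hα₀ : α₀ - c ∈ maximalIdeal 𝒪)
    {x : levelLoc 𝒪 N a}
    (hx : (MvPolynomial.X (GroupH1.primeOf p) : HeckePoly 𝒪) • x = c • x) :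
    (α * α - 1) • x = (α₀ ^ 2 - 1) • x := by
  have h := rootPoly_smul_eq hap hαm hα hroot hα₀ hx
  rw [sub_smul, sub_smul, one_smul, one_smul, mul_smul, pow_two, mul_smul, h, smul_comm, h]

variable [Finite (ResidueField 𝒪)] {ρbar : ResidualGaloisRep (ResidueField 𝒪)}
  {p : ℕ} [Fact p.Prime] {U : Finset ℕ}

/-- **Raising the level, flat and ordinary case.** -/
theorem exists_eigenform_of_minimalFO (hp2 : p ≠ 2) (hp𝒪 : (p : 𝒪) ∈ maximalIdeal 𝒪)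
    {N₀ N : ℕ} [NeZero N₀] [NeZero N] {S₀ T : Finset ℕ}
    (hT : ∀ q ∈ T, q.Prime ∧ q ≠ p ∧ q ∉ S₀) (hpS : p ∈ S₀)
    (hex : ∀ S, S₀ ⊆ S → Nonempty (DeformationRingData 𝒪 ρbar (ordinaryFamily 𝒪 p U S)))
    -- the minimal level
    (D₀ : DeformationRingData 𝒪 ρbar (flatOrdinaryFamily 𝒪 p U S₀))
    {a₀ a : Nat.Primes → ResidueField 𝒪}
    [Nontrivial (levelLoc 𝒪 N₀ a₀)] [Nontrivial (levelLoc 𝒪 N a)]
    {θ₀ : heckeAlgebra N₀ 2 (↑S₀ : Set ℕ) →+* ResidueField 𝒪}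
    (h₀ : LevelHyp N₀ N₀ S₀ a₀ θ₀)
    (H₀ : HeckeGaloisRepDatum N₀ (↑S₀ : Set ℕ) 𝒪 θ₀ (heckeLocal N₀ (↑S₀ : Set ℕ) 𝒪 θ₀))
    (hπ₀ : H₀.π = heckeLocal.π N₀ (↑S₀ : Set ℕ) 𝒪 θ₀)
    (φ₀ : D₀.R →ₐ[𝒪] (levelModule h₀).T) (hφ₀ : Function.Bijective φ₀)
    (htr₀ : ∀ (ℓ : ℕ) (hℓ : ℓ.Prime) (hℓN : ¬ ℓ ∣ N₀) (hℓS : ℓ ∉ (↑S₀ : Set ℕ)),
        ∀ P : ValuationSubring (AlgebraicClosure ℚ), P.LiesOverPrime ℓ →
          ∀ σ : AlgebraicClosure ℚ ≃ₐ[ℚ] AlgebraicClosure ℚ, P.IsFrobeniusAt σ ℓ →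
            φ₀ (LinearMap.trace D₀.R D₀.ρ.V (D₀.ρ.ρ σ)) =
              (levelModule h₀).toT (H₀.π (heckeAlgebra.T hℓ hℓN hℓS)))
    [Module.Free (levelModule h₀).T (levelModule h₀).M]
    [Module.Finite (levelModule h₀).T (levelModule h₀).M]
    {r : ℕ} (ψ : MvPowerSeries (Fin r) 𝒪 →ₐ[𝒪] D₀.R) (hψ : Function.Surjective ψ)
    (rels : Fin r → MvPowerSeries (Fin r) 𝒪)
    (hrels : RingHom.ker ψ = Ideal.span (Set.range rels))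
    -- the raised level
    {θ : heckeAlgebra N 2 (↑(S₀ ∪ T) : Set ℕ) →+* ResidueField 𝒪}
    (h : LevelHyp N N (S₀ ∪ T) a θ)
    (H : HeckeGaloisRepDatum N (↑(S₀ ∪ T) : Set ℕ) 𝒪 θ (heckeLocal N (↑(S₀ ∪ T) : Set ℕ) 𝒪 θ))
    (hπ : H.π = heckeLocal.π N (↑(S₀ ∪ T) : Set ℕ) 𝒪 θ)
    (hH : ordinaryFamily 𝒪 p U (S₀ ∪ T) H.ρ)
    (hHres : H.ρ.residual.IsEquiv (ρbar.baseChangeAlong
      (ResidueField.map (algebraMap 𝒪 (heckeLocal N (↑(S₀ ∪ T) : Set ℕ) 𝒪 θ)))))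
    -- the degeneracy maps
    (i : levelLoc 𝒪 N₀ a₀ →ₗ[𝒪] levelLoc 𝒪 N a) (j : levelLoc 𝒪 N a →ₗ[𝒪] levelLoc 𝒪 N₀ a₀)
    (hi : ∀ (ℓ : Nat.Primes), (ℓ : ℕ) ∉ S₀ ∪ T → ∀ x,
      i ((MvPolynomial.X ℓ : HeckePoly 𝒪) • x) = (MvPolynomial.X ℓ : HeckePoly 𝒪) • i x)
    (hj : ∀ (ℓ : Nat.Primes), (ℓ : ℕ) ∉ S₀ ∪ T → ∀ x,
      j ((MvPolynomial.X ℓ : HeckePoly 𝒪) • x) = (MvPolynomial.X ℓ : HeckePoly 𝒪) • j x)
    (hjs : Function.Surjective j) (e : HeckePoly 𝒪)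
    (hji : ∀ x, j (i x) = (∏ q ∈ T.attach,
      haveI : Fact (q.1).Prime := ⟨(hT q.1 q.2).1⟩; deltaSq q.1 𝒪) • (e • x))
    {ϖ : 𝒪} (hϖ : Irreducible ϖ) (hmod : ∀ x y, i x = ϖ • y → ∃ x', x = ϖ • x')
    -- the point and the factor at `p` on its part
    (π₀ : D₀.R →ₐ[𝒪] 𝒪) (e₀ : 𝒪)
    (he : ∀ x : (levelModule h₀).M, (∀ y, π₀ y = 0 → φ₀ y • x = 0) →
      e • levelModuleEquiv h₀ x = e₀ • levelModuleEquiv h₀ x)
    (hπ₀loc : IsLocalHom (π₀ : D₀.R →+* 𝒪)) {ρ₀ : GaloisRepAdic 𝒪}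
    (hρ₀ : (D₀.ρ.baseChangeAlong (π₀ : D₀.R →+* 𝒪) hπ₀loc).IsEquiv ρ₀)
    {Pp : ValuationSubring (AlgebraicClosure ℚ)} (hPp : Pp.LiesOverPrime p)
    {σp : AlgebraicClosure ℚ ≃ₐ[ℚ] AlgebraicClosure ℚ}
    (hσp : σp ∈ Pp.decompositionSubgroup ℚ) (α₀ : 𝒪) (hα₀ : IsQuotientValue ρ₀ Pp σp α₀)
    (hα1 : α₀ ^ 2 ≠ 1) (hordE : Ring.ord 𝒪 (α₀ ^ 2 - 1) ≤ Ring.ord 𝒪 e₀)
    (hfin : ∀ π' : (levelModule h).T →ₐ[𝒪] 𝒪,
      (∀ (ℓ : ℕ) (hℓ : ℓ.Prime) (hℓN : ¬ ℓ ∣ N) (hℓS : ℓ ∉ (↑(S₀ ∪ T) : Set ℕ)),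
        ∀ P : ValuationSubring (AlgebraicClosure ℚ), P.LiesOverPrime ℓ →
          ∀ σ : AlgebraicClosure ℚ ≃ₐ[ℚ] AlgebraicClosure ℚ, P.IsFrobeniusAt σ ℓ →
            π' ((levelModule h).toT (H.π (heckeAlgebra.T hℓ hℓN hℓS))) =
              π₀ (LinearMap.trace D₀.R D₀.ρ.V (D₀.ρ.ρ σ))) →
      Module.finrank 𝒪 ((Submodule.torsionBySet (levelModule h).T (levelModule h).M
        (RingHom.ker π' : Set (levelModule h).T)).restrictScalars 𝒪) ≤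
        Module.finrank (levelModule h₀).T (levelModule h₀).M)
    -- the lift
    (ρ : GaloisRepAdic 𝒪) (hρ : ordinaryFamily 𝒪 p U (S₀ ∪ T) ρ)
    (hρres : ρ.residual.IsEquiv (ρbar.baseChangeAlong (ResidueField.map (algebraMap 𝒪 𝒪))))
    (c : ℕ → ℤ)
    (hρtr : ∀ (ℓ : ℕ), ℓ.Prime → ¬ ℓ ∣ N → ℓ ∉ S₀ ∪ T →
      ∀ P : ValuationSubring (AlgebraicClosure ℚ), P.LiesOverPrime ℓ →
        ∀ σ : AlgebraicClosure ℚ ≃ₐ[ℚ] AlgebraicClosure ℚ, P.IsFrobeniusAt σ ℓ →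
          LinearMap.trace 𝒪 ρ.V (ρ.ρ σ) = (c ℓ : 𝒪)) :
    ∃ g : CuspForm (Gamma0 N) 2, g.IsNormalizedEigenform ∧
      ∀ ℓ : ℕ, ℓ.Prime → ¬ ℓ ∣ N → ℓ ∉ S₀ ∪ T → qCoeff g ℓ = (c ℓ : ℂ) := by
  classical
  have hF := condFamily_ordinary (𝒪 := 𝒪) (p := p) (U := U) hp2
  have hord₀ : ordinaryFamily 𝒪 p U S₀ D₀.ρ :=
    ⟨⟨D₀.isOfType.1.1.1, D₀.isOfType.1.2, D₀.isOfType.1.1.2.2⟩, D₀.isOfType.2⟩
  obtain ⟨D⟩ := hex (S₀ ∪ T) Finset.subset_union_left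
  obtain ⟨f, hfl, hfeq⟩ := exists_compatHom D D₀ (hF.mono Finset.subset_union_left _ hord₀)
  have hfs := surjective_compatHom
    ((condFamily_flatOrdinary hp2).isDeformationCondition S₀) D D₀ f hfl hfeq
  have := (levelModule h₀).isReduced_T h₀.prime_mem
  have := (levelModule h).isReduced_T h.prime_mem
  obtain ⟨aq, δ, haq, hδ, hordδ⟩ :=
    exists_raisingFactor (Fact.out : p.Prime) hp𝒪 hT D₀ h₀ H₀ hπ₀ φ₀ hφ₀ htr₀ π₀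
  have hchain := length_cotangent_le_chainFO hp2 S₀ hex T hT D₀ π₀ aq haq D f hfl hfeq hπ₀loc hρ₀
    hPp hσp α₀ hα₀ hα1
  refine exists_eigenform_of_levels (hF.isDeformationCondition _) D D₀ (Fact.out : p.Prime)
    (hF.detIsCyclotomic _ D.isOfType) f hfl hfs hfeq (Finset.mem_union_left T hpS)
    Finset.subset_union_left h₀ h H₀ hπ₀ φ₀ hφ₀ htr₀ ψ hψ rels hrels H hπ hH hHres i j
    hi hj hjs hϖ hmod π₀ (π₀ δ * e₀) ?_ hfin ?_ ρ hρ hρres c hρtr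
  · -- `j i = Δ`
    intro x hx
    rw [hji, he x hx, smul_comm _ e₀, mul_comm, mul_smul]
    refine congrArg _ ?_
    rw [← hδ, smul_eq_of_ker_smul φ₀ π₀ hx, map_smul]
  · -- the cotangent bound
    refine hchain.trans (add_le_add ?_ le_rfl)
    refine le_trans ?_ (ord_add_ord_le _ _)
    rw [add_comm (Ring.ord 𝒪 (α₀ ^ 2 - 1))]
    exact add_le_add hordδ hordE

end Fermat.Agent.Lifting
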