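import Fermat.Agent.Lifting.Assembly
import Fermat.Agent.Lifting.LevelExtras
import Fermat.Agent.IharaH1.Module

/-!
# Raising the level at finitely many primes

A family of deformation conditions indexed by the primes at which ramification is allowed, an
isomorphism `R = T` at the minimal level `N₀` with ramification in `S₀`, and the degeneracy maps
to level `N = N₀ ∏ q²`, `q ∈ T`, give an eigenform of level `N` for every lift satisfying the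
condition with ramification in `S₀ ∪ T`.
-/

set_option autoImplicit false

noncomputable section

namespace Fermat.Agent.Lifting

open IsLocalRing CuspForm GaloisRep ModularFormClass CongruenceSubgroup
open Fermat.Agent.GroupH1 (HeckePoly)
open Fermat.Agent.IharaH1 (deltaSq)

variable {𝒪 : Type} [CommRing 𝒪] [IsDomain 𝒪] [IsDiscreteValuationRing 𝒪]
  [IsAdicComplete (maximalIdeal 𝒪) 𝒪] [CharZero 𝒪]

/-- The polynomial `deltaSq q` acts on the minimal level through the Hecke ring. -/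
theorem deltaSq_smul_levelModule {N₀ : ℕ} [NeZero N₀] {S₀ : Finset ℕ}
    {a₀ : Nat.Primes → ResidueField 𝒪} {θ₀ : heckeAlgebra N₀ 2 (↑S₀ : Set ℕ) →+* ResidueField 𝒪}
    (h₀ : LevelHyp N₀ N₀ S₀ a₀ θ₀) [Nontrivial (levelLoc 𝒪 N₀ a₀)] {q : ℕ} [hq : Fact q.Prime]
    (hqN : ¬ q ∣ N₀) (hqS : q ∉ (↑S₀ : Set ℕ)) (t : (levelModule h₀).T)
    (ht : t = (levelModule h₀).toT
      (heckeLocal.π N₀ (↑S₀ : Set ℕ) 𝒪 θ₀ (heckeAlgebra.T hq.out hqN hqS)))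
    (x : (levelModule h₀).M) :
    levelModuleEquiv h₀ ((algebraMap 𝒪 _ ((q : 𝒪) * ((q : 𝒪) - 1)) *
        (algebraMap 𝒪 _ (((q : 𝒪) + 1) ^ 2) - t * t)) • x) =
      deltaSq q 𝒪 • levelModuleEquiv h₀ x := by
  set e := levelModuleEquiv h₀
  have hX : ∀ y, e (t • y) = (MvPolynomial.X (GroupH1.primeOf q) : HeckePoly 𝒪) • e y := fun y => by
    rw [ht]
    exact levelModule_toT_smul h₀ hq.out hqN hqS y
  rw [deltaSq, mul_smul, mul_smul, sub_smul, sub_smul, algebraMap_smul, algebraMap_smul, mul_smul,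
    mul_smul, ← MvPolynomial.algebraMap_eq, algebraMap_smul, algebraMap_smul]
  simp only [mul_smul, map_smul, map_sub, hX]

/-- Elements acting as `deltaSq q` multiply to one acting as their product. -/
theorem prod_smul_levelModule {N₀ : ℕ} [NeZero N₀] {S₀ : Finset ℕ}
    {a₀ : Nat.Primes → ResidueField 𝒪} {θ₀ : heckeAlgebra N₀ 2 (↑S₀ : Set ℕ) →+* ResidueField 𝒪}
    (h₀ : LevelHyp N₀ N₀ S₀ a₀ θ₀) [Nontrivial (levelLoc 𝒪 N₀ a₀)] {ι : Type} (U : Finset ι)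
    (b : ι → (levelModule h₀).T) (d : ι → HeckePoly 𝒪)
    (hbd : ∀ q ∈ U, ∀ x, levelModuleEquiv h₀ (b q • x) = d q • levelModuleEquiv h₀ x)
    (x : (levelModule h₀).M) :
    levelModuleEquiv h₀ ((∏ q ∈ U, b q) • x) = (∏ q ∈ U, d q) • levelModuleEquiv h₀ x := by
  classical
  induction U using Finset.induction_on generalizing x with
  | empty => simp
  | insert q U hqU ih =>
    rw [Finset.prod_insert hqU, Finset.prod_insert hqU, mul_smul, mul_smul,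
      hbd q (Finset.mem_insert_self _ _), ih fun r hr => hbd r (Finset.mem_insert_of_mem hr)]

omit [IsDomain 𝒪] [IsDiscreteValuationRing 𝒪] [IsAdicComplete (maximalIdeal 𝒪) 𝒪] [CharZero 𝒪] in
/-- On the part killed by the kernel of a point an element acts as its value at the point. -/
theorem smul_eq_of_ker_smul {R T M : Type*} [CommRing R] [Algebra 𝒪 R] [CommRing T] [Algebra 𝒪 T]
    [AddCommGroup M] [Module 𝒪 M] [Module T M] [IsScalarTower 𝒪 T M] (φ : R →ₐ[𝒪] T)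
    (π : R →ₐ[𝒪] 𝒪) {x : M} (hx : ∀ y, π y = 0 → φ y • x = 0) (z : R) : φ z • x = π z • x := by
  have h1 := hx (z - algebraMap 𝒪 _ (π z)) (by simp)
  rwa [map_sub, sub_smul, sub_eq_zero, AlgHom.commutes, algebraMap_smul] at h1

/-- **The added primes.** Over a deformation ring identified with the minimal Hecke ring the
traces at the primes of `T` do not depend on the Frobenius, and an element `δ` acts as
`∏ deltaSq q`, with value at the point of order at least the sum of the orders of the factors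
of the cotangent bound. -/
theorem exists_raisingFactor {p : ℕ} (hp : p.Prime) (hp𝒪 : (p : 𝒪) ∈ maximalIdeal 𝒪)
    {ρbar : ResidualGaloisRep (ResidueField 𝒪)}
    {𝒟₀ : ∀ ⦃A : Type⦄ [CommRing A] [IsLocalRing A] [Algebra 𝒪 A], GaloisRepAdic A → Prop}
    {N₀ : ℕ} [NeZero N₀] {S₀ T : Finset ℕ} (hT : ∀ q ∈ T, q.Prime ∧ q ≠ p ∧ q ∉ S₀)
    (D₀ : DeformationRingData 𝒪 ρbar 𝒟₀) {a₀ : Nat.Primes → ResidueField 𝒪}
    [Nontrivial (levelLoc 𝒪 N₀ a₀)] {θ₀ : heckeAlgebra N₀ 2 (↑S₀ : Set ℕ) →+* ResidueField 𝒪}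
    (h₀ : LevelHyp N₀ N₀ S₀ a₀ θ₀)
    (H₀ : HeckeGaloisRepDatum N₀ (↑S₀ : Set ℕ) 𝒪 θ₀ (heckeLocal N₀ (↑S₀ : Set ℕ) 𝒪 θ₀))
    (hπ₀ : H₀.π = heckeLocal.π N₀ (↑S₀ : Set ℕ) 𝒪 θ₀)
    (φ₀ : D₀.R →ₐ[𝒪] (levelModule h₀).T) (hφ₀ : Function.Bijective φ₀)
    (htr₀ : ∀ (ℓ : ℕ) (hℓ : ℓ.Prime) (hℓN : ¬ ℓ ∣ N₀) (hℓS : ℓ ∉ (↑S₀ : Set ℕ)),
        ∀ P : ValuationSubring (AlgebraicClosure ℚ), P.LiesOverPrime ℓ →
          ∀ σ : AlgebraicClosure ℚ ≃ₐ[ℚ] AlgebraicClosure ℚ, P.IsFrobeniusAt σ ℓ →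
            φ₀ (LinearMap.trace D₀.R D₀.ρ.V (D₀.ρ.ρ σ)) =
              (levelModule h₀).toT (H₀.π (heckeAlgebra.T hℓ hℓN hℓS)))
    (π₀ : D₀.R →ₐ[𝒪] 𝒪) :
    ∃ (aq : ℕ → 𝒪) (δ : D₀.R),
      (∀ q ∈ T, ∀ P : ValuationSubring (AlgebraicClosure ℚ), P.LiesOverPrime q →
        ∀ σ : AlgebraicClosure ℚ ≃ₐ[ℚ] AlgebraicClosure ℚ, P.IsFrobeniusAt σ q →
          π₀ (LinearMap.trace D₀.R D₀.ρ.V (D₀.ρ.ρ σ)) = aq q) ∧
      (∀ x, levelModuleEquiv h₀ (φ₀ δ • x) = (∏ q ∈ T.attach,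
        haveI : Fact (q.1).Prime := ⟨(hT q.1 q.2).1⟩; deltaSq q.1 𝒪) • levelModuleEquiv h₀ x) ∧
      ∑ q ∈ T, Ring.ord 𝒪 (((q : 𝒪) - 1) * (((q : 𝒪) + 1) ^ 2 - aq q ^ 2)) ≤
        Ring.ord 𝒪 (π₀ δ) := by
  classical
  have hP : ∀ q : T, ∃ (P : ValuationSubring (AlgebraicClosure ℚ))
      (σ : AlgebraicClosure ℚ ≃ₐ[ℚ] AlgebraicClosure ℚ),
      P.LiesOverPrime q.1 ∧ P.IsFrobeniusAt σ q.1 := fun q =>
    Fermat.Agent.Frobenius.exists_place_isFrobeniusAt (hT q.1 q.2).1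
  choose P σ hPq hσq using hP
  let t : T → D₀.R := fun q => LinearMap.trace D₀.R D₀.ρ.V (D₀.ρ.ρ (σ q))
  let b : T → D₀.R := fun q => algebraMap 𝒪 _ ((q.1 : 𝒪) * ((q.1 : 𝒪) - 1)) *
    (algebraMap 𝒪 _ (((q.1 : 𝒪) + 1) ^ 2) - t q * t q)
  have hqN : ∀ q : T, ¬ q.1 ∣ N₀ := fun q hd =>
    (hT q.1 q.2).2.2 (h₀.prime_mem _ (hT q.1 q.2).1 hd)
  have hqS : ∀ q : T, q.1 ∉ (↑S₀ : Set ℕ) := fun q => by simpa using (hT q.1 q.2).2.2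
  have htq : ∀ (q : T) (P' : ValuationSubring (AlgebraicClosure ℚ)), P'.LiesOverPrime q.1 →
      ∀ φ, P'.IsFrobeniusAt φ q.1 → φ₀ (LinearMap.trace D₀.R D₀.ρ.V (D₀.ρ.ρ φ)) =
        (levelModule h₀).toT (heckeLocal.π N₀ (↑S₀ : Set ℕ) 𝒪 θ₀
          (heckeAlgebra.T (hT q.1 q.2).1 (hqN q) (hqS q))) := fun q P' hP' φ hφ => by
    rw [htr₀ q.1 (hT q.1 q.2).1 (hqN q) (hqS q) P' hP' φ hφ, hπ₀]
  refine ⟨fun q => if hq : q ∈ T then π₀ (t ⟨q, hq⟩) else 0, ∏ q ∈ T.attach, b q,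
    fun q hq P' hP' φ hφ => ?_, fun x => ?_, ?_⟩
  · rw [hφ₀.1 ((htq ⟨q, hq⟩ P' hP' φ hφ).trans
      (htq ⟨q, hq⟩ _ (hPq ⟨q, hq⟩) _ (hσq ⟨q, hq⟩)).symm)]
    simp [hq, t]
  · rw [map_prod]
    exact prod_smul_levelModule h₀ T.attach (fun q => φ₀ (b q))
      (fun q => haveI : Fact (q.1).Prime := ⟨(hT q.1 q.2).1⟩; deltaSq q.1 𝒪)
      (fun q _ y => by
        have : Fact (q.1).Prime := ⟨(hT q.1 q.2).1⟩
        have hbq : φ₀ (b q) = algebraMap 𝒪 _ ((q.1 : 𝒪) * ((q.1 : 𝒪) - 1)) *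
            (algebraMap 𝒪 _ (((q.1 : 𝒪) + 1) ^ 2) - φ₀ (t q) * φ₀ (t q)) := by
          simp only [b, map_mul, map_sub, AlgHom.commutes]
        rw [hbq]
        exact deltaSq_smul_levelModule h₀ (hqN q) (hqS q) _ (htq q _ (hPq q) _ (hσq q)) y) x
  · rw [map_prod, ← T.sum_attach]
    refine le_trans (le_of_eq (Finset.sum_congr rfl fun q _ => ?_)) (NumCrit.sum_ord_le _ _)
    have hb : π₀ (b q) = (q.1 : 𝒪) * (((q.1 : 𝒪) - 1) * (((q.1 : 𝒪) + 1) ^ 2 - π₀ (t q) ^ 2)) := by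
      simp [b]
      ring
    simp only [q.2, dite_true]
    rw [hb, NumCrit.ord_unit_mul
      (isUnit_natCast_of_mem hp hp𝒪 (hT q.1 q.2).1 (hT q.1 q.2).2.1)]

variable [Finite (ResidueField 𝒪)] {ρbar : ResidualGaloisRep (ResidueField 𝒪)}
  {p : ℕ} {𝒟 : Finset ℕ → ∀ ⦃A : Type⦄ [CommRing A] [IsLocalRing A] [Algebra 𝒪 A],
    GaloisRepAdic A → Prop}

/-- **Raising the level.** -/
theorem exists_eigenform_of_minimal (h𝒟 : CondFamily 𝒪 p 𝒟) (hp : p.Prime)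
    (hp𝒪 : (p : 𝒪) ∈ maximalIdeal 𝒪) {N₀ N : ℕ} [NeZero N₀] [NeZero N]
    {S₀ T : Finset ℕ} (hT : ∀ q ∈ T, q.Prime ∧ q ≠ p ∧ q ∉ S₀) (hpS : p ∈ S₀)
    (hex : ∀ S, S₀ ⊆ S → Nonempty (DeformationRingData 𝒪 ρbar (𝒟 S)))
    -- the minimal level
    (D₀ : DeformationRingData 𝒪 ρbar (𝒟 S₀))
    {a₀ a : Nat.Primes → ResidueField 𝒪}
    [Nontrivial (levelLoc 𝒪 N₀ a₀)] [Nontrivial (levelLoc 𝒪 N a)]
    {θ₀ : heckeAlgebra N₀ 2 (↑S₀ : Set ℕ) →+* ResidueField 𝒪}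
    (h₀ : LevelHyp N₀ N₀ S₀ a₀ θ₀)
    (H₀ : HeckeGaloisRepDatum N₀ (↑S₀ : Set ℕ) 𝒪 θ₀ (heckeLocal N₀ (↑S₀ : Set ℕ) 𝒪 θ₀))
    (hπ₀ : H₀.π = heckeLocal.π N₀ (↑S₀ : Set ℕ) 𝒪 θ₀)
    (φ₀ : D₀.R →ₐ[𝒪] (levelModule h₀).T) (hφ₀ : Function.Bijective φ₀)
    (htr₀ : ∀ (ℓ : ℕ) (hℓ : ℓ.Prime) (hℓN : ¬ ℓ ∣ N₀) (hℓS : ℓ ∉ (↑S₀ : Set ℕ)),
        ∀ P : ValuationSubring (AlgebraicClosure ℚ), P.LiesOverPrime ℓ →
          ∀ σ : AlgebraicClosure ℚ ≃ₐ[ℚ] AlgebraicClosure ℚ, P.IsFrobeniusAt σ ℓ →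
            φ₀ (LinearMap.trace D₀.R D₀.ρ.V (D₀.ρ.ρ σ)) =
              (levelModule h₀).toT (H₀.π (heckeAlgebra.T hℓ hℓN hℓS)))
    [Module.Free (levelModule h₀).T (levelModule h₀).M]
    [Module.Finite (levelModule h₀).T (levelModule h₀).M]
    {r : ℕ} (ψ : MvPowerSeries (Fin r) 𝒪 →ₐ[𝒪] D₀.R) (hψ : Function.Surjective ψ)
    (rels : Fin r → MvPowerSeries (Fin r) 𝒪)
    (hrels : RingHom.ker ψ = Ideal.span (Set.range rels))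
    -- the raised level
    {θ : heckeAlgebra N 2 (↑(S₀ ∪ T) : Set ℕ) →+* ResidueField 𝒪}
    (h : LevelHyp N N (S₀ ∪ T) a θ)
    (H : HeckeGaloisRepDatum N (↑(S₀ ∪ T) : Set ℕ) 𝒪 θ (heckeLocal N (↑(S₀ ∪ T) : Set ℕ) 𝒪 θ))
    (hπ : H.π = heckeLocal.π N (↑(S₀ ∪ T) : Set ℕ) 𝒪 θ) (hH : 𝒟 (S₀ ∪ T) H.ρ)
    (hHres : H.ρ.residual.IsEquiv (ρbar.baseChangeAlong
      (ResidueField.map (algebraMap 𝒪 (heckeLocal N (↑(S₀ ∪ T) : Set ℕ) 𝒪 θ)))))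
    -- the degeneracy maps
    (i : levelLoc 𝒪 N₀ a₀ →ₗ[𝒪] levelLoc 𝒪 N a) (j : levelLoc 𝒪 N a →ₗ[𝒪] levelLoc 𝒪 N₀ a₀)
    (hi : ∀ (ℓ : Nat.Primes), (ℓ : ℕ) ∉ T → ∀ x,
      i ((MvPolynomial.X ℓ : HeckePoly 𝒪) • x) = (MvPolynomial.X ℓ : HeckePoly 𝒪) • i x)
    (hj : ∀ (ℓ : Nat.Primes), (ℓ : ℕ) ∉ T → ∀ x,
      j ((MvPolynomial.X ℓ : HeckePoly 𝒪) • x) = (MvPolynomial.X ℓ : HeckePoly 𝒪) • j x)
    (hjs : Function.Surjective j)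
    (hji : ∀ x, j (i x) = (∏ q ∈ T.attach,
      haveI : Fact (q.1).Prime := ⟨(hT q.1 q.2).1⟩; deltaSq q.1 𝒪) • x)
    {ϖ : 𝒪} (hϖ : Irreducible ϖ) (hmod : ∀ x y, i x = ϖ • y → ∃ x', x = ϖ • x')
    (π₀ : D₀.R →ₐ[𝒪] 𝒪)
    (hfin : ∀ π' : (levelModule h).T →ₐ[𝒪] 𝒪,
      (∀ (ℓ : ℕ) (hℓ : ℓ.Prime) (hℓN : ¬ ℓ ∣ N) (hℓS : ℓ ∉ (↑(S₀ ∪ T) : Set ℕ)),
        ∀ P : ValuationSubring (AlgebraicClosure ℚ), P.LiesOverPrime ℓ →
          ∀ σ : AlgebraicClosure ℚ ≃ₐ[ℚ] AlgebraicClosure ℚ, P.IsFrobeniusAt σ ℓ →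
            π' ((levelModule h).toT (H.π (heckeAlgebra.T hℓ hℓN hℓS))) =
              π₀ (LinearMap.trace D₀.R D₀.ρ.V (D₀.ρ.ρ σ))) →
      Module.finrank 𝒪 ((Submodule.torsionBySet (levelModule h).T (levelModule h).M
        (RingHom.ker π' : Set (levelModule h).T)).restrictScalars 𝒪) ≤
        Module.finrank (levelModule h₀).T (levelModule h₀).M)
    -- the lift
    (ρ : GaloisRepAdic 𝒪) (hρ : 𝒟 (S₀ ∪ T) ρ)
    (hρres : ρ.residual.IsEquiv (ρbar.baseChangeAlong (ResidueField.map (algebraMap 𝒪 𝒪))))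
    (c : ℕ → ℤ)
    (hρtr : ∀ (ℓ : ℕ), ℓ.Prime → ¬ ℓ ∣ N → ℓ ∉ S₀ ∪ T →
      ∀ P : ValuationSubring (AlgebraicClosure ℚ), P.LiesOverPrime ℓ →
        ∀ σ : AlgebraicClosure ℚ ≃ₐ[ℚ] AlgebraicClosure ℚ, P.IsFrobeniusAt σ ℓ →
          LinearMap.trace 𝒪 ρ.V (ρ.ρ σ) = (c ℓ : 𝒪)) :
    ∃ g : CuspForm (Gamma0 N) 2, g.IsNormalizedEigenform ∧
      ∀ ℓ : ℕ, ℓ.Prime → ¬ ℓ ∣ N → ℓ ∉ S₀ ∪ T → qCoeff g ℓ = (c ℓ : ℂ) := by
  classical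
  obtain ⟨D⟩ := hex (S₀ ∪ T) Finset.subset_union_left
  obtain ⟨f, hfl, hfeq⟩ := exists_compatHom D D₀ (h𝒟.mono Finset.subset_union_left _ D₀.isOfType)
  have hfs := surjective_compatHom (h𝒟.isDeformationCondition S₀) D D₀ f hfl hfeq
  have := (levelModule h₀).isReduced_T h₀.prime_mem
  have := (levelModule h).isReduced_T h.prime_mem
  obtain ⟨aq, δ, haq, hδ, hordδ⟩ :=
    exists_raisingFactor hp hp𝒪 hT D₀ h₀ H₀ hπ₀ φ₀ hφ₀ htr₀ π₀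
  have hchain := length_cotangent_le_chain h𝒟 hp S₀ hex T hT D₀ π₀ aq haq D f hfl hfeq
  refine exists_eigenform_of_levels (h𝒟.isDeformationCondition _) D D₀ hp
    (h𝒟.detIsCyclotomic _ D.isOfType) f hfl hfs hfeq (Finset.mem_union_left T hpS)
    Finset.subset_union_left h₀ h H₀ hπ₀ φ₀ hφ₀ htr₀ ψ hψ rels hrels H hπ hH hHres i j
    (fun ℓ hℓ => hi ℓ fun hh => hℓ (Finset.mem_union_right _ hh))
    (fun ℓ hℓ => hj ℓ fun hh => hℓ (Finset.mem_union_right _ hh)) hjs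
    hϖ hmod π₀ (π₀ δ) ?_ hfin ?_ ρ hρ hρres c hρtr
  · -- `j i = Δ`
    intro x hx
    rw [hji, ← hδ, smul_eq_of_ker_smul φ₀ π₀ hx, map_smul]
  · -- the cotangent bound
    exact hchain.trans (add_le_add hordδ le_rfl)

end Fermat.Agent.Lifting
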