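import Fermat.Agent.NumCrit.Lengths
import Mathlib.RingTheory.Ideal.Cotangent
import Mathlib.RingTheory.Nakayama

/-!
# Bounding the cotangent space of a point through a quotient

For a surjection `f : R → R'` over a point `π' : R' → 𝒪`, the cotangent space of `R` at
`π' ∘ f` is bounded by that of `R'` plus the order of the determinant of a square system of
relations between generators of `ker f`, known at every `m`-adic precision.
-/

set_option autoImplicit false

namespace Fermat.Agent.Lifting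

open IsLocalRing Module Fermat.Agent.NumCrit

variable {𝒪 : Type} [CommRing 𝒪] [IsDomain 𝒪] [IsDiscreteValuationRing 𝒪]

/-- A finite module whose quotients by the powers of the maximal ideal have length at most `d`
has length at most `d`. -/
theorem length_le_of_forall_quotient {C : Type*} [AddCommGroup C] [Module 𝒪 C] [Module.Finite 𝒪 C]
    {d : ℕ∞}
    (h : ∀ k : ℕ, Module.length 𝒪 (C ⧸ (maximalIdeal 𝒪 ^ k • ⊤ : Submodule 𝒪 C)) ≤ d) :
    Module.length 𝒪 C ≤ d := by
  by_cases hd : d = ⊤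
  · exact hd ▸ le_top
  set P : ℕ → Submodule 𝒪 C := fun k => maximalIdeal 𝒪 ^ k • ⊤
  by_cases hstab : ∃ k, P k = P (k + 1)
  · obtain ⟨k, hk⟩ := hstab
    have hbot : P k = ⊥ := by
      refine Submodule.eq_bot_of_le_smul_of_le_jacobson_bot (maximalIdeal 𝒪) (P k)
        (IsNoetherian.noetherian _) ?_ (maximalIdeal_le_jacobson _)
      simp only [P] at hk ⊢
      rw [← Submodule.smul_assoc, smul_eq_mul, ← pow_succ']
      exact hk.le
    have e := (Submodule.quotEquivOfEqBot (P k) hbot).length_eq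
    exact e ▸ h k
  · exfalso
    push Not at hstab
    have key : ∀ k : ℕ, (k : ℕ∞) ≤ Module.length 𝒪 (C ⧸ P k) := by
      intro k
      induction k with
      | zero => simp
      | succ k ih =>
        have hle : P (k + 1) ≤ P k :=
          Submodule.smul_mono_left (Ideal.pow_le_pow_right k.le_succ)
        let g := Submodule.factor hle
        have hne : Nontrivial (LinearMap.ker g) := by
          obtain ⟨x, hx, hx'⟩ := SetLike.exists_of_lt (lt_of_le_of_ne hle (hstab k).symm)
          refine ⟨⟨⟨Submodule.Quotient.mk x, by simp [g, hx]⟩, 0, fun he => hx' ?_⟩⟩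
          simpa using congrArg Subtype.val he
        rw [Module.length_eq_add_of_exact (LinearMap.ker g).subtype g
          (Submodule.injective_subtype _) (Submodule.factor_surjective hle)
          (LinearMap.exact_subtype_ker_map g), Nat.cast_succ, add_comm]
        exact add_le_add (Order.one_le_iff_ne_zero.mpr
          (Module.length_pos (R := 𝒪) (M := LinearMap.ker g)).ne') ih
    obtain ⟨m, rfl⟩ := ENat.ne_top_iff_exists.mp hd
    exact absurd ((key (m + 1)).trans (h _)) (by norm_cast; omega)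

variable {R R' : Type} [CommRing R] [IsLocalRing R] [Algebra 𝒪 R] [CommRing R'] [Algebra 𝒪 R']

omit [IsDomain 𝒪] [IsDiscreteValuationRing 𝒪] [IsLocalRing R] in
theorem smul_cotangent_eq (π : R →ₐ[𝒪] 𝒪) (r : R) (c : (RingHom.ker π).Cotangent) :
    r • c = π r • c := by
  have h : (r - algebraMap 𝒪 R (π r)) • c = 0 :=
    Ideal.Cotangent.smul_eq_zero_of_mem (by simp) c
  rwa [sub_smul, algebraMap_smul, sub_eq_zero] at h

omit [IsDomain 𝒪] [IsDiscreteValuationRing 𝒪] [IsLocalRing R] in
theorem finite_cotangent [IsNoetherianRing R] (π : R →ₐ[𝒪] 𝒪) :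
    Module.Finite 𝒪 (RingHom.ker π).Cotangent := by
  have : Module.Finite R (RingHom.ker π) :=
    Module.Finite.iff_fg.mpr (IsNoetherian.noetherian _)
  have : Module.Finite R (RingHom.ker π).Cotangent :=
    Module.Finite.of_surjective _ (Ideal.toCotangent_surjective _)
  obtain ⟨n, s, hs⟩ := Module.Finite.exists_fin (R := R) (M := (RingHom.ker π).Cotangent)
  refine ⟨Submodule.fg_iff_exists_fin_generating_family.mpr ⟨n, s, eq_top_iff.mpr fun c _ => ?_⟩⟩
  obtain ⟨a, rfl⟩ := (Submodule.mem_span_range_iff_exists_fun R).mp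
    (hs ▸ Submodule.mem_top : c ∈ Submodule.span R (Set.range s))
  refine Submodule.sum_mem _ fun i _ => ?_
  rw [smul_cotangent_eq π]
  exact Submodule.smul_mem _ _ (Submodule.subset_span ⟨i, rfl⟩)

omit [IsDomain 𝒪] [IsDiscreteValuationRing 𝒪] [IsLocalRing R] in
theorem pow_succ_sup_le {I P : Ideal R} (k : ℕ) :
    (I ⊔ P) ^ (k + 1) ≤ I ^ k * (I ⊔ P) ⊔ P * P := by
  induction k with
  | zero => simp
  | succ k ih =>
    have h1 : (I ⊔ P) * (I ⊔ P) ≤ I * (I ⊔ P) ⊔ P * P := by
      rw [Ideal.sup_mul I P (I ⊔ P), Ideal.mul_sup P I P]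
      exact sup_le le_sup_left (sup_le ((Ideal.mul_comm P I).le.trans
        ((Ideal.mul_mono_right le_sup_right).trans le_sup_left)) le_sup_right)
    calc (I ⊔ P) ^ (k + 1 + 1) ≤ (I ^ k * (I ⊔ P) ⊔ P * P) * (I ⊔ P) :=
          (pow_succ (I ⊔ P) (k + 1)).le.trans (Ideal.mul_mono_left ih)
      _ = I ^ k * ((I ⊔ P) * (I ⊔ P)) ⊔ P * P * (I ⊔ P) := by
          rw [Ideal.sup_mul, mul_assoc]
      _ ≤ I ^ k * (I * (I ⊔ P) ⊔ P * P) ⊔ P * P :=
          sup_le_sup (Ideal.mul_mono_right h1) Ideal.mul_le_left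
      _ ≤ I ^ (k + 1) * (I ⊔ P) ⊔ P * P := by
          rw [Ideal.mul_sup (I ^ k), ← mul_assoc, ← pow_succ]
          exact sup_le (sup_le le_sup_left (Ideal.mul_le_right.trans le_sup_right)) le_sup_right

/-- An element of the kernel of a point lying in `m ^ (k + 1)` lies in `ϖ ^ k ℘ + ℘ ^ 2`. -/
theorem toCotangent_mem_of_mem_pow [IsLocalHom (algebraMap 𝒪 R)] (π : R →ₐ[𝒪] 𝒪)
    {k : ℕ} {x : R} (hx : π x = 0) (hxm : x ∈ maximalIdeal R ^ (k + 1)) :
    (RingHom.ker π).toCotangent ⟨x, hx⟩ ∈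
      (maximalIdeal 𝒪 ^ k • ⊤ : Submodule 𝒪 (RingHom.ker π).Cotangent) := by
  obtain ⟨ϖ, hϖ⟩ := IsDiscreteValuationRing.exists_irreducible 𝒪
  have hm : maximalIdeal R ≤ Ideal.span {algebraMap 𝒪 R ϖ} ⊔ RingHom.ker π := by
    intro y hy
    have hker : y - algebraMap 𝒪 R (π y) ∈ RingHom.ker π := by simp
    have hy' : π y ∈ maximalIdeal 𝒪 := by
      refine (mem_maximalIdeal _).mpr fun hu => (mem_maximalIdeal _).mp hy ?_
      have hnm : y - algebraMap 𝒪 R (π y) ∈ maximalIdeal R :=
        IsLocalRing.le_maximalIdeal (RingHom.ker_ne_top _) hker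
      have : algebraMap 𝒪 R (π y) ∈ maximalIdeal R := by
        simpa using sub_mem hy hnm
      exact absurd (hu.map (algebraMap 𝒪 R)) ((mem_maximalIdeal _).mp this)
    rw [hϖ.maximalIdeal_eq, Ideal.mem_span_singleton'] at hy'
    obtain ⟨c, hc⟩ := hy'
    refine Submodule.mem_sup.mpr ⟨algebraMap 𝒪 R (π y), ?_, _, hker, by ring⟩
    rw [← hc, map_mul]
    exact Ideal.mul_mem_left _ _ (Ideal.mem_span_singleton_self _)
  have h1 := pow_succ_sup_le k (Ideal.pow_right_mono hm (k + 1) hxm)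
  rw [Ideal.span_singleton_pow, ← map_pow] at h1
  obtain ⟨a, ha, b, hb, rfl⟩ := Submodule.mem_sup.mp h1
  obtain ⟨u, -, rfl⟩ := Ideal.mem_span_singleton_mul.mp ha
  have hbk : b ∈ RingHom.ker π := Ideal.mul_le_left hb
  have hu : π u = 0 := by
    have : algebraMap 𝒪 R (ϖ ^ k) * u ∈ RingHom.ker π := by
      simpa using sub_mem (show algebraMap 𝒪 R (ϖ ^ k) * u + b ∈ RingHom.ker π from hx) hbk
    rw [RingHom.mem_ker, map_mul, AlgHom.commutes] at this
    exact (mul_eq_zero.mp this).resolve_left (pow_ne_zero _ hϖ.ne_zero)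
  have he : (RingHom.ker π).toCotangent ⟨algebraMap 𝒪 R (ϖ ^ k) * u + b, hx⟩ =
      ϖ ^ k • (RingHom.ker π).toCotangent ⟨u, hu⟩ := by
    rw [← algebraMap_smul R (ϖ ^ k) ((RingHom.ker π).toCotangent _), ← map_smul,
      Ideal.toCotangent_eq, sq]
    simpa using hb
  rw [he]
  exact Submodule.smul_mem_smul
    (Ideal.pow_mem_pow ((mem_maximalIdeal _).mpr hϖ.not_isUnit) k) Submodule.mem_top

/-- The cotangent space of `R` is bounded by that of `R'` and the relations between generators
of the kernel. -/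
theorem length_cotangent_le_add_ord [IsNoetherianRing R] [IsLocalHom (algebraMap 𝒪 R)]
    (f : R →ₐ[𝒪] R') (hf : Function.Surjective f) (π' : R' →ₐ[𝒪] 𝒪) {n : ℕ} (D : 𝒪)
    (h : ∀ k : ℕ, ∃ (g : Fin n → R) (A : Matrix (Fin n) (Fin n) 𝒪),
      (∀ i, π' (f (g i)) = 0) ∧ A.det = D ∧
      (∀ i, ∑ j, A i j • g j ∈ RingHom.ker (π'.comp f) ^ 2 ⊔ maximalIdeal R ^ k) ∧
      RingHom.ker f ≤
        Ideal.span (Set.range g) ⊔ (RingHom.ker (π'.comp f) ^ 2 ⊔ maximalIdeal R ^ k)) :
    Module.length 𝒪 (RingHom.ker (π'.comp f)).Cotangent ≤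
      Ring.ord 𝒪 D + Module.length 𝒪 (RingHom.ker π').Cotangent := by
  set π := π'.comp f with hπdef
  set P := RingHom.ker π with hP
  have := finite_cotangent π
  refine length_le_of_forall_quotient fun k => ?_
  set S : Submodule 𝒪 P.Cotangent := maximalIdeal 𝒪 ^ k • ⊤
  obtain ⟨g, A, hg, rfl, hA, hker⟩ := h (k + 1)
  let gc : Fin n → P.Cotangent ⧸ S := fun i => Submodule.Quotient.mk (P.toCotangent ⟨g i, hg i⟩)
  -- images of elements of `℘² ⊔ m ^ (k + 1)` vanish
  have hzero : ∀ x (hx : π x = 0), x ∈ P ^ 2 ⊔ maximalIdeal R ^ (k + 1) →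
      P.toCotangent ⟨x, hx⟩ ∈ S := by
    intro x hx hmem
    obtain ⟨a, ha, b, hb, rfl⟩ := Submodule.mem_sup.mp hmem
    have hb' : π b = 0 := by
      have : a ∈ P := Ideal.pow_le_self two_ne_zero ha
      simpa [RingHom.mem_ker.mp this] using hx
    convert toCotangent_mem_of_mem_pow π hb' hb using 1
    rw [Ideal.toCotangent_eq]
    simpa using ha
  let N : Submodule 𝒪 (P.Cotangent ⧸ S) := Submodule.span 𝒪 (Set.range gc)
  -- the relations hold in `N`
  have hN : Module.length 𝒪 N ≤ Ring.ord 𝒪 A.det := by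
    refine length_le_ord_det (fun i => ⟨gc i, Submodule.subset_span ⟨i, rfl⟩⟩) ?_ A fun i => ?_
    · rw [← Submodule.map_injective_of_injective (N.injective_subtype) |>.eq_iff,
        Submodule.map_span, Submodule.map_top, Submodule.range_subtype, ← Set.range_comp]
      rfl
    · apply Subtype.ext
      have hx : π (∑ j, A i j • g j) = 0 := by simp [hπdef, hg]
      have h1 := hzero _ hx (hA i)
      rw [← Submodule.Quotient.mk_eq_zero] at h1
      rw [Submodule.coe_zero, ← h1, Submodule.coe_sum]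
      have h2 : P.toCotangent ⟨∑ j, A i j • g j, hx⟩ =
          ∑ j, A i j • P.toCotangent ⟨g j, hg j⟩ := by
        simp only [← algebraMap_smul R (A i _) (P.toCotangent _), ← map_smul, ← map_sum]
        congr 1
        apply Subtype.ext
        simp [Algebra.smul_def]
      rw [h2, ← Submodule.mkQ_apply, map_sum]
      simp [gc]
  -- the quotient by `N` is a quotient of the cotangent space of `R'`
  let μ : P.Cotangent →ₗ[𝒪] (RingHom.ker π').Cotangent :=
    Ideal.mapCotangent P (RingHom.ker π') f fun x hx => hx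
  have hμ : Function.Surjective μ := by
    intro y
    obtain ⟨⟨y, hy⟩, rfl⟩ := Ideal.toCotangent_surjective _ y
    obtain ⟨x, rfl⟩ := hf y
    exact ⟨P.toCotangent ⟨x, hy⟩, rfl⟩
  let ν : P.Cotangent →ₗ[𝒪] (P.Cotangent ⧸ S) ⧸ N := N.mkQ ∘ₗ S.mkQ
  have hkμ : LinearMap.ker μ ≤ LinearMap.ker ν := by
    intro c hc
    obtain ⟨⟨x, hx⟩, rfl⟩ := Ideal.toCotangent_surjective _ c
    change (RingHom.ker π').toCotangent ⟨f x, hx⟩ = 0 at hc
    rw [Ideal.toCotangent_eq_zero] at hc
    have hmap : RingHom.ker π' ^ 2 = (P ^ 2).map f := by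
      rw [Ideal.map_pow, hP, hπdef]
      congr 1
      exact (Ideal.map_comap_of_surjective f hf _).symm
    rw [hmap, Ideal.mem_map_iff_of_surjective f hf] at hc
    obtain ⟨y, hy, hyx⟩ := hc
    have hxy : x - y ∈ RingHom.ker f := by simp [RingHom.mem_ker, hyx]
    obtain ⟨s, hs, t, ht, hst⟩ := Submodule.mem_sup.mp (hker hxy)
    obtain ⟨a, rfl⟩ := (Submodule.mem_span_range_iff_exists_fun R).mp hs
    have hsP : π (∑ i, a i • g i) = 0 := by simp [hπdef, hg]
    have hz : π (t + y) = 0 := by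
      have : x = ∑ i, a i • g i + (t + y) := by rw [← add_assoc, hst]; ring
      rw [RingHom.mem_ker, this, map_add, hsP, zero_add] at hx
      exact hx
    have hzS := hzero _ hz
      (add_mem ht (Ideal.mem_sup_left hy : y ∈ P ^ 2 ⊔ maximalIdeal R ^ (k + 1)))
    have hsplit : P.toCotangent ⟨x, hx⟩ =
        ∑ i, π (a i) • P.toCotangent ⟨g i, hg i⟩ + P.toCotangent ⟨t + y, hz⟩ := by
      simp only [← smul_cotangent_eq π, ← map_smul, ← map_sum, ← map_add]
      congr 1
      apply Subtype.ext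
      simp only [Submodule.coe_add, Submodule.coe_sum, Submodule.coe_smul_of_tower]
      rw [← add_assoc, hst]; ring
    rw [LinearMap.mem_ker, hsplit, map_add]
    have : ν (P.toCotangent ⟨t + y, hz⟩) = 0 := by
      simp [ν, (Submodule.Quotient.mk_eq_zero _).mpr hzS]
    rw [this, add_zero, map_sum]
    refine Finset.sum_eq_zero fun i _ => ?_
    have hi : N.mkQ (gc i) = 0 :=
      (Submodule.Quotient.mk_eq_zero _).mpr (Submodule.subset_span ⟨i, rfl⟩)
    rw [map_smul]
    exact smul_eq_zero_of_right _ hi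
  let e := LinearMap.quotKerEquivOfSurjective μ hμ
  have hQ : Module.length 𝒪 ((P.Cotangent ⧸ S) ⧸ N) ≤
      Module.length 𝒪 (RingHom.ker π').Cotangent := by
    rw [← e.length_eq]
    refine Module.length_le_of_surjective ((LinearMap.ker μ).liftQ ν hkμ) ?_
    intro z
    obtain ⟨w, rfl⟩ := N.mkQ_surjective z
    obtain ⟨v, rfl⟩ := S.mkQ_surjective w
    exact ⟨Submodule.Quotient.mk v, rfl⟩
  rw [Module.length_eq_add_of_exact N.subtype N.mkQ N.injective_subtype N.mkQ_surjective
    (LinearMap.exact_subtype_mkQ N)]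
  exact add_le_add hN hQ

end Fermat.Agent.Lifting
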