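import Fermat.Prelude.Def_GaloisRep_Residual
import Fermat.Prelude.Def_FLTPrelim_ModularRep
import Fermat.Prelude.Def_WeierstrassCurve_PeuRamifiee

/-!
# External inputs of the modularity lifting argument

The level lowering statements used at `p = 3, 5`: at a prime `q ≠ p` exactly dividing the level
where `W[p]` is unramified (Ribet), at `p` itself (Mazur), and residual Carayol, which lowers the
square of a prime `q ≠ p` in the level.
-/

set_option autoImplicit false

noncomputable section

open WeierstrassCurve WeierstrassCurve.Affine WeierstrassCurve.Affine.Point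

namespace Fermat.Agent.Lifting

/-- Ribet's level lowering at a squarefree level, for `p = 3, 5`. -/
def LevelLoweringSqf : Prop :=
  ∀ (p : ℕ) [Fact p.Prime], p = 3 ∨ p = 5 → ∀ (W : WeierstrassCurve ℤ), W.Δ ≠ 0 → W.IsSemistableModel →
    ∀ (hcard₁ : Nat.card (Submodule.torsionBy ℤ
        ((W.map (Int.castRingHom ℚ))⁄(AlgebraicClosure ℚ)).Point p) = p ^ 2)
      (hker : GaloisFactorsThroughFiniteLevel
        (galoisRepModuleEnd (K := AlgebraicClosure ℚ) ℚ (W.map (Int.castRingHom ℚ)) p)),
    W.ModRepIsIrreducible p → ∀ (M q : ℕ), q.Prime → q ≠ p → q ∣ M → ¬ q ^ 2 ∣ M → Squarefree M →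
      ((W.map (Int.castRingHom ℚ)).residualGaloisRepOf p hcard₁ hker).IsUnramifiedAt q →
      W.IsResiduallyModularOfLevel p M → W.IsResiduallyModularOfLevel p (M / q)

/-- Residual Carayol: a prime `q ≠ p` dividing the level exactly twice can be lowered once. -/
def ResidualCarayol : Prop :=
  ∀ (W : WeierstrassCurve ℤ), W.IsSemistableModel → W.Δ ≠ 0 → ∀ (p : ℕ), p = 3 ∨ p = 5 →
    W.ModRepIsIrreducible p → ∀ (q : ℕ), q.Prime → q ≠ p → ∀ (M : ℕ), 0 < M →
      q ^ 2 ∣ M → ¬ q ^ 3 ∣ M →
      W.IsResiduallyModularOfLevel p M → W.IsResiduallyModularOfLevel p (M / q)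

end Fermat.Agent.Lifting
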