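import Fermat.Agent.Lifting.Level
import Fermat.Agent.HeckeCohom.EigenHoms
import Fermat.Agent.GroupH1.Localise

/-!
# Modules over `heckeLocal` from operators and a word-killing property

A finite `𝒪`-module with operators `c ℓ`, localised at a maximal ideal killed by a residual
character `χ`, is a module over `heckeLocal N S 𝒪 θ` as soon as every word in the `T_ℓ` killing all cusp forms
kills it and `θ T_ℓ = χ (c ℓ)`.
-/

set_option autoImplicit false

noncomputable section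

open IsLocalRing CuspForm
open scoped TensorProduct

namespace Fermat.Agent.Lifting

open Fermat.Agent.HeckeCohom (OpIdx wordEval wordEval_surjective)
open Fermat.Agent.GroupH1 (LocM toLocM smul_locM_eq_zero toLocM_surjective exists_smul_inv)

/-- The polynomial attached to a word. -/
def wordPoly {A : Type} [CommRing A] {S : Set ℕ} (c : OpIdx S → A) :
    FreeAlgebra ℤ (OpIdx S) →ₐ[ℤ] A :=
  FreeAlgebra.lift ℤ c

variable {𝒪 : Type} [CommRing 𝒪] [IsDomain 𝒪] [IsDiscreteValuationRing 𝒪]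
  [IsAdicComplete (maximalIdeal 𝒪) 𝒪]
  {A : Type} [CommRing A] [Algebra 𝒪 A]
  {N : ℕ} [NeZero N] {S : Set ℕ}
  {θ : heckeAlgebra N 2 S →+* ResidueField 𝒪}

omit [IsDomain 𝒪] [IsDiscreteValuationRing 𝒪] [IsAdicComplete (maximalIdeal 𝒪) 𝒪]
  [Algebra 𝒪 A] in
/-- A map to a field agreeing with `θ` on the generators agrees on all words. -/
theorem theta_wordEval {k : Type} [CommRing k] (θ : heckeAlgebra N 2 S →+* k) (c : OpIdx S → A)
    (χ : A →+* k) (hθ : ∀ i, θ (wordEval N S (FreeAlgebra.ι ℤ i)) = χ (c i))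
    (P : FreeAlgebra ℤ (OpIdx S)) : θ (wordEval N S P) = χ (wordPoly c P) := by
  induction P using FreeAlgebra.induction with
  | grade0 r => simp
  | grade1 i => rw [hθ i, wordPoly, FreeAlgebra.lift_ι_apply]
  | add a b ha hb => simp only [map_add, ha, hb]
  | mul a b ha hb => simp only [map_mul, ha, hb]

variable {V : Type} [AddCommGroup V] [Module 𝒪 V] [Module A V] [IsScalarTower 𝒪 A V]
  [Module.Finite 𝒪 V]

variable (V) in
/-- The hypotheses making `LocM m V` a module over `heckeLocal N S 𝒪 θ`. -/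
structure WordHyp (m : Ideal A) [m.IsMaximal] (c : OpIdx S → A) (χ : A →ₐ[𝒪] ResidueField 𝒪)
    (θ : heckeAlgebra N 2 S →+* ResidueField 𝒪) : Prop where
  mem : ∀ s, s ∈ m → χ s = 0
  theta : ∀ i, θ (wordEval N S (FreeAlgebra.ι ℤ i)) = χ (c i)
  kill : ∀ P, wordEval N S P = 0 →
    ∀ x : LocM m V, wordPoly c P • x = 0

variable {m : Ideal A} [m.IsMaximal] {c : OpIdx S → A} {χ : A →ₐ[𝒪] ResidueField 𝒪}

variable (𝒪 V m) in
/-- The annihilator of the localised module. -/
def locAnn : Ideal A := RingHom.ker (Algebra.lsmul 𝒪 𝒪 (LocM m V))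

omit [IsDomain 𝒪] [IsDiscreteValuationRing 𝒪] [IsAdicComplete (maximalIdeal 𝒪) 𝒪]
  [Module.Finite 𝒪 V] in
theorem mem_locAnn {s : A} :
    s ∈ locAnn 𝒪 V m ↔ ∀ x : LocM m V, s • x = 0 := by
  rw [locAnn, RingHom.mem_ker]
  exact ⟨fun h x => LinearMap.congr_fun h x, fun h => LinearMap.ext h⟩

/-- Elements outside the maximal ideal are units modulo the annihilator. -/
theorem isUnit_mk_of_notMem {s : A} (hs : s ∉ m) :
    IsUnit (Ideal.Quotient.mk (locAnn 𝒪 V m) s) := by
  obtain ⟨t, u, hu, h⟩ := exists_smul_inv 𝒪 (V := V) m (s := s) hs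
  refine IsUnit.of_mul_eq_one (Ideal.Quotient.mk _ t) ?_
  rw [← map_mul, ← map_one (Ideal.Quotient.mk _), Ideal.Quotient.eq, mem_locAnn]
  intro x
  obtain ⟨v, rfl⟩ := toLocM_surjective 𝒪 m x
  refine smul_locM_eq_zero m hu ?_
  rw [sub_smul, one_smul, smul_sub, ← map_smul, ← map_smul, ← map_smul, mul_comm s t, h, sub_self]

/-- A Hecke operator as a class modulo the annihilator. -/
def heckeToQuot (h : WordHyp V m c χ θ) : heckeAlgebra N 2 S →+* A ⧸ locAnn 𝒪 V m :=
  RingHom.liftOfSurjective (wordEval N S).toRingHom wordEval_surjective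
    ⟨(Ideal.Quotient.mk _).comp (wordPoly c).toRingHom, fun P hP => by
      rw [RingHom.mem_ker] at hP ⊢
      rw [RingHom.comp_apply, Ideal.Quotient.eq_zero_iff_mem, mem_locAnn]
      exact h.kill P hP⟩

omit [IsAdicComplete (maximalIdeal 𝒪) 𝒪] [Module.Finite 𝒪 V] in
theorem heckeToQuot_wordEval (h : WordHyp V m c χ θ) (P : FreeAlgebra ℤ (OpIdx S)) :
    heckeToQuot h (wordEval N S P) = Ideal.Quotient.mk _ (wordPoly c P) :=
  RingHom.liftOfRightInverse_comp_apply _ _ _ _ P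

/-- The lattice Hecke algebra is the Hecke algebra. -/
def latticeEquiv (N : ℕ) [NeZero N] (S : Set ℕ) :
    heckeAlgebra N 2 S ≃ₐ[ℤ] heckeLatticeAlgebra N S :=
  AlgEquiv.ofBijective (latticeRestrictHom N S)
    (latticeRestrictHom_bijective N S (CuspIntStr.hasIntegralStructure N 2))

/-- The base algebra as classes modulo the annihilator. -/
def baseToQuot (h : WordHyp V m c χ θ) : heckeBaseAlgebra N S 𝒪 →ₐ[𝒪] A ⧸ locAnn 𝒪 V m :=
  Algebra.TensorProduct.lift (Algebra.ofId 𝒪 _)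
    (((heckeToQuot h).toIntAlgHom).comp (latticeEquiv N S).symm.toAlgHom)
    fun _ _ => Commute.all _ _

omit [IsAdicComplete (maximalIdeal 𝒪) 𝒪] [Module.Finite 𝒪 V] in
theorem baseToQuot_tmul (h : WordHyp V m c χ θ) (r : 𝒪) (t : heckeAlgebra N 2 S) :
    baseToQuot h (latticeBaseChange N S 𝒪 (r ⊗ₜ t)) =
      algebraMap 𝒪 _ r * heckeToQuot h t := by
  show algebraMap 𝒪 _ r * heckeToQuot h ((latticeEquiv N S).symm (latticeEquiv N S t)) = _
  rw [AlgEquiv.symm_apply_apply]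

omit [IsAdicComplete (maximalIdeal 𝒪) 𝒪] [Module.Finite 𝒪 V] in
/-- An element of the base-changed Hecke algebra is represented in `A`, compatibly with the
residual characters. -/
theorem exists_rep (h : WordHyp V m c χ θ) (x : 𝒪 ⊗[ℤ] heckeAlgebra N 2 S) :
    ∃ s : A, baseToQuot h (latticeBaseChange N S 𝒪 x) = Ideal.Quotient.mk _ s ∧
      residualCharacter N S 𝒪 θ x = χ s := by
  induction x using TensorProduct.induction_on with
  | zero => exact ⟨0, by simp, by simp⟩
  | tmul r t =>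
    obtain ⟨P, rfl⟩ := wordEval_surjective (N := N) (S := S) t
    refine ⟨algebraMap 𝒪 A r * wordPoly c P, ?_, ?_⟩
    · rw [baseToQuot_tmul, heckeToQuot_wordEval, map_mul, Ideal.Quotient.mk_algebraMap]
    · rw [residualCharacter_tmul, map_mul, AlgHom.commutes,
        theta_wordEval θ c (χ : A →+* ResidueField 𝒪) h.theta]
      rfl
  | add x y hx hy =>
    obtain ⟨s, hs, hs'⟩ := hx
    obtain ⟨t, ht, ht'⟩ := hy
    exact ⟨s + t, by rw [map_add, map_add, hs, ht, map_add], by rw [map_add, map_add, hs', ht']⟩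

theorem isUnit_baseToQuot (h : WordHyp V m c χ θ) (y : heckeLocalSubmonoid N S 𝒪 θ) :
    IsUnit (baseToQuot h y) := by
  obtain ⟨_, x, hx, rfl⟩ := y
  obtain ⟨s, hs, hs'⟩ := exists_rep h x
  show IsUnit (baseToQuot h (latticeBaseChange N S 𝒪 x))
  rw [hs]
  refine isUnit_mk_of_notMem fun h0 => Ideal.mem_primeCompl_iff.mp hx ?_
  rw [mem_heckeCharKernel_iff, hs', h.mem s h0]

/-- The action of the local Hecke algebra. -/
def localAct (h : WordHyp V m c χ θ) :
    heckeLocal N S 𝒪 θ →ₐ[𝒪] Module.End 𝒪 (LocM m V) :=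
  (Ideal.Quotient.liftₐ (locAnn 𝒪 V m) (Algebra.lsmul 𝒪 𝒪 (LocM m V))
    fun _ hs => hs).comp
    (IsLocalization.liftAlgHom (M := heckeLocalSubmonoid N S 𝒪 θ) (f := baseToQuot h)
      (isUnit_baseToQuot h))

/-- Every element acts as an element of `A`. -/
theorem exists_localAct_eq_smul (h : WordHyp V m c χ θ) (s : heckeLocal N S 𝒪 θ) :
    ∃ p : A, ∀ x : LocM m V, localAct h s x = p • x := by
  obtain ⟨p, hp⟩ := Ideal.Quotient.mk_surjective (IsLocalization.liftAlgHom
    (M := heckeLocalSubmonoid N S 𝒪 θ) (f := baseToQuot h) (isUnit_baseToQuot h) s)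
  refine ⟨p, fun x => ?_⟩
  rw [localAct, AlgHom.comp_apply, ← hp]
  rfl

theorem localAct_π_wordEval (h : WordHyp V m c χ θ) (P : FreeAlgebra ℤ (OpIdx S))
    (x : LocM m V) :
    localAct h (heckeLocal.π N S 𝒪 θ (wordEval N S P)) x = wordPoly c P • x := by
  rw [localAct, AlgHom.comp_apply]
  simp only [heckeLocal.π, RingHom.comp_apply, IsLocalization.liftAlgHom_apply,
    IsLocalization.lift_eq]
  show Ideal.Quotient.liftₐ (locAnn 𝒪 V m) (Algebra.lsmul 𝒪 𝒪 (LocM m V))
    (fun _ hs => hs) (baseToQuot h (latticeBaseChange N S 𝒪 (1 ⊗ₜ wordEval N S P))) x = _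
  rw [baseToQuot_tmul, map_one, one_mul, heckeToQuot_wordEval]
  rfl

/-- The local action of `T_ℓ` is multiplication by its given value. -/
theorem localAct_π_T (h : WordHyp V m c χ θ) {ℓ : ℕ} (hℓ : ℓ.Prime) (hℓN : ¬ ℓ ∣ N) (hℓS : ℓ ∉ S)
    (x : LocM m V) :
    localAct h (heckeLocal.π N S 𝒪 θ (heckeAlgebra.T hℓ hℓN hℓS)) x =
      c ⟨⟨ℓ, hℓ⟩, hℓS⟩ • x := by
  have := localAct_π_wordEval h (FreeAlgebra.ι ℤ ⟨⟨ℓ, hℓ⟩, hℓS⟩) x
  simpa [wordEval, wordPoly, hℓN] using this

end Fermat.Agent.Lifting
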