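import Fermat.Agent.Lifting.Level
import Fermat.Agent.Patching.Glue

/-!
# `R = T` from Taylor–Wiles levels

If the module of a level, seen over the minimal deformation ring, admits Taylor–Wiles levels of
every depth, then the deformation ring is the Hecke ring, the module is free over it and the ring
is a complete intersection.
-/

set_option autoImplicit false

noncomputable section

namespace Fermat.Agent.Lifting

open IsLocalRing Fermat.Agent.Patching

variable {𝒪 : Type} [CommRing 𝒪] [IsDomain 𝒪] [IsDiscreteValuationRing 𝒪]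
  [IsAdicComplete (maximalIdeal 𝒪) 𝒪] [Finite (ResidueField 𝒪)]

/-- A ring which maps onto a ring acting on a module with Taylor–Wiles levels of every
depth maps isomorphically, and the module is free over it. -/
theorem bijective_of_twLevels {p r : ℕ} [Fact p.Prime] (hp : (p : 𝒪) ∈ maximalIdeal 𝒪)
    {R T M : Type} [CommRing R] [Algebra 𝒪 R] [CommRing T] [Algebra 𝒪 T] [AddCommGroup M]
    [Module 𝒪 M] [Module T M] [IsScalarTower 𝒪 T M] [Module.Finite 𝒪 M] [Module.Free 𝒪 M]
    [Nontrivial M] (φ : R →ₐ[𝒪] T) (hφ : Function.Surjective φ)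
    (h : ∀ n, letI := Module.compHom M (φ : R →+* T)
      Nonempty (TWLevel 𝒪 p n r (Module.finrank 𝒪 M) R M)) :
    Function.Bijective φ ∧ Module.Free T M ∧ Module.Finite T M ∧ Module.Finite 𝒪 T ∧
      ∃ (ψ : MvPowerSeries (Fin r) 𝒪 →ₐ[𝒪] R) (f : Fin r → MvPowerSeries (Fin r) 𝒪),
        Function.Surjective ψ ∧ RingHom.ker ψ = Ideal.span (Set.range f) := by
  let _ : Module R M := Module.compHom M (φ : R →+* T)
  have hsmul : ∀ (x : R) (m : M), x • m = φ x • m := fun _ _ => rfl
  have : IsScalarTower 𝒪 R M := IsScalarTower.of_algebraMap_smul fun a m => by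
    rw [hsmul, φ.commutes, algebraMap_smul]
  have : Nontrivial T := Module.nontrivial T M
  have : Nontrivial R := RingHom.domain_nontrivial (φ : R →+* T)
  let e := Module.finBasis 𝒪 M
  obtain ⟨hfree, hfin, hann, hRfin, -, ψ, f, hψ, hker, -⟩ :=
    conclusion_of_levels (R := R) (M := M) hp fun n => (h n).some.nonempty_patchingLevel hp e
  have hinj : Function.Injective φ := by
    rw [injective_iff_map_eq_zero]
    intro x hx
    have hx' : x ∈ Module.annihilator R M :=
      Module.mem_annihilator.mpr fun m => by rw [hsmul, hx, zero_smul]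
    rwa [hann, Ideal.mem_bot] at hx'
  have hbij : Function.Bijective φ := ⟨hinj, hφ⟩
  let σ : R ≃+* T := RingEquiv.ofBijective (φ : R →+* T) hbij
  refine ⟨hbij, ?_, ?_, Module.Finite.of_surjective φ.toLinearMap hφ, ψ, f, hψ, hker⟩
  · have hb := Module.Free.chooseBasis R M
    exact Module.Free.of_basis (hb.mapCoeffs σ fun x m => (hsmul x m).symm)
  · have hb := Module.Free.chooseBasis R M
    exact Module.Finite.of_basis (hb.mapCoeffs σ fun x m => (hsmul x m).symm)

/-- The same for the Hecke ring of a level. -/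
theorem LevelModule.bijective_of_twLevels {N : ℕ} [NeZero N] {S : Finset ℕ}
    {θ : CuspForm.heckeAlgebra N 2 (↑S : Set ℕ) →+* ResidueField 𝒪} (L : LevelModule 𝒪 N S θ)
    {p r : ℕ} [Fact p.Prime] (hp : (p : 𝒪) ∈ maximalIdeal 𝒪) {R : Type} [CommRing R]
    [Algebra 𝒪 R] (φ : R →ₐ[𝒪] L.T) (hφ : Function.Surjective φ)
    (h : ∀ n, letI := Module.compHom L.M (φ : R →+* L.T)
      Nonempty (TWLevel 𝒪 p n r (Module.finrank 𝒪 L.M) R L.M)) :
    Function.Bijective φ ∧ Module.Free L.T L.M ∧ Module.Finite L.T L.M ∧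
      ∃ (ψ : MvPowerSeries (Fin r) 𝒪 →ₐ[𝒪] R) (f : Fin r → MvPowerSeries (Fin r) 𝒪),
        Function.Surjective ψ ∧ RingHom.ker ψ = Ideal.span (Set.range f) := by
  obtain ⟨h1, h2, h3, -, h4⟩ :=
    Lifting.bijective_of_twLevels hp φ hφ h
  exact ⟨h1, h2, h3, h4⟩

end Fermat.Agent.Lifting
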