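import Fermat.Agent.Lifting.Compat
import Fermat.Agent.Lifting.PatchTW
import Fermat.Agent.Lifting.TWPrimes

/-!
# The minimal level: reduction to one Taylor–Wiles level

For a family of deformation conditions indexed by the primes where ramification is allowed,
Taylor–Wiles primes reduce `R = T` at the minimal level to the construction of one
Taylor–Wiles level for each choice of primes and roots.
-/

set_option autoImplicit false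

noncomputable section

namespace Fermat.Agent.Lifting

open IsLocalRing GaloisRep Polynomial Fermat.Agent.Patching
open Fermat.Agent.GroupH1 (IsTWRoot)

variable {𝒪 : Type} [CommRing 𝒪] [IsDomain 𝒪] [IsDiscreteValuationRing 𝒪]
  [IsAdicComplete (maximalIdeal 𝒪) 𝒪] [Finite (ResidueField 𝒪)]
  {ρbar : ResidualGaloisRep (ResidueField 𝒪)}

/-- Taylor–Wiles primes for a family of conditions: for every `n` there are `r`
Taylor–Wiles primes whose deformation rings are generated by `r` elements. -/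
def HasTWPrimes (ρbar : ResidualGaloisRep (ResidueField 𝒪)) (p : ℕ) (S Smin : Finset ℕ) (r : ℕ)
    (𝒟 : Finset ℕ → ∀ ⦃A : Type⦄ [CommRing A] [IsLocalRing A] [Algebra 𝒪 A],
      GaloisRepAdic A → Prop) : Prop :=
  ∀ n : ℕ, ∃ qv : Fin r → ℕ, Function.Injective qv ∧
    (∀ i, (qv i).Prime ∧ qv i ∉ S ∧ p ^ (n + 1) ∣ qv i - 1) ∧
    (∀ i, ∀ P : ValuationSubring (AlgebraicClosure ℚ), P.LiesOverPrime (qv i) →
      ∀ φ : AlgebraicClosure ℚ ≃ₐ[ℚ] AlgebraicClosure ℚ, P.IsFrobeniusAt φ (qv i) →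
        ∃ α β : ResidueField 𝒪, α ≠ β ∧ LinearMap.charpoly (ρbar.ρ φ) = (X - C α) * (X - C β)) ∧
    ∀ DQ : DeformationRingData 𝒪 ρbar (𝒟 (Smin ∪ Finset.univ.image qv)),
      ∃ γ : MvPowerSeries (Fin r) 𝒪 →ₐ[𝒪] DQ.R, Function.Surjective γ

/-- Taylor–Wiles primes of a condition serve for every stronger condition. -/
theorem HasTWPrimes.mono {p : ℕ} {S Smin : Finset ℕ} {r : ℕ}
    {𝒟 𝒟' : Finset ℕ → ∀ ⦃A : Type⦄ [CommRing A] [IsLocalRing A] [Algebra 𝒪 A],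
      GaloisRepAdic A → Prop}
    (h : HasTWPrimes ρbar p S Smin r 𝒟)
    (hcond' : ∀ T, IsDeformationCondition 𝒪 (𝒟' T))
    (hex : ∀ T, Smin ⊆ T → Nonempty (DeformationRingData 𝒪 ρbar (𝒟 T)))
    (hle : ∀ T ⦃A : Type⦄ [CommRing A] [IsLocalRing A] [Algebra 𝒪 A] (ρ : GaloisRepAdic A),
      𝒟' T ρ → 𝒟 T ρ) :
    HasTWPrimes ρbar p S Smin r 𝒟' := by
  intro n
  obtain ⟨qv, h1, h2, h3, h4⟩ := h n
  refine ⟨qv, h1, h2, h3, fun DQ' => ?_⟩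
  obtain ⟨DQ⟩ := hex _ (Finset.subset_union_left (s₂ := Finset.univ.image qv))
  obtain ⟨γ, hγ⟩ := h4 DQ
  obtain ⟨f, hf, hfeq⟩ := exists_compatHom DQ DQ' (hle _ _ DQ'.isOfType)
  exact ⟨f.comp γ, (surjective_compatHom (hcond' _) DQ DQ' f hf hfeq).comp hγ⟩

/-- **`R = T` at the minimal level from Taylor–Wiles levels.** -/
theorem bijective_of_twPrimes {p : ℕ} [Fact p.Prime] (hp𝒪 : (p : 𝒪) ∈ maximalIdeal 𝒪)
    (hdet : (GaloisRepAdic.ofResidualGaloisRep ρbar).DetIsCyclotomic p)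
    {S Smin : Finset ℕ} {r : ℕ}
    {𝒟 : Finset ℕ → ∀ ⦃A : Type⦄ [CommRing A] [IsLocalRing A] [Algebra 𝒪 A],
      GaloisRepAdic A → Prop}
    (hcond : ∀ T, IsDeformationCondition 𝒪 (𝒟 T))
    (hmono : ∀ ⦃T T' : Finset ℕ⦄, T ⊆ T' → ∀ ⦃A : Type⦄ [CommRing A] [IsLocalRing A]
      [Algebra 𝒪 A] (ρ : GaloisRepAdic A), 𝒟 T ρ → 𝒟 T' ρ)
    (hex : ∀ T, Smin ⊆ T → Nonempty (DeformationRingData 𝒪 ρbar (𝒟 T)))
    (h56 : HasTWPrimes ρbar p S Smin r 𝒟) (a : Nat.Primes → ResidueField 𝒪)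
    (htr : ∀ q : Nat.Primes, (q : ℕ) ∉ S →
      ∀ P : ValuationSubring (AlgebraicClosure ℚ), P.LiesOverPrime q →
        ∀ φ : AlgebraicClosure ℚ ≃ₐ[ℚ] AlgebraicClosure ℚ, P.IsFrobeniusAt φ q →
          LinearMap.trace (ResidueField 𝒪) ρbar.V (ρbar.ρ φ) = a q)
    (D₀ : DeformationRingData 𝒪 ρbar (𝒟 Smin))
    {N₀ : ℕ} [NeZero N₀] {S₀ : Finset ℕ}
    {θ : CuspForm.heckeAlgebra N₀ 2 (↑S₀ : Set ℕ) →+* ResidueField 𝒪}
    (L : LevelModule 𝒪 N₀ S₀ θ) (φ₀ : D₀.R →ₐ[𝒪] L.T) (hφ₀ : Function.Surjective φ₀)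
    (hTW : ∀ (n : ℕ) (qv : Fin r → ℕ) (_ : Function.Injective qv)
      (hqv : ∀ i, (qv i).Prime ∧ qv i ∉ S ∧ p ^ (n + 1) ∣ qv i - 1)
      (α : Nat.Primes → ResidueField 𝒪)
      (_ : ∀ i, IsTWRoot a ⟨qv i, (hqv i).1⟩ (α ⟨qv i, (hqv i).1⟩))
      (DQ : DeformationRingData 𝒪 ρbar (𝒟 (Smin ∪ Finset.univ.image qv)))
      (γ : MvPowerSeries (Fin r) 𝒪 →ₐ[𝒪] DQ.R) (_ : Function.Surjective γ)
      (τ : DQ.R →ₐ[𝒪] D₀.R) (hτ : IsLocalHom (τ : DQ.R →+* D₀.R))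
      (_ : (DQ.ρ.baseChangeAlong (τ : DQ.R →+* D₀.R) hτ).IsEquiv D₀.ρ)
      (_ : Function.Surjective τ),
      letI := Module.compHom L.M (φ₀ : D₀.R →+* L.T)
      Nonempty (TWLevel 𝒪 p n r (Module.finrank 𝒪 L.M) D₀.R L.M)) :
    Function.Bijective φ₀ ∧ Module.Free L.T L.M ∧ Module.Finite L.T L.M ∧
      ∃ (ψ : MvPowerSeries (Fin r) 𝒪 →ₐ[𝒪] D₀.R) (f : Fin r → MvPowerSeries (Fin r) 𝒪),
        Function.Surjective ψ ∧ RingHom.ker ψ = Ideal.span (Set.range f) := by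
  refine L.bijective_of_twLevels hp𝒪 φ₀ hφ₀ fun n => ?_
  obtain ⟨qv, h1, h2, h3, h4⟩ := h56 n
  obtain ⟨α, hα⟩ := exists_twRoots ρbar hp𝒪 hdet a S qv h2 h3 htr
  obtain ⟨DQ⟩ := hex _ (Finset.subset_union_left (s₂ := Finset.univ.image qv))
  obtain ⟨γ, hγ⟩ := h4 DQ
  obtain ⟨τ, hτ, hτeq⟩ := exists_compatHom DQ D₀
    (hmono Finset.subset_union_left _ D₀.isOfType)
  exact hTW n qv h1 h2 α hα DQ γ hγ τ hτ hτeq
    (surjective_compatHom (hcond _) DQ D₀ τ hτ hτeq)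

end Fermat.Agent.Lifting
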