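import Fermat.Agent.Lifting.DatumConditions
import Fermat.Agent.Lifting.Constructors

/-!
# Ordinarity of Hecke Galois representations of level prime to `p`

Restriction of Hecke operators gives a map of local Hecke algebras from level `N'` to level `N ∣ N'`.
With `N' = p N` this makes a Hecke Galois representation of level prime to `p` ordinary when the
residual representation is, given ordinarity at the levels exactly divisible by `p`.
-/

set_option autoImplicit false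

noncomputable section

open Polynomial IsLocalRing GaloisRep
open scoped TensorProduct IsMulCommutative

namespace Fermat.Agent.Lifting

open CuspForm (HeckeGaloisRepDatum heckeAlgebra heckeLocal)
open Fermat.Agent.HeckeCohom (OpIdx wordEval wordEval_surjective)

/-- Restriction of Hecke operators outside `S` to a divisor of the level. -/
def restrictAnemic {N N' : ℕ} [NeZero N] [NeZero N'] {S : Set ℕ} (hdvd : N ∣ N')
    (hS : ∀ q, q.Prime → q ∣ N' → q ∈ S) :
    heckeAlgebra N' 2 S →+* heckeAlgebra N 2 S :=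
  RingHom.liftOfSurjective (wordEval N' S).toRingHom wordEval_surjective
    ⟨(wordEval N S).toRingHom, fun _ hP => wordEval_eq_zero_of_dvd hdvd hS hP⟩

theorem restrictAnemic_T {N N' : ℕ} [NeZero N] [NeZero N'] {S : Set ℕ} (hdvd : N ∣ N')
    (hS : ∀ q, q.Prime → q ∣ N' → q ∈ S) {l : ℕ} (hl : l.Prime) (hlN' : ¬ l ∣ N')
    (hlN : ¬ l ∣ N) (hlS : l ∉ S) :
    restrictAnemic hdvd hS (heckeAlgebra.T hl hlN' hlS) = heckeAlgebra.T hl hlN hlS := by
  have h : ∀ P, restrictAnemic hdvd hS (wordEval N' S P) = wordEval N S P := fun P =>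
    RingHom.liftOfRightInverse_comp_apply _ _ _ _ P
  have h1 := h (FreeAlgebra.ι ℤ ⟨⟨l, hl⟩, hlS⟩)
  simpa [wordEval, hlN, hlN'] using h1

variable {𝒪 : Type} [CommRing 𝒪] [IsDomain 𝒪] [IsDiscreteValuationRing 𝒪]
  [IsAdicComplete (maximalIdeal 𝒪) 𝒪]

omit [IsAdicComplete (maximalIdeal 𝒪) 𝒪] in
/-- A map of the Hecke algebra to a local algebra, residually `θ'`, extends to the local Hecke
algebra. -/
theorem exists_heckeLocal_lift {N' : ℕ} [NeZero N'] {S' : Set ℕ}
    {θ' : heckeAlgebra N' 2 S' →+* ResidueField 𝒪}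
    {Th : Type} [CommRing Th] [IsLocalRing Th] [Algebra 𝒪 Th] [IsLocalHom (algebraMap 𝒪 Th)]
    (π' : heckeAlgebra N' 2 S' →+* Th)
    (hπ' : ∀ t, residue Th (π' t) = ResidueField.map (algebraMap 𝒪 Th) (θ' t)) :
    ∃ g : heckeLocal N' S' 𝒪 θ' →ₐ[𝒪] Th, ∀ t, g (heckeLocal.π N' S' 𝒪 θ' t) = π' t := by
  let H := 𝒪 ⊗[ℤ] heckeAlgebra N' 2 S'
  let ψ₀ : H →ₐ[ℤ] Th := Algebra.TensorProduct.productMap (algebraMap 𝒪 Th).toIntAlgHom
    π'.toIntAlgHom
  have hres : ∀ x : H, residue Th (ψ₀ x) =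
      ResidueField.map (algebraMap 𝒪 Th) (CuspForm.residualCharacter N' S' 𝒪 θ' x) := fun x => by
    induction x using TensorProduct.induction_on with
    | zero => simp
    | tmul c t =>
      show residue Th (algebraMap 𝒪 Th c * π' t) = _
      rw [map_mul, hπ', CuspForm.residualCharacter_tmul, map_mul,
        ResidueField.map_residue]
    | add x y hx hy => simp only [map_add, hx, hy]
  let e : H ≃+* CuspForm.heckeBaseAlgebra N' S' 𝒪 :=
    RingEquiv.ofBijective (CuspForm.latticeBaseChange N' S' 𝒪)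
      ⟨CuspForm.latticeBaseChange_injective N' S' 𝒪 Fact.out,
        CuspForm.latticeBaseChange_surjective N' S' 𝒪⟩
  let g : CuspForm.heckeBaseAlgebra N' S' 𝒪 →+* Th := ψ₀.toRingHom.comp e.symm.toRingHom
  have hg : ∀ x : H, g (CuspForm.latticeBaseChange N' S' 𝒪 x) = ψ₀ x := fun x => by
    show ψ₀ (e.symm (e x)) = ψ₀ x
    rw [RingEquiv.symm_apply_apply]
  have hunit : ∀ y : CuspForm.heckeLocalSubmonoid N' S' 𝒪 θ', IsUnit (g y) := by
    rintro ⟨_, a, ha, rfl⟩
    rw [show g _ = ψ₀ a from hg a, ← residue_ne_zero_iff_isUnit, hres, _root_.map_ne_zero]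
    exact fun h =>
      Ideal.mem_primeCompl_iff.1 ha ((CuspForm.mem_heckeCharKernel_iff N' S' 𝒪 θ' a).2 h)
  let l : heckeLocal N' S' 𝒪 θ' →+* Th := IsLocalization.lift hunit
  have hl : ∀ x : H, l (HeckeRep.toLocal N' S' 𝒪 θ' x) = ψ₀ x := fun x =>
    (IsLocalization.lift_eq hunit _).trans (hg x)
  refine ⟨{ toRingHom := l, commutes' := fun c => ?_ }, fun t => ?_⟩
  · show l (algebraMap 𝒪 _ c) = _
    rw [← HeckeRep.toLocal_algebraMap, hl]
    show algebraMap 𝒪 Th c * π' 1 = _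
    rw [map_one, mul_one]
  · show l (heckeLocal.π N' S' 𝒪 θ' t) = _
    rw [← HeckeRep.toLocal_one_tmul, hl]
    show algebraMap 𝒪 Th 1 * π' t = _
    rw [map_one, one_mul]

variable {p : ℕ} [Fact p.Prime] [Finite (ResidueField 𝒪)] [CharZero 𝒪]
  {ρbar : ResidualGaloisRep (ResidueField 𝒪)}

/-- **Ordinarity at level prime to `p`** from ordinarity at level `p N`. -/
theorem datum_isOrdinaryAt_of_residual (h33 : OrdinaryAtLevel) {N : ℕ} [NeZero N] {S : Finset ℕ}
    {θ : heckeAlgebra N 2 (↑S : Set ℕ) →+* ResidueField 𝒪}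
    (H : HeckeGaloisRepDatum N (↑S : Set ℕ) 𝒪 θ (heckeLocal N (↑S : Set ℕ) 𝒪 θ))
    (hp𝒪 : (p : 𝒪) ∈ maximalIdeal 𝒪) (hpS : p ∈ S) (hNS : ∀ q : ℕ, q.Prime → q ∣ N → q ∈ S)
    (hp2 : p ≠ 2) (hpN : ¬ p ∣ N) (habs : ρbar.IsAbsolutelyIrreducible)
    (hdet : (GaloisRepAdic.ofResidualGaloisRep ρbar).DetIsCyclotomic p)
    (hord : (GaloisRepAdic.ofResidualGaloisRep ρbar).IsOrdinaryAt p)
    (hres : H.ρ.residual.IsEquiv (ρbar.baseChangeAlong
      (ResidueField.map (algebraMap 𝒪 (heckeLocal N (↑S : Set ℕ) 𝒪 θ))))) :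
    H.ρ.IsOrdinaryAt p := by
  classical
  have hp : p.Prime := Fact.out
  have : NeZero (p * N) := ⟨mul_ne_zero hp.ne_zero (NeZero.ne N)⟩
  have hNS' : ∀ q : ℕ, q.Prime → q ∣ p * N → q ∈ S := fun q hq hd => by
    rcases hq.dvd_mul.mp hd with h | h
    · exact (Nat.prime_dvd_prime_iff_eq hq hp).mp h ▸ hpS
    · exact hNS q hq h
  let res := restrictAnemic (S := (↑S : Set ℕ)) (dvd_mul_left N p)
    fun q hq hd => Finset.mem_coe.mpr (hNS' q hq hd)
  let θ' : heckeAlgebra (p * N) 2 (↑S : Set ℕ) →+* ResidueField 𝒪 := θ.comp res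
  -- the Frobenius polynomials of `ρbar` are those of `θ`
  let f := ResidueField.map (algebraMap 𝒪 (heckeLocal N (↑S : Set ℕ) 𝒪 θ))
  have hchar : ∀ (l : ℕ) (hl : l.Prime) (hlN' : ¬ l ∣ p * N) (hlS : l ∉ (↑S : Set ℕ)),
      ∀ A : ValuationSubring (AlgebraicClosure ℚ), A.LiesOverPrime l →
        ∀ σ : AlgebraicClosure ℚ ≃ₐ[ℚ] AlgebraicClosure ℚ, A.IsFrobeniusAt σ l →
          LinearMap.charpoly (ρbar.ρ σ) =
            X ^ 2 - C (θ' (heckeAlgebra.T hl hlN' hlS)) * X + C (l : ResidueField 𝒪) := by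
    intro l hl hlN' hlS A hA σ hσ
    have hlN : ¬ l ∣ N := fun h => hlS (Finset.mem_coe.mpr (hNS l hl h))
    refine Polynomial.map_injective f f.injective ?_
    obtain ⟨e⟩ := hres
    have hc : e.toLinearEquiv.conj (H.ρ.residual.ρ σ) = (ρbar.baseChangeAlong f).ρ σ :=
      LinearMap.ext fun v => by simp [LinearEquiv.conj_apply, e.map_apply]; rfl
    rw [← HeckeAlg.charpoly_baseChangeAlong, ← hc, e.toLinearEquiv.charpoly_conj,
      HeckeAlg.charpoly_residual, H.charpoly_frob l hl hlN hlS A hA σ hσ]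
    simp [θ', res, f, restrictAnemic_T _ _ hl hlN' hlN hlS, H.residue_π]
  obtain ⟨H', hπ', -⟩ := HeckeRep.nonempty_heckeGaloisRepDatum p (p * N) S 𝒪 θ' hpS hNS' hp𝒪
    ρbar habs hchar
  let f' := ResidueField.map (algebraMap 𝒪 (heckeLocal (p * N) (↑S : Set ℕ) 𝒪 θ'))
  have hres' : H'.ρ.residual.IsEquiv (ρbar.baseChangeAlong f') := by
    obtain ⟨e⟩ := RepTheory.residual_isEquiv_of_frobenius (TWTwist.frobGenerates_chebotarev S)
      (ρbar.baseChangeAlong f') H'.ρ.residual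
      (RepTheory.isAbsolutelyIrreducible_baseChangeAlong _ _ habs) (by
        rintro φ ⟨l, hl, hlS, A, hA, hφ⟩
        have hlN' : ¬ l ∣ p * N := fun h => hlS (Finset.mem_coe.mpr (hNS' l hl h))
        rw [HeckeAlg.charpoly_baseChangeAlong, hchar l hl hlN' hlS A hA φ hφ,
          HeckeAlg.charpoly_residual, H'.charpoly_frob l hl hlN' hlS A hA φ hφ]
        simp [f', hπ', HeckeRep.residue_π])
    exact ⟨e.symm⟩
  have hpN' : p ∣ p * N ∧ ¬ p ^ 2 ∣ p * N :=
    ⟨dvd_mul_right p N, fun h => hpN (Nat.dvd_of_mul_dvd_mul_left hp.pos (sq p ▸ h))⟩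
  have ho' := datum_ordinaryCondition H' hp𝒪 hpS hNS' h33 hp2 hpN' hdet hord hres'
  obtain ⟨g, hg⟩ := exists_heckeLocal_lift (θ' := θ') (H.π.comp res) fun t => H.residue_π (res t)
  exact datum_isOrdinaryAt_of_algHom H hNS H' hp2 hNS' ho'.1 ho'.2.1 g ∅
    fun l hl hlN hlS hlN' _ _ => by
      rw [hπ', hg, RingHom.comp_apply, restrictAnemic_T _ _ hl hlN' hlN hlS]

end Fermat.Agent.Lifting
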