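import Fermat.Agent.Lifting.TWDelta
import Fermat.Agent.Lifting.Level
import Fermat.Prelude.Def_CuspForm_Newforms
import Mathlib.FieldTheory.IsAlgClosed.AlgebraicClosure

/-!
# Inputs of a Taylor–Wiles level

The localised module at level `N ∏ qⱼ`, its diamond operators and twisted Hecke operators, and the
two facts a Taylor–Wiles level needs from cohomology: the twisted operators act through the local
Hecke algebra of `Γ₀(N ∏ qⱼ²)`, and every point carries forms with the right exponents at the `qⱼ`.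
-/

set_option autoImplicit false

noncomputable section

open IsLocalRing

namespace Fermat.Agent.Lifting

open Fermat.Agent.Patching
open Fermat.Agent.GroupH1 (LocM HMod HeckePoly eigIdeal twSystem diamond)

variable (O : Type) [CommRing O] [IsLocalRing O] (N : ℕ) [NeZero N] (p : ℕ) {r : ℕ}
  (qv : Fin r → Nat.Primes) (hinj : Function.Injective qv)
  (a α : Nat.Primes → ResidueField O)

/-- The localised module at a Taylor–Wiles level. -/
abbrev twLoc : Type :=
  LocM (eigIdeal (twSystem (twQ qv) a α)) (HMod (twM N qv) (twH N p qv) O)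

/-- Its diamond operators. -/
def twDiamond : DeltaV p (twExp p qv) →* Module.End O (twLoc O N p qv a α) :=
  haveI : ∀ j, NeZero (p ^ twExp p qv j) := fun j => ⟨fun h => by
    have h0 := pow_twExp_dvd p qv j
    have : Fact (qv j : ℕ).Prime := ⟨(qv j).2⟩
    rw [h] at h0
    exact Nat.card_pos.ne' (zero_dvd_iff.mp h0)⟩
  diamond le_top (twChi N p qv) (twChi_surjective N p hinj) (mem_twH N p qv)
    (eigIdeal (twSystem (twQ qv) a α))

/-- `X ℓ` as an operator on the module. -/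
def twX (ℓ : Nat.Primes) : Module.End O (twLoc O N p qv a α) :=
  Algebra.lsmul O O (twLoc O N p qv a α) (MvPolynomial.X ℓ : HeckePoly O)

/-- The twisted Hecke operator `⟨ℓ⟩^(1/2) X ℓ`. -/
def twOp (ℓ : Nat.Primes) : Module.End O (twLoc O N p qv a α) :=
  twDiamond O N p qv hinj a α (deltaOf N p qv ℓ ^ sqrtExp p qv) * twX O N p qv a α ℓ

/-- The algebra generated by all Hecke and diamond operators. -/
def twAlg : Subalgebra O (Module.End O (twLoc O N p qv a α)) :=
  Algebra.adjoin O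
    (Set.range (twX O N p qv a α) ∪ Set.range (twDiamond O N p qv hinj a α))

/-- The Hecke operators lie in `twAlg`. -/
lemma twX_mem (ℓ : Nat.Primes) : twX O N p qv a α ℓ ∈ twAlg O N p qv hinj a α :=
  Algebra.subset_adjoin (Or.inl ⟨ℓ, rfl⟩)

/-- The diamond operators lie in `twAlg`. -/
lemma twDiamond_mem (g : DeltaV p (twExp p qv)) :
    twDiamond O N p qv hinj a α g ∈ twAlg O N p qv hinj a α :=
  Algebra.subset_adjoin (Or.inr ⟨g, rfl⟩)

/-- The twisted operators lie in `twAlg`. -/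
lemma twOp_mem (ℓ : Nat.Primes) : twOp O N p qv hinj a α ℓ ∈ twAlg O N p qv hinj a α :=
  mul_mem (twDiamond_mem O N p qv hinj a α _) (twX_mem O N p qv hinj a α ℓ)

set_option linter.overlappingInstances false in
/-- The twisted operators act through the local Hecke algebra of `Γ₀(N ∏ qⱼ²)`. -/
def TWTwistAct [IsDomain O] [IsDiscreteValuationRing O] [IsAdicComplete (maximalIdeal O) O]
    (S : Finset ℕ) : Prop :=
  ∃ (θ : CuspForm.heckeAlgebra (twM2 N qv) 2 (↑S : Set ℕ) →+* ResidueField O),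
    (∀ (ℓ : ℕ) (hℓ : ℓ.Prime) (hℓN : ¬ ℓ ∣ twM2 N qv) (hℓS : ℓ ∉ (↑S : Set ℕ)),
      θ (CuspForm.heckeAlgebra.T hℓ hℓN hℓS) = a ⟨ℓ, hℓ⟩) ∧
    ∃ act : CuspForm.heckeLocal (twM2 N qv) (↑S : Set ℕ) O θ →ₐ[O]
        Module.End O (twLoc O N p qv a α),
      (∀ x, act x ∈ twAlg O N p qv hinj a α) ∧
      ∀ (ℓ : ℕ) (hℓ : ℓ.Prime) (hℓN : ¬ ℓ ∣ twM2 N qv) (hℓS : ℓ ∉ (↑S : Set ℕ)),
        act (CuspForm.heckeLocal.π (twM2 N qv) (↑S : Set ℕ) O θ
          (CuspForm.heckeAlgebra.T hℓ hℓN hℓS)) = twOp O N p qv hinj a α ⟨ℓ, hℓ⟩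

variable {O} in
/-- The twisted eigenvalues of a point are, through some `ι`, the coefficients of `f`. -/
def PointValues [IsDomain O] {M : ℕ} (f : CuspForm (CongruenceSubgroup.Gamma0 M) 2) (S : Finset ℕ)
    (χ : twAlg O N p qv hinj a α →ₐ[O] AlgebraicClosure (FractionRing O)) : Prop :=
  ∃ (R : Subring ℂ) (hR : ∀ ℓ : ℕ, ℓ.Prime → ℓ ∉ S → ModularFormClass.qCoeff f ℓ ∈ R)
    (ι : R →+* AlgebraicClosure (FractionRing O)),
    ∀ (ℓ : ℕ) (hℓ : ℓ.Prime) (hℓS : ℓ ∉ S),
      ι ⟨_, hR ℓ hℓ hℓS⟩ = χ ⟨twOp O N p qv hinj a α ⟨ℓ, hℓ⟩, twOp_mem O N p qv hinj a α _⟩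

/-- At every point and every `qⱼ`: an eigenform with `qⱼ` at most once in its level if the
diamond at `qⱼ` is trivial at the point, a newform with `qⱼ` exactly twice otherwise. -/
def TWPointForms [IsDomain O] (S : Finset ℕ) : Prop :=
  ∀ (χ : twAlg O N p qv hinj a α →ₐ[O] AlgebraicClosure (FractionRing O)) (j : Fin r),
    (χ ⟨twDiamond O N p qv hinj a α (genV j), twDiamond_mem O N p qv hinj a α _⟩ = 1 →
      ∃ (M : ℕ) (_ : NeZero M) (f : CuspForm (CongruenceSubgroup.Gamma0 M) 2),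
        f.IsNormalizedEigenform ∧ M.factorization (qv j : ℕ) ≤ 1 ∧
          PointValues N p qv hinj a α f S χ) ∧
    (χ ⟨twDiamond O N p qv hinj a α (genV j), twDiamond_mem O N p qv hinj a α _⟩ ≠ 1 →
      ∃ (M : ℕ) (_ : NeZero M) (g : CuspForm (CongruenceSubgroup.Gamma0 M) 2),
        g.IsNewform ∧ M.factorization (qv j : ℕ) = 2 ∧
          PointValues N p qv hinj a α g S χ)

end Fermat.Agent.Lifting
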