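import Fermat.Agent.Lifting.UnitRootValue
import Fermat.Agent.Lifting.ConstructorsPoint
import Fermat.Agent.OrdinaryExclusion.Basis
import Fermat.Agent.OrdinaryExclusion.QBasisExists
import Fermat.Agent.Newforms.Main
import Fermat.Agent.CuspIntStr.Main
import Fermat.Agent.EisensteinDescent.EigenBound

/-!
# The unit root of an eigenform is the quotient value of its representation

For a character of the Hecke algebra of level `M` an eigenvector of the coefficient matrices is
the value of an eigenfunctional on the integral forms. The unit root `α` of an eigenform of level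
`N` prime to `p` gives a character of level `p N` with `U_p ↦ α`, hence the quotient value at
Frobenius is `α`; and `α ^ 2 ≠ 1` as `|a_p| < p + 1`.
-/

set_option autoImplicit false

noncomputable section

open IsLocalRing ModularCurve Matrix CongruenceSubgroup
open Fermat.Agent.OrdinaryCurve (OrdinaryTate QBasis IsUMat IsTMat)
open Fermat.Agent.OrdinaryExclusion (Represents)
open Fermat.Agent.HeckeCohom (OpIdx wordEval wordEval_surjective)
open Fermat.Agent.HeckeEigen (eigenChar qCoeff_mem_range_eigenChar)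

namespace Fermat.Agent.Lifting

local notation "GalQ" => AlgebraicClosure ℚ ≃ₐ[ℚ] AlgebraicClosure ℚ
local notation "Qbar" => AlgebraicClosure ℚ

section eigvec

variable {M : ℕ} [NeZero M] (Q : QBasis M)

/-- The integral span of the basis. -/
def basisLattice : Submodule ℤ (CuspForm (Gamma0 M) 2) := Submodule.span ℤ (Set.range Q.f)

variable {Q}

omit [NeZero M] in
theorem mem_basisLattice_of_represents {T : Module.End ℂ (CuspForm (Gamma0 M) 2)}
    {A : Matrix (Fin Q.rank) (Fin Q.rank) ℤ} (h : Represents Q T A) :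
    ∀ v ∈ basisLattice Q, T v ∈ basisLattice Q := by
  intro v hv
  induction hv using Submodule.span_induction with
  | mem x hx =>
    obtain ⟨i, rfl⟩ := hx
    rw [h i]
    refine Submodule.sum_mem _ fun j _ => ?_
    rw [Int.cast_smul_eq_zsmul]
    exact Submodule.smul_mem _ _ (Submodule.subset_span ⟨j, rfl⟩)
  | zero => simp
  | add x y _ _ hx hy => rw [map_add]; exact add_mem hx hy
  | smul a x _ hx => rw [map_zsmul]; exact Submodule.smul_mem _ _ hx

variable (Q) in
theorem mem_basisLattice_of_heckeAlgebra (t : CuspForm.heckeAlgebra M 2 (∅ : Set ℕ)) :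
    ∀ v ∈ basisLattice Q, (t : Module.End ℂ (CuspForm (Gamma0 M) 2)) v ∈ basisLattice Q := by
  obtain ⟨P, rfl⟩ := wordEval_surjective t
  induction P using FreeAlgebra.induction with
  | grade0 r =>
    intro v hv
    rw [AlgHom.commutes, Subalgebra.coe_algebraMap, Module.algebraMap_end_apply]
    exact Submodule.smul_mem _ r hv
  | grade1 i =>
    by_cases h : (i.1 : ℕ) ∣ M
    · obtain ⟨A, hA, -⟩ := OrdinaryExclusion.exists_isUMat Q i.1.2 h
      simpa [wordEval, h] using mem_basisLattice_of_represents hA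
    · obtain ⟨A, hA, -⟩ := OrdinaryExclusion.exists_isTMat Q i.1.2 h
      simpa [wordEval, h] using mem_basisLattice_of_represents hA
  | add a b ha hb =>
    intro v hv
    rw [map_add, Subalgebra.coe_add, LinearMap.add_apply]
    exact add_mem (ha v hv) (hb v hv)
  | mul a b ha hb =>
    intro v hv
    rw [map_mul, Subalgebra.coe_mul, Module.End.mul_apply]
    exact ha _ (hb v hv)

variable (Q) in
/-- The Hecke algebra on the lattice. -/
def latticeHom : CuspForm.heckeAlgebra M 2 (∅ : Set ℕ) →+* Module.End ℤ (basisLattice Q) where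
  toFun t := ((t : Module.End ℂ (CuspForm (Gamma0 M) 2)).restrictScalars ℤ).restrict
    (mem_basisLattice_of_heckeAlgebra Q t)
  map_zero' := LinearMap.ext fun _ => Subtype.ext rfl
  map_add' _ _ := LinearMap.ext fun _ => Subtype.ext rfl
  map_one' := LinearMap.ext fun _ => Subtype.ext rfl
  map_mul' _ _ := LinearMap.ext fun _ => Subtype.ext rfl

omit [NeZero M] in
theorem eq_of_mulVec {A B : Matrix (Fin Q.rank) (Fin Q.rank) ℤ}
    (h : ∀ n, A *ᵥ Q.a n = B *ᵥ Q.a n) : A = B := by
  have hall : ∀ v : Fin Q.rank → ℤ, A *ᵥ v = B *ᵥ v := fun v => by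
    have hv : v ∈ Submodule.span ℤ (Set.range Q.a) := by
      rw [OrdinaryExclusion.span_range_coeff]; trivial
    induction hv using Submodule.span_induction with
    | mem x hx => obtain ⟨n, rfl⟩ := hx; exact h n
    | zero => simp
    | add x y _ _ hx hy => rw [mulVec_add, mulVec_add, hx, hy]
    | smul a x _ hx => rw [mulVec_smul, mulVec_smul, hx]
  exact Matrix.toLin'.injective (LinearMap.ext fun v => by simpa using hall v)

variable (Q) in
/-- **An eigenvector of the coefficient matrices for a character of the Hecke algebra.** -/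
theorem exists_eigenVector {O : Type} [CommRing O] [IsDomain O]
    (χ : CuspForm.heckeAlgebra M 2 (∅ : Set ℕ) →+* O) :
    ∃ w : Fin Q.rank → O, w ≠ 0 ∧
      (∀ (l : ℕ) (hl : l.Prime) (hlM : ¬ l ∣ M) (T : Matrix (Fin Q.rank) (Fin Q.rank) ℤ),
        IsTMat Q l T → T.map (Int.cast : ℤ → O) *ᵥ w =
          χ (CuspForm.heckeAlgebra.T hl hlM (Set.notMem_empty l)) • w) ∧
      (∀ (q : ℕ) (hq : q.Prime) (hqM : q ∣ M) (U : Matrix (Fin Q.rank) (Fin Q.rank) ℤ),
        IsUMat Q q U → U.map (Int.cast : ℤ → O) *ᵥ w =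
          χ (CuspForm.heckeAlgebra.U hq hqM (Set.notMem_empty q)) • w) := by
  classical
  let _ : Module (CuspForm.heckeAlgebra M 2 (∅ : Set ℕ)) (basisLattice Q) :=
    Module.compHom _ (latticeHom Q)
  have hsmul : ∀ (t : CuspForm.heckeAlgebra M 2 (∅ : Set ℕ)) (v : basisLattice Q),
      t • v = latticeHom Q t v := fun _ _ => rfl
  have : IsScalarTower ℤ (CuspForm.heckeAlgebra M 2 (∅ : Set ℕ)) (basisLattice Q) :=
    ⟨fun n t v => by rw [hsmul, hsmul, map_zsmul, LinearMap.smul_apply]⟩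
  have : Module.Finite ℤ (basisLattice Q) := Module.Finite.span_of_finite ℤ (Set.finite_range _)
  have : Module.Finite (CuspForm.heckeAlgebra M 2 (∅ : Set ℕ)) (basisLattice Q) :=
    Module.Finite.of_restrictScalars_finite ℤ _ _
  obtain ⟨x, hx0, hx⟩ := KummerES.Tate.exists_eigenfunctional
    (L := basisLattice Q) (fun t ht => Subtype.ext (LinearMap.ext_on_range Q.spans fun i => by
      exact congrArg Subtype.val (ht ⟨Q.f i, Submodule.subset_span ⟨i, rfl⟩⟩))) χ
  set w : Fin Q.rank → O := fun i => x ⟨Q.f i, Submodule.subset_span ⟨i, rfl⟩⟩ with hw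
  have hact : ∀ (t : CuspForm.heckeAlgebra M 2 (∅ : Set ℕ))
      (A : Matrix (Fin Q.rank) (Fin Q.rank) ℤ),
      Represents Q (t : Module.End ℂ (CuspForm (Gamma0 M) 2)) A →
        A.map (Int.cast : ℤ → O) *ᵥ w = χ t • w := fun t A hA => funext fun i => by
    rw [Pi.smul_apply, smul_eq_mul, hw, ← hx t]
    have hsum : t • (⟨Q.f i, Submodule.subset_span ⟨i, rfl⟩⟩ : basisLattice Q) =
        ∑ j, A i j • (⟨Q.f j, Submodule.subset_span ⟨j, rfl⟩⟩ : basisLattice Q) := Subtype.ext (by
      rw [AddSubmonoidClass.coe_finsetSum]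
      simp only [SetLike.val_smul, ← Int.cast_smul_eq_zsmul ℂ]
      exact hA i)
    rw [hsum, map_sum]
    simp [mulVec, dotProduct, map_zsmul]
  refine ⟨w, fun h0 => hx0 (AddMonoidHom.ext fun v => ?_), fun l hl hlM T hT => ?_,
    fun q hq hqM U hU => ?_⟩
  · obtain ⟨c, hc⟩ := (Submodule.mem_span_range_iff_exists_fun ℤ).mp v.2
    have hv : v = ∑ j, c j • (⟨Q.f j, Submodule.subset_span ⟨j, rfl⟩⟩ : basisLattice Q) :=
      Subtype.ext (by rw [AddSubmonoidClass.coe_finsetSum]; simpa using hc.symm)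
    rw [hv, map_sum, AddMonoidHom.zero_apply]
    refine Finset.sum_eq_zero fun j _ => ?_
    rw [map_zsmul, show x _ = 0 from congrFun h0 j, smul_zero]
  · obtain ⟨A, hA, hA'⟩ := OrdinaryExclusion.exists_isTMat Q hl hlM
    obtain rfl : T = A := eq_of_mulVec fun n => (hT n).symm.trans (hA' n)
    exact hact _ T hA
  · obtain ⟨A, hA, hA'⟩ := OrdinaryExclusion.exists_isUMat Q hq hqM
    obtain rfl : U = A := eq_of_mulVec fun n => (hU n).symm.trans (hA' n)
    exact hact _ U hA

end eigvec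

variable {N p : ℕ} [NeZero N] {O : Type} [CommRing O] [IsDomain O] [CharZero O]
  {f : CuspForm (Gamma0 N) 2} (hf : f.IsNormalizedEigenform)
  (ι : (eigenChar hf (∅ : Set ℕ)).range →+* O)

include hf in
omit [IsDomain O] in
/-- An embedding of the eigenvalue ring is injective. -/
theorem eigenRange_hom_injective : Function.Injective ι := by
  have : Algebra.IsIntegral ℤ (eigenChar hf (∅ : Set ℕ)).range := ⟨fun x => by
    obtain ⟨t, ht⟩ := x.2
    exact (isIntegral_algHom_iff ((eigenChar hf (∅ : Set ℕ)).range.subtype.toIntAlgHom)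
      Subtype.val_injective).mp
      (show IsIntegral ℤ (x : ℂ) from
        ht ▸ HeckeEigen.isIntegral_eigenChar (CuspIntStr.hasIntegralStructure N 2) hf t)⟩
  rw [RingHom.injective_iff_ker_eq_bot]
  refine Ideal.eq_bot_of_comap_eq_bot (R := ℤ) (eq_bot_iff.mpr fun z hz => ?_)
  rw [Ideal.mem_comap, RingHom.mem_ker, eq_intCast, map_intCast] at hz
  exact Ideal.mem_bot.mpr (Int.cast_eq_zero.mp hz)

include hf in
/-- The unit root is not `±1`. -/
theorem sq_ne_one_of_root (hp : p.Prime) (hN : ¬ p ∣ N) {α : O}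
    (hα : α ^ 2 - ι ⟨ModularFormClass.qCoeff f p, qCoeff_mem_range_eigenChar hf p⟩ * α + p = 0) :
    α ^ 2 ≠ 1 := by
  intro h1
  set a : (eigenChar hf (∅ : Set ℕ)).range :=
    ⟨ModularFormClass.qCoeff f p, qCoeff_mem_range_eigenChar hf p⟩ with ha
  have hbound := EisensteinDescent.norm_qCoeff_lt_succ hf hp hN
  obtain ⟨z, hz, hz'⟩ : ∃ z : ℤ, ι a = (z : O) ∧ (z = p + 1 ∨ z = -(p + 1)) := by
    rcases sq_eq_one_iff.mp h1 with rfl | rfl
    · exact ⟨p + 1, by push_cast; linear_combination -hα, .inl rfl⟩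
    · exact ⟨-(p + 1), by push_cast; linear_combination hα, .inr rfl⟩
  have hav : ModularFormClass.qCoeff f p = (z : ℂ) := by
    have := congrArg Subtype.val (eigenRange_hom_injective hf ι
      (hz.trans (map_intCast ι z).symm))
    simpa [ha] using this
  rw [hav] at hbound
  have hn : ‖(((p + 1 : ℕ)) : ℂ)‖ = (p : ℝ) + 1 := by rw [Complex.norm_natCast]; push_cast; ring
  rcases hz' with rfl | rfl <;> push_cast at hbound hn
  · rw [hn] at hbound; exact lt_irrefl _ hbound
  · rw [norm_neg, hn] at hbound; exact lt_irrefl _ hbound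

include hf in
/-- **The character of level `p N` of a stabilisation**, with `U_p ↦ α`. -/
theorem exists_stabilised_char [NeZero (p * N)] (hp : p.Prime) (hN : ¬ p ∣ N) {α : O}
    (hα : α ^ 2 - ι ⟨ModularFormClass.qCoeff f p, qCoeff_mem_range_eigenChar hf p⟩ * α + p = 0) :
    ∃ χ : CuspForm.heckeAlgebra (p * N) 2 (∅ : Set ℕ) →+* O,
      χ (CuspForm.heckeAlgebra.U hp (dvd_mul_right p N) (Set.notMem_empty p)) = α ∧
      ∀ (l : ℕ) (hl : l.Prime) (hlM : ¬ l ∣ p * N),
        χ (CuspForm.heckeAlgebra.T hl hlM (Set.notMem_empty l)) =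
          ι ⟨ModularFormClass.qCoeff f l, qCoeff_mem_range_eigenChar hf l⟩ := by
  classical
  set a : ↥(eigenChar hf (∅ : Set ℕ)).range := ⟨ModularFormClass.qCoeff f p, qCoeff_mem_range_eigenChar hf p⟩
  let _ : Algebra (↥(eigenChar hf (∅ : Set ℕ)).range) O := ι.toAlgebra
  have hinj : Function.Injective (algebraMap (↥(eigenChar hf (∅ : Set ℕ)).range) O) := eigenRange_hom_injective hf ι
  have : FaithfulSMul (↥(eigenChar hf (∅ : Set ℕ)).range) O := (faithfulSMul_iff_algebraMap_injective (↥(eigenChar hf (∅ : Set ℕ)).range) O).mpr hinj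
  let A := integralClosure (↥(eigenChar hf (∅ : Set ℕ)).range) O
  have hαA : IsIntegral (↥(eigenChar hf (∅ : Set ℕ)).range) α := by
    refine ⟨Polynomial.X ^ 2 - Polynomial.C a * Polynomial.X + Polynomial.C (p : ↥(eigenChar hf (∅ : Set ℕ)).range), ?_, ?_⟩
    · monicity!
    · simp only [Polynomial.eval₂_add, Polynomial.eval₂_sub, Polynomial.eval₂_mul,
        Polynomial.eval₂_pow, Polynomial.eval₂_X, Polynomial.eval₂_C, map_natCast,
        Polynomial.eval₂_natCast]
      exact hα
  have : Algebra.IsAlgebraic (↥(eigenChar hf (∅ : Set ℕ)).range) A := Algebra.IsIntegral.isAlgebraic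
  have : FaithfulSMul (↥(eigenChar hf (∅ : Set ℕ)).range) A := (faithfulSMul_iff_algebraMap_injective (↥(eigenChar hf (∅ : Set ℕ)).range) A).mpr
    fun x y h => hinj (congrArg Subtype.val h)
  have : FaithfulSMul (↥(eigenChar hf (∅ : Set ℕ)).range) ℂ := (faithfulSMul_iff_algebraMap_injective (↥(eigenChar hf (∅ : Set ℕ)).range) ℂ).mpr Subtype.val_injective
  obtain ⟨ψ⟩ : Nonempty (A →ₐ[↥(eigenChar hf (∅ : Set ℕ)).range] ℂ) := ⟨IsAlgClosed.lift⟩
  have hψ : Function.Injective ψ := by
    show Function.Injective ψ.toRingHom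
    rw [RingHom.injective_iff_ker_eq_bot]
    refine Ideal.eq_bot_of_comap_eq_bot (R := ↥(eigenChar hf (∅ : Set ℕ)).range) (eq_bot_iff.mpr fun z hz => ?_)
    rw [Ideal.mem_comap, RingHom.mem_ker] at hz
    exact Ideal.mem_bot.mpr (Subtype.ext ((ψ.commutes z).symm.trans hz))
  have hroot : ψ ⟨α, hαA⟩ ^ 2 - ModularFormClass.qCoeff f p * ψ ⟨α, hαA⟩ + p = 0 := by
    have h : (⟨α, hαA⟩ : A) ^ 2 - algebraMap (↥(eigenChar hf (∅ : Set ℕ)).range) A a * ⟨α, hαA⟩ + (p : A) = 0 :=
      Subtype.ext (by simp [RingHom.algebraMap_toAlgebra]; exact hα)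
    have h' := congrArg ψ h
    rw [map_add, map_sub, map_mul, map_pow, ψ.commutes, map_natCast, map_zero] at h'
    exact h'
  obtain ⟨g, hg, hgp, hgl⟩ := Newforms.exists_stabilisation hp hN f hf _ hroot
  have hrange : ∀ t, eigenChar hg (∅ : Set ℕ) t ∈ ψ.toRingHom.range := by
    intro t
    obtain ⟨P, rfl⟩ := wordEval_surjective t
    induction P using FreeAlgebra.induction with
    | grade0 r =>
      rw [AlgHom.commutes, eq_intCast, map_intCast]
      exact intCast_mem _ r
    | grade1 i =>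
      have hqc : ModularFormClass.qCoeff g i.1 ∈ ψ.toRingHom.range := by
        rcases eq_or_ne (i.1 : ℕ) p with he | he
        · rw [he, hgp]; exact ⟨_, rfl⟩
        · rw [hgl _ i.1.2 he]
          exact ⟨algebraMap (↥(eigenChar hf (∅ : Set ℕ)).range) A ⟨_, qCoeff_mem_range_eigenChar hf _⟩, ψ.commutes _⟩
      by_cases h : (i.1 : ℕ) ∣ p * N <;>
        simpa [wordEval, h, HeckeEigen.eigenChar_U, HeckeEigen.eigenChar_T] using hqc
    | add a b ha hb => rw [map_add, map_add]; exact add_mem ha hb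
    | mul a b ha hb => rw [map_mul, map_mul]; exact mul_mem ha hb
  obtain ⟨e, he⟩ : ∃ e : ψ.toRingHom.range →+* A,
      ∀ (y : A) (hy : ψ y ∈ ψ.toRingHom.range), e ⟨ψ y, hy⟩ = y :=
    ⟨(RingEquiv.ofBijective ψ.toRingHom.rangeRestrict
      ⟨fun x y h => hψ (congrArg Subtype.val h), RingHom.rangeRestrict_surjective _⟩).symm.toRingHom,
      fun y hy => RingEquiv.symm_apply_apply _ y⟩
  let χ := ((A.val : A →+* O).comp e).comp
    ((eigenChar hg (∅ : Set ℕ)).codRestrict ψ.toRingHom.range hrange)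
  have hval : ∀ t (y : A), eigenChar hg (∅ : Set ℕ) t = ψ y → χ t = (y : O) := fun t y h => by
    have h1 : (⟨eigenChar hg (∅ : Set ℕ) t, hrange t⟩ : ψ.toRingHom.range) =
        ⟨ψ y, ⟨y, rfl⟩⟩ := Subtype.ext h
    exact congrArg Subtype.val ((congrArg e h1).trans (he y _))
  refine ⟨χ, hval _ ⟨α, hαA⟩ (by rw [HeckeEigen.eigenChar_U, hgp]), fun l hl hlM => ?_⟩
  refine (hval _ (algebraMap (↥(eigenChar hf (∅ : Set ℕ)).range) A ⟨_, qCoeff_mem_range_eigenChar hf l⟩) ?_).trans rfl
  rw [HeckeEigen.eigenChar_T, hgl l hl fun h => hlM (h ▸ dvd_mul_right p N), ψ.commutes]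
  rfl

variable [IsDiscreteValuationRing O] [IsAdicComplete (maximalIdeal O) O]
  [Finite (ResidueField O)]

include hf in
/-- **The unit root of an eigenform is the quotient value at a Frobenius.** -/
theorem exists_isQuotientValue_unitRoot (hp : p.Prime) (hp2 : p ≠ 2) (hN : ¬ p ∣ N)
    (hOT : haveI := Fact.mk hp; haveI : NeZero (p * N) := ⟨mul_ne_zero hp.ne_zero (NeZero.ne N)⟩;
      OrdinaryTate p (p * N))
    (hpO : (p : O) ∈ maximalIdeal O) {α : O}
    (hα : α ^ 2 - ι ⟨ModularFormClass.qCoeff f p, qCoeff_mem_range_eigenChar hf p⟩ * α + p = 0)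
    (hαu : IsUnit α) (ρ : GaloisRepAdic O) (hdet : ρ.DetIsCyclotomic p) (hord : ρ.IsOrdinaryAt p)
    (S₀ : Finset ℕ)
    (htr : ∀ l : Nat.Primes, (l : ℕ) ∉ S₀ → ∀ P : ValuationSubring Qbar, P.LiesOverPrime l →
      ∀ φ : GalQ, P.IsFrobeniusAt φ l →
        ρ.trace φ = ι ⟨ModularFormClass.qCoeff f l, qCoeff_mem_range_eigenChar hf l⟩) :
    α ^ 2 ≠ 1 ∧ ∃ P : ValuationSubring Qbar, P.LiesOverPrime p ∧
      ∃ σ ∈ P.decompositionSubgroup ℚ, IsQuotientValue ρ P σ α := by
  have := Fact.mk hp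
  have : NeZero (p * N) := ⟨mul_ne_zero hp.ne_zero (NeZero.ne N)⟩
  refine ⟨sq_ne_one_of_root hf ι hp hN hα, ?_⟩
  obtain ⟨χ, hχp, hχl⟩ := exists_stabilised_char hf ι hp hN hα
  obtain ⟨Q⟩ := OrdinaryExclusion.nonempty_qBasis (p * N)
  obtain ⟨U, -, hU⟩ := OrdinaryExclusion.exists_isUMat Q hp (dvd_mul_right p N)
  obtain ⟨w, hw, hwT, hwU⟩ := exists_eigenVector Q χ
  refine isQuotientValue_of_eigenVector hp2 hOT Q U hU hpO hαu
    (fun l => ι ⟨ModularFormClass.qCoeff f l, qCoeff_mem_range_eigenChar hf l⟩) w hw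
    ((hwU p hp (dvd_mul_right p N) U hU).trans (by rw [hχp]))
    (S₀ ∪ (p * N).primeFactors) (fun l hl => ?_) ρ hdet hord
    fun l hl => htr l fun h => hl (Finset.mem_union_left _ h)
  have hlM : ¬ (l : ℕ) ∣ p * N := fun h =>
    hl (Finset.mem_union_right _ (Nat.mem_primeFactors.mpr ⟨l.2, h, NeZero.ne _⟩))
  obtain ⟨T, -, hT⟩ := OrdinaryExclusion.exists_isTMat Q l.2 hlM
  exact ⟨hlM, T, hT, (hwT l l.2 hlM T hT).trans (by rw [hχl l l.2 hlM])⟩

end Fermat.Agent.Lifting
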