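import Fermat.Agent.OrdinaryCurve.Interface
import Fermat.Agent.OrdinaryCurve.UnitVector
import Fermat.Agent.OrdinaryExclusion.Torsion
import Fermat.Agent.Lifting.QuotientChar
import Fermat.Agent.ChebotarevFull.Infinite
import Fermat.Agent.TateExport.PadicLattice

/-!
# The value of the unramified quotient at Frobenius is the unit root

Let `w` be an eigenvector of the coefficient matrices of level `M` with `U`-eigenvalue a unit `α`
of `O`. The formal logarithm vectors attached to `w` give points `H ψ` of `T_p J₀(M)` on which a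
Frobenius `σ` at `p` acts by `ε(σ) α⁻¹`. The Eichler–Shimura relation and Chebotarev give
`ε² α⁻² - tr ρ(σ) ε α⁻¹ + ε = 0`, so `α` is a root of `(X - z) (z X - ε)`, `z` the quotient value,
and comparing two Frobenius elements gives `α = z`.
-/

set_option autoImplicit false

noncomputable section

open IsLocalRing ModularCurve Matrix Fermat.Agent.DefCond
open Fermat.Agent.OrdinaryCurve (OrdinaryTate QBasis IsUMat IsTMat fixVectors unramHat unramFrob
  unramGal frobElt padicToUnram exists_semilinear_fixed)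
open Fermat.Agent.CarayolReduction (tateModule tateModule_pow_smul)

namespace Fermat.Agent.Lifting

local notation "GalQ" => AlgebraicClosure ℚ ≃ₐ[ℚ] AlgebraicClosure ℚ
local notation "Qbar" => AlgebraicClosure ℚ

theorem exists_pow_on_rootsOfUnity (σ : GalQ) (m : ℕ) [NeZero m] :
    ∃ a : ℕ, ∀ μ : Qbar, μ ^ m = 1 → σ μ = μ ^ a := by
  obtain ⟨ζ, hζ⟩ := HasEnoughRootsOfUnity.exists_primitiveRoot Qbar m
  obtain ⟨a, -, ha⟩ := hζ.eq_pow_of_pow_eq_one
    (show σ ζ ^ m = 1 by rw [← map_pow, hζ.pow_eq_one, map_one])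
  refine ⟨a, fun μ hμ => ?_⟩
  obtain ⟨i, -, rfl⟩ := hζ.eq_pow_of_pow_eq_one hμ
  rw [map_pow, ← ha, ← pow_mul, ← pow_mul, mul_comm]

section quotient

variable {A : Type} [CommRing A] [IsLocalRing A] {ρ : GaloisRepAdic A}
  {P : ValuationSubring Qbar} {σ : GalQ} {z : A}

/-- The quotient value is a root of the characteristic polynomial. -/
theorem IsQuotientValue.root_charpoly (h : IsQuotientValue ρ P σ z)
    (hσ : σ ∈ P.decompositionSubgroup ℚ) :
    z ^ 2 - ρ.trace σ * z + LinearMap.det (ρ.ρ σ) = 0 := by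
  obtain ⟨L, ⟨b, hL⟩, hD, -, hz⟩ := h
  have h10 : repMat ρ b σ 1 0 = 0 := by
    have h := hD σ hσ _ (hL ▸ Submodule.mem_span_singleton_self (b 0))
    rw [hL, mem_span_basis_iff, repr_apply] at h
    simpa using h
  have h11 : repMat ρ b σ 1 1 = z := by
    have h := hz (b 1)
    rw [hL, mem_span_basis_iff, map_sub, Finsupp.sub_apply, repr_apply] at h
    simpa [sub_eq_zero] using h
  rw [GaloisRepAdic.trace, LinearMap.trace_eq_matrix_trace A b, ← LinearMap.det_toMatrix b,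
    ← repMat_apply, Matrix.trace_fin_two, Matrix.det_fin_two, h10, h11]
  ring

/-- Determinant and trace at the inverse of an element. -/
theorem det_trace_inv (ρ : GaloisRepAdic A) (σ : GalQ) :
    LinearMap.det (ρ.ρ σ⁻¹) * LinearMap.det (ρ.ρ σ) = 1 ∧
      ρ.trace σ⁻¹ * LinearMap.det (ρ.ρ σ) = ρ.trace σ := by
  obtain ⟨b⟩ := exists_basis ρ
  have hmul : repMat ρ b σ⁻¹ * repMat ρ b σ = 1 := by rw [← map_mul, inv_mul_cancel, map_one]
  simp only [GaloisRepAdic.trace, LinearMap.trace_eq_matrix_trace A b,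
    ← LinearMap.det_toMatrix b, ← repMat_apply]
  refine ⟨by rw [← Matrix.det_mul, hmul, Matrix.det_one], ?_⟩
  have q := fun i j => congrFun (congrFun hmul i) j
  have q00 := q 0 0
  have q01 := q 0 1
  have q10 := q 1 0
  have q11 := q 1 1
  simp [Matrix.mul_apply, Fin.sum_univ_two] at q00 q01 q10 q11
  rw [Matrix.trace_fin_two, Matrix.trace_fin_two, Matrix.det_fin_two]
  linear_combination repMat ρ b σ 1 1 * q00 - repMat ρ b σ 1 0 * q01 +
    repMat ρ b σ 0 0 * q11 - repMat ρ b σ 0 1 * q10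

end quotient

section relation

variable {M p : ℕ} [NeZero M] [Fact p.Prime] {O : Type} [CommRing O] [IsDomain O]
  [IsDiscreteValuationRing O] [Finite (ResidueField O)] [CharZero O] [Algebra ℤ_[p] O]

omit [Finite (ResidueField O)] [Algebra ℤ_[p] O] in
/-- An ideal containing `p ^ n` contains a power of the maximal ideal. -/
theorem exists_pow_maximalIdeal_le (n : ℕ) {X : Ideal O} (hX : (p : O) ^ n ∈ X) :
    ∃ k, maximalIdeal O ^ k ≤ X := by
  obtain ⟨π, hπ⟩ := IsDiscreteValuationRing.exists_irreducible O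
  obtain ⟨v, u, hu⟩ := IsDiscreteValuationRing.eq_unit_mul_pow_irreducible
    (pow_ne_zero n (Nat.cast_ne_zero.mpr (Fact.out : p.Prime).ne_zero) : (p : O) ^ n ≠ 0) hπ
  refine ⟨v, ?_⟩
  rw [hπ.maximalIdeal_eq, Ideal.span_singleton_pow, Ideal.span_singleton_le_iff_mem]
  have := X.mul_mem_left (↑u⁻¹) hX
  rwa [hu, ← mul_assoc, Units.inv_mul, one_mul] at this

omit [CharZero O] [Algebra ℤ_[p] O] in
/-- **A Frobenius approximating a Galois element.** Outside any finite set of primes there is a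
Frobenius acting like `σ` or like `σ⁻¹` on the `p ^ n`-torsion of `J₀(M)` and, in trace and
determinant, modulo `m ^ k`. -/
theorem exists_frobenius_congr (hpO : (p : O) ∈ maximalIdeal O) (ρ : GaloisRepAdic O)
    (hdet : ρ.DetIsCyclotomic p) (σ : GalQ) (S₀ : Finset ℕ) (n k : ℕ) :
    ∃ (ℓ : ℕ) (_ : ℓ.Prime) (B : ValuationSubring Qbar) (φ τ : GalQ), ℓ ∉ S₀ ∧ ℓ ≠ p ∧
      ¬ ℓ ∣ M ∧ B.LiesOverPrime ℓ ∧ B.IsFrobeniusAt φ ℓ ∧ (τ = σ ∨ τ = σ⁻¹) ∧
      (∀ x : JZero M, p ^ n • x = 0 → φ • x = τ • x) ∧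
      ρ.trace φ - ρ.trace τ ∈ maximalIdeal O ^ k ∧
      (ℓ : O) - LinearMap.det (ρ.ρ τ) ∈ maximalIdeal O ^ k := by
  classical
  have hp : p.Prime := Fact.out
  have : Finite (JacCompare.torsBy M (p ^ n)) :=
    Nat.finite_of_card_ne_zero (by
      rw [JacCompare.card_torsBy M (p ^ n) (pow_pos hp.pos n)]
      exact pow_ne_zero _ (pow_ne_zero _ hp.ne_zero))
  have := TateExport.finite_quotient_pow O k
  obtain ⟨b⟩ := exists_basis ρ
  let act : GalQ →* Equiv.Perm (JacCompare.torsBy M (p ^ n)) :=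
    { toFun := fun g =>
        { toFun := fun x => ⟨g • (x : JZero M), JacCompare.mem_torsBy.mpr
            (by rw [OrdinaryExclusion.nsmul_galois_smul, JacCompare.mem_torsBy.mp x.2]
                exact (DistribSMul.toAddMonoidHom (JZero M) g).map_zero)⟩
          invFun := fun x => ⟨g⁻¹ • (x : JZero M), JacCompare.mem_torsBy.mpr
            (by rw [OrdinaryExclusion.nsmul_galois_smul, JacCompare.mem_torsBy.mp x.2]
                exact (DistribSMul.toAddMonoidHom (JZero M) g⁻¹).map_zero)⟩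
          left_inv := fun x => Subtype.ext (inv_smul_smul g (x : JZero M))
          right_inv := fun x => Subtype.ext (smul_inv_smul g (x : JZero M)) }
      map_one' := Equiv.ext fun x => Subtype.ext (one_smul GalQ (x : JZero M))
      map_mul' := fun g g' => Equiv.ext fun x => Subtype.ext (mul_smul g g' (x : JZero M)) }
  let red : GalQ →* Matrix (Fin 2) (Fin 2) (O ⧸ maximalIdeal O ^ k) :=
    (Ideal.Quotient.mk (maximalIdeal O ^ k)).mapMatrix.toMonoidHom.comp (repMat ρ b)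
  let π : GalQ →* Equiv.Perm (JacCompare.torsBy M (p ^ n)) ×
      (Matrix (Fin 2) (Fin 2) (O ⧸ maximalIdeal O ^ k))ˣ := act.prod red.toHomUnits
  have hπ : GaloisFactorsThroughFiniteLevel π := by
    obtain ⟨L₁, hL₁, h₁⟩ := JacCompare.exists_finiteLevel (N := M) hp n
    obtain ⟨L₂, hL₂, h₂⟩ := ρ.isAdicContinuous k
    refine ⟨L₁ ⊔ L₂, inferInstance, fun g hg => Prod.ext (Equiv.ext fun x => Subtype.ext
      (h₁ g (fun y hy => hg y ((le_sup_left : L₁ ≤ L₁ ⊔ L₂) hy)) _ x.2))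
      (Units.ext (Matrix.ext fun i j => ?_))⟩
    show Ideal.Quotient.mk _ (repMat ρ b g i j) = (1 : Matrix (Fin 2) (Fin 2) _) i j
    have hmem := h₂ g (fun y hy => hg y ((le_sup_right : L₂ ≤ L₁ ⊔ L₂) hy)) (b j)
    have hcoord : b.repr (ρ.ρ g (b j) - b j) i ∈ maximalIdeal O ^ k := by
      refine Submodule.smul_induction_on (p := fun v => b.repr v i ∈ maximalIdeal O ^ k) hmem
        (fun r hr v _ => ?_) fun v v' hv hv' => ?_
      · rw [map_smul, Finsupp.smul_apply, smul_eq_mul]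
        exact Ideal.mul_mem_right _ _ hr
      · rw [map_add, Finsupp.add_apply]
        exact add_mem hv hv'
    rw [map_sub, Finsupp.sub_apply] at hcoord
    rw [repMat_apply, LinearMap.toMatrix_apply, Ideal.Quotient.eq.mpr hcoord,
      Module.Basis.repr_self, Finsupp.single_apply, Matrix.one_apply]
    simp only [eq_comm (a := i) (b := j)]
    split_ifs <;> simp
  obtain ⟨ℓ, hℓ, hℓS, -, B, hB, φ, hφ, hcase⟩ :=
    ChebotarevFull.exists_frobenius_eq_or_inv π hπ σ (S₀ ∪ insert p M.primeFactors)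
  simp only [Finset.mem_union, Finset.mem_insert, not_or] at hℓS
  obtain ⟨hℓS, hℓp, hℓM⟩ := hℓS
  have hℓM' : ¬ ℓ ∣ M := fun h => hℓM (Nat.mem_primeFactors.mpr ⟨hℓ, h, NeZero.ne M⟩)
  have hdetφ : LinearMap.det (ρ.ρ φ) - (ℓ : O) ∈ maximalIdeal O ^ k := by
    have h := hdet.2 k φ ℓ fun μ hμ => GaloisBasics.frobenius_apply_of_pow_eq_one hB hℓ
      (fun h => hℓp ((Nat.prime_dvd_prime_iff_eq hℓ hp).mp (hℓ.dvd_of_dvd_pow h))) hφ hμ
    refine (Ideal.span_singleton_le_iff_mem _).mpr ?_ h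
    rw [Nat.cast_pow]
    exact Ideal.pow_mem_pow hpO k
  have hmat : ∀ τ : GalQ, π φ = π τ →
      Ideal.Quotient.mk (maximalIdeal O ^ k) (ρ.trace φ) =
        Ideal.Quotient.mk _ (ρ.trace τ) ∧
      Ideal.Quotient.mk (maximalIdeal O ^ k) (LinearMap.det (ρ.ρ φ)) =
        Ideal.Quotient.mk _ (LinearMap.det (ρ.ρ τ)) := fun τ hτ => by
    have hm : (repMat ρ b φ).map (Ideal.Quotient.mk (maximalIdeal O ^ k)) =
        (repMat ρ b τ).map (Ideal.Quotient.mk (maximalIdeal O ^ k)) := by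
      have h2 : red.toHomUnits φ = red.toHomUnits τ := congrArg Prod.snd hτ
      exact congrArg Units.val h2
    simp only [GaloisRepAdic.trace, LinearMap.trace_eq_matrix_trace O b,
      ← LinearMap.det_toMatrix b, ← repMat_apply, RingHom.map_det,
      RingHom.mapMatrix_apply, hm, and_true]
    have e := fun i => congrFun (congrFun hm i) i
    simp only [Matrix.map_apply] at e
    rw [Matrix.trace_fin_two, Matrix.trace_fin_two, map_add, map_add, e 0, e 1]
  have hact : ∀ τ : GalQ, π φ = π τ → ∀ x : JZero M, p ^ n • x = 0 → φ • x = τ • x :=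
    fun τ hτ x hx => congrArg Subtype.val (Equiv.congr_fun (congrArg Prod.fst hτ) ⟨x, hx⟩)
  have key : ∀ τ : GalQ, π φ = π τ →
      (∀ x : JZero M, p ^ n • x = 0 → φ • x = τ • x) ∧
        ρ.trace φ - ρ.trace τ ∈ maximalIdeal O ^ k ∧
        (ℓ : O) - LinearMap.det (ρ.ρ τ) ∈ maximalIdeal O ^ k := fun τ hτ => by
    refine ⟨hact τ hτ, Ideal.Quotient.eq.mp (hmat τ hτ).1, Ideal.Quotient.eq.mp ?_⟩
    rw [← (hmat τ hτ).2, Ideal.Quotient.eq, ← neg_sub]
    exact neg_mem hdetφ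
  rcases hcase with hcase | hcase
  · exact ⟨ℓ, hℓ, B, φ, σ, hℓS, hℓp, hℓM', hB, hφ, .inl rfl, key σ hcase⟩
  · exact ⟨ℓ, hℓ, B, φ, σ⁻¹, hℓS, hℓp, hℓM', hB, hφ, .inr rfl, key _ (by rw [hcase, map_inv])⟩

/-- The relation satisfied by the scalar of a Galois element on eigen Tate vectors. -/
theorem relation_of_tateHom (hpO : (p : O) ∈ maximalIdeal O) (ρ : GaloisRepAdic O)
    (hdet : ρ.DetIsCyclotomic p) (a : Nat.Primes → O) (S₀ : Finset ℕ)
    (htr : ∀ l : Nat.Primes, (l : ℕ) ∉ S₀ → ∀ P : ValuationSubring Qbar, P.LiesOverPrime l →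
      ∀ φ : GalQ, P.IsFrobeniusAt φ l → ρ.trace φ = a l)
    (H : (O →ₗ[ℤ_[p]] ℤ_[p]) →+ tateModule (JZero M) p)
    (hH : ∀ E : O, (∀ ψ : O →ₗ[ℤ_[p]] ℤ_[p], H (ψ ∘ₗ LinearMap.mulLeft ℤ_[p] E) = 0) → E = 0)
    (hT : ∀ l : Nat.Primes, (l : ℕ) ∉ S₀ → ∀ (ψ : O →ₗ[ℤ_[p]] ℤ_[p]) (n : ℕ),
      heckeOperatorBar M l ((H ψ).1 n) = (H (ψ ∘ₗ LinearMap.mulLeft ℤ_[p] (a l))).1 n)
    (σ : GalQ) (β : O)
    (hσ : ∀ (n c : ℕ), (∀ μ : Qbar, μ ^ p ^ n = 1 → σ μ = μ ^ c) →
      ∀ ψ : O →ₗ[ℤ_[p]] ℤ_[p],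
        σ • (H ψ).1 n = c • (H (ψ ∘ₗ LinearMap.mulLeft ℤ_[p] β)).1 n) :
    LinearMap.det (ρ.ρ σ) ^ 2 * β ^ 2 - ρ.trace σ * LinearMap.det (ρ.ρ σ) * β
      + LinearMap.det (ρ.ρ σ) = 0 := by
  classical
  have hp : p.Prime := Fact.out
  set e := LinearMap.det (ρ.ρ σ) with he
  set t := ρ.trace σ with ht
  refine hH _ fun ψ => Subtype.ext (funext fun n => ?_)
  rw [ZeroMemClass.coe_zero, Pi.zero_apply]
  -- the additive map `r ↦ H(ψ ∘ r)` at level `n`
  let h : ∀ ψ : O →ₗ[ℤ_[p]] ℤ_[p], O →+ JZero M := fun ψ =>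
    { toFun := fun r => (H (ψ ∘ₗ LinearMap.mulLeft ℤ_[p] r)).1 n
      map_zero' := by simp
      map_add' := fun r r' => by
        rw [show ψ ∘ₗ LinearMap.mulLeft ℤ_[p] (r + r') =
          ψ ∘ₗ LinearMap.mulLeft ℤ_[p] r + ψ ∘ₗ LinearMap.mulLeft ℤ_[p] r' from
          LinearMap.ext fun s => by simp [add_mul], map_add]
        rfl }
  have hcomp : ∀ (ψ : O →ₗ[ℤ_[p]] ℤ_[p]) (r s : O),
      h (ψ ∘ₗ LinearMap.mulLeft ℤ_[p] r) s = h ψ (r * s) := fun ψ r s =>
    congrArg (fun u => (H u).1 n) (LinearMap.ext fun x => by simp)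
  -- the ideal killed at level `n`
  let X : Ideal O :=
    { carrier := {r | ∀ ψ, h ψ r = 0}
      zero_mem' := fun ψ => map_zero _
      add_mem' := fun {r r'} hr hr' ψ => by rw [map_add, hr ψ, hr' ψ, add_zero]
      smul_mem' := fun c r hr ψ => by rw [smul_eq_mul, ← hcomp, hr] }
  suffices e ^ 2 * β ^ 2 - t * e * β + e ∈ X from this ψ
  have hX : ∀ r : O, (p : O) ^ n * r ∈ X := fun r ψ => by
    rw [show (p : O) ^ n * r = p ^ n • r by rw [nsmul_eq_mul, Nat.cast_pow], map_nsmul]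
    exact tateModule_pow_smul _ n
  obtain ⟨k, hk⟩ := exists_pow_maximalIdeal_le (X := X) n (mul_one ((p : O) ^ n) ▸ hX 1)
  -- the cyclotomic exponent of `σ`
  have : NeZero (p ^ (k + n)) := ⟨pow_ne_zero _ hp.ne_zero⟩
  obtain ⟨c, hc⟩ := exists_pow_on_rootsOfUnity σ (p ^ (k + n))
  have hcn : ∀ μ : Qbar, μ ^ p ^ n = 1 → σ μ = μ ^ c := fun μ hμ =>
    hc μ (by rw [pow_add, mul_comm, pow_mul, hμ, one_pow])
  have hec : e - (c : O) ∈ maximalIdeal O ^ k := by
    have h := hdet.2 (k + n) σ c hc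
    refine (Ideal.span_singleton_le_iff_mem _).mpr ?_ h
    rw [Nat.cast_pow]
    exact Ideal.pow_le_pow_right (Nat.le_add_right k n) (Ideal.pow_mem_pow hpO _)
  -- a Frobenius element close to `σ` or its inverse
  obtain ⟨ℓ, hℓ, B, φ, τ, hℓS, hℓp, hℓM', hB, hφ, hcase, hact, htrk, hdetk⟩ :=
    exists_frobenius_congr (M := M) hpO ρ hdet σ S₀ n k
  have htrφ : a ⟨ℓ, hℓ⟩ = ρ.trace φ := (htr ⟨ℓ, hℓ⟩ hℓS B hB φ hφ).symm
  have htors : ∀ ψ r, p ^ n • h ψ r = 0 := fun ψ r => tateModule_pow_smul _ n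
  have hσh : ∀ ψ r, σ • h ψ r = h ψ ((c : O) * β * r) := fun ψ r => by
    rw [show (c : O) * β * r = c • (r * β) by rw [nsmul_eq_mul]; ring, map_nsmul, ← hcomp]
    exact hσ n c hcn (ψ ∘ₗ LinearMap.mulLeft ℤ_[p] r)
  have hTh : ∀ ψ r, heckeOperatorBar M ⟨ℓ, hℓ⟩ (h ψ r) = h ψ (r * a ⟨ℓ, hℓ⟩) := fun ψ r => by
    rw [← hcomp]
    exact hT ⟨ℓ, hℓ⟩ hℓS (ψ ∘ₗ LinearMap.mulLeft ℤ_[p] r) n
  have hℓh : ∀ ψ r, ℓ • h ψ r = h ψ ((ℓ : O) * r) := fun ψ r => by
    rw [← nsmul_eq_mul, map_nsmul]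
  have hrel : ∀ x : JZero M, p ^ n • x = 0 →
      φ • φ • x - heckeOperatorBar M ⟨ℓ, hℓ⟩ (φ • x) + ℓ • x = 0 := fun x hx =>
    OrdinaryExclusion.frobenius_relation_torsion hp n hx ⟨ℓ, hℓ⟩ hℓM' hℓp hB hφ
  have hinc : ∀ {r : O}, Ideal.Quotient.mk (maximalIdeal O ^ k) r = 0 → r ∈ X := fun hr =>
    hk (Ideal.Quotient.eq_zero_iff_mem.mp hr)
  rw [← Ideal.Quotient.eq] at hec htrk hdetk
  rcases hcase with rfl | rfl
  · -- `φ` acts as `σ`
    have hE : (c : O) ^ 2 * β ^ 2 - a ⟨ℓ, hℓ⟩ * c * β + ℓ ∈ X := fun ψ => by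
      have := hrel (h ψ 1) (htors ψ 1)
      rw [hact _ (htors ψ 1), hσh, hact _ (htors ψ _), hσh, hTh, hℓh] at this
      rw [← this, ← map_sub, ← map_add]
      congr 1
      ring
    rw [show e ^ 2 * β ^ 2 - t * e * β + e =
      ((c : O) ^ 2 * β ^ 2 - a ⟨ℓ, hℓ⟩ * c * β + ℓ) + ((e ^ 2 * β ^ 2 - t * e * β + e) -
        ((c : O) ^ 2 * β ^ 2 - a ⟨ℓ, hℓ⟩ * c * β + ℓ)) by ring]
    refine X.add_mem hE (hinc ?_)
    simp only [map_sub, map_add, map_mul, map_pow, htrφ, htrk, hdetk, hec, ← ht, ← he, sub_self]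
  · -- `φ` acts as `σ⁻¹`
    have hE : 1 - a ⟨ℓ, hℓ⟩ * c * β + (ℓ : O) * ((c : O) ^ 2 * β ^ 2) ∈ X := fun ψ => by
      have hx2 : p ^ n • (σ • σ • h ψ 1) = 0 := by rw [hσh, hσh]; exact htors _ _
      have := hrel _ hx2
      rw [hact _ hx2, inv_smul_smul,
        hact _ (by rw [hσh]; exact htors _ _), inv_smul_smul, hσh, hσh, hTh, hℓh] at this
      rw [← this, ← map_sub, ← map_add]
      congr 1
      ring
    rw [show e ^ 2 * β ^ 2 - t * e * β + e =
      e * (1 - a ⟨ℓ, hℓ⟩ * c * β + (ℓ : O) * ((c : O) ^ 2 * β ^ 2)) +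
        ((e ^ 2 * β ^ 2 - t * e * β + e) -
          e * (1 - a ⟨ℓ, hℓ⟩ * c * β + (ℓ : O) * ((c : O) ^ 2 * β ^ 2))) by ring]
    refine X.add_mem (X.mul_mem_left e hE) (hinc ?_)
    have h1 := congrArg (Ideal.Quotient.mk (maximalIdeal O ^ k)) (det_trace_inv ρ σ).1
    have h2 := congrArg (Ideal.Quotient.mk (maximalIdeal O ^ k)) (det_trace_inv ρ σ).2
    simp only [← he, ← ht, map_sub, map_add, map_mul, map_pow, map_one] at h1 h2 ⊢
    rw [htrφ, htrk, hdetk, ← hec]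
    linear_combination (Ideal.Quotient.mk _ e * Ideal.Quotient.mk _ β) * h2 -
      (Ideal.Quotient.mk _ e ^ 2 * Ideal.Quotient.mk _ β ^ 2) * h1

end relation

variable {M p : ℕ} [NeZero M] [Fact p.Prime] {O : Type} [CommRing O] [IsDomain O]
  [IsDiscreteValuationRing O] [IsAdicComplete (maximalIdeal O) O] [Finite (ResidueField O)]
  [CharZero O]

omit [IsAdicComplete (maximalIdeal O) O] [Finite (ResidueField O)] [CharZero O] in
/-- **Tate vectors of an eigenvector.** The formal logarithm vectors of `w` give a nondegenerate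
map to the Tate module, Hecke equivariant, on which Frobenius lifts act by `ε α⁻¹` and inertia by
`ε`, the cyclotomic character. -/
theorem exists_tateHom [Algebra ℤ_[p] O] [Module.Finite ℤ_[p] O] [Module.Free ℤ_[p] O]
    (hOT : OrdinaryTate p M) (Q : QBasis M)
    (U : Matrix (Fin Q.rank) (Fin Q.rank) ℤ) (hU : IsUMat Q p U)
    (hpO : (p : O) ∈ maximalIdeal O) {α β : O} (hα : IsUnit α) (hβ : β * α = 1)
    (a : Nat.Primes → O) (w : Fin Q.rank → O) (hw : w ≠ 0)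
    (hUw : U.map (Int.cast : ℤ → O) *ᵥ w = α • w) (S₀ : Finset ℕ)
    (hTw : ∀ l : Nat.Primes, (l : ℕ) ∉ S₀ → ¬ (l : ℕ) ∣ M ∧
      ∃ T : Matrix (Fin Q.rank) (Fin Q.rank) ℤ, IsTMat Q l T ∧
        T.map (Int.cast : ℤ → O) *ᵥ w = a l • w) :
    ∃ H : (O →ₗ[ℤ_[p]] ℤ_[p]) →+ tateModule (JZero M) p,
      (∀ E : O, (∀ ψ, H (ψ ∘ₗ LinearMap.mulLeft ℤ_[p] E) = 0) → E = 0) ∧
      (∀ l : Nat.Primes, (l : ℕ) ∉ S₀ → ∀ (ψ : O →ₗ[ℤ_[p]] ℤ_[p]) (n : ℕ),
        heckeOperatorBar M l ((H ψ).1 n) = (H (ψ ∘ₗ LinearMap.mulLeft ℤ_[p] (a l))).1 n) ∧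
      (∀ g, (∀ y, unramGal p g y = unramFrob p y) → ∀ n c : ℕ,
        (∀ μ : Qbar, μ ^ p ^ n = 1 → localGaloisToGlobal p g μ = μ ^ c) →
        ∀ ψ, localGaloisToGlobal p g • (H ψ).1 n =
          c • (H (ψ ∘ₗ LinearMap.mulLeft ℤ_[p] β)).1 n) ∧
      (∀ g, (∀ y, unramGal p g y = y) → ∀ n c : ℕ,
        (∀ μ : Qbar, μ ^ p ^ n = 1 → localGaloisToGlobal p g μ = μ ^ c) →
        ∀ ψ, localGaloisToGlobal p g • (H ψ).1 n = c • (H ψ).1 n) := by
  classical
  have hp : p.Prime := Fact.out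
  let e := Module.Free.chooseBasis ℤ_[p] O
  have : Nonempty (Module.Free.ChooseBasisIndex ℤ_[p] O) :=
    e.index_nonempty
  obtain ⟨Φ, hΦ, hΦT, hΦG⟩ := hOT Q U hU
  set A := LinearMap.toMatrix e e (LinearMap.mulLeft ℤ_[p] α) with hA
  have hAdet : IsUnit A.det := by
    rw [hA, LinearMap.det_toMatrix]
    exact hα.map (LinearMap.det.comp (Algebra.lmul ℤ_[p] O).toMonoidHom)
  obtain ⟨x, hx0, hx⟩ := exists_semilinear_fixed p A hAdet
  -- the logarithm vector of a functional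
  let cvec : (O →ₗ[ℤ_[p]] ℤ_[p]) → Fin Q.rank → unramHat p := fun ψ i =>
    ∑ j, padicToUnram p (ψ (e j * w i)) * x j
  have hint : ∀ (ψ : O →ₗ[ℤ_[p]] ℤ_[p]) (T : Matrix (Fin Q.rank) (Fin Q.rank) ℤ) (j) (i),
      ∑ l, (T i l : unramHat p) * padicToUnram p (ψ (e j * w l)) =
        padicToUnram p (ψ (e j * (T.map (Int.cast : ℤ → O) *ᵥ w) i)) := fun ψ T j i => by
    simp only [mulVec, dotProduct, Matrix.map_apply, Finset.mul_sum, map_sum]
    refine Finset.sum_congr rfl fun l _ => ?_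
    rw [show e j * ((T i l : O) * w l) = (T i l) • (e j * w l) by rw [zsmul_eq_mul]; ring,
      map_zsmul, zsmul_eq_mul, map_mul (padicToUnram p), map_intCast]
  have hmulA : ∀ j, α * e j = ∑ k, A k j • e k := fun j => by
    rw [hA]
    simp only [LinearMap.toMatrix_apply, LinearMap.mulLeft_apply]
    exact (e.sum_repr _).symm
  have hfrobc : ∀ ψ : O →ₗ[ℤ_[p]] ℤ_[p],
      (fun i => unramFrob p (cvec (ψ ∘ₗ LinearMap.mulLeft ℤ_[p] α) i)) = cvec ψ := fun ψ => by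
    funext i
    calc unramFrob p (cvec (ψ ∘ₗ LinearMap.mulLeft ℤ_[p] α) i)
        = ∑ j, padicToUnram p (ψ (α * e j * w i)) * unramFrob p (x j) := by
          simp only [cvec, map_sum, map_mul, OrdinaryCurve.unramFrob_padicToUnram,
            LinearMap.comp_apply, LinearMap.mulLeft_apply, mul_assoc]
      _ = ∑ j, ∑ k, padicToUnram p (ψ (e k * w i)) * (padicToUnram p (A k j) * unramFrob p (x j)) := by
          refine Finset.sum_congr rfl fun j _ => ?_
          rw [hmulA, Finset.sum_mul, map_sum, map_sum, Finset.sum_mul]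
          refine Finset.sum_congr rfl fun k _ => ?_
          rw [smul_mul_assoc, map_smul, smul_eq_mul, map_mul]
          ring
      _ = cvec ψ i := by
          rw [Finset.sum_comm]
          refine Finset.sum_congr rfl fun k _ => ?_
          rw [← Finset.mul_sum]
          exact congrArg _ (congrFun hx k)
  have hfix : ∀ ψ, cvec ψ ∈ fixVectors p U := fun ψ => by
    show U.map (Int.cast : ℤ → unramHat p) *ᵥ (fun i => unramFrob p (cvec ψ i)) = cvec ψ
    refine Eq.trans ?_ (hfrobc ψ)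
    funext i
    simp only [cvec, mulVec, dotProduct, Matrix.map_apply, map_sum, map_mul,
      OrdinaryCurve.unramFrob_padicToUnram, Finset.mul_sum]
    rw [Finset.sum_comm]
    refine Finset.sum_congr rfl fun j _ => ?_
    simp only [← mul_assoc]
    rw [← Finset.sum_mul, hint, congrFun hUw i, Pi.smul_apply, smul_eq_mul, LinearMap.comp_apply,
      LinearMap.mulLeft_apply, mul_left_comm]
  let cmap : (O →ₗ[ℤ_[p]] ℤ_[p]) →+ fixVectors p U :=
    AddMonoidHom.mk' (fun ψ => ⟨cvec ψ, hfix ψ⟩) fun ψ ψ' => Subtype.ext (funext fun i => by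
      simp [cvec, add_mul, Finset.sum_add_distrib])
  let H := Φ.comp cmap
  have hH : ∀ E : O, (∀ ψ, H (ψ ∘ₗ LinearMap.mulLeft ℤ_[p] E) = 0) → E = 0 := fun E hE => by
    by_contra hE0
    obtain ⟨i, hi⟩ := Function.ne_iff.mp hw
    obtain ⟨m, s, hs⟩ := CarayolReduction.exists_dvd_pow hpO (mul_ne_zero hE0 hi)
    refine hx0 (funext fun k => ?_)
    have h0 := (injective_iff_map_eq_zero Φ).mp hΦ _
      (hE (e.coord k ∘ₗ LinearMap.mulLeft ℤ_[p] s))
    have h1 := congrFun (congrArg Subtype.val h0) i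
    change cvec _ i = 0 at h1
    have h2 : ∀ j, padicToUnram p ((((e.coord k) ∘ₗ LinearMap.mulLeft ℤ_[p] s) ∘ₗ
        LinearMap.mulLeft ℤ_[p] E) (e j * w i)) = if j = k then (p : unramHat p) ^ m else 0 := by
      intro j
      rw [LinearMap.comp_apply, LinearMap.comp_apply, LinearMap.mulLeft_apply,
        LinearMap.mulLeft_apply,
        show s * (E * (e j * w i)) = (p ^ m : ℕ) • e j by
          rw [nsmul_eq_mul, Nat.cast_pow, hs]; ring,
        map_nsmul, Module.Basis.coord_apply, Module.Basis.repr_self, Finsupp.single_apply,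
        nsmul_eq_mul, map_mul, map_natCast, Nat.cast_pow]
      split_ifs <;> simp
    simp only [cvec, h2, ite_mul, zero_mul, Finset.sum_ite_eq', Finset.mem_univ, if_true] at h1
    exact (mul_eq_zero.mp h1).resolve_left (pow_ne_zero _ fun h => by
      have := congrArg Subtype.val h
      simp [hp.ne_zero] at this)
  have hT : ∀ l : Nat.Primes, (l : ℕ) ∉ S₀ → ∀ (ψ : O →ₗ[ℤ_[p]] ℤ_[p]) (n : ℕ),
      heckeOperatorBar M l ((H ψ).1 n) = (H (ψ ∘ₗ LinearMap.mulLeft ℤ_[p] (a l))).1 n := by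
    rintro ⟨l, hl⟩ hlS ψ n
    obtain ⟨hlM, T, hTl, hTw'⟩ := hTw ⟨l, hl⟩ hlS
    refine (hΦT l hl hlM T hTl (cmap ψ) (cmap (ψ ∘ₗ LinearMap.mulLeft ℤ_[p] (a ⟨l, hl⟩)))
      ?_ n).symm
    show cvec _ = T.map (Int.cast : ℤ → unramHat p) *ᵥ cvec ψ
    funext i
    simp only [cvec, mulVec, dotProduct, Matrix.map_apply, Finset.mul_sum]
    rw [Finset.sum_comm]
    refine Finset.sum_congr rfl fun j _ => ?_
    simp only [← mul_assoc]
    rw [← Finset.sum_mul, hint, congrFun hTw' i, Pi.smul_apply, smul_eq_mul, LinearMap.comp_apply,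
      LinearMap.mulLeft_apply, mul_left_comm]
  refine ⟨H, hH, hT, fun g hg n c hc ψ => ?_, fun g hg n c hc ψ =>
    hΦG g (cmap ψ) (cmap ψ) (fun i => (hg _).symm) n c hc⟩
  refine hΦG g (cmap ψ) (cmap (ψ ∘ₗ LinearMap.mulLeft ℤ_[p] β)) (fun i => ?_) n c hc
  show cvec _ i = unramGal p g (cvec ψ i)
  rw [hg, ← congrFun (hfrobc (ψ ∘ₗ LinearMap.mulLeft ℤ_[p] β)) i]
  congr 2
  refine LinearMap.ext fun y => ?_
  simp [← mul_assoc, hβ]

/-- **The unit root is the quotient value at Frobenius.** -/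
theorem isQuotientValue_of_eigenVector (hp2 : p ≠ 2) (hOT : OrdinaryTate p M) (Q : QBasis M)
    (U : Matrix (Fin Q.rank) (Fin Q.rank) ℤ) (hU : IsUMat Q p U)
    (hpO : (p : O) ∈ maximalIdeal O) {α : O} (hα : IsUnit α) (a : Nat.Primes → O)
    (w : Fin Q.rank → O) (hw : w ≠ 0) (hUw : U.map (Int.cast : ℤ → O) *ᵥ w = α • w)
    (S₀ : Finset ℕ)
    (hTw : ∀ l : Nat.Primes, (l : ℕ) ∉ S₀ → ¬ (l : ℕ) ∣ M ∧
      ∃ T : Matrix (Fin Q.rank) (Fin Q.rank) ℤ, IsTMat Q l T ∧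
        T.map (Int.cast : ℤ → O) *ᵥ w = a l • w)
    (ρ : GaloisRepAdic O) (hdet : ρ.DetIsCyclotomic p) (hord : ρ.IsOrdinaryAt p)
    (htr : ∀ l : Nat.Primes, (l : ℕ) ∉ S₀ → ∀ P : ValuationSubring Qbar, P.LiesOverPrime l →
      ∀ φ : GalQ, P.IsFrobeniusAt φ l → ρ.trace φ = a l) :
    ∃ P : ValuationSubring Qbar, P.LiesOverPrime p ∧
      ∃ σ ∈ P.decompositionSubgroup ℚ, IsQuotientValue ρ P σ α := by
  classical
  have hp : p.Prime := Fact.out
  let _ := (RepTheory.padicHom p O hpO).toAlgebra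
  have := TateExport.moduleFinite_padic O hpO
  have hinj : Function.Injective (algebraMap ℤ_[p] O) := by
    rw [injective_iff_map_eq_zero]
    intro r hr
    by_contra hr0
    obtain ⟨n, u, rfl⟩ := IsDiscreteValuationRing.eq_unit_mul_pow_irreducible hr0
      PadicInt.irreducible_p
    rw [map_mul, map_pow, map_natCast, mul_eq_zero] at hr
    exact hr.elim ((u.isUnit.map (algebraMap ℤ_[p] O)).ne_zero)
      (pow_ne_zero _ (Nat.cast_ne_zero.mpr hp.ne_zero))
  have : NoZeroSMulDivisors ℤ_[p] O := ⟨fun {r y} h => by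
    rwa [Algebra.smul_def, mul_eq_zero, map_eq_zero_iff _ hinj] at h⟩
  have : Module.Free ℤ_[p] O := Module.free_of_finite_type_torsion_free'
  obtain ⟨β, hβ⟩ := hα.exists_left_inv
  obtain ⟨H, hH, hT, hG, -⟩ := exists_tateHom hOT Q U hU hpO hα hβ a w hw hUw S₀ hTw
  set P := padicPlace p with hPdef
  have hP : P.LiesOverPrime p := PoitouTate.padicPlace_liesOverPrime p
  have hdec : ∀ g, localGaloisToGlobal p g ∈ P.decompositionSubgroup ℚ := fun g => by
    rw [hPdef, ← PoitouTate.range_localGaloisToGlobal]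
    exact ⟨g, rfl⟩
  have hroot : ∀ g, (∀ y, unramGal p g y = unramFrob p y) →
      LinearMap.det (ρ.ρ (localGaloisToGlobal p g))
        - ρ.trace (localGaloisToGlobal p g) * α + α ^ 2 = 0 := fun g hg => by
    set σ := localGaloisToGlobal p g with hσ
    have hrel := relation_of_tateHom hpO ρ hdet a S₀ htr H hH hT σ β (hG g hg)
    have he : IsUnit (LinearMap.det (ρ.ρ σ)) :=
      (Group.isUnit σ).map (LinearMap.det.comp ρ.ρ)
    refine he.mul_left_cancel ?_
    rw [mul_zero]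
    linear_combination α ^ 2 * hrel + (ρ.trace σ * LinearMap.det (ρ.ρ σ) * α
      - LinearMap.det (ρ.ρ σ) ^ 2 * (α * β + 1)) * (hβ)
  obtain ⟨σ₀, hσ₀, hμ⟩ := exists_sigma₀ p hp2 hP
  obtain ⟨τ, hτ⟩ : ∃ τ, localGaloisToGlobal p τ = σ₀ := by
    have h : σ₀ ∈ (localGaloisToGlobal p).range := by
      rw [PoitouTate.range_localGaloisToGlobal]
      exact LocalInertia.inertiaSubgroupIn_le_decompositionSubgroup hσ₀
    exact h
  set σ := localGaloisToGlobal p (frobElt p) with hσdef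
  refine ⟨P, hP, σ, hdec _, ?_⟩
  obtain ⟨z, hz⟩ := exists_isQuotientValue hord hP (hdec (frobElt p))
  suffices α = z by rwa [this]
  have hz2 : IsQuotientValue ρ P (σ * σ₀) z := by
    obtain ⟨L, hb, hD, hI, hv⟩ := hz
    refine ⟨L, hb, hD, hI, fun v => ?_⟩
    have h1 := hD σ (hdec _) _ (hI σ₀ hσ₀ v)
    have h2 := hv v
    rw [map_mul, Module.End.mul_apply]
    have := add_mem h1 h2
    rwa [map_sub, sub_add_sub_cancel] at this
  have key : ∀ g, (∀ y, unramGal p g y = unramFrob p y) →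
      IsQuotientValue ρ P (localGaloisToGlobal p g) z →
      (α - z) * (α * z - LinearMap.det (ρ.ρ (localGaloisToGlobal p g))) = 0 := fun g hg hzg => by
    linear_combination z * hroot g hg - α * hzg.root_charpoly (hdec g)
  by_contra hne
  have hne' : α - z ≠ 0 := sub_ne_zero.mpr hne
  have h1 := (mul_eq_zero.mp (key (frobElt p) (fun y => rfl) hz)).resolve_left hne'
  have h2 := (mul_eq_zero.mp (key (frobElt p * τ) (fun y => ?_) (by
    rw [map_mul, hτ]; exact hz2))).resolve_left hne'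
  · rw [map_mul, hτ, map_mul, map_mul] at h2
    have hu : IsUnit (LinearMap.det (ρ.ρ σ)) := (Group.isUnit σ).map (LinearMap.det.comp ρ.ρ)
    have hone : LinearMap.det (ρ.ρ σ₀) = 1 := hu.mul_left_cancel (by
      rw [mul_one]; linear_combination h1 - h2)
    have h := hdet.2 1 σ₀ 2 hμ
    rw [hone, pow_one] at h
    have hm : (1 : O) - (2 : ℕ) ∈ maximalIdeal O :=
      (Ideal.span_singleton_le_iff_mem _).mpr hpO h
    rw [show (1 : O) - (2 : ℕ) = -1 by push_cast; ring, neg_mem_iff] at hm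
    exact (maximalIdeal.isMaximal O).ne_top ((Ideal.eq_top_iff_one _).mpr hm)
  · refine Subtype.ext ?_
    have hinv := OrdinaryCurve.unramGal_eq_id_of_inertia p (g := τ) (by rw [hτ]; exact hσ₀) y
    refine (OrdinaryCurve.completeGal_mul p (frobElt p) τ y).trans ?_
    exact congrArg (OrdinaryCurve.completeGal p (frobElt p)) (congrArg Subtype.val hinv)

end Fermat.Agent.Lifting
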